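import Mathlib
import Fermat.Prelude.Def_ModularCurve_X0ModL

/-!
# S28 (Igusa) : shared definitions

Formal substitution operators on Laurent series, the formal discriminant, and the
interface structure `ConjFamily` between the analytic package and the algebraic core.
-/

set_option autoImplicit false

noncomputable section

namespace Fermat.Agent.S28

open ModularCurve

section Twist

variable {A : Type*} [CommRing A]

/-- `f(q) ↦ f(u q)` for a unit `u` : the coefficient of `q^n` is multiplied by `u^n`. -/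
def twistFun (u : Aˣ) (f : LaurentSeries A) : LaurentSeries A where
  coeff n := f.coeff n * ((u ^ n : Aˣ) : A)
  isPWO_support' := f.isPWO_support.mono (fun n hn => by
    simp only [Function.mem_support, ne_eq] at hn ⊢
    intro h
    exact hn (by rw [h, zero_mul]))

@[simp] theorem twistFun_coeff (u : Aˣ) (f : LaurentSeries A) (n : ℤ) :
    (twistFun u f).coeff n = f.coeff n * ((u ^ n : Aˣ) : A) := rfl

theorem twistFun_support (u : Aˣ) (f : LaurentSeries A) :
    (twistFun u f).support = f.support := by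
  ext n
  simp only [HahnSeries.mem_support, twistFun_coeff, ne_eq]
  constructor
  · intro h h0; exact h (by rw [h0, zero_mul])
  · intro h h0
    apply h
    have := congrArg (· * ((u ^ n)⁻¹ : Aˣ).val) h0
    simpa [mul_assoc] using this

theorem twistFun_mul (u : Aˣ) (f g : LaurentSeries A) :
    twistFun u (f * g) = twistFun u f * twistFun u g := by
  ext n
  rw [twistFun_coeff, HahnSeries.coeff_mul, HahnSeries.coeff_mul, Finset.sum_mul]
  have hs : Finset.antidiagonal (twistFun u f).isPWO_support (twistFun u g).isPWO_support n =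
      Finset.antidiagonal f.isPWO_support g.isPWO_support n := by
    ext p
    simp only [Finset.mem_antidiagonal, twistFun_support]
  rw [hs]
  refine Finset.sum_congr rfl fun p hp => ?_
  rw [Finset.mem_antidiagonal] at hp
  rw [twistFun_coeff, twistFun_coeff, ← hp.2.2, zpow_add, Units.val_mul]
  ring

/-- The ring homomorphism `f(q) ↦ f(u q)`. -/
def twist (u : Aˣ) : LaurentSeries A →+* LaurentSeries A where
  toFun := twistFun u
  map_zero' := by ext n; simp
  map_one' := by
    ext n
    rw [twistFun_coeff, HahnSeries.coeff_one]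
    split_ifs with h
    · subst h; simp
    · simp
  map_add' f g := by ext n; simp [add_mul]
  map_mul' := twistFun_mul u

@[simp] theorem twist_coeff (u : Aˣ) (f : LaurentSeries A) (n : ℤ) :
    (twist u f).coeff n = f.coeff n * ((u ^ n : Aˣ) : A) := rfl

/-- `f(q) ↦ f(q^m)`, defined for every `m` (identity for the junk value `m = 0`). -/
def expand (A : Type*) [CommRing A] (m : ℕ) : LaurentSeries A →+* LaurentSeries A :=
  if h : m = 0 then RingHom.id _ else @qExpand A _ m ⟨h⟩

theorem expand_eq_qExpand (m : ℕ) [NeZero m] : expand A m = qExpand A m := by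
  unfold expand
  rw [dif_neg (NeZero.ne m)]

/-- `f(q) ↦ f(u t^m)`. -/
def subst (m : ℕ) (u : Aˣ) : LaurentSeries A →+* LaurentSeries A :=
  (expand A m).comp (twist u)

end Twist

section Delta

variable (A : Type*) [CommRing A]

/-- The formal discriminant `Δ = q ∏ (1 - q^n)^24`. -/
def deltaHat : LaurentSeries A :=
  HahnSeries.single (1 : ℤ) 1 *
    HahnSeries.ofPowerSeries ℤ A (dedekindEtaUnit.map (Int.castRingHom A))

/-- The formal inverse of the discriminant. -/
def deltaHatInv : LaurentSeries A :=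
  HahnSeries.single (-1 : ℤ) 1 *
    HahnSeries.ofPowerSeries ℤ A (dedekindEtaUnitInv.map (Int.castRingHom A))

end Delta

/-- Coordinates: `(false, d)` is `X_d = j(q^d)`, `(true, d)` is
`U_d = d^12 Δ(q^d) / Δ(q)`, for `d ∣ N`. -/
abbrev Coord (N : ℕ) : Type := Bool × {d : ℕ // d ∣ N}

section Conj

variable (A : Type) [CommRing A] (N : ℕ)

/-- The formal conjugate of `j(q^d)` : `j(z^m t^(N g^2 / d))`, `t = q^(1/N)`. -/
def Jc (g d m : ℕ) (z : Aˣ) : LaurentSeries A :=
  subst (N * g ^ 2 / d) (z ^ m) (jqModC A)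

/-- The formal conjugate of `d^12 Δ(q^d)/Δ(q)` : `g^12 Δ(z^m t^(N g^2 / d)) / Δ(t^N)`. -/
def Uc (g d m : ℕ) (z : Aˣ) : LaurentSeries A :=
  (g : LaurentSeries A) ^ 12 * subst (N * g ^ 2 / d) (z ^ m) (deltaHat A) *
    expand A N (deltaHatInv A)

/-- The conjugate families of the coordinates `X_d`, `U_d` (`d ∣ N`), with the two analytic
inputs `F1` (symmetric functions are polynomials in `j`) and `F2` (the product of the
conjugates of the modular unit `U_d` is a constant). `z` plays the role of `exp (2πi/N)`. -/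
structure ConjFamily (z : Aˣ) : Type 1 where
  ι : Type
  fin : Fintype ι
  a : ι → ℕ
  b : ι → ℕ
  r₀ : ι
  c : ι → Coord N → LaurentSeries A
  a_dvd : ∀ r, a r ∣ N
  b_lt : ∀ r, b r < N / a r
  inj : ∀ r r', a r = a r' → b r = b r' → r = r'
  a_r₀ : a r₀ = N
  cXN : ∀ r, c r (false, ⟨N, dvd_rfl⟩) = Jc A N (a r) N (a r * b r) z
  cX : ∀ r (d : {d : ℕ // d ∣ N}), ∃ m : ℕ, c r (false, d) = Jc A N (Nat.gcd d (a r)) d m z
  cU : ∀ r (d : {d : ℕ // d ∣ N}), ∃ m : ℕ, c r (true, d) = Uc A N (Nat.gcd d (a r)) d m z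
  cX_r₀ : ∀ d : {d : ℕ // d ∣ N}, c r₀ (false, d) = expand A (N * d) (jqModC A)
  cU_r₀ : ∀ d : {d : ℕ // d ∣ N}, c r₀ (true, d) =
    ((d : ℕ) : LaurentSeries A) ^ 12 * expand A (N * d) (deltaHat A) * expand A N (deltaHatInv A)
  F1 : ∀ y : MvPolynomial (Coord N) A, ∃ Q : Polynomial (Polynomial A),
    letI := fin
    ∏ r : ι, (Polynomial.X - Polynomial.C (MvPolynomial.aeval (c r) y)) =
      Q.map ((Polynomial.aeval (expand A N (jqModC A))).toRingHom)
  F2 : ∀ d : {d : ℕ // d ∣ N}, ∃ C : A,
    letI := fin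
    ∏ r : ι, c r (true, d) = HahnSeries.C C

end Conj

end Fermat.Agent.S28
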