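import Mathlib
import Fermat.Agent.S28.Defs

/-!
# S28 (Igusa), row I1a : algebra of `expand` / `twist` / `subst`, the formal discriminant,
and functoriality under `coeffMap`.
-/

set_option autoImplicit false

noncomputable section

namespace Fermat.Agent.S28

open ModularCurve

variable {A B : Type} [CommRing A] [CommRing B]

/-! ### `expand` -/

theorem expand_zero (f : LaurentSeries A) : expand A 0 f = f := by
  unfold expand
  rw [dif_pos rfl]
  rfl

theorem expand_of_ne_zero {m : ℕ} (hm : m ≠ 0) : expand A m = @qExpand A _ m ⟨hm⟩ := by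
  unfold expand
  rw [dif_neg hm]

theorem expand_one (f : LaurentSeries A) : expand A 1 f = f := by
  rw [expand_eq_qExpand, qExpand_one_apply]

theorem expand_injective (m : ℕ) : Function.Injective (expand A m) := by
  rcases eq_or_ne m 0 with rfl | hm
  · intro f g h
    rwa [expand_zero, expand_zero] at h
  · rw [expand_of_ne_zero hm]
    exact @qExpand_injective A _ m ⟨hm⟩

theorem expand_expand (m n : ℕ) (hm : m ≠ 0) (hn : n ≠ 0) (f : LaurentSeries A) :
    expand A m (expand A n f) = expand A (m * n) f := by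
  have : NeZero m := ⟨hm⟩
  have : NeZero n := ⟨hn⟩
  rw [expand_eq_qExpand, expand_eq_qExpand, expand_eq_qExpand, qExpand_qExpand]

theorem expand_coeff_mul (m : ℕ) (hm : m ≠ 0) (f : LaurentSeries A) (k : ℤ) :
    (expand A m f).coeff ((m : ℤ) * k) = f.coeff k := by
  have : NeZero m := ⟨hm⟩
  rw [expand_eq_qExpand, qExpand_coeff_mul]

theorem expand_coeff_of_not_dvd (m : ℕ) (hm : m ≠ 0) (f : LaurentSeries A) {k : ℤ}
    (hk : ¬ (m : ℤ) ∣ k) : (expand A m f).coeff k = 0 := by
  have : NeZero m := ⟨hm⟩
  rw [expand_eq_qExpand, qExpand_coeff_of_not_dvd m f hk]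

theorem expand_single (m : ℕ) (hm : m ≠ 0) (k : ℤ) (r : A) :
    expand A m (HahnSeries.single k r) = HahnSeries.single ((m : ℤ) * k) r := by
  have : NeZero m := ⟨hm⟩
  rw [expand_eq_qExpand, qExpand_single]

theorem expand_C (m : ℕ) (r : A) : expand A m (HahnSeries.C r) = HahnSeries.C r := by
  rcases eq_or_ne m 0 with rfl | hm
  · rw [expand_zero]
  · have : NeZero m := ⟨hm⟩
    rw [expand_eq_qExpand, qExpand_C]

theorem expand_support (m : ℕ) (hm : m ≠ 0) (f : LaurentSeries A) :
    (expand A m f).support = (fun k : ℤ => (m : ℤ) * k) '' f.support := by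
  ext k
  simp only [HahnSeries.mem_support, Set.mem_image]
  constructor
  · intro h
    by_cases hk : (m : ℤ) ∣ k
    · obtain ⟨j, rfl⟩ := hk
      rw [expand_coeff_mul m hm] at h
      exact ⟨j, h, rfl⟩
    · exact absurd (expand_coeff_of_not_dvd m hm f hk) h
  · rintro ⟨j, hj, rfl⟩
    rwa [expand_coeff_mul m hm]

theorem expand_eq_zero_iff (m : ℕ) (f : LaurentSeries A) : expand A m f = 0 ↔ f = 0 :=
  map_eq_zero_iff _ (expand_injective m)

theorem orderTop_expand (m : ℕ) (hm : m ≠ 0) (f : LaurentSeries A) :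
    (expand A m f).orderTop = (f.orderTop).map (fun k : ℤ => (m : ℤ) * k) := by
  have hmpos : (0 : ℤ) < m := by exact_mod_cast Nat.pos_of_ne_zero hm
  by_cases hf : f = 0
  · subst hf
    rw [map_zero, HahnSeries.orderTop_zero]
    rfl
  · have hf' : expand A m f ≠ 0 := fun h => hf ((expand_eq_zero_iff m f).1 h)
    have h1 : f.coeff f.order ≠ 0 := fun h => hf (HahnSeries.coeff_order_eq_zero.1 h)
    have h2 : f.orderTop = (f.order : WithTop ℤ) := (HahnSeries.order_eq_orderTop_of_ne_zero hf).symm
    rw [h2, WithTop.map_coe]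
    refine HahnSeries.orderTop_eq_of_le ?_ ?_
    · rw [HahnSeries.mem_support, expand_coeff_mul m hm]
      exact h1
    · intro g hg
      rw [expand_support m hm] at hg
      obtain ⟨j, hj, rfl⟩ := hg
      exact mul_le_mul_of_nonneg_left (HahnSeries.order_le_of_coeff_ne_zero hj) hmpos.le

/-- The order multiplies by `m` under `expand A m` (`m ≠ 0`); no domain hypothesis needed. -/
theorem order_expand (m : ℕ) (hm : m ≠ 0) (f : LaurentSeries A) :
    (expand A m f).order = (m : ℤ) * f.order := by
  by_cases hf : f = 0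
  · subst hf
    rw [map_zero, HahnSeries.order_zero, mul_zero]
  · have hf' : expand A m f ≠ 0 := fun h => hf ((expand_eq_zero_iff m f).1 h)
    have h := orderTop_expand m hm f
    rw [← HahnSeries.order_eq_orderTop_of_ne_zero hf,
      ← HahnSeries.order_eq_orderTop_of_ne_zero hf', WithTop.map_coe] at h
    exact_mod_cast h

theorem coeffMap_expand (φ : A →+* B) (m : ℕ) (f : LaurentSeries A) :
    coeffMap φ (expand A m f) = expand B m (coeffMap φ f) := by
  rcases eq_or_ne m 0 with rfl | hm
  · rw [expand_zero, expand_zero]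
  · have : NeZero m := ⟨hm⟩
    rw [expand_eq_qExpand, expand_eq_qExpand, coeffMap_qExpand]

/-! ### `twist` -/

theorem twist_one (f : LaurentSeries A) : twist (1 : Aˣ) f = f := by
  ext n
  rw [twist_coeff, one_zpow, Units.val_one, mul_one]

theorem twist_twist (u v : Aˣ) (f : LaurentSeries A) :
    twist u (twist v f) = twist (u * v) f := by
  ext n
  rw [twist_coeff, twist_coeff, twist_coeff, mul_zpow, Units.val_mul, mul_assoc,
    mul_comm ((v ^ n : Aˣ) : A)]

theorem twist_single (u : Aˣ) (k : ℤ) (r : A) :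
    twist u (HahnSeries.single k r) = HahnSeries.single k (r * ((u ^ k : Aˣ) : A)) := by
  ext n
  rw [twist_coeff]
  rcases eq_or_ne n k with rfl | hn
  · rw [HahnSeries.coeff_single_same, HahnSeries.coeff_single_same]
  · rw [HahnSeries.coeff_single_of_ne hn, HahnSeries.coeff_single_of_ne hn, zero_mul]

theorem twist_C (u : Aˣ) (r : A) : twist u (HahnSeries.C r) = HahnSeries.C r := by
  have h : (HahnSeries.C r : LaurentSeries A) = HahnSeries.single 0 r := rfl
  rw [h, twist_single, zpow_zero, Units.val_one, mul_one]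

theorem twist_injective (u : Aˣ) : Function.Injective (twist u : LaurentSeries A → _) := by
  intro f g h
  have h2 := congrArg (twist u⁻¹) h
  rwa [twist_twist, twist_twist, inv_mul_cancel, twist_one, twist_one] at h2

theorem twist_support (u : Aˣ) (f : LaurentSeries A) : (twist u f).support = f.support :=
  twistFun_support u f

theorem twist_eq_zero_iff (u : Aˣ) (f : LaurentSeries A) : twist u f = 0 ↔ f = 0 :=
  map_eq_zero_iff _ (twist_injective u)

theorem orderTop_twist (u : Aˣ) (f : LaurentSeries A) : (twist u f).orderTop = f.orderTop := by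
  by_cases hf : f = 0
  · subst hf
    rw [map_zero]
  · have hf' : twist u f ≠ 0 := fun h => hf ((twist_eq_zero_iff u f).1 h)
    rw [HahnSeries.orderTop_of_ne_zero hf, HahnSeries.orderTop_of_ne_zero hf']
    congr 1
    simp only [twist_support]

theorem order_twist (u : Aˣ) (f : LaurentSeries A) : (twist u f).order = f.order := by
  by_cases hf : f = 0
  · subst hf
    rw [map_zero]
  · have hf' : twist u f ≠ 0 := fun h => hf ((twist_eq_zero_iff u f).1 h)
    have h := orderTop_twist u f
    rw [← HahnSeries.order_eq_orderTop_of_ne_zero hf,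
      ← HahnSeries.order_eq_orderTop_of_ne_zero hf'] at h
    exact_mod_cast h

/-- `twist` commutes with `expand` up to `u ↦ u ^ m` : `f(q^m)` twisted by `u` is
`f((u^m) q)` expanded. -/
theorem twist_expand (u : Aˣ) (m : ℕ) (hm : m ≠ 0) (f : LaurentSeries A) :
    twist u (expand A m f) = expand A m (twist (u ^ m) f) := by
  ext k
  by_cases hk : (m : ℤ) ∣ k
  · obtain ⟨j, rfl⟩ := hk
    rw [twist_coeff, expand_coeff_mul m hm, expand_coeff_mul m hm, twist_coeff, ← zpow_natCast,
      ← zpow_mul]
  · rw [twist_coeff, expand_coeff_of_not_dvd m hm _ hk, expand_coeff_of_not_dvd m hm _ hk,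
      zero_mul]

theorem coeffMap_twist (φ : A →+* B) (u : Aˣ) (f : LaurentSeries A) :
    coeffMap φ (twist u f) = twist (Units.map (φ : A →* B) u) (coeffMap φ f) := by
  ext n
  rw [coeffMap_coeff, twist_coeff, twist_coeff, coeffMap_coeff, map_mul, ← map_zpow]
  rfl

/-! ### `subst` -/

theorem subst_apply (m : ℕ) (u : Aˣ) (f : LaurentSeries A) :
    subst m u f = expand A m (twist u f) := rfl

theorem subst_coeff_mul (m : ℕ) (hm : m ≠ 0) (u : Aˣ) (f : LaurentSeries A) (k : ℤ) :
    (subst m u f).coeff ((m : ℤ) * k) = f.coeff k * ((u ^ k : Aˣ) : A) := by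
  rw [subst_apply, expand_coeff_mul m hm, twist_coeff]

theorem subst_coeff_of_not_dvd (m : ℕ) (hm : m ≠ 0) (u : Aˣ) (f : LaurentSeries A) {k : ℤ}
    (hk : ¬ (m : ℤ) ∣ k) : (subst m u f).coeff k = 0 := by
  rw [subst_apply, expand_coeff_of_not_dvd m hm _ hk]

theorem subst_injective (m : ℕ) (u : Aˣ) :
    Function.Injective (subst m u : LaurentSeries A → _) := by
  intro f g h
  exact twist_injective u (expand_injective m h)

theorem order_subst (m : ℕ) (hm : m ≠ 0) (u : Aˣ) (f : LaurentSeries A) :
    (subst m u f).order = (m : ℤ) * f.order := by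
  rw [subst_apply, order_expand m hm, order_twist]

theorem subst_single (m : ℕ) (hm : m ≠ 0) (u : Aˣ) (k : ℤ) (r : A) :
    subst m u (HahnSeries.single k r) =
      HahnSeries.single ((m : ℤ) * k) (r * ((u ^ k : Aˣ) : A)) := by
  rw [subst_apply, twist_single, expand_single m hm]

theorem coeffMap_subst (φ : A →+* B) (m : ℕ) (u : Aˣ) (f : LaurentSeries A) :
    coeffMap φ (subst m u f) = subst m (Units.map (φ : A →* B) u) (coeffMap φ f) := by
  rw [subst_apply, subst_apply, coeffMap_expand, coeffMap_twist]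

/-! ### `coeffMap` -/

theorem coeffMap_injective (φ : A →+* B) (hφ : Function.Injective φ) :
    Function.Injective (coeffMap φ) := by
  intro f g h
  ext n
  apply hφ
  rw [← coeffMap_coeff, ← coeffMap_coeff, h]

theorem coeffMap_C (φ : A →+* B) (r : A) :
    coeffMap φ (HahnSeries.C r) = HahnSeries.C (φ r) := by
  have h : ∀ (R : Type) [CommRing R] (x : R),
      (HahnSeries.C x : LaurentSeries R) = HahnSeries.single 0 x := fun _ _ _ => rfl
  rw [h, h, coeffMap_single]

/-! ### the formal discriminant -/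

private theorem h8_map_map_int (φ : A →+* B) (p : PowerSeries ℤ) :
    (p.map (Int.castRingHom A)).map φ = p.map (Int.castRingHom B) := by
  rw [← RingHom.comp_apply (PowerSeries.map φ) (PowerSeries.map (Int.castRingHom A)),
    ← PowerSeries.map_comp, RingHom.ext_int (φ.comp (Int.castRingHom A)) (Int.castRingHom B)]

theorem coeffMap_deltaHat (φ : A →+* B) : coeffMap φ (deltaHat A) = deltaHat B := by
  rw [deltaHat, map_mul, coeffMap_single, map_one, coeffMap_ofPowerSeries, h8_map_map_int]
  rfl

theorem coeffMap_deltaHatInv (φ : A →+* B) : coeffMap φ (deltaHatInv A) = deltaHatInv B := by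
  rw [deltaHatInv, map_mul, coeffMap_single, map_one, coeffMap_ofPowerSeries, h8_map_map_int]
  rfl

theorem deltaHat_mul_deltaHatInv : deltaHat A * deltaHatInv A = 1 := by
  have h1 : (HahnSeries.single (1 : ℤ) (1 : A)) * HahnSeries.single (-1 : ℤ) (1 : A) = 1 := by
    rw [HahnSeries.single_mul_single, mul_one]
    rfl
  have h2 : HahnSeries.ofPowerSeries ℤ A (dedekindEtaUnit.map (Int.castRingHom A)) *
      HahnSeries.ofPowerSeries ℤ A (dedekindEtaUnitInv.map (Int.castRingHom A)) = 1 := by
    rw [← map_mul, ← map_mul, dedekindEtaUnit_mul_inv, map_one, map_one]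
  calc deltaHat A * deltaHatInv A
      = (HahnSeries.single (1 : ℤ) (1 : A) * HahnSeries.single (-1 : ℤ) (1 : A)) *
        (HahnSeries.ofPowerSeries ℤ A (dedekindEtaUnit.map (Int.castRingHom A)) *
          HahnSeries.ofPowerSeries ℤ A (dedekindEtaUnitInv.map (Int.castRingHom A))) := by
        rw [deltaHat, deltaHatInv]; ring
    _ = 1 := by rw [h1, h2, one_mul]

theorem deltaHatInv_mul_deltaHat : deltaHatInv A * deltaHat A = 1 := by
  rw [mul_comm, deltaHat_mul_deltaHatInv]

theorem isUnit_deltaHat : IsUnit (deltaHat A) :=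
  IsUnit.of_mul_eq_one _ deltaHat_mul_deltaHatInv

theorem isUnit_deltaHatInv : IsUnit (deltaHatInv A) :=
  IsUnit.of_mul_eq_one _ deltaHatInv_mul_deltaHat

/-- `j · Δ = E₄³` as formal Laurent series. -/
theorem jqModC_mul_deltaHat :
    jqModC A * deltaHat A =
      HahnSeries.ofPowerSeries ℤ A ((eisenstein4.map (Int.castRingHom A)) ^ 3) := by
  have h1 : (HahnSeries.single (-1 : ℤ) (1 : A)) * HahnSeries.single (1 : ℤ) (1 : A) = 1 := by
    rw [HahnSeries.single_mul_single, mul_one]
    rfl
  have h2 : HahnSeries.ofPowerSeries ℤ A (jNum.map (Int.castRingHom A)) *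
      HahnSeries.ofPowerSeries ℤ A (dedekindEtaUnit.map (Int.castRingHom A)) =
      HahnSeries.ofPowerSeries ℤ A ((eisenstein4.map (Int.castRingHom A)) ^ 3) := by
    rw [← map_mul, ← map_mul, ← map_pow, jNum, mul_assoc, mul_comm dedekindEtaUnitInv,
      dedekindEtaUnit_mul_inv, mul_one]
  calc jqModC A * deltaHat A
      = (HahnSeries.single (-1 : ℤ) (1 : A) * HahnSeries.single (1 : ℤ) (1 : A)) *
        (HahnSeries.ofPowerSeries ℤ A (jNum.map (Int.castRingHom A)) *
          HahnSeries.ofPowerSeries ℤ A (dedekindEtaUnit.map (Int.castRingHom A))) := by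
        rw [jqModC, deltaHat]; ring
    _ = _ := by rw [h1, h2, one_mul]

/-! ### the formal conjugates -/

theorem coeffMap_Jc (φ : A →+* B) (N g d m : ℕ) (z : Aˣ) :
    coeffMap φ (Jc A N g d m z) = Jc B N g d m (Units.map (φ : A →* B) z) := by
  rw [Jc, Jc, coeffMap_subst, coeffMap_jqModC, map_pow]

theorem coeffMap_Uc (φ : A →+* B) (N g d m : ℕ) (z : Aˣ) :
    coeffMap φ (Uc A N g d m z) = Uc B N g d m (Units.map (φ : A →* B) z) := by
  rw [Uc, Uc, map_mul, map_mul, map_pow, map_natCast, coeffMap_subst, coeffMap_deltaHat,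
    coeffMap_expand, coeffMap_deltaHatInv, map_pow]

end Fermat.Agent.S28
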