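import Mathlib
import Fermat.Agent.S28.Defs

/-!
# S28 (Igusa), row I1b : orders and leading coefficients of the formal conjugates

`Jc_order`, `Uc_order`, `Jc_injective` (exact statements of the task row), built on a small
"lowest term" calculus `h33_LT f n c` (`f = c q^n + higher terms`, `c` possibly zero).
-/

set_option autoImplicit false

noncomputable section

namespace Fermat.Agent.S28

open ModularCurve

section LowestTerm

variable {A : Type*} [CommRing A]

/-- `f = c q^n + (higher order terms)`; `c` is allowed to be zero. -/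
def h33_LT (f : LaurentSeries A) (n : ℤ) (c : A) : Prop :=
  f.coeff n = c ∧ ∀ m < n, f.coeff m = 0

theorem h33_LT_mul {f g : LaurentSeries A} {n m : ℤ} {c d : A}
    (hf : h33_LT f n c) (hg : h33_LT g m d) : h33_LT (f * g) (n + m) (c * d) := by
  constructor
  · rw [HahnSeries.coeff_mul, Finset.sum_eq_single (n, m)]
    · rw [hf.1, hg.1]
    · rintro ⟨i, j⟩ hij hne
      rw [Finset.mem_antidiagonal] at hij
      obtain ⟨hi, hj, hsum⟩ := hij
      simp only [HahnSeries.mem_support, ne_eq] at hi hj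
      simp only at hsum
      have hi' : n ≤ i := by
        by_contra hlt
        exact hi (hf.2 i (not_le.mp hlt))
      have hj' : m ≤ j := by
        by_contra hlt
        exact hj (hg.2 j (not_le.mp hlt))
      exfalso
      apply hne
      have h1 : i = n := by omega
      have h2 : j = m := by omega
      rw [h1, h2]
    · intro hnot
      rw [Finset.mem_antidiagonal] at hnot
      simp only [HahnSeries.mem_support, ne_eq, and_true] at hnot
      by_cases h0 : f.coeff n = 0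
      · rw [h0, zero_mul]
      · have := not_not.mp (fun h => hnot ⟨h0, h⟩)
        rw [this, mul_zero]
  · intro a ha
    rw [HahnSeries.coeff_mul]
    refine Finset.sum_eq_zero ?_
    rintro ⟨i, j⟩ hij
    rw [Finset.mem_antidiagonal] at hij
    obtain ⟨hi, hj, hsum⟩ := hij
    simp only [HahnSeries.mem_support, ne_eq] at hi hj
    simp only at hsum
    exfalso
    rcases lt_or_ge i n with h | h
    · exact hi (hf.2 i h)
    · exact hj (hg.2 j (by omega))

theorem h33_LT_one : h33_LT (1 : LaurentSeries A) 0 1 := by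
  constructor
  · simp
  · intro m hm
    rw [HahnSeries.coeff_one, if_neg (ne_of_lt hm)]

theorem h33_LT_pow {f : LaurentSeries A} {n : ℤ} {c : A} (hf : h33_LT f n c) (j : ℕ) :
    h33_LT (f ^ j) (j * n) (c ^ j) := by
  induction j with
  | zero => simpa using (h33_LT_one (A := A))
  | succ j ih =>
    have h := h33_LT_mul ih hf
    rw [pow_succ, pow_succ]
    have e : ((j + 1 : ℕ) : ℤ) * n = (j : ℤ) * n + n := by push_cast; ring
    rw [e]
    exact h

theorem h33_LT_single (n : ℤ) (c : A) : h33_LT (HahnSeries.single n c) n c := by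
  constructor
  · simp
  · intro m hm
    rw [HahnSeries.coeff_single_of_ne (ne_of_lt hm)]

theorem h33_LT_natCast (g : ℕ) : h33_LT ((g : ℕ) : LaurentSeries A) 0 (g : A) := by
  have h : ((g : ℕ) : LaurentSeries A) = HahnSeries.single 0 (g : A) := by
    rw [← HahnSeries.C_apply, map_natCast]
  rw [h]
  exact h33_LT_single 0 _

theorem h33_LT_ofPowerSeries (P : PowerSeries A) :
    h33_LT (HahnSeries.ofPowerSeries ℤ A P) 0 (PowerSeries.constantCoeff P) := by
  constructor
  · rw [show (0 : ℤ) = ((0 : ℕ) : ℤ) from rfl, HahnSeries.ofPowerSeries_apply_coeff,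
      PowerSeries.coeff_zero_eq_constantCoeff]
  · intro m hm
    exact ModularCurve.ofPowerSeries_coeff_of_neg P hm

theorem h33_LT_twist {f : LaurentSeries A} {n : ℤ} {c : A} (hf : h33_LT f n c) (u : Aˣ) :
    h33_LT (twist u f) n (c * ((u ^ n : Aˣ) : A)) := by
  constructor
  · rw [twist_coeff, hf.1]
  · intro m hm
    rw [twist_coeff, hf.2 m hm, zero_mul]

theorem h33_LT_expand {f : LaurentSeries A} {n : ℤ} {c : A} (hf : h33_LT f n c) (e : ℕ)
    (he : e ≠ 0) : h33_LT (expand A e f) ((e : ℤ) * n) c := by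
  have : NeZero e := ⟨he⟩
  rw [expand_eq_qExpand]
  constructor
  · rw [qExpand_coeff_mul, hf.1]
  · intro m hm
    by_cases hdvd : (e : ℤ) ∣ m
    · obtain ⟨m', rfl⟩ := hdvd
      rw [qExpand_coeff_mul]
      apply hf.2
      have he' : (0 : ℤ) < e := by exact_mod_cast Nat.pos_of_ne_zero he
      exact lt_of_mul_lt_mul_left hm he'.le
    · exact qExpand_coeff_of_not_dvd e f hdvd

theorem h33_LT_subst {f : LaurentSeries A} {n : ℤ} {c : A} (hf : h33_LT f n c) (e : ℕ)
    (he : e ≠ 0) (u : Aˣ) : h33_LT (subst e u f) ((e : ℤ) * n) (c * ((u ^ n : Aˣ) : A)) := by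
  unfold subst
  rw [RingHom.comp_apply]
  exact h33_LT_expand (h33_LT_twist hf u) e he

theorem h33_LT_order {f : LaurentSeries A} {n : ℤ} {c : A} (hf : h33_LT f n c) (hc : c ≠ 0) :
    f.order = n ∧ f ≠ 0 := by
  have hne : f.coeff n ≠ 0 := by rw [hf.1]; exact hc
  have hf0 : f ≠ 0 := HahnSeries.ne_zero_of_coeff_ne_zero hne
  refine ⟨le_antisymm (HahnSeries.order_le_of_coeff_ne_zero hne) ?_, hf0⟩
  by_contra hlt
  have h1 : f.coeff f.order = 0 := hf.2 _ (not_le.mp hlt)
  exact hf0 (HahnSeries.coeff_order_eq_zero.mp h1)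

theorem h33_LT_jqModC : h33_LT (jqModC A) (-1) 1 := by
  have h := h33_LT_mul (h33_LT_single (-1 : ℤ) (1 : A))
    (h33_LT_ofPowerSeries (jNum.map (Int.castRingHom A)))
  have hc : PowerSeries.constantCoeff (jNum.map (Int.castRingHom A)) = 1 := by
    rw [← PowerSeries.coeff_zero_eq_constantCoeff, PowerSeries.coeff_map,
      PowerSeries.coeff_zero_eq_constantCoeff, constantCoeff_jNum]
    simp
  rw [hc, mul_one, add_zero] at h
  exact h

theorem h33_LT_deltaHat : h33_LT (deltaHat A) 1 1 := by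
  have h := h33_LT_mul (h33_LT_single (1 : ℤ) (1 : A))
    (h33_LT_ofPowerSeries (dedekindEtaUnit.map (Int.castRingHom A)))
  have hc : PowerSeries.constantCoeff (dedekindEtaUnit.map (Int.castRingHom A)) = 1 := by
    rw [← PowerSeries.coeff_zero_eq_constantCoeff, PowerSeries.coeff_map,
      PowerSeries.coeff_zero_eq_constantCoeff, constantCoeff_dedekindEtaUnit]
    simp
  rw [hc, mul_one, add_zero] at h
  exact h

theorem h33_LT_deltaHatInv : h33_LT (deltaHatInv A) (-1) 1 := by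
  have h := h33_LT_mul (h33_LT_single (-1 : ℤ) (1 : A))
    (h33_LT_ofPowerSeries (dedekindEtaUnitInv.map (Int.castRingHom A)))
  have hc : PowerSeries.constantCoeff (dedekindEtaUnitInv.map (Int.castRingHom A)) = 1 := by
    rw [← PowerSeries.coeff_zero_eq_constantCoeff, PowerSeries.coeff_map,
      PowerSeries.coeff_zero_eq_constantCoeff, constantCoeff_dedekindEtaUnitInv]
    simp
  rw [hc, mul_one, add_zero] at h
  exact h

/-- The exponent `N g² / d` is nonzero when `g ∣ d ∣ N ≠ 0`. -/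
theorem h33_exp_ne_zero {N g d : ℕ} (hd : d ∣ N) (hg : g ∣ d) (hN : N ≠ 0) :
    N * g ^ 2 / d ≠ 0 := by
  have hd0 : d ≠ 0 := by
    rintro rfl
    exact hN (Nat.eq_zero_of_zero_dvd hd)
  have hg0 : g ≠ 0 := by
    rintro rfl
    exact hd0 (Nat.eq_zero_of_zero_dvd hg)
  have hdN : d ≤ N := Nat.le_of_dvd (Nat.pos_of_ne_zero hN) hd
  have hg1 : 1 ≤ g ^ 2 := Nat.one_le_pow _ _ (Nat.pos_of_ne_zero hg0)
  have h1 : d ≤ N * g ^ 2 := le_trans hdN (Nat.le_mul_of_pos_right N hg1)
  exact (Nat.div_pos h1 (Nat.pos_of_ne_zero hd0)).ne'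

theorem h33_LT_congr {f : LaurentSeries A} {n n' : ℤ} {c c' : A} (h : h33_LT f n c)
    (hn : n = n') (hc : c = c') : h33_LT f n' c' := by
  subst hn; subst hc; exact h

end LowestTerm

section LowestTermConj

variable {A : Type} [CommRing A]

/-- Lowest term of `Jc`. -/
theorem h33_LT_Jc (N g d m : ℕ) (z : Aˣ) (hd : d ∣ N) (hg : g ∣ d) (hN : N ≠ 0) :
    h33_LT (Jc A N g d m z) (-((N * g ^ 2 / d : ℕ) : ℤ)) (((z ^ m)⁻¹ : Aˣ) : A) := by
  have h := h33_LT_subst (h33_LT_jqModC (A := A)) (N * g ^ 2 / d) (h33_exp_ne_zero hd hg hN)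
    (z ^ m)
  exact h33_LT_congr h (by ring) (by rw [one_mul, zpow_neg_one])

/-- Lowest term of `Uc`. -/
theorem h33_LT_Uc (N g d m : ℕ) (z : Aˣ) (hd : d ∣ N) (hg : g ∣ d) (hN : N ≠ 0) :
    h33_LT (Uc A N g d m z) (((N * g ^ 2 / d : ℕ) : ℤ) - N)
      ((g : A) ^ 12 * ((z ^ m : Aˣ) : A)) := by
  have h1 := h33_LT_pow (h33_LT_natCast (A := A) g) 12
  have h2 := h33_LT_subst (h33_LT_deltaHat (A := A)) (N * g ^ 2 / d)
    (h33_exp_ne_zero hd hg hN) (z ^ m)
  have h3 := h33_LT_expand (h33_LT_deltaHatInv (A := A)) N hN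
  have h := h33_LT_mul (h33_LT_mul h1 h2) h3
  exact h33_LT_congr h (by ring) (by rw [zpow_one, one_mul, mul_one])

end LowestTermConj

section Field

variable {k : Type} [Field k]

theorem Jc_order (N g d m : ℕ) (z : kˣ) (hd : d ∣ N) (hg : g ∣ d) (hN : N ≠ 0) :
    (Jc k N g d m z).order = -((N * g ^ 2 / d : ℕ) : ℤ) ∧
    (Jc k N g d m z).coeff (-((N * g ^ 2 / d : ℕ) : ℤ)) = (((z ^ m)⁻¹ : kˣ) : k) := by
  have h := h33_LT_Jc (A := k) N g d m z hd hg hN
  exact ⟨(h33_LT_order h (Units.ne_zero _)).1, h.1⟩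

theorem Uc_order (N g d m : ℕ) (z : kˣ) (hd : d ∣ N) (hg : g ∣ d) (hN : (N : k) ≠ 0) :
    (Uc k N g d m z).order = ((N * g ^ 2 / d : ℕ) : ℤ) - N ∧ Uc k N g d m z ≠ 0 := by
  have hN' : N ≠ 0 := by
    rintro rfl
    exact hN (by simp)
  have h := h33_LT_Uc (A := k) N g d m z hd hg hN'
  have hg0 : (g : k) ≠ 0 := by
    obtain ⟨t, rfl⟩ := hg
    obtain ⟨s, rfl⟩ := hd
    intro h0
    apply hN
    push_cast
    rw [h0, zero_mul, zero_mul]
  exact h33_LT_order h (mul_ne_zero (pow_ne_zero _ hg0) (Units.ne_zero _))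

theorem Jc_injective (N : ℕ) (hN : N ≠ 0) (z : kˣ) (hz : orderOf z = N) {a a' b b' : ℕ}
    (ha : a ∣ N) (ha' : a' ∣ N) (hb : b < N / a) (hb' : b' < N / a')
    (h : Jc k N a N (a * b) z = Jc k N a' N (a' * b') z) : a = a' ∧ b = b' := by
  have h1 := Jc_order (k := k) N a N (a * b) z dvd_rfl ha hN
  have h2 := Jc_order (k := k) N a' N (a' * b') z dvd_rfl ha' hN
  have e1 : N * a ^ 2 / N = a ^ 2 := Nat.mul_div_cancel_left _ (Nat.pos_of_ne_zero hN)
  have e2 : N * a' ^ 2 / N = a' ^ 2 := Nat.mul_div_cancel_left _ (Nat.pos_of_ne_zero hN)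
  rw [e1] at h1
  rw [e2] at h2
  have hord : -((a ^ 2 : ℕ) : ℤ) = -((a' ^ 2 : ℕ) : ℤ) := by
    rw [← h1.1, ← h2.1, h]
  have hsq : a ^ 2 = a' ^ 2 := by exact_mod_cast neg_injective hord
  have haa : a = a' := by
    have := Nat.pow_left_injective (n := 2) (by norm_num) hsq
    exact this
  subst haa
  refine ⟨rfl, ?_⟩
  have ha0 : a ≠ 0 := by
    rintro rfl
    exact hN (Nat.eq_zero_of_zero_dvd ha)
  have hcoef : (((z ^ (a * b))⁻¹ : kˣ) : k) = (((z ^ (a * b'))⁻¹ : kˣ) : k) := by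
    rw [← h1.2, ← h2.2, h]
  have hpow : z ^ (a * b) = z ^ (a * b') := inv_injective (Units.ext hcoef)
  have hmod : a * b ≡ a * b' [MOD N] := by
    have := pow_eq_pow_iff_modEq.mp hpow
    rwa [hz] at this
  have hlt : a * b < N := by
    have := (Nat.le_div_iff_mul_le (Nat.pos_of_ne_zero ha0)).mp (Nat.succ_le_of_lt hb)
    nlinarith [Nat.pos_of_ne_zero ha0]
  have hlt' : a * b' < N := by
    have := (Nat.le_div_iff_mul_le (Nat.pos_of_ne_zero ha0)).mp (Nat.succ_le_of_lt hb')
    nlinarith [Nat.pos_of_ne_zero ha0]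
  have heq : a * b = a * b' := Nat.ModEq.eq_of_lt_of_lt hmod hlt hlt'
  exact Nat.eq_of_mul_eq_mul_left (Nat.pos_of_ne_zero ha0) heq

end Field

end Fermat.Agent.S28
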