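import Mathlib

/-!
# S28 : the ring `ℤ[ζ_N] ⊂ ℂ`
-/

set_option autoImplicit false

noncomputable section

namespace Fermat.Agent.S28

/-- `ζ_N = exp (2πi/N)`. -/
def zetaC (N : ℕ) : ℂ := Complex.exp (2 * Real.pi * Complex.I / N)

theorem zetaC_pow (N : ℕ) [NeZero N] : zetaC N ^ N = 1 := by
  have hN : (N : ℂ) ≠ 0 := Nat.cast_ne_zero.mpr (NeZero.ne N)
  rw [zetaC, ← Complex.exp_nat_mul, mul_div_cancel₀ _ hN, Complex.exp_two_pi_mul_I]

theorem zetaC_isPrimitiveRoot (N : ℕ) [NeZero N] : IsPrimitiveRoot (zetaC N) N :=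
  Complex.isPrimitiveRoot_exp N (NeZero.ne N)

/-- `ℤ[ζ_N] ⊂ ℂ`. -/
def cycO (N : ℕ) : Subring ℂ := Subring.closure {zetaC N}

theorem zetaC_mem (N : ℕ) : zetaC N ∈ cycO N := Subring.subset_closure rfl

/-- `ζ_N` as a unit of `ℤ[ζ_N]`. -/
def zetaO (N : ℕ) [NeZero N] : (cycO N)ˣ where
  val := ⟨zetaC N, zetaC_mem N⟩
  inv := ⟨zetaC N ^ (N - 1), pow_mem (zetaC_mem N) _⟩
  val_inv := by
    apply Subtype.ext
    show zetaC N * zetaC N ^ (N - 1) = 1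
    rw [← pow_succ', Nat.sub_add_cancel (Nat.pos_of_ne_zero (NeZero.ne N)), zetaC_pow]
  inv_val := by
    apply Subtype.ext
    show zetaC N ^ (N - 1) * zetaC N = 1
    rw [← pow_succ, Nat.sub_add_cancel (Nat.pos_of_ne_zero (NeZero.ne N)), zetaC_pow]

@[simp] theorem zetaO_coe (N : ℕ) [NeZero N] : (((zetaO N : (cycO N)ˣ) : cycO N) : ℂ) = zetaC N :=
  rfl

end Fermat.Agent.S28
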