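import Mathlib
import Fermat.Agent.S24.h77_QBridge
import Fermat.Agent.S24.h64_ConjQ
import Fermat.Agent.S24.h39_JFun

/-!
# S28 analytic package (AN2/AN3): conjugates of `Δ(dτ)/Δ(τ)` and their expansions

* `h64_delta_conj` : with Hermite data `diag(d,1) γ = γ' (A B; 0 D)`,
  `d^12 Δ(d·γτ)/Δ(γτ) = A^12 Δ((Aτ+B)/D)/Δ(τ)`.
* `h64_isQExp_delta`, `h64_isQExp_deltaInv` : the `q`-expansions of `Δ` and `1/Δ`.
* `h64_isQExp_aff` : the width-`N` expansion of `τ ↦ f((Aτ+B)/D)`.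
-/

set_option autoImplicit false

namespace Fermat.Agent.S28

open UpperHalfPlane ModularForm Matrix Fermat.Agent.S24
open scoped MatrixGroups ModularForm

/-- Conjugates of the modular unit `d^12 Δ(dτ)/Δ(τ)`. -/
theorem h64_delta_conj {d : ℕ} {γ γ' : SL(2, ℤ)} {A D : ℕ} {B : ℤ} (hA : 0 < A) (hD : 0 < D)
    (hAD : A * D = d)
    (h : !![(d : ℤ), 0; 0, 1] * (γ : Matrix (Fin 2) (Fin 2) ℤ)
        = (γ' : Matrix (Fin 2) (Fin 2) ℤ) * !![(A : ℤ), B; 0, D]) (τ : ℍ) :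
    (d : ℂ) ^ 12 * discriminant (ofComplex ((d : ℂ) * ((γ • τ : ℍ) : ℂ))) / discriminant (γ • τ)
      = (A : ℂ) ^ 12 * discriminant (h64_aff A D B τ) / discriminant τ := by
  have hτ' := h64_coe_aff B hA hD τ
  have h1 := h64_hermite_coe_smul hD h τ (h64_aff A D B τ) hτ'
  rw [h1, ofComplex_apply, h39_disc_smul γ' (h64_aff A D B τ), h39_disc_smul γ τ]
  have h10 := congrFun (congrFun h 1) 0
  have h11 := congrFun (congrFun h 1) 1
  simp [Matrix.mul_apply, Fin.sum_univ_two] at h10 h11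
  have e10 : (γ 1 0 : ℂ) = (γ' 1 0 : ℂ) * A := by exact_mod_cast h10
  have e11 : (γ 1 1 : ℂ) = (γ' 1 0 : ℂ) * B + (γ' 1 1 : ℂ) * D := by exact_mod_cast h11
  have hD' : (D : ℂ) ≠ 0 := by exact_mod_cast hD.ne'
  have hden := h39_denom_ne_zero γ τ
  have hΔ := discriminant_ne_zero τ
  have k1 : (γ' 1 0 : ℂ) * ((h64_aff A D B τ : ℍ) : ℂ) + (γ' 1 1 : ℂ)
      = ((γ 1 0 : ℂ) * (τ : ℂ) + (γ 1 1 : ℂ)) / D := by
    rw [hτ']
    field_simp
    linear_combination -(τ : ℂ) * e10 - e11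
  rw [k1]
  have hd : (d : ℂ) = A * D := by exact_mod_cast hAD.symm
  rw [hd]
  field_simp

/-- The `q`-expansion of `Δ`. -/
theorem h64_isQExp_delta :
    h77_IsQExp 1 (HahnSeries.single (1 : ℤ) (1 : ℂ) *
      HahnSeries.ofPowerSeries ℤ ℂ (h77_cast ModularCurve.dedekindEtaUnit)) discriminant := by
  rw [h77_isQExp_single_mul_iff]
  intro τ
  have hq := h77_norm_qParam_lt_one one_pos τ
  have hq0 : Function.Periodic.qParam 1 (τ : ℂ) ≠ 0 := Function.Periodic.qParam_ne_zero _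
  have := h77_isPS_etaUnit _ hq
  convert this using 1
  rw [h77_discriminant_eq, _root_.zpow_neg, zpow_one]
  field_simp

/-- The `q`-expansion of `1/Δ`. -/
theorem h64_isQExp_deltaInv :
    h77_IsQExp 1 (HahnSeries.single (-1 : ℤ) (1 : ℂ) *
      HahnSeries.ofPowerSeries ℤ ℂ (h77_cast ModularCurve.dedekindEtaUnitInv))
      (fun τ => (discriminant τ)⁻¹) := by
  rw [h77_isQExp_single_mul_iff]
  intro τ
  have hq := h77_norm_qParam_lt_one one_pos τ
  have hq0 : Function.Periodic.qParam 1 (τ : ℂ) ≠ 0 := Function.Periodic.qParam_ne_zero _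
  have he : h77_euler (Function.Periodic.qParam 1 (τ : ℂ)) ^ 24 ≠ 0 :=
    pow_ne_zero 24 (h77_euler_ne_zero hq)
  have := h77_isPS_etaUnitInv _ hq
  convert this using 1
  rw [h77_discriminant_eq, neg_neg, zpow_one]
  field_simp

/-- Width-`N` expansion of `τ ↦ f ((A τ + B) / D)` from the width-one expansion of `f`
(`e * D = A * N`). -/
theorem h64_isQExp_aff {c : LaurentSeries ℂ} {f : ℍ → ℂ} (hf : h77_IsQExp 1 c f)
    {A D N e : ℕ} [NeZero e] (B : ℤ) (hA : 0 < A) (hD : 0 < D) (hN : 0 < N)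
    (he : e * D = A * N) :
    h77_IsQExp N (ModularCurve.qExpand ℂ e
        (h64_twist (Complex.exp (2 * Real.pi * Complex.I * B / D)) c))
      (fun τ => f (h64_aff A D B τ)) :=
  fun τ => h64_hasSum_aff hf B hA hD hN he τ

end Fermat.Agent.S28
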