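import Mathlib
import Fermat.Prelude.Def_ModularCurve_X0ModL
import Fermat.Agent.S24.h59_Width

/-!
# S28 analytic package (AN1): invariants are polynomials in `j` over a subring

If an `SL(2, ℤ)`-invariant function has a width-`N` expansion whose coefficients lie in a
commutative ring `O ⊆ ℂ`, the expansion is the `N`-fold dilation of a polynomial *over `O`* in
the formal `j`.
-/

set_option autoImplicit false

namespace Fermat.Agent.S28

open UpperHalfPlane ModularCurve Fermat.Agent.S24

/-- The structure map `R → R((q))` is `a ↦ a q^0` (for the instance found by unification). -/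
theorem h64_algebraMap_eq_single {R : Type*} [CommRing R] (a : R) :
    algebraMap R (LaurentSeries R) a = HahnSeries.single 0 a := by
  have h1 : algebraMap R (PowerSeries R) a = PowerSeries.C a := by
    simp
  rw [HahnSeries.algebraMap_apply', h1, HahnSeries.ofPowerSeries_C]
  rfl

theorem h64_algebraMap_eq_C {R : Type*} [CommRing R] (a : R) :
    algebraMap R (LaurentSeries R) a = HahnSeries.C a := by
  rw [h64_algebraMap_eq_single, HahnSeries.C_apply]

theorem h64_coeffMap_algebraMap {R S : Type*} [CommRing R] [CommRing S] (f : R →+* S) (a : R) :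
    coeffMap f (algebraMap R (LaurentSeries R) a) = algebraMap S (LaurentSeries S) (f a) := by
  rw [h64_algebraMap_eq_single, h64_algebraMap_eq_single, coeffMap_single]

/-- `coeffMap f` commutes with polynomial evaluation (commutative rings). -/
theorem h64_coeffMap_aeval {R S : Type*} [CommRing R] [CommRing S] (f : R →+* S)
    (x : LaurentSeries R) (P : Polynomial R) :
    coeffMap f (Polynomial.aeval x P) = Polynomial.aeval (coeffMap f x) (P.map f) := by
  rw [Polynomial.aeval_def, Polynomial.aeval_def, Polynomial.hom_eval₂, Polynomial.eval₂_map]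
  congr 1
  ext a : 1
  exact h64_coeffMap_algebraMap f a

theorem h64_coeffMap_injective {R S : Type*} [CommRing R] [CommRing S] (f : R →+* S)
    (hf : Function.Injective f) : Function.Injective (coeffMap f) := by
  intro x y h
  ext k
  apply hf
  have := congrArg (fun z : LaurentSeries S => z.coeff k) h
  simpa using this

theorem h64_coeff_algebraMap_mul {R : Type*} [CommRing R] (a : R) (y : LaurentSeries R) (m : ℤ) :
    (algebraMap R (LaurentSeries R) a * y).coeff m = a * y.coeff m := by
  rw [h64_algebraMap_eq_single, HahnSeries.coeff_single_zero_mul]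

/-- Coefficient of `q^(-n)` in `P(j)` for `P` of degree `≤ n`, over any commutative ring. -/
theorem h64_coeff_aeval_jq {R : Type*} [CommRing R] (P : Polynomial R) (n : ℕ)
    (hn : P.natDegree ≤ n) :
    (Polynomial.aeval (jqModC R) P).coeff (-(n : ℤ)) = P.coeff n := by
  rw [Polynomial.aeval_eq_sum_range' (Nat.lt_succ_of_le hn)]
  simp only [Algebra.smul_def]
  rw [HahnSeries.coeff_sum]
  rw [Finset.sum_eq_single n]
  · rw [h64_coeff_algebraMap_mul, coeff_jqModC_pow_self, mul_one]
  · intro k hk hkn
    have hk' : k < n := lt_of_le_of_ne (Nat.lt_succ_iff.mp (Finset.mem_range.mp hk)) hkn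
    rw [h64_coeff_algebraMap_mul,
      coeff_jqModC_pow_of_lt R (by exact_mod_cast neg_lt_neg (Nat.cast_lt.mpr hk')), mul_zero]
  · intro h
    exact absurd (Finset.mem_range.mpr (Nat.lt_succ_self n)) h

/-- The coefficients of powers of the formal `j` over `ℂ` lie in every subring. -/
theorem h64_coeff_jq_pow_mem (A : Subring ℂ) (n : ℕ) (k : ℤ) :
    ((jqModC ℂ) ^ n).coeff k ∈ A := by
  rw [← coeffMap_jqModC (Int.castRingHom ℂ), ← map_pow, coeffMap_coeff]
  exact intCast_mem A _

/-- Descent: if all coefficients of `P(j)` lie in the subring `A` then so do those of `P`. -/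
theorem h64_coeff_mem_of_aeval (A : Subring ℂ) (n : ℕ) :
    ∀ P : Polynomial ℂ, P.natDegree ≤ n →
      (∀ k : ℤ, (Polynomial.aeval (jqModC ℂ) P).coeff k ∈ A) → ∀ i : ℕ, P.coeff i ∈ A := by
  induction n with
  | zero =>
    intro P hP hA i
    have h0 := h64_coeff_aeval_jq P 0 hP
    have h1 := hA (-((0 : ℕ) : ℤ))
    rw [h0] at h1
    rcases Nat.eq_zero_or_pos i with rfl | hi
    · exact h1
    · rw [Polynomial.coeff_eq_zero_of_natDegree_lt (lt_of_le_of_lt hP hi)]
      exact zero_mem A
  | succ n ih =>
    intro P hP hA i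
    have h0 := h64_coeff_aeval_jq P (n + 1) hP
    have ha : P.coeff (n + 1) ∈ A := by
      rw [← h0]
      exact hA _
    have hdeg : (P.erase (n + 1)).natDegree ≤ n := by
      rw [Polynomial.natDegree_le_iff_coeff_eq_zero]
      intro m hm
      rw [Polynomial.coeff_erase]
      split_ifs with h
      · rfl
      · exact Polynomial.coeff_eq_zero_of_natDegree_lt (by omega)
    have hsplit : Polynomial.aeval (jqModC ℂ) (P.erase (n + 1)) =
        Polynomial.aeval (jqModC ℂ) P
          - algebraMap ℂ (LaurentSeries ℂ) (P.coeff (n + 1)) * (jqModC ℂ) ^ (n + 1) := by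
      have h := congrArg (Polynomial.aeval (jqModC ℂ)) (Polynomial.monomial_add_erase P (n + 1))
      rw [map_add, Polynomial.aeval_monomial] at h
      rw [← h]
      ring
    have hA' : ∀ k : ℤ, (Polynomial.aeval (jqModC ℂ) (P.erase (n + 1))).coeff k ∈ A := by
      intro k
      rw [hsplit, HahnSeries.coeff_sub, h64_coeff_algebraMap_mul]
      exact sub_mem (hA k) (mul_mem ha (h64_coeff_jq_pow_mem A _ _))
    have := ih _ hdeg hA' i
    rw [Polynomial.coeff_erase] at this
    split_ifs at this with h
    · rw [h]; exact ha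
    · exact this

/-- **Invariants are polynomials in `j` over a subring.** If `c` is a Laurent series over the
commutative ring `O`, embedded in `ℂ` by `ι`, whose image is the width-`N` expansion of an
`SL(2, ℤ)`-invariant function `g`, then `c` is the `N`-fold dilation of a polynomial over `O`
in the formal `j`, and `g` is that polynomial in the analytic `j`. -/
theorem h64_inv_ring {O : Type*} [CommRing O] (ι : O →+* ℂ) (hι : Function.Injective ι)
    {N : ℕ} [NeZero N] (c : LaurentSeries O) (g : ℍ → ℂ)
    (hc : h77_IsQExp N (coeffMap ι c) g)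
    (hinv : ∀ (γ : Matrix.SpecialLinearGroup (Fin 2) ℤ) (τ : ℍ), g (γ • τ) = g τ) :
    ∃ P : Polynomial O,
      c = qExpand O N (Polynomial.aeval (jqModC O) P) ∧
      ∀ τ : ℍ, g τ = (P.map ι).eval (h77_j τ) := by
  obtain ⟨Q, hQ, hg⟩ := h59_invariant_of_width (RingHom.id ℂ) (coeffMap ι c) g
    (by rw [coeffMap_id]; exact hc) hinv
  have hjq : coeffEmb ℂ jq = jqModC ℂ := by
    rw [← jqModC_rat, coeffEmb, coeffMap_jqModC]
  rw [hjq] at hQ
  rw [Polynomial.map_id] at hg
  have hmem : ∀ k : ℤ, (Polynomial.aeval (jqModC ℂ) Q).coeff k ∈ ι.range := by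
    intro k
    rw [← qExpand_coeff_mul N, ← hQ, coeffMap_coeff]
    exact ⟨_, rfl⟩
  have hlift : Q ∈ Polynomial.lifts ι := by
    rw [Polynomial.lifts_iff_coeff_lifts]
    intro i
    exact h64_coeff_mem_of_aeval ι.range Q.natDegree Q le_rfl hmem i
  obtain ⟨P, rfl⟩ := (Polynomial.mem_lifts _).mp hlift
  refine ⟨P, ?_, hg⟩
  apply h64_coeffMap_injective ι hι
  rw [hQ, coeffMap_qExpand, h64_coeffMap_aeval, coeffMap_jqModC]

end Fermat.Agent.S28
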