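import Mathlib
import Fermat.Agent.S28.h64_InvRing
import Fermat.Agent.S24.h39_JFun

/-!
# S28 analytic package (AN4/AN5): symmetric functions of conjugate families

* `h64_F1_generic` : the characteristic polynomial of a finite family of Laurent series over `O`,
  which are width-`N` expansions of functions permuted by `SL(2, ℤ)`, has coefficients that are
  (dilations of) polynomials over `O` in the formal `j`.
* `h64_F2_generic` : if moreover the functions vanish nowhere, their product is a constant.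
-/

set_option autoImplicit false

namespace Fermat.Agent.S28

open UpperHalfPlane ModularCurve Fermat.Agent.S24
open scoped MatrixGroups

/-- Pairs (Laurent series over `O`, function on `ℍ`) such that the series is the width-`N`
expansion of the function. -/
def h64_T {O : Type*} [CommRing O] (ι : O →+* ℂ) (N : ℕ) :
    Subring (LaurentSeries O × (ℍ → ℂ)) where
  carrier := {p | h77_IsQExp N (coeffMap ι p.1) p.2}
  mul_mem' := by
    intro a b ha hb
    show h77_IsQExp N (coeffMap ι (a.1 * b.1)) (a.2 * b.2)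
    rw [map_mul]
    exact h77_IsQExp.mul ha hb
  one_mem' := by
    show h77_IsQExp N (coeffMap ι 1) 1
    rw [map_one]
    exact h77_isQExp_one N
  add_mem' := by
    intro a b ha hb
    show h77_IsQExp N (coeffMap ι (a.1 + b.1)) (a.2 + b.2)
    rw [map_add]
    exact h77_IsQExp.add ha hb
  zero_mem' := by
    show h77_IsQExp N (coeffMap ι 0) 0
    rw [map_zero]
    exact h77_isQExp_zero N
  neg_mem' := by
    intro a ha
    show h77_IsQExp N (coeffMap ι (-a.1)) (-a.2)
    rw [map_neg]
    exact h77_IsQExp.neg ha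

theorem h64_mem_T {O : Type*} [CommRing O] (ι : O →+* ℂ) (N : ℕ)
    (p : LaurentSeries O × (ℍ → ℂ)) :
    p ∈ h64_T ι N ↔ h77_IsQExp N (coeffMap ι p.1) p.2 := Iff.rfl

/-- Polynomial expressions in functions with width-`N` expansions over `O`. -/
theorem h64_isQExp_mvAeval {O : Type*} [CommRing O] (ι : O →+* ℂ) (N : ℕ) {X : Type*}
    (c : X → LaurentSeries O) (G : X → ℍ → ℂ)
    (hE : ∀ x, h77_IsQExp N (coeffMap ι (c x)) (G x)) (y : MvPolynomial X O) :
    h77_IsQExp N (coeffMap ι (MvPolynomial.aeval c y))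
      (fun τ => MvPolynomial.eval₂ ι (fun x => G x τ) y) := by
  induction y using MvPolynomial.induction_on with
  | C a =>
    rw [MvPolynomial.aeval_C, h64_coeffMap_algebraMap, h64_algebraMap_eq_C]
    simp only [MvPolynomial.eval₂_C]
    exact h77_isQExp_C N (ι a)
  | add p q hp hq =>
    rw [map_add, map_add]
    simp only [MvPolynomial.eval₂_add]
    exact hp.add hq
  | mul_X p x hp =>
    rw [map_mul, MvPolynomial.aeval_X, map_mul]
    simp only [MvPolynomial.eval₂_mul, MvPolynomial.eval₂_X]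
    exact hp.mul (hE x)

/-- The coefficients of the characteristic polynomial of a family with expansions. -/
theorem h64_isQExp_charpoly_coeff {O : Type*} [CommRing O] (ι : O →+* ℂ) (N : ℕ) {R : Type*}
    [Fintype R] (s : R → LaurentSeries O) (g : R → ℍ → ℂ)
    (hE : ∀ r, h77_IsQExp N (coeffMap ι (s r)) (g r)) (k : ℕ) :
    h77_IsQExp N (coeffMap ι ((∏ r, (Polynomial.X - Polynomial.C (s r))).coeff k))
      (fun τ => (∏ r, (Polynomial.X - Polynomial.C (g r τ))).coeff k) := by
  let t : R → h64_T ι N := fun r => ⟨(s r, g r), hE r⟩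
  let PP : Polynomial (h64_T ι N) := ∏ r, (Polynomial.X - Polynomial.C (t r))
  have h : h77_IsQExp N (coeffMap ι (PP.coeff k).1.1) (PP.coeff k).1.2 := (PP.coeff k).2
  let φ₁ : h64_T ι N →+* LaurentSeries O :=
    (RingHom.fst _ _).comp (h64_T ι N).subtype
  have h1 : (PP.coeff k).1.1 = (∏ r, (Polynomial.X - Polynomial.C (s r))).coeff k := by
    have e : PP.map φ₁ = ∏ r, (Polynomial.X - Polynomial.C (s r)) := by
      simp only [PP, Polynomial.map_prod, Polynomial.map_sub, Polynomial.map_X,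
        Polynomial.map_C]
      rfl
    rw [← e, Polynomial.coeff_map]
    rfl
  have h2 : ∀ τ, (PP.coeff k).1.2 τ = (∏ r, (Polynomial.X - Polynomial.C (g r τ))).coeff k := by
    intro τ
    let φ₂ : h64_T ι N →+* ℂ :=
      (Pi.evalRingHom (fun _ : ℍ => ℂ) τ).comp ((RingHom.snd _ _).comp (h64_T ι N).subtype)
    have e : PP.map φ₂ = ∏ r, (Polynomial.X - Polynomial.C (g r τ)) := by
      simp only [PP, Polynomial.map_prod, Polynomial.map_sub, Polynomial.map_X,
        Polynomial.map_C]
      rfl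
    rw [← e, Polynomial.coeff_map]
    rfl
  rw [← h1]
  exact h.congr h2

/-- Products of functions with expansions. -/
theorem h64_isQExp_prod {O : Type*} [CommRing O] (ι : O →+* ℂ) (N : ℕ) {R : Type*}
    [Fintype R] (s : R → LaurentSeries O) (g : R → ℍ → ℂ)
    (hE : ∀ r, h77_IsQExp N (coeffMap ι (s r)) (g r)) :
    h77_IsQExp N (coeffMap ι (∏ r, s r)) (fun τ => ∏ r, g r τ) := by
  let t : R → h64_T ι N := fun r => ⟨(s r, g r), hE r⟩
  have h : h77_IsQExp N (coeffMap ι (∏ r, t r).1.1) (∏ r, t r).1.2 := (∏ r, t r).2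
  let φ₁ : h64_T ι N →+* LaurentSeries O :=
    (RingHom.fst _ _).comp (h64_T ι N).subtype
  have h1 : (∏ r, t r).1.1 = ∏ r, s r := by
    have e : φ₁ (∏ r, t r) = ∏ r, s r := by
      rw [map_prod]
      rfl
    exact e
  have h2 : ∀ τ, (∏ r, t r).1.2 τ = ∏ r, g r τ := by
    intro τ
    let φ₂ : h64_T ι N →+* ℂ :=
      (Pi.evalRingHom (fun _ : ℍ => ℂ) τ).comp ((RingHom.snd _ _).comp (h64_T ι N).subtype)
    have e : φ₂ (∏ r, t r) = ∏ r, g r τ := by
      rw [map_prod]
      rfl
    exact e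
  rw [← h1]
  exact h.congr h2

theorem h64_qExpand_aeval {O : Type*} [CommRing O] (N : ℕ) [NeZero N] (x : LaurentSeries O)
    (P : Polynomial O) :
    qExpand O N (Polynomial.aeval x P) = Polynomial.aeval (qExpand O N x) P := by
  rw [Polynomial.aeval_def, Polynomial.aeval_def, Polynomial.hom_eval₂]
  congr 1
  ext a : 1
  show qExpand O N (algebraMap O (LaurentSeries O) a) = algebraMap O (LaurentSeries O) a
  rw [h64_algebraMap_eq_C, qExpand_C]

/-- **(F1), generic form.** -/
theorem h64_F1_generic {O : Type*} [CommRing O] (ι : O →+* ℂ) (hι : Function.Injective ι)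
    {N : ℕ} [NeZero N] {R : Type*} [Fintype R] {X : Type*} (c : R → X → LaurentSeries O)
    (G : R → X → ℍ → ℂ) (hE : ∀ r x, h77_IsQExp N (coeffMap ι (c r x)) (G r x))
    (hP : ∀ γ : SL(2, ℤ), ∃ σ : R ≃ R, ∀ r x τ, G r x (γ • τ) = G (σ r) x τ)
    (y : MvPolynomial X O) :
    ∃ Q : Polynomial (Polynomial O),
      ∏ r, (Polynomial.X - Polynomial.C (MvPolynomial.aeval (c r) y)) =
        Q.map ((Polynomial.aeval (qExpand O N (jqModC O))).toRingHom) := by
  classical
  obtain ⟨S, hS⟩ : ∃ S : Polynomial (LaurentSeries O),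
      S = ∏ r, (Polynomial.X - Polynomial.C (MvPolynomial.aeval (c r) y)) := ⟨_, rfl⟩
  have key : ∀ k : ℕ, ∃ P : Polynomial O,
      S.coeff k = qExpand O N (Polynomial.aeval (jqModC O) P) := by
    intro k
    have hexp := h64_isQExp_charpoly_coeff ι N (fun r => MvPolynomial.aeval (c r) y)
      (fun r τ => MvPolynomial.eval₂ ι (fun x => G r x τ) y)
      (fun r => h64_isQExp_mvAeval ι N (c r) (G r) (hE r) y) k
    have hinv : ∀ (γ : SL(2, ℤ)) (τ : ℍ),
        (∏ r, (Polynomial.X - Polynomial.C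
            (MvPolynomial.eval₂ ι (fun x => G r x (γ • τ)) y))).coeff k =
        (∏ r, (Polynomial.X - Polynomial.C
            (MvPolynomial.eval₂ ι (fun x => G r x τ) y))).coeff k := by
      intro γ τ
      obtain ⟨σ, hσ⟩ := hP γ
      simp only [hσ]
      rw [Equiv.prod_comp σ (fun r => Polynomial.X - Polynomial.C
        (MvPolynomial.eval₂ ι (fun x => G r x τ) y))]
    obtain ⟨P, hP1, -⟩ := h64_inv_ring ι hι _ _ hexp hinv
    exact ⟨P, by rw [hS]; exact hP1⟩
  choose P hP' using key
  refine ⟨∑ k ∈ Finset.range (S.natDegree + 1), Polynomial.monomial k (P k), ?_⟩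
  rw [← hS, Polynomial.map_sum]
  conv_lhs => rw [S.as_sum_range]
  refine Finset.sum_congr rfl fun k _ => ?_
  rw [Polynomial.map_monomial, hP' k, h64_qExpand_aeval]
  rfl

/-- **(F2), generic form.** -/
theorem h64_F2_generic {O : Type*} [CommRing O] (ι : O →+* ℂ) (hι : Function.Injective ι)
    {N : ℕ} [NeZero N] {R : Type*} [Fintype R] (s : R → LaurentSeries O)
    (g : R → ℍ → ℂ) (hE : ∀ r, h77_IsQExp N (coeffMap ι (s r)) (g r))
    (hP : ∀ γ : SL(2, ℤ), ∃ σ : R ≃ R, ∀ r τ, g r (γ • τ) = g (σ r) τ)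
    (hne : ∀ r τ, g r τ ≠ 0) :
    ∃ C : O, ∏ r, s r = HahnSeries.C C := by
  have hexp := h64_isQExp_prod ι N s g hE
  have hinv : ∀ (γ : SL(2, ℤ)) (τ : ℍ), ∏ r, g r (γ • τ) = ∏ r, g r τ := by
    intro γ τ
    obtain ⟨σ, hσ⟩ := hP γ
    simp only [hσ]
    rw [Equiv.prod_comp σ (fun r => g r τ)]
  obtain ⟨P, hP1, hP2⟩ := h64_inv_ring ι hι _ _ hexp hinv
  have hroot : ∀ z : ℂ, ¬ (P.map ι).IsRoot z := by
    intro z hz
    obtain ⟨τ, rfl⟩ := h39_jfun_surjective z
    have h1 := hP2 τ
    have h2 : (P.map ι).eval (h77_j τ) = 0 := hz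
    rw [h2] at h1
    exact Finset.prod_ne_zero_iff.mpr (fun r _ => hne r τ) h1
  have hdeg : (P.map ι).degree ≤ 0 := by
    by_contra hlt
    rw [not_le] at hlt
    obtain ⟨z, hz⟩ := Complex.exists_root hlt
    exact hroot z hz
  have hPC : P = Polynomial.C (P.coeff 0) := by
    apply Polynomial.map_injective ι hι
    rw [Polynomial.map_C, Polynomial.eq_C_of_degree_le_zero hdeg, Polynomial.coeff_map]
  refine ⟨P.coeff 0, ?_⟩
  rw [hP1, hPC, Polynomial.aeval_C, h64_algebraMap_eq_C, qExpand_C, Polynomial.coeff_C_zero]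

end Fermat.Agent.S28
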