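import Mathlib
import Fermat.Agent.S28.Defs
import Fermat.Agent.S24.h77_QBridge

set_option autoImplicit false

/-!
# S28, analytic package : the formal discriminant is the `q`-expansion of `Δ`

* `h77_isQExp_jqModC`, `h77_isQExp_deltaHat`, `h77_isQExp_deltaHatInv` : the formal series
  `jqModC ℂ`, `deltaHat ℂ`, `deltaHatInv ℂ` converge to `j`, `Δ`, `1/Δ` on the upper half plane;
* `h77_descent` : a polynomial in the formal `j` whose Laurent coefficients lie in a subring
  has its coefficients in the subring (leading coefficient induction).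
-/

noncomputable section

namespace Fermat.Agent.S28

open ModularCurve UpperHalfPlane Fermat.Agent.S24

local notation "𝕢" => Function.Periodic.qParam

/-! ### analytic expansions -/

/-- The formal `j` over `ℂ` is the `q`-expansion of the analytic `j`-function. -/
theorem h77_isQExp_jqModC : h77_IsQExp 1 (jqModC ℂ) h77_j := by
  rw [jqModC, h77_isQExp_single_mul_iff]
  intro τ
  have := h77_hasSum_jNum τ
  simpa using this

/-- The formal discriminant over `ℂ` is the `q`-expansion of `Δ`. -/
theorem h77_isQExp_deltaHat : h77_IsQExp 1 (deltaHat ℂ) ModularForm.discriminant := by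
  rw [deltaHat, h77_isQExp_single_mul_iff]
  intro τ
  have hq := h77_norm_qParam_lt_one one_pos τ
  have hq0 : 𝕢 1 (τ : ℂ) ≠ 0 := Function.Periodic.qParam_ne_zero _
  have h := h77_isPS_etaUnit _ hq
  have hval : ModularForm.discriminant τ * 𝕢 1 (τ : ℂ) ^ (-(1 : ℤ)) =
      h77_euler (𝕢 1 (τ : ℂ)) ^ 24 := by
    rw [h77_discriminant_eq, zpow_neg, zpow_one]
    field_simp
  rw [hval]
  exact h

/-- The formal inverse discriminant over `ℂ` is the `q`-expansion of `1/Δ`. -/
theorem h77_isQExp_deltaHatInv :
    h77_IsQExp 1 (deltaHatInv ℂ) (fun τ => (ModularForm.discriminant τ)⁻¹) := by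
  rw [deltaHatInv, h77_isQExp_single_mul_iff]
  intro τ
  have hq := h77_norm_qParam_lt_one one_pos τ
  have hq0 : 𝕢 1 (τ : ℂ) ≠ 0 := Function.Periodic.qParam_ne_zero _
  have h := h77_isPS_etaUnitInv _ hq
  have he : h77_euler (𝕢 1 (τ : ℂ)) ^ 24 ≠ 0 := pow_ne_zero 24 (h77_euler_ne_zero hq)
  have hval : (ModularForm.discriminant τ)⁻¹ * 𝕢 1 (τ : ℂ) ^ (-(-1 : ℤ)) =
      (h77_euler (𝕢 1 (τ : ℂ)) ^ 24)⁻¹ := by
    rw [h77_discriminant_eq, neg_neg, zpow_one]
    field_simp
  rw [hval]
  exact h

/-! ### functoriality in the coefficient ring -/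

section Functorial

variable {A B : Type*} [CommRing A] [CommRing B]

theorem h77_coeffMap_deltaHat (φ : A →+* B) : coeffMap φ (deltaHat A) = deltaHat B := by
  rw [deltaHat, map_mul, coeffMap_single, map_one, h77_coeffMap_ofPowerSeries,
    ← RingHom.comp_apply (PowerSeries.map φ) (PowerSeries.map (Int.castRingHom A)),
    ← PowerSeries.map_comp, RingHom.ext_int (φ.comp (Int.castRingHom A)) (Int.castRingHom B)]
  rfl

theorem h77_coeffMap_deltaHatInv (φ : A →+* B) : coeffMap φ (deltaHatInv A) = deltaHatInv B := by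
  rw [deltaHatInv, map_mul, coeffMap_single, map_one, h77_coeffMap_ofPowerSeries,
    ← RingHom.comp_apply (PowerSeries.map φ) (PowerSeries.map (Int.castRingHom A)),
    ← PowerSeries.map_comp, RingHom.ext_int (φ.comp (Int.castRingHom A)) (Int.castRingHom B)]
  rfl

theorem h77_coeffMap_C (φ : A →+* B) (a : A) :
    coeffMap φ (HahnSeries.C a) = HahnSeries.C (φ a) := by
  exact coeffMap_single φ 0 a

theorem h77_algebraMap_eq_C (b : B) :
    algebraMap B (LaurentSeries B) b = HahnSeries.C b := by
  have h1 : algebraMap B (PowerSeries B) b = PowerSeries.C b := by simp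
  rw [HahnSeries.algebraMap_apply', h1, HahnSeries.ofPowerSeries_C]

theorem h77_coeff_algebraMap_mul (b : B) (x : LaurentSeries B) (m : ℤ) :
    (algebraMap B (LaurentSeries B) b * x).coeff m = b * x.coeff m := by
  rw [h77_algebraMap_eq_C, HahnSeries.C_mul_eq_smul]
  rfl

theorem h77_coeffMap_injective {φ : A →+* B} (hφ : Function.Injective φ) :
    Function.Injective (coeffMap φ) := by
  intro x y h
  ext k
  apply hφ
  have := congrArg (fun z => z.coeff k) h
  simpa using this

end Functorial

/-- `jqModC`, `deltaHat`, `deltaHatInv` over a subring of `ℂ` converge to `j`, `Δ`, `1/Δ`. -/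
theorem h77_isQExp_subring_jqModC (O : Subring ℂ) :
    h77_IsQExp 1 (coeffMap O.subtype (jqModC O)) h77_j := by
  rw [coeffMap_jqModC]
  exact h77_isQExp_jqModC

theorem h77_isQExp_subring_deltaHat (O : Subring ℂ) :
    h77_IsQExp 1 (coeffMap O.subtype (deltaHat O)) ModularForm.discriminant := by
  rw [h77_coeffMap_deltaHat]
  exact h77_isQExp_deltaHat

theorem h77_isQExp_subring_deltaHatInv (O : Subring ℂ) :
    h77_IsQExp 1 (coeffMap O.subtype (deltaHatInv O))
      (fun τ => (ModularForm.discriminant τ)⁻¹) := by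
  rw [h77_coeffMap_deltaHatInv]
  exact h77_isQExp_deltaHatInv

/-! ### descent of polynomials in `j` to a subring of coefficients -/

section Descent

variable {A B : Type*} [CommRing A] [CommRing B]

/-- The coefficient of `q^(-n)` of `P(j)` is the coefficient of `X^n` of `P` when
`deg P ≤ n`. -/
theorem h77_coeff_aeval_jqModC (P : Polynomial B) (n : ℕ) (hn : P.natDegree ≤ n) :
    (Polynomial.aeval (jqModC B) P).coeff (-(n : ℤ)) = P.coeff n := by
  rw [Polynomial.aeval_eq_sum_range' (Nat.lt_succ_of_le hn)]
  rw [HahnSeries.coeff_sum]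
  rw [Finset.sum_eq_single n]
  · rw [Algebra.smul_def, h77_coeff_algebraMap_mul, coeff_jqModC_pow_self, mul_one]
  · intro i hi hin
    have hlt : i < n := lt_of_le_of_ne (Nat.lt_succ_iff.mp (Finset.mem_range.mp hi)) hin
    rw [Algebra.smul_def, h77_coeff_algebraMap_mul,
      coeff_jqModC_pow_of_lt B (by omega : -(n : ℤ) < -(i : ℤ)), mul_zero]
  · intro h
    exact absurd (Finset.mem_range.mpr (Nat.lt_succ_self n)) h

private theorem h77_descent_aux (φ : A →+* B) (n : ℕ) :
    ∀ (P : Polynomial B) (c : LaurentSeries A), P.natDegree ≤ n →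
      coeffMap φ c = Polynomial.aeval (jqModC B) P → ∃ Q : Polynomial A, Q.map φ = P := by
  induction n with
  | zero =>
    intro P c hP h
    have hPC : P = Polynomial.C (P.coeff 0) := Polynomial.eq_C_of_natDegree_le_zero hP
    have h0 := h77_coeff_aeval_jqModC P 0 hP
    rw [← h] at h0
    simp only [Nat.cast_zero, neg_zero, coeffMap_coeff] at h0
    refine ⟨Polynomial.C (c.coeff 0), ?_⟩
    rw [Polynomial.map_C, h0, ← hPC]
  | succ n ih =>
    intro P c hP h
    have h0 := h77_coeff_aeval_jqModC P (n + 1) hP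
    rw [← h] at h0
    simp only [coeffMap_coeff] at h0
    set a : A := c.coeff (-((n + 1 : ℕ) : ℤ)) with ha
    set P' : Polynomial B := P - Polynomial.C (P.coeff (n + 1)) * Polynomial.X ^ (n + 1) with hP'
    have hdeg : P'.natDegree ≤ n := by
      rw [Polynomial.natDegree_le_iff_coeff_eq_zero]
      intro m hm
      rw [hP', Polynomial.coeff_sub, Polynomial.coeff_C_mul, Polynomial.coeff_X_pow]
      by_cases hmn : m = n + 1
      · subst hmn; simp
      · rw [if_neg hmn, mul_zero, sub_zero]
        exact Polynomial.coeff_eq_zero_of_natDegree_lt (by omega)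
    have hc' : coeffMap φ (c - HahnSeries.C a * jqModC A ^ (n + 1)) =
        Polynomial.aeval (jqModC B) P' := by
      rw [map_sub, map_mul, map_pow, coeffMap_jqModC, h77_coeffMap_C, h, hP', map_sub, map_mul,
        map_pow, Polynomial.aeval_X, Polynomial.aeval_C, h0, h77_algebraMap_eq_C]
    obtain ⟨Q', hQ'⟩ := ih P' _ hdeg hc'
    refine ⟨Q' + Polynomial.C a * Polynomial.X ^ (n + 1), ?_⟩
    rw [Polynomial.map_add, hQ', Polynomial.map_mul, Polynomial.map_C, Polynomial.map_pow,
      Polynomial.map_X, h0, hP']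
    ring

/-- DESCENT: if `P(j)` (a polynomial in the formal `j` over `B`) has all its Laurent
coefficients in the image of `φ : A →+* B`, then `P` has coefficients in the image of `φ`. -/
theorem h77_descent (φ : A →+* B) (P : Polynomial B) (c : LaurentSeries A)
    (h : coeffMap φ c = Polynomial.aeval (jqModC B) P) : ∃ Q : Polynomial A, Q.map φ = P :=
  h77_descent_aux φ P.natDegree P c le_rfl h

/-- DESCENT, with the conclusion on the series: `c = Q(j)` over `A` when `φ` is injective. -/
theorem h77_descent' (φ : A →+* B) (hφ : Function.Injective φ) (P : Polynomial B)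
    (c : LaurentSeries A) (h : coeffMap φ c = Polynomial.aeval (jqModC B) P) :
    ∃ Q : Polynomial A, Q.map φ = P ∧ c = Polynomial.aeval (jqModC A) Q := by
  obtain ⟨Q, hQ⟩ := h77_descent φ P c h
  refine ⟨Q, hQ, h77_coeffMap_injective hφ ?_⟩
  rw [h, ← hQ]
  have : ∀ R : Polynomial A, coeffMap φ (Polynomial.aeval (jqModC A) R) =
      Polynomial.aeval (jqModC B) (R.map φ) := by
    intro R
    induction R using Polynomial.induction_on' with
    | add p q hp hq => rw [map_add, map_add, hp, hq, Polynomial.map_add, map_add]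
    | monomial n a =>
      rw [Polynomial.map_monomial, Polynomial.aeval_monomial, Polynomial.aeval_monomial,
        map_mul, map_pow, coeffMap_jqModC]
      congr 1
      rw [h77_algebraMap_eq_C, h77_algebraMap_eq_C]
      exact h77_coeffMap_C φ a
  rw [this]

end Descent

end Fermat.Agent.S28
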