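import Mathlib
import Fermat.Agent.S28.Defs
import Fermat.Agent.S28.Cyc
import Fermat.Agent.S28.Formal
import Fermat.Agent.S28.h77_DeltaQ
import Fermat.Agent.S28.h64_InvRing
import Fermat.Agent.S28.h64_DeltaConj
import Fermat.Agent.S28.h64_Sym

/-!
# S28 analytic package: the conjugate family over `ℤ[ζ_N]`

`exists_conjFamily : Nonempty (ConjFamily (cycO N) N (zetaO N))`.

The index set is `SL(2, ℤ) ⧸ Γ₀(N)`, with representatives `γ_r = (Quotient.out r)⁻¹`; the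
coordinate `X_d` goes to the expansion of `τ ↦ j(d · γ_r τ)` and `U_d` to the expansion of
`τ ↦ d^12 Δ(d · γ_r τ) / Δ(γ_r τ)`, in the parameter `t = exp(2πiτ/N)`.
-/

set_option autoImplicit false

noncomputable section

namespace Fermat.Agent.S28

open ModularCurve UpperHalfPlane ModularForm Matrix CongruenceSubgroup Fermat.Agent.S24
open scoped MatrixGroups ModularForm

/-! ### Hermite bookkeeping -/

/-- `A = gcd(d, c)`. -/
def h64_hA (d : ℕ) (γ : SL(2, ℤ)) : ℕ := Int.gcd (d : ℤ) (γ 1 0)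

/-- `D = d / A`. -/
def h64_hD (d : ℕ) (γ : SL(2, ℤ)) : ℕ := d / h64_hA d γ

theorem h64_hA_dvd (d : ℕ) (γ : SL(2, ℤ)) : h64_hA d γ ∣ d := by
  have := Int.gcd_dvd_left (d : ℤ) (γ 1 0)
  exact_mod_cast this

theorem h64_hA_pos {d : ℕ} (hd : 0 < d) (γ : SL(2, ℤ)) : 0 < h64_hA d γ :=
  Nat.pos_of_dvd_of_pos (h64_hA_dvd d γ) hd

theorem h64_hA_mul_hD (d : ℕ) (γ : SL(2, ℤ)) : h64_hA d γ * h64_hD d γ = d :=
  Nat.mul_div_cancel' (h64_hA_dvd d γ)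

theorem h64_hD_pos {d : ℕ} (hd : 0 < d) (γ : SL(2, ℤ)) : 0 < h64_hD d γ := by
  rcases Nat.eq_zero_or_pos (h64_hD d γ) with h | h
  · have := h64_hA_mul_hD d γ
    rw [h, mul_zero] at this
    omega
  · exact h

theorem h64_hD_dvd (d : ℕ) (γ : SL(2, ℤ)) : h64_hD d γ ∣ d :=
  ⟨h64_hA d γ, by rw [mul_comm, h64_hA_mul_hD]⟩

theorem h64_hermite_nat (d : ℕ) (hd : 0 < d) (γ : SL(2, ℤ)) :
    ∃ (B : ℕ) (γ' : SL(2, ℤ)), B < h64_hD d γ ∧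
      !![(d : ℤ), 0; 0, 1] * (γ : Matrix (Fin 2) (Fin 2) ℤ)
        = (γ' : Matrix (Fin 2) (Fin 2) ℤ) *
          !![((h64_hA d γ : ℕ) : ℤ), ((B : ℕ) : ℤ); 0, ((h64_hD d γ : ℕ) : ℤ)] := by
  obtain ⟨γ', A, D, B, hAD, hA, hD, hgcd, hB0, hB1, hmat⟩ := h64_hermite d hd γ
  have hA' : A = h64_hA d γ := by
    rw [h64_hA]
    exact_mod_cast hgcd
  have hD' : D = h64_hD d γ := by
    rw [h64_hD, ← hA', ← hAD]
    exact (Nat.mul_div_cancel_left D hA).symm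
  refine ⟨B.toNat, γ', ?_, ?_⟩
  · rw [← hD']
    omega
  · rw [← hA', ← hD', Int.toNat_of_nonneg hB0]
    exact hmat

/-- `B`, chosen. -/
def h64_hB (d : ℕ) (γ : SL(2, ℤ)) : ℕ :=
  if hd : 0 < d then (h64_hermite_nat d hd γ).choose else 0

theorem h64_hB_spec {d : ℕ} (hd : 0 < d) (γ : SL(2, ℤ)) :
    ∃ γ' : SL(2, ℤ), h64_hB d γ < h64_hD d γ ∧
      !![(d : ℤ), 0; 0, 1] * (γ : Matrix (Fin 2) (Fin 2) ℤ)
        = (γ' : Matrix (Fin 2) (Fin 2) ℤ) *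
          !![((h64_hA d γ : ℕ) : ℤ), ((h64_hB d γ : ℕ) : ℤ); 0, ((h64_hD d γ : ℕ) : ℤ)] := by
  rw [h64_hB, dif_pos hd]
  exact (h64_hermite_nat d hd γ).choose_spec

theorem h64_hB_lt {d : ℕ} (hd : 0 < d) (γ : SL(2, ℤ)) : h64_hB d γ < h64_hD d γ := by
  obtain ⟨_, h, _⟩ := h64_hB_spec hd γ
  exact h

/-- The exponent of `ζ_N` in the twist. -/
def h64_hm (N d : ℕ) (γ : SL(2, ℤ)) : ℕ := (N / h64_hD d γ) * h64_hB d γ

/-- The dilation exponent `N A² / d = (N / D) A`. -/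
theorem h64_exp_eq {N d : ℕ} (hd : 0 < d) (hdN : d ∣ N) (γ : SL(2, ℤ)) :
    N * h64_hA d γ ^ 2 / d = N / h64_hD d γ * h64_hA d γ := by
  have hDN : h64_hD d γ ∣ N := (h64_hD_dvd d γ).trans hdN
  apply Nat.div_eq_of_eq_mul_left hd
  calc N * h64_hA d γ ^ 2 = (N / h64_hD d γ * h64_hD d γ) * h64_hA d γ ^ 2 := by
        rw [Nat.div_mul_cancel hDN]
    _ = N / h64_hD d γ * h64_hA d γ * (h64_hA d γ * h64_hD d γ) := by ring
    _ = N / h64_hD d γ * h64_hA d γ * d := by rw [h64_hA_mul_hD]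

theorem h64_exp_mul {N d : ℕ} (hd : 0 < d) (hdN : d ∣ N) (γ : SL(2, ℤ)) :
    (N * h64_hA d γ ^ 2 / d) * h64_hD d γ = h64_hA d γ * N := by
  have hDN : h64_hD d γ ∣ N := (h64_hD_dvd d γ).trans hdN
  rw [h64_exp_eq hd hdN]
  calc N / h64_hD d γ * h64_hA d γ * h64_hD d γ
      = h64_hA d γ * (N / h64_hD d γ * h64_hD d γ) := by ring
    _ = h64_hA d γ * N := by rw [Nat.div_mul_cancel hDN]

theorem h64_exp_ne_zero {N d : ℕ} (hN : 0 < N) (hd : 0 < d) (hdN : d ∣ N) (γ : SL(2, ℤ)) :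
    N * h64_hA d γ ^ 2 / d ≠ 0 := by
  intro h
  have := h64_exp_mul hd hdN γ
  rw [h, zero_mul] at this
  have h2 := Nat.mul_pos (h64_hA_pos hd γ) hN
  omega

/-! ### The twist by a unit of `ℂ` -/

theorem h64_twist_eq (u : ℂˣ) (f : LaurentSeries ℂ) : twist u f = h64_twist (u : ℂ) f := by
  ext k
  rw [twist_coeff, h64_twist_coeff, Units.val_zpow_eq_zpow_val]

/-- The root of unity in the twist. -/
theorem h64_root {N d : ℕ} (hN : 0 < N) (hd : 0 < d) (hdN : d ∣ N) (γ : SL(2, ℤ)) (w : ℂˣ)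
    (hw : (w : ℂ) = zetaC N) :
    ((w ^ h64_hm N d γ : ℂˣ) : ℂ) =
      Complex.exp (2 * Real.pi * Complex.I * ((h64_hB d γ : ℕ) : ℤ) / (h64_hD d γ : ℕ)) := by
  have hDN : h64_hD d γ ∣ N := (h64_hD_dvd d γ).trans hdN
  have hD0 : ((h64_hD d γ : ℕ) : ℂ) ≠ 0 := by exact_mod_cast (h64_hD_pos hd γ).ne'
  have hN0 : (N : ℂ) ≠ 0 := by exact_mod_cast hN.ne'
  rw [Units.val_pow_eq_pow_val, hw, zetaC, ← Complex.exp_nat_mul]
  congr 1
  rw [h64_hm]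
  push_cast
  rw [Nat.cast_div hDN hD0]
  field_simp

/-! ### Expansions of the conjugates, over `ℂ` -/

theorem h64_isQExp_subst {c : LaurentSeries ℂ} {f : ℍ → ℂ} (hf : h77_IsQExp 1 c f)
    {N d : ℕ} (hN : 0 < N) (hd : 0 < d) (hdN : d ∣ N) (γ : SL(2, ℤ)) (w : ℂˣ)
    (hw : (w : ℂ) = zetaC N) :
    h77_IsQExp N (subst (N * h64_hA d γ ^ 2 / d) (w ^ h64_hm N d γ) c)
      (fun τ => f (h64_aff (h64_hA d γ) (h64_hD d γ) ((h64_hB d γ : ℕ) : ℤ) τ)) := by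
  have he0 := h64_exp_ne_zero hN hd hdN γ
  haveI : NeZero (N * h64_hA d γ ^ 2 / d) := ⟨he0⟩
  rw [subst_apply, expand_of_ne_zero he0, h64_twist_eq, h64_root hN hd hdN γ w hw]
  exact h64_isQExp_aff hf _ (h64_hA_pos hd γ) (h64_hD_pos hd γ) hN (h64_exp_mul hd hdN γ)

/-- The expansion of `τ ↦ j(d · γτ)`. -/
theorem h64_isQExp_Jc {N d : ℕ} (hN : 0 < N) (hd : 0 < d) (hdN : d ∣ N) (γ : SL(2, ℤ))
    (w : ℂˣ) (hw : (w : ℂ) = zetaC N) :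
    h77_IsQExp N (Jc ℂ N (h64_hA d γ) d (h64_hm N d γ) w)
      (fun τ => h77_j (ofComplex ((d : ℂ) * ((γ • τ : ℍ) : ℂ)))) := by
  obtain ⟨γ', -, hmat⟩ := h64_hB_spec hd γ
  have h1 := h64_isQExp_subst h77_isQExp_jqModC hN hd hdN γ w hw
  refine h1.congr fun τ => ?_
  exact (h64_conj_eq (f := h77_j) h64_jf_smul (h64_hA_pos hd γ) (h64_hD_pos hd γ) hmat τ).symm

/-- The expansion of `τ ↦ d^12 Δ(d · γτ) / Δ(γτ)`. -/
theorem h64_isQExp_Uc {N d : ℕ} (hN : 0 < N) (hd : 0 < d) (hdN : d ∣ N) (γ : SL(2, ℤ))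
    (w : ℂˣ) (hw : (w : ℂ) = zetaC N) :
    h77_IsQExp N (Uc ℂ N (h64_hA d γ) d (h64_hm N d γ) w)
      (fun τ => (d : ℂ) ^ 12 * discriminant (ofComplex ((d : ℂ) * ((γ • τ : ℍ) : ℂ)))
        / discriminant (γ • τ)) := by
  obtain ⟨γ', -, hmat⟩ := h64_hB_spec hd γ
  haveI : NeZero N := ⟨hN.ne'⟩
  have h1 := h64_isQExp_subst h77_isQExp_deltaHat hN hd hdN γ w hw
  have h2 : h77_IsQExp N (expand ℂ N (deltaHatInv ℂ)) (fun τ => (discriminant τ)⁻¹) := by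
    have := h77_isQExp_deltaHatInv.qExpand_width N
    rw [mul_one] at this
    rw [expand_eq_qExpand]
    exact this
  have h3 : h77_IsQExp N (((h64_hA d γ : ℕ) : LaurentSeries ℂ) ^ 12)
      (fun _ => ((h64_hA d γ : ℕ) : ℂ) ^ 12) := by
    have := h77_isQExp_C N (((h64_hA d γ : ℕ) : ℂ) ^ 12)
    rw [map_pow, map_natCast] at this
    exact this
  have h4 := (h3.mul h1).mul h2
  rw [Uc]
  refine h4.congr fun τ => ?_
  rw [h64_delta_conj (h64_hA_pos hd γ) (h64_hD_pos hd γ) (h64_hA_mul_hD d γ) hmat τ,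
    div_eq_mul_inv]

/-! ### Arithmetic of the Hermite data -/

theorem h64_hA_gcd {N d : ℕ} (hdN : d ∣ N) (γ : SL(2, ℤ)) :
    h64_hA d γ = Nat.gcd d (h64_hA N γ) := by
  simp only [h64_hA, Int.gcd_eq_natAbs_gcd_natAbs, Int.natAbs_natCast]
  rw [← Nat.gcd_assoc, Nat.gcd_eq_left hdN]

theorem h64_dvd_of_mem {N d : ℕ} (hdN : d ∣ N) {δ : SL(2, ℤ)} (hδ : δ ∈ Gamma0 N) :
    (d : ℤ) ∣ δ 1 0 := by
  rw [Gamma0_mem, ZMod.intCast_zmod_eq_zero_iff_dvd] at hδ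
  exact (Int.natCast_dvd_natCast.mpr hdN).trans hδ

theorem h64_data_of_mem {N d : ℕ} (hd : 0 < d) (hdN : d ∣ N) {δ : SL(2, ℤ)}
    (hδ : δ ∈ Gamma0 N) : h64_hA d δ = d ∧ h64_hD d δ = 1 ∧ h64_hB d δ = 0 := by
  have hdvd := h64_dvd_of_mem hdN hδ
  have hA : h64_hA d δ = d := by
    rw [h64_hA, Int.gcd_eq_natAbs_left hdvd, Int.natAbs_natCast]
  have hD : h64_hD d δ = 1 := by
    rw [h64_hD, hA, Nat.div_self hd]
  have hB := h64_hB_lt hd δ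
  rw [hD] at hB
  exact ⟨hA, hD, by omega⟩

theorem h64_gamma0_of_hermite {N : ℕ} {γ₁ γ₂ γ₁' γ₂' : SL(2, ℤ)} {A B D : ℤ} (hAD : A * D = N)
    (h1 : !![(N : ℤ), 0; 0, 1] * (γ₁ : Matrix (Fin 2) (Fin 2) ℤ)
        = (γ₁' : Matrix (Fin 2) (Fin 2) ℤ) * !![A, B; 0, D])
    (h2 : !![(N : ℤ), 0; 0, 1] * (γ₂ : Matrix (Fin 2) (Fin 2) ℤ)
        = (γ₂' : Matrix (Fin 2) (Fin 2) ℤ) * !![A, B; 0, D]) :
    γ₁ * γ₂⁻¹ ∈ Gamma0 N := by
  rw [Gamma0_mem, ZMod.intCast_zmod_eq_zero_iff_dvd]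
  have a10 := congrFun (congrFun h1 1) 0
  have a11 := congrFun (congrFun h1 1) 1
  have b10 := congrFun (congrFun h2 1) 0
  have b11 := congrFun (congrFun h2 1) 1
  simp [Matrix.mul_apply, Fin.sum_univ_two] at a10 a11 b10 b11
  have key : (γ₁ * γ₂⁻¹) 1 0 = γ₁ 1 0 * γ₂ 1 1 - γ₁ 1 1 * γ₂ 1 0 := by
    simp [Matrix.SpecialLinearGroup.coe_mul, Matrix.SpecialLinearGroup.coe_inv,
      Matrix.adjugate_fin_two, Matrix.mul_apply, Fin.sum_univ_two]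
    ring
  rw [key, a10, a11, b10, b11]
  exact ⟨γ₁' 1 0 * γ₂' 1 1 - γ₁' 1 1 * γ₂' 1 0, by rw [← hAD]; ring⟩

/-! ### The functions attached to the coordinates -/

/-- `X_d ↦ j(dτ)`, `U_d ↦ d^12 Δ(dτ)/Δ(τ)`. -/
def h64_Y (N : ℕ) (x : Coord N) (τ : ℍ) : ℂ :=
  bif x.1 then
    ((x.2 : ℕ) : ℂ) ^ 12 * discriminant (ofComplex (((x.2 : ℕ) : ℂ) * (τ : ℂ))) / discriminant τ
  else h77_j (ofComplex (((x.2 : ℕ) : ℂ) * (τ : ℂ)))

/-- The coordinate functions are `Γ₀(N)`-invariant. -/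
theorem h64_Y_inv (N : ℕ) [NeZero N] (x : Coord N) (δ : SL(2, ℤ)) (hδ : δ ∈ Gamma0 N) (τ : ℍ) :
    h64_Y N x (δ • τ) = h64_Y N x τ := by
  obtain ⟨b, d, hdN⟩ := x
  have hd : 0 < d := Nat.pos_of_dvd_of_pos hdN (Nat.pos_of_ne_zero (NeZero.ne N))
  have hdvd := h64_dvd_of_mem hdN hδ
  cases b
  · show h77_j (ofComplex ((d : ℂ) * ((δ • τ : ℍ) : ℂ))) = h77_j (ofComplex ((d : ℂ) * (τ : ℂ)))
    exact (h64_conj_eq_iff (f := h77_j) h64_jf_smul h64_jf_leadOne hd δ).mpr hdvd τ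
  · show (d : ℂ) ^ 12 * discriminant (ofComplex ((d : ℂ) * ((δ • τ : ℍ) : ℂ)))
        / discriminant (δ • τ)
      = (d : ℂ) ^ 12 * discriminant (ofComplex ((d : ℂ) * (τ : ℂ))) / discriminant τ
    obtain ⟨γ', -, hmat⟩ := h64_hB_spec hd δ
    obtain ⟨hA, hD, hB⟩ := h64_data_of_mem hd hdN hδ
    rw [hA, hD, hB] at hmat
    rw [h64_delta_conj hd one_pos (mul_one d) hmat τ]
    congr 3
    rw [h64_aff]
    simp

/-! ### Cosets -/

/-- The representative of a coset. -/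
def h64_rep (N : ℕ) (r : SL(2, ℤ) ⧸ Gamma0 N) : SL(2, ℤ) := (Quotient.out r)⁻¹

theorem h64_rep_mul (N : ℕ) (γ : SL(2, ℤ)) (r : SL(2, ℤ) ⧸ Gamma0 N) :
    ∃ δ ∈ Gamma0 N, h64_rep N r * γ = δ * h64_rep N (γ⁻¹ • r) := by
  refine ⟨(Quotient.out r)⁻¹ * γ * Quotient.out (γ⁻¹ • r), ?_, ?_⟩
  · have h1 : ((Quotient.out (γ⁻¹ • r) : SL(2, ℤ)) : SL(2, ℤ) ⧸ Gamma0 N) = γ⁻¹ • r :=
      QuotientGroup.out_eq' _
    have h2 : γ⁻¹ • r = ((γ⁻¹ * Quotient.out r : SL(2, ℤ)) : SL(2, ℤ) ⧸ Gamma0 N) := by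
      calc γ⁻¹ • r = γ⁻¹ • ((Quotient.out r : SL(2, ℤ)) : SL(2, ℤ) ⧸ Gamma0 N) := by
            rw [QuotientGroup.out_eq']
        _ = _ := rfl
    have h12 : ((Quotient.out (γ⁻¹ • r) : SL(2, ℤ)) : SL(2, ℤ) ⧸ Gamma0 N)
        = ((γ⁻¹ * Quotient.out r : SL(2, ℤ)) : SL(2, ℤ) ⧸ Gamma0 N) := h1.trans h2
    rw [QuotientGroup.eq] at h12
    have h3 := (Gamma0 N).inv_mem h12
    have h4 : ((Quotient.out (γ⁻¹ • r))⁻¹ * (γ⁻¹ * Quotient.out r))⁻¹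
        = (Quotient.out r)⁻¹ * γ * Quotient.out (γ⁻¹ • r) := by
      rw [_root_.mul_inv_rev, _root_.mul_inv_rev, inv_inv, inv_inv]
    rw [← h4]
    exact h3
  · show (Quotient.out r)⁻¹ * γ
      = (Quotient.out r)⁻¹ * γ * Quotient.out (γ⁻¹ • r) * (Quotient.out (γ⁻¹ • r))⁻¹
    rw [mul_inv_cancel_right]

theorem h64_rep_one_mem (N : ℕ) :
    h64_rep N ((1 : SL(2, ℤ)) : SL(2, ℤ) ⧸ Gamma0 N) ∈ Gamma0 N := by
  have h : ((Quotient.out ((1 : SL(2, ℤ)) : SL(2, ℤ) ⧸ Gamma0 N) : SL(2, ℤ)) :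
      SL(2, ℤ) ⧸ Gamma0 N) = ((1 : SL(2, ℤ)) : SL(2, ℤ) ⧸ Gamma0 N) := QuotientGroup.out_eq' _
  rw [QuotientGroup.eq, mul_one] at h
  exact h

/-- The finiteness of the index set. -/
abbrev h64_fin (N : ℕ) [NeZero N] : Fintype (SL(2, ℤ) ⧸ Gamma0 N) :=
  Subgroup.fintypeQuotientOfFiniteIndex

theorem h64_inj (N : ℕ) [NeZero N] (r r' : SL(2, ℤ) ⧸ Gamma0 N)
    (ha : h64_hA N (h64_rep N r) = h64_hA N (h64_rep N r'))
    (hb : h64_hB N (h64_rep N r) = h64_hB N (h64_rep N r')) : r = r' := by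
  have hN : 0 < N := Nat.pos_of_ne_zero (NeZero.ne N)
  obtain ⟨γ₁', -, h1⟩ := h64_hB_spec hN (h64_rep N r)
  obtain ⟨γ₂', -, h2⟩ := h64_hB_spec hN (h64_rep N r')
  have hD : h64_hD N (h64_rep N r) = h64_hD N (h64_rep N r') := by
    rw [h64_hD, h64_hD, ha]
  rw [ha, hb, hD] at h1
  have hmem := h64_gamma0_of_hermite
    (by exact_mod_cast h64_hA_mul_hD N (h64_rep N r')) h1 h2
  have h3 : ((Quotient.out r : SL(2, ℤ)) : SL(2, ℤ) ⧸ Gamma0 N)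
      = ((Quotient.out r' : SL(2, ℤ)) : SL(2, ℤ) ⧸ Gamma0 N) := by
    rw [QuotientGroup.eq]
    simpa [h64_rep] using hmem
  rwa [QuotientGroup.out_eq', QuotientGroup.out_eq'] at h3

/-- `SL(2, ℤ)` permutes the conjugates. -/
theorem h64_perm (N : ℕ) [NeZero N] (γ : SL(2, ℤ)) :
    ∃ σ : (SL(2, ℤ) ⧸ Gamma0 N) ≃ (SL(2, ℤ) ⧸ Gamma0 N), ∀ (r : SL(2, ℤ) ⧸ Gamma0 N)
      (x : Coord N) (τ : ℍ),
      h64_Y N x (h64_rep N r • γ • τ) = h64_Y N x (h64_rep N (σ r) • τ) := by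
  refine ⟨MulAction.toPerm γ⁻¹, fun r x τ => ?_⟩
  obtain ⟨δ, hδ, h⟩ := h64_rep_mul N γ r
  rw [← mul_smul, h, mul_smul, h64_Y_inv N x δ hδ]
  rfl

/-! ### The conjugate series over `ℤ[ζ_N]` -/

/-- The conjugate series. -/
def h64_c (N : ℕ) [NeZero N] (r : SL(2, ℤ) ⧸ Gamma0 N) (x : Coord N) :
    LaurentSeries (cycO N) :=
  bif x.1 then
    Uc (cycO N) N (h64_hA x.2 (h64_rep N r)) x.2 (h64_hm N x.2 (h64_rep N r)) (zetaO N)
  else Jc (cycO N) N (h64_hA x.2 (h64_rep N r)) x.2 (h64_hm N x.2 (h64_rep N r)) (zetaO N)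

theorem h64_c_isQExp (N : ℕ) [NeZero N] (r : SL(2, ℤ) ⧸ Gamma0 N) (x : Coord N) :
    h77_IsQExp N (coeffMap (cycO N).subtype (h64_c N r x))
      (fun τ => h64_Y N x (h64_rep N r • τ)) := by
  obtain ⟨b, d, hdN⟩ := x
  have hN : 0 < N := Nat.pos_of_ne_zero (NeZero.ne N)
  have hd : 0 < d := Nat.pos_of_dvd_of_pos hdN hN
  cases b
  · show h77_IsQExp N (coeffMap (cycO N).subtype
        (Jc (cycO N) N (h64_hA d (h64_rep N r)) d (h64_hm N d (h64_rep N r)) (zetaO N)))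
      (fun τ => h77_j (ofComplex ((d : ℂ) * ((h64_rep N r • τ : ℍ) : ℂ))))
    rw [coeffMap_Jc]
    exact h64_isQExp_Jc hN hd hdN _ _ rfl
  · show h77_IsQExp N (coeffMap (cycO N).subtype
        (Uc (cycO N) N (h64_hA d (h64_rep N r)) d (h64_hm N d (h64_rep N r)) (zetaO N)))
      (fun τ => (d : ℂ) ^ 12 * discriminant (ofComplex ((d : ℂ) * ((h64_rep N r • τ : ℍ) : ℂ)))
        / discriminant (h64_rep N r • τ))
    rw [coeffMap_Uc]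
    exact h64_isQExp_Uc hN hd hdN _ _ rfl

theorem h64_Y_true_ne_zero (N : ℕ) [NeZero N] (d : {d : ℕ // d ∣ N}) (τ : ℍ) :
    h64_Y N (true, d) τ ≠ 0 := by
  have hd : 0 < (d : ℕ) := Nat.pos_of_dvd_of_pos d.2 (Nat.pos_of_ne_zero (NeZero.ne N))
  show ((d : ℕ) : ℂ) ^ 12 * discriminant (ofComplex (((d : ℕ) : ℂ) * (τ : ℂ))) / discriminant τ ≠ 0
  exact div_ne_zero (mul_ne_zero (pow_ne_zero 12 (Nat.cast_ne_zero.mpr hd.ne'))
    (discriminant_ne_zero _)) (discriminant_ne_zero _)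

/-- **The conjugate family over `ℤ[ζ_N]`** (task row 93 of project S28). -/
theorem exists_conjFamily (N : ℕ) [NeZero N] : Nonempty (ConjFamily (cycO N) N (zetaO N)) := by
  have hN : 0 < N := Nat.pos_of_ne_zero (NeZero.ne N)
  have h0 := h64_data_of_mem hN dvd_rfl (h64_rep_one_mem N)
  refine ⟨{
    ι := SL(2, ℤ) ⧸ Gamma0 N
    fin := h64_fin N
    a := fun r => h64_hA N (h64_rep N r)
    b := fun r => h64_hB N (h64_rep N r)
    r₀ := ((1 : SL(2, ℤ)) : SL(2, ℤ) ⧸ Gamma0 N)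
    c := h64_c N
    a_dvd := fun r => h64_hA_dvd N _
    b_lt := fun r => h64_hB_lt hN _
    inj := h64_inj N
    a_r₀ := h0.1
    cXN := ?_
    cX := ?_
    cU := ?_
    cX_r₀ := ?_
    cU_r₀ := ?_
    F1 := ?_
    F2 := ?_ }⟩
  · intro r
    show Jc (cycO N) N (h64_hA N (h64_rep N r)) N (h64_hm N N (h64_rep N r)) (zetaO N) = _
    have : h64_hm N N (h64_rep N r) = h64_hA N (h64_rep N r) * h64_hB N (h64_rep N r) := by
      rw [h64_hm, h64_hD, Nat.div_div_self (h64_hA_dvd N _) hN.ne']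
    rw [this]
  · intro r d
    refine ⟨h64_hm N d (h64_rep N r), ?_⟩
    show Jc (cycO N) N (h64_hA d (h64_rep N r)) d (h64_hm N d (h64_rep N r)) (zetaO N) = _
    rw [h64_hA_gcd d.2]
  · intro r d
    refine ⟨h64_hm N d (h64_rep N r), ?_⟩
    show Uc (cycO N) N (h64_hA d (h64_rep N r)) d (h64_hm N d (h64_rep N r)) (zetaO N) = _
    rw [h64_hA_gcd d.2]
  · intro d
    have hd : 0 < (d : ℕ) := Nat.pos_of_dvd_of_pos d.2 hN
    obtain ⟨hA, hD, hB⟩ := h64_data_of_mem hd d.2 (h64_rep_one_mem N)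
    show Jc (cycO N) N (h64_hA d (h64_rep N _)) d (h64_hm N d (h64_rep N _)) (zetaO N) = _
    have hm : h64_hm N d (h64_rep N ((1 : SL(2, ℤ)) : SL(2, ℤ) ⧸ Gamma0 N)) = 0 := by
      rw [h64_hm, hB, mul_zero]
    have he : N * (d : ℕ) ^ 2 / d = N * d := by
      rw [pow_two, ← mul_assoc, Nat.mul_div_cancel _ hd]
    rw [hA, hm, Jc, pow_zero, subst_apply, twist_one, he]
  · intro d
    have hd : 0 < (d : ℕ) := Nat.pos_of_dvd_of_pos d.2 hN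
    obtain ⟨hA, hD, hB⟩ := h64_data_of_mem hd d.2 (h64_rep_one_mem N)
    show Uc (cycO N) N (h64_hA d (h64_rep N _)) d (h64_hm N d (h64_rep N _)) (zetaO N) = _
    have hm : h64_hm N d (h64_rep N ((1 : SL(2, ℤ)) : SL(2, ℤ) ⧸ Gamma0 N)) = 0 := by
      rw [h64_hm, hB, mul_zero]
    have he : N * (d : ℕ) ^ 2 / d = N * d := by
      rw [pow_two, ← mul_assoc, Nat.mul_div_cancel _ hd]
    rw [hA, hm, Uc, pow_zero, subst_apply, twist_one, he]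
  · intro y
    letI := h64_fin N
    have := h64_F1_generic (cycO N).subtype Subtype.val_injective (N := N) (h64_c N)
      (fun r x τ => h64_Y N x (h64_rep N r • τ)) (h64_c_isQExp N) (h64_perm N) y
    rw [expand_eq_qExpand]
    exact ⟨this.choose, this.choose_spec⟩
  · intro d
    letI := h64_fin N
    exact h64_F2_generic (cycO N).subtype Subtype.val_injective (N := N)
      (fun r => h64_c N r (true, d)) (fun r τ => h64_Y N (true, d) (h64_rep N r • τ))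
      (fun r => h64_c_isQExp N r (true, d))
      (fun γ => (h64_perm N γ).elim fun σ hσ => ⟨σ, fun r τ => hσ r (true, d) τ⟩)
      (fun r τ => h64_Y_true_ne_zero N d _)

end Fermat.Agent.S28
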