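import Mathlib

set_option autoImplicit false

/-!
# S28, row I5: the matrix `gcd(d, δ)^2` on the divisors of `N` is positive definite

`gcd(d, δ) = Σ_{a ∣ d, a ∣ δ} φ(a)`, hence
`Σ_{d, δ} v_d v_δ gcd(d, δ)^2 = Σ_{a, b ∣ N} φ(a) φ(b) (Σ_{d : a ∣ d, b ∣ d} v_d)^2`.
-/

namespace Fermat.Agent.S28

/-- integer indicator of divisibility -/
private noncomputable def h60_chi (a d : ℕ) : ℤ := if a ∣ d then 1 else 0

private theorem h60_gcd_eq_sum (N : ℕ) (hN : N ≠ 0) {d δ : ℕ} (hd : d ∈ N.divisors) :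
    (Nat.gcd d δ : ℤ) = ∑ a ∈ N.divisors, h60_chi a d * h60_chi a δ * (Nat.totient a : ℤ) := by
  classical
  have h1 : ∀ a ∈ N.divisors, h60_chi a d * h60_chi a δ * (Nat.totient a : ℤ)
      = if a ∣ d ∧ a ∣ δ then (Nat.totient a : ℤ) else 0 := by
    intro a _
    unfold h60_chi
    by_cases h1 : a ∣ d <;> by_cases h2 : a ∣ δ <;> simp [h1, h2]
  rw [Finset.sum_congr rfl h1, ← Finset.sum_filter]
  have h2 : N.divisors.filter (fun a => a ∣ d ∧ a ∣ δ) = (Nat.gcd d δ).divisors := by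
    ext a
    simp only [Finset.mem_filter, Nat.mem_divisors]
    constructor
    · rintro ⟨_, h1, h2⟩
      exact ⟨Nat.dvd_gcd h1 h2, (Nat.gcd_pos_of_pos_left _ (Nat.pos_of_mem_divisors hd)).ne'⟩
    · rintro ⟨h1, _⟩
      have hd' := Nat.dvd_of_mem_divisors hd
      exact ⟨⟨(h1.trans (Nat.gcd_dvd_left d δ)).trans hd', hN⟩, h1.trans (Nat.gcd_dvd_left d δ),
        h1.trans (Nat.gcd_dvd_right d δ)⟩
  rw [h2]
  exact_mod_cast (Nat.sum_totient (Nat.gcd d δ)).symm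

private theorem h60_sum_comm4 (D : Finset ℕ) (F : ℕ → ℕ → ℕ → ℕ → ℤ) :
    ∑ d ∈ D, ∑ δ ∈ D, ∑ a ∈ D, ∑ b ∈ D, F d δ a b
      = ∑ a ∈ D, ∑ b ∈ D, ∑ d ∈ D, ∑ δ ∈ D, F d δ a b := by
  calc ∑ d ∈ D, ∑ δ ∈ D, ∑ a ∈ D, ∑ b ∈ D, F d δ a b
      = ∑ d ∈ D, ∑ a ∈ D, ∑ δ ∈ D, ∑ b ∈ D, F d δ a b :=
        Finset.sum_congr rfl (fun d _ => Finset.sum_comm)
    _ = ∑ a ∈ D, ∑ d ∈ D, ∑ δ ∈ D, ∑ b ∈ D, F d δ a b := Finset.sum_comm
    _ = ∑ a ∈ D, ∑ d ∈ D, ∑ b ∈ D, ∑ δ ∈ D, F d δ a b :=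
        Finset.sum_congr rfl (fun a _ => Finset.sum_congr rfl (fun d _ => Finset.sum_comm))
    _ = ∑ a ∈ D, ∑ b ∈ D, ∑ d ∈ D, ∑ δ ∈ D, F d δ a b :=
        Finset.sum_congr rfl (fun a _ => Finset.sum_comm)

/-- the quadratic form as a sum of squares with positive weights -/
private theorem h60_form_eq (N : ℕ) (hN : N ≠ 0) (v : ℕ → ℤ) :
    ∑ d ∈ N.divisors, v d * ∑ δ ∈ N.divisors, v δ * ((Nat.gcd d δ : ℤ)) ^ 2
      = ∑ a ∈ N.divisors, ∑ b ∈ N.divisors, (Nat.totient a : ℤ) * (Nat.totient b : ℤ)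
          * (∑ d ∈ N.divisors, h60_chi a d * h60_chi b d * v d) ^ 2 := by
  have e1 : ∀ d ∈ N.divisors, v d * ∑ δ ∈ N.divisors, v δ * ((Nat.gcd d δ : ℤ)) ^ 2
      = ∑ δ ∈ N.divisors, ∑ a ∈ N.divisors, ∑ b ∈ N.divisors,
          (Nat.totient a : ℤ) * (Nat.totient b : ℤ) * (h60_chi a d * h60_chi b d * v d)
            * (h60_chi a δ * h60_chi b δ * v δ) := by
    intro d hd
    rw [Finset.mul_sum]
    refine Finset.sum_congr rfl fun δ _ => ?_
    rw [h60_gcd_eq_sum N hN hd, sq, Finset.sum_mul_sum, Finset.mul_sum, Finset.mul_sum]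
    refine Finset.sum_congr rfl fun a _ => ?_
    rw [Finset.mul_sum, Finset.mul_sum]
    refine Finset.sum_congr rfl fun b _ => by ring
  have e2 : ∀ a ∈ N.divisors, ∀ b ∈ N.divisors, (Nat.totient a : ℤ) * (Nat.totient b : ℤ)
          * (∑ d ∈ N.divisors, h60_chi a d * h60_chi b d * v d) ^ 2
      = ∑ d ∈ N.divisors, ∑ δ ∈ N.divisors,
          (Nat.totient a : ℤ) * (Nat.totient b : ℤ) * (h60_chi a d * h60_chi b d * v d)
            * (h60_chi a δ * h60_chi b δ * v δ) := by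
    intro a _ b _
    rw [sq, Finset.sum_mul_sum, Finset.mul_sum]
    refine Finset.sum_congr rfl fun d _ => ?_
    rw [Finset.mul_sum]
    refine Finset.sum_congr rfl fun δ _ => by ring
  rw [Finset.sum_congr rfl e1,
    Finset.sum_congr rfl (fun a ha => Finset.sum_congr rfl (fun b hb => e2 a ha b hb))]
  exact h60_sum_comm4 N.divisors _

/-- **I5.** The matrix `gcd(d, δ)^2` on the divisors of `N` is nondegenerate. -/
theorem gcd_sq_posdef (N : ℕ) (hN : N ≠ 0) (v : ℕ → ℤ)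
    (h : ∀ d ∈ N.divisors, ∑ δ ∈ N.divisors, v δ * ((Nat.gcd d δ : ℤ)) ^ 2 = 0) :
    ∀ δ ∈ N.divisors, v δ = 0 := by
  classical
  have hform := h60_form_eq N hN v
  rw [Finset.sum_congr rfl (fun d hd => by rw [h d hd, mul_zero])] at hform
  rw [Finset.sum_const_zero] at hform
  -- each diagonal sum vanishes
  have hW : ∀ e ∈ N.divisors, ∑ d ∈ N.divisors, h60_chi e d * h60_chi e d * v d = 0 := by
    intro e he
    have hnn : ∀ a ∈ N.divisors, 0 ≤ ∑ b ∈ N.divisors, (Nat.totient a : ℤ) * (Nat.totient b : ℤ)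
          * (∑ d ∈ N.divisors, h60_chi a d * h60_chi b d * v d) ^ 2 := by
      intro a _
      refine Finset.sum_nonneg fun b _ => ?_
      positivity
    have h1 := (Finset.sum_eq_zero_iff_of_nonneg hnn).mp hform.symm e he
    have hnn2 : ∀ b ∈ N.divisors, 0 ≤ (Nat.totient e : ℤ) * (Nat.totient b : ℤ)
          * (∑ d ∈ N.divisors, h60_chi e d * h60_chi b d * v d) ^ 2 := by
      intro b _
      positivity
    have h2 := (Finset.sum_eq_zero_iff_of_nonneg hnn2).mp h1 e he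
    have hpos : (0 : ℤ) < (Nat.totient e : ℤ) := by
      exact_mod_cast Nat.totient_pos.mpr (Nat.pos_of_mem_divisors he)
    have h3 : (∑ d ∈ N.divisors, h60_chi e d * h60_chi e d * v d) ^ 2 = 0 := by
      rcases mul_eq_zero.mp h2 with h | h
      · rcases mul_eq_zero.mp h with h | h <;> exact absurd h hpos.ne'
      · exact h
    exact pow_eq_zero_iff (two_ne_zero) |>.mp h3
  -- maximal counterexample
  by_contra hcon
  obtain ⟨δ₀, hcon'⟩ := not_forall.mp hcon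
  obtain ⟨hδ₀, hvδ₀⟩ := Classical.not_imp.mp hcon'
  set T := N.divisors.filter (fun δ => v δ ≠ 0) with hT
  have hne : T.Nonempty := ⟨δ₀, Finset.mem_filter.mpr ⟨hδ₀, hvδ₀⟩⟩
  set m := T.max' hne with hm
  have hmT : m ∈ T := Finset.max'_mem T hne
  obtain ⟨hmD, hvm⟩ := Finset.mem_filter.mp hmT
  have h4 := hW m hmD
  rw [Finset.sum_eq_single m] at h4
  · have : h60_chi m m = 1 := by simp [h60_chi]
    rw [this, one_mul, one_mul] at h4
    exact hvm h4
  · intro d hd hdm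
    by_cases hdiv : m ∣ d
    · have hle : m ≤ d := Nat.le_of_dvd (Nat.pos_of_mem_divisors hd) hdiv
      have hlt : m < d := lt_of_le_of_ne hle (Ne.symm hdm)
      have hvd : v d = 0 := by
        by_contra hvd
        have : d ∈ T := Finset.mem_filter.mpr ⟨hd, hvd⟩
        have := Finset.le_max' T d this
        omega
      rw [hvd, mul_zero]
    · have : h60_chi m d = 0 := by simp [h60_chi, hdiv]
      rw [this, zero_mul, zero_mul]
  · intro h; exact absurd hmD h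

/-- **I5, counting corollary.** -/
theorem card_eq_of_gcd_sums (N : ℕ) (hN : N ≠ 0) {ι : Type*} [Fintype ι] [DecidableEq ι]
    (a : ι → ℕ) (ha : ∀ r, a r ∣ N) (S : Finset ι) (r₀ : ι) (hr₀ : r₀ ∈ S) (ha₀ : a r₀ = N)
    (huniq : ∀ r, a r = N → r = r₀)
    (hS : ∀ d ∈ N.divisors, ∑ r ∈ S, (Nat.gcd d (a r)) ^ 2 = d * S.card)
    (hR : ∀ d ∈ N.divisors, ∑ r, (Nat.gcd d (a r)) ^ 2 = d * Fintype.card ι) :
    S.card = Fintype.card ι := by
  classical
  have key : ∀ (T : Finset ι) (d : ℕ),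
      ∑ δ ∈ N.divisors, ((T.filter (fun r => a r = δ)).card : ℤ) * ((Nat.gcd d δ : ℤ)) ^ 2
        = ∑ r ∈ T, ((Nat.gcd d (a r) : ℤ)) ^ 2 := by
    intro T d
    rw [← Finset.sum_fiberwise_of_maps_to (s := T) (t := N.divisors) (g := a)
      (fun r _ => Nat.mem_divisors.mpr ⟨ha r, hN⟩)]
    refine Finset.sum_congr rfl fun δ _ => ?_
    rw [Finset.card_eq_sum_ones, Nat.cast_sum, Finset.sum_mul]
    refine Finset.sum_congr rfl fun r hr => ?_
    rw [(Finset.mem_filter.mp hr).2]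
    simp
  let v : ℕ → ℤ := fun δ => (Fintype.card ι : ℤ) * ((S.filter (fun r => a r = δ)).card : ℤ)
    - (S.card : ℤ) * ((Finset.univ.filter (fun r => a r = δ)).card : ℤ)
  have h0 : ∀ d ∈ N.divisors, ∑ δ ∈ N.divisors, v δ * ((Nat.gcd d δ : ℤ)) ^ 2 = 0 := by
    intro d hd
    have h1' : ∑ r ∈ S, ((Nat.gcd d (a r) : ℤ)) ^ 2 = (d : ℤ) * S.card := by
      exact_mod_cast hS d hd
    have h2' : ∑ r, ((Nat.gcd d (a r) : ℤ)) ^ 2 = (d : ℤ) * Fintype.card ι := by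
      exact_mod_cast hR d hd
    have : ∀ δ ∈ N.divisors, v δ * ((Nat.gcd d δ : ℤ)) ^ 2
        = (Fintype.card ι : ℤ) * (((S.filter (fun r => a r = δ)).card : ℤ) * ((Nat.gcd d δ : ℤ)) ^ 2)
          - (S.card : ℤ) * (((Finset.univ.filter (fun r => a r = δ)).card : ℤ)
              * ((Nat.gcd d δ : ℤ)) ^ 2) := by
      intro δ _
      simp only [v]
      ring
    rw [Finset.sum_congr rfl this, Finset.sum_sub_distrib, ← Finset.mul_sum, ← Finset.mul_sum,
      key S d, key Finset.univ d, h1', h2']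
    ring
  have hvN := gcd_sq_posdef N hN v h0 N (Nat.mem_divisors.mpr ⟨dvd_rfl, hN⟩)
  have c1 : S.filter (fun r => a r = N) = {r₀} := by
    ext r
    simp only [Finset.mem_filter, Finset.mem_singleton]
    constructor
    · rintro ⟨_, h⟩
      exact huniq r h
    · rintro rfl
      exact ⟨hr₀, ha₀⟩
  have c2 : Finset.univ.filter (fun r => a r = N) = {r₀} := by
    ext r
    simp only [Finset.mem_filter, Finset.mem_univ, true_and, Finset.mem_singleton]
    exact ⟨huniq r, fun h => h ▸ ha₀⟩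
  simp only [v, c1, c2, Finset.card_singleton, Nat.cast_one, mul_one] at hvN
  have : (Fintype.card ι : ℤ) = S.card := by linarith
  exact_mod_cast this.symm

end Fermat.Agent.S28
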