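import Mathlib

set_option autoImplicit false

namespace Fermat.Agent.S28

open Polynomial

/-- Synthetic division: the quotient of `∑ C (p m) * X ^ m` by `X - C a`. -/
noncomputable def h56_synth {L : Type*} [Field L] (n : ℕ) (p : ℕ → L) (a : L) : L[X] :=
  ∑ m ∈ Finset.range (n + 1), C (p m) * ∑ i ∈ Finset.range m, X ^ i * C a ^ (m - 1 - i)

lemma h56_synth_mul {L : Type*} [Field L] (n : ℕ) (p : ℕ → L) (a : L)
    (ha : ∑ m ∈ Finset.range (n + 1), p m * a ^ m = 0) :
    (X - C a) * h56_synth n p a = ∑ m ∈ Finset.range (n + 1), C (p m) * X ^ m := by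
  unfold h56_synth
  rw [Finset.mul_sum]
  have h1 : ∀ m ∈ Finset.range (n + 1),
      (X - C a) * (C (p m) * ∑ i ∈ Finset.range m, X ^ i * C a ^ (m - 1 - i)) =
        C (p m) * X ^ m - C (p m * a ^ m) := by
    intro m _
    rw [mul_left_comm, (Commute.all (X : L[X]) (C a)).mul_geom_sum₂, mul_sub, C_mul, C_pow]
  rw [Finset.sum_congr rfl h1, Finset.sum_sub_distrib, ← map_sum, ha, map_zero, sub_zero]

lemma h56_synth_eval {L : Type*} [Field L] (n : ℕ) (p : ℕ → L) (a x : L) :
    (h56_synth n p a).eval x =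
      ∑ m ∈ Finset.range (n + 1), ∑ i ∈ Finset.range m, p m * (a ^ (m - 1 - i) * x ^ i) := by
  unfold h56_synth
  rw [eval_finsetSum]
  refine Finset.sum_congr rfl (fun m _ => ?_)
  rw [eval_mul, eval_C, eval_finsetSum, Finset.mul_sum]
  refine Finset.sum_congr rfl (fun i _ => ?_)
  rw [eval_mul, eval_pow, eval_pow, eval_X, eval_C]
  ring

theorem lagrange_interp {B Ω : Type*} [CommRing B] [Field Ω] (ψ : B →+* Ω) {ι : Type*} [Fintype ι]
    [DecidableEq ι] (ρ η : ι → Ω) (Q : B[X]) (hQ : ∏ r, (X - C (ρ r)) = Q.map ψ)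
    (htr : ∀ m : ℕ, ∃ t : B, ∑ r, η r * ρ r ^ m = ψ t) :
    ∃ G : B[X], ∀ r, η r * (derivative (Q.map ψ)).eval (ρ r) = (G.map ψ).eval (ρ r) := by
  choose t ht using htr
  set n := Q.natDegree with hn
  set p : ℕ → Ω := fun m => ψ (Q.coeff m) with hp
  -- the polynomial `P = Q.map ψ` as an explicit sum
  have hP : Q.map ψ = ∑ m ∈ Finset.range (n + 1), C (p m) * X ^ m := by
    conv_lhs => rw [Q.as_sum_range_C_mul_X_pow]
    rw [Polynomial.map_sum]
    refine Finset.sum_congr rfl (fun m _ => ?_)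
    rw [Polynomial.map_mul, Polynomial.map_pow, map_X, map_C]
  -- each `ρ r` is a root
  have hroot : ∀ r, ∑ m ∈ Finset.range (n + 1), p m * ρ r ^ m = 0 := by
    intro r
    have h1 : (Q.map ψ).eval (ρ r) = 0 := by
      rw [← hQ, eval_prod]
      exact Finset.prod_eq_zero (Finset.mem_univ r) (by simp)
    rw [hP, eval_finsetSum] at h1
    rw [← h1]
    refine Finset.sum_congr rfl (fun m _ => ?_)
    simp
  -- the cofactor of `X - C (ρ r)` is the synthetic quotient
  have hcof : ∀ r, ∏ r' ∈ Finset.univ.erase r, (X - C (ρ r')) = h56_synth n p (ρ r) := by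
    intro r
    have h1 : (X - C (ρ r)) * ∏ r' ∈ Finset.univ.erase r, (X - C (ρ r')) =
        (X - C (ρ r)) * h56_synth n p (ρ r) := by
      rw [Finset.mul_prod_erase Finset.univ (fun r' => X - C (ρ r')) (Finset.mem_univ r),
        h56_synth_mul n p (ρ r) (hroot r), hQ, hP]
    exact mul_left_cancel₀ (X_sub_C_ne_zero (ρ r)) h1
  -- evaluation of the cofactors
  have hev : ∀ r s, (∏ r' ∈ Finset.univ.erase r, (X - C (ρ r'))).eval (ρ s) =
      if r = s then ∏ r' ∈ Finset.univ.erase s, (ρ s - ρ r') else 0 := by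
    intro r s
    rw [eval_prod]
    split_ifs with hrs
    · subst hrs
      refine Finset.prod_congr rfl (fun r' _ => by simp)
    · exact Finset.prod_eq_zero (Finset.mem_erase.mpr ⟨Ne.symm hrs, Finset.mem_univ s⟩) (by simp)
  -- the derivative at a root
  have hder : ∀ s, (derivative (Q.map ψ)).eval (ρ s) = ∏ r' ∈ Finset.univ.erase s, (ρ s - ρ r') := by
    intro s
    rw [← hQ, derivative_prod_finset, eval_finsetSum]
    have h2 : ∀ r ∈ (Finset.univ : Finset ι),
        ((∏ r' ∈ Finset.univ.erase r, (X - C (ρ r'))) * derivative (X - C (ρ r))).eval (ρ s) =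
          if r = s then ∏ r' ∈ Finset.univ.erase s, (ρ s - ρ r') else 0 := by
      intro r _
      rw [derivative_sub, derivative_X, derivative_C, sub_zero, mul_one, hev]
    rw [Finset.sum_congr rfl h2, Finset.sum_ite_eq' Finset.univ s]
    simp
  -- the interpolating polynomial
  refine ⟨∑ m ∈ Finset.range (n + 1), ∑ i ∈ Finset.range m,
    C (Q.coeff m * t (m - 1 - i)) * X ^ i, fun s => ?_⟩
  have hG : (Polynomial.map ψ (∑ m ∈ Finset.range (n + 1), ∑ i ∈ Finset.range m,
      C (Q.coeff m * t (m - 1 - i)) * X ^ i)).eval (ρ s) =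
      ∑ r, η r * (h56_synth n p (ρ r)).eval (ρ s) := by
    rw [Polynomial.map_sum, eval_finsetSum]
    have h3 : ∀ r, η r * (h56_synth n p (ρ r)).eval (ρ s) =
        ∑ m ∈ Finset.range (n + 1), ∑ i ∈ Finset.range m,
          η r * (p m * (ρ r ^ (m - 1 - i) * ρ s ^ i)) := by
      intro r
      rw [h56_synth_eval, Finset.mul_sum]
      refine Finset.sum_congr rfl (fun m _ => ?_)
      rw [Finset.mul_sum]
    rw [Finset.sum_congr rfl (fun r _ => h3 r), Finset.sum_comm]
    refine Finset.sum_congr rfl (fun m _ => ?_)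
    rw [Polynomial.map_sum, eval_finsetSum, Finset.sum_comm]
    refine Finset.sum_congr rfl (fun i _ => ?_)
    rw [Polynomial.map_mul, Polynomial.map_pow, map_X, map_C, eval_mul, eval_C, eval_pow, eval_X,
      map_mul, ← ht (m - 1 - i), Finset.mul_sum, Finset.sum_mul]
    refine Finset.sum_congr rfl (fun r _ => ?_)
    simp only [hp]
    ring
  rw [hG, hder]
  have h4 : ∀ r ∈ (Finset.univ : Finset ι), η r * (h56_synth n p (ρ r)).eval (ρ s) =
      if r = s then η s * ∏ r' ∈ Finset.univ.erase s, (ρ s - ρ r') else 0 := by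
    intro r _
    rw [← hcof r, hev]
    split_ifs with hrs
    · rw [hrs]
    · rw [mul_zero]
  rw [Finset.sum_congr rfl h4, Finset.sum_ite_eq' Finset.univ s]
  simp

theorem trace_mem_of_prod {B Ω : Type*} [CommRing B] [Field Ω] (ψ : B →+* Ω) {ι : Type*}
    [Fintype ι] (θ : ι → Ω) (Q : B[X]) (hQ : ∏ r, (X - C (θ r)) = Q.map ψ) :
    ∃ t : B, ∑ r, θ r = ψ t := by
  have h1 : nextCoeff (Q.map ψ) = -∑ r, θ r := by
    rw [← hQ]
    exact prod_X_sub_C_nextCoeff θ
  have h2 : ∑ r, θ r = -nextCoeff (Q.map ψ) := by rw [h1, neg_neg]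
  by_cases h0 : (Q.map ψ).natDegree = 0
  · refine ⟨0, ?_⟩
    rw [h2, nextCoeff, if_pos h0, neg_zero, map_zero]
  · refine ⟨-Q.coeff ((Q.map ψ).natDegree - 1), ?_⟩
    rw [h2, nextCoeff, if_neg h0, coeff_map, map_neg]

end Fermat.Agent.S28
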