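import Mathlib

/-
helper7, project S28, task I3: the product over the conjugates of `x` of a rational function of
`x` lies in the base field (via resultants).
-/

set_option autoImplicit false

namespace Fermat.Agent.S28

open Polynomial

/-- The roots in `Ω` of the minimal polynomial of `ρ r₀` are the `ρ r`, `r ∈ S`, without
repetition, and the minimal polynomial splits in `Ω`. -/
private theorem h7_roots_minpoly {k₀ Ω : Type*} [Field k₀] [Field Ω] [Algebra k₀ Ω] {ι : Type*}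
    [Fintype ι] (ρ : ι → Ω) (hρ : Function.Injective ρ) (P : k₀[X])
    (hP : ∏ r, (X - C (ρ r)) = P.map (algebraMap k₀ Ω)) (r₀ : ι)
    (S : Finset ι) (hS : ∀ r, r ∈ S ↔ aeval (ρ r) (minpoly k₀ (ρ r₀)) = 0) :
    ((minpoly k₀ (ρ r₀)).map (algebraMap k₀ Ω)).roots = S.val.map ρ ∧
      ((minpoly k₀ (ρ r₀)).map (algebraMap k₀ Ω)).Splits := by
  classical
  have hmonic : (∏ r, (X - C (ρ r))).Monic := monic_prod_of_monic _ _ fun r _ => monic_X_sub_C _
  have hPne : P.map (algebraMap k₀ Ω) ≠ 0 := hP ▸ hmonic.ne_zero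
  have hP0 : P ≠ 0 := fun h => hPne (by rw [h, Polynomial.map_zero])
  have hroot : aeval (ρ r₀) P = 0 := by
    rw [aeval_def, ← eval_map, ← hP, eval_prod]
    exact Finset.prod_eq_zero (Finset.mem_univ r₀) (by simp)
  have hint : IsIntegral k₀ (ρ r₀) := IsAlgebraic.isIntegral ⟨P, hP0, hroot⟩
  have hdvd : minpoly k₀ (ρ r₀) ∣ P := minpoly.dvd k₀ _ hroot
  have hdvd' : (minpoly k₀ (ρ r₀)).map (algebraMap k₀ Ω) ∣ P.map (algebraMap k₀ Ω) :=
    Polynomial.map_dvd _ hdvd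
  have hsplitP : (P.map (algebraMap k₀ Ω)).Splits := by
    rw [← hP]
    exact Splits.prod fun r _ => Splits.X_sub_C _
  have hsplit : ((minpoly k₀ (ρ r₀)).map (algebraMap k₀ Ω)).Splits :=
    Splits.of_dvd hsplitP hPne hdvd'
  have hrootsP : (P.map (algebraMap k₀ Ω)).roots = Finset.univ.val.map ρ := by
    rw [← hP, Finset.prod_eq_multiset_prod]
    have : (Finset.univ.val.map fun r => X - C (ρ r)) =
        ((Finset.univ.val.map ρ).map fun a => X - C a) := by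
      rw [Multiset.map_map]; rfl
    rw [this, roots_multiset_prod_X_sub_C]
  have hnodupP : (P.map (algebraMap k₀ Ω)).roots.Nodup := by
    rw [hrootsP]
    exact Multiset.Nodup.map hρ Finset.univ.nodup
  have hle : ((minpoly k₀ (ρ r₀)).map (algebraMap k₀ Ω)).roots ≤
      (P.map (algebraMap k₀ Ω)).roots := roots.le_of_dvd hPne hdvd'
  have hnodup : ((minpoly k₀ (ρ r₀)).map (algebraMap k₀ Ω)).roots.Nodup :=
    Multiset.nodup_of_le hle hnodupP
  have hmne : (minpoly k₀ (ρ r₀)).map (algebraMap k₀ Ω) ≠ 0 :=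
    ((minpoly.monic hint).map _).ne_zero
  refine ⟨?_, hsplit⟩
  rw [Multiset.Nodup.ext hnodup (Multiset.Nodup.map hρ S.nodup)]
  intro y
  rw [mem_roots hmne, IsRoot.def, eval_map, ← aeval_def, Multiset.mem_map]
  constructor
  · intro hy
    have hyP : y ∈ (P.map (algebraMap k₀ Ω)).roots := by
      rw [mem_roots hPne, IsRoot.def, eval_map, ← aeval_def]
      obtain ⟨Q, hQ⟩ := hdvd
      rw [hQ, map_mul, hy, zero_mul]
    rw [hrootsP, Multiset.mem_map] at hyP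
    obtain ⟨r, -, rfl⟩ := hyP
    exact ⟨r, (hS r).mpr hy, rfl⟩
  · rintro ⟨r, hr, rfl⟩
    exact (hS r).mp hr

/-- The product of the values of a polynomial over `k₀` at the conjugates of `ρ r₀`. -/
private theorem h7_prod_aeval_mem {k₀ Ω : Type*} [Field k₀] [Field Ω] [Algebra k₀ Ω] {ι : Type*}
    [Fintype ι] (ρ : ι → Ω) (hρ : Function.Injective ρ) (P : k₀[X])
    (hP : ∏ r, (X - C (ρ r)) = P.map (algebraMap k₀ Ω)) (r₀ : ι)
    (S : Finset ι) (hS : ∀ r, r ∈ S ↔ aeval (ρ r) (minpoly k₀ (ρ r₀)) = 0) (G : k₀[X]) :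
    ∃ ν : k₀, algebraMap k₀ Ω ν = ∏ r ∈ S, aeval (ρ r) G := by
  classical
  obtain ⟨hroots, hsplit⟩ := h7_roots_minpoly ρ hρ P hP r₀ S hS
  have hmonic : (∏ r, (X - C (ρ r))).Monic := monic_prod_of_monic _ _ fun r _ => monic_X_sub_C _
  have hPne : P.map (algebraMap k₀ Ω) ≠ 0 := hP ▸ hmonic.ne_zero
  have hP0 : P ≠ 0 := fun h => hPne (by rw [h, Polynomial.map_zero])
  have hroot : aeval (ρ r₀) P = 0 := by
    rw [aeval_def, ← eval_map, ← hP, eval_prod]
    exact Finset.prod_eq_zero (Finset.mem_univ r₀) (by simp)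
  have hint : IsIntegral k₀ (ρ r₀) := IsAlgebraic.isIntegral ⟨P, hP0, hroot⟩
  have hm : ((minpoly k₀ (ρ r₀)).map (algebraMap k₀ Ω)).Monic := (minpoly.monic hint).map _
  have key := resultant_eq_prod_eval ((minpoly k₀ (ρ r₀)).map (algebraMap k₀ Ω))
    (G.map (algebraMap k₀ Ω)) G.natDegree natDegree_map_le hsplit
  rw [resultant_map_map, hm.leadingCoeff, one_pow, one_mul, hroots, Multiset.map_map] at key
  refine ⟨_, key.trans ?_⟩
  rw [Finset.prod_eq_multiset_prod]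
  congr 1
  refine Multiset.map_congr rfl fun r _ => ?_
  simp [aeval_def, eval_map]

open scoped Classical in
theorem card_filter_eq_natDegree {k₀ Ω : Type*} [Field k₀] [Field Ω] [Algebra k₀ Ω] {ι : Type*}
    [Fintype ι] (ρ : ι → Ω) (hρ : Function.Injective ρ) (P : k₀[X])
    (hP : ∏ r, (X - C (ρ r)) = P.map (algebraMap k₀ Ω)) (r₀ : ι) :
    (Finset.univ.filter (fun r => aeval (ρ r) (minpoly k₀ (ρ r₀)) = 0)).card =
      (minpoly k₀ (ρ r₀)).natDegree := by
  obtain ⟨hroots, hsplit⟩ := h7_roots_minpoly ρ hρ P hP r₀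
    (Finset.univ.filter (fun r => aeval (ρ r) (minpoly k₀ (ρ r₀)) = 0)) (fun r => by simp)
  have h1 := hsplit.natDegree_eq_card_roots
  rw [hroots, Multiset.card_map, natDegree_map] at h1
  exact h1.symm

open scoped Classical in
theorem prod_conj_mem {k₀ Ω : Type*} [Field k₀] [Field Ω] [Algebra k₀ Ω] {ι : Type*} [Fintype ι]
    (ρ η : ι → Ω) (hρ : Function.Injective ρ) (P : k₀[X])
    (hP : ∏ r, (X - C (ρ r)) = P.map (algebraMap k₀ Ω)) (r₀ : ι)
    (G D : k₀[X]) (hD : ∀ r, aeval (ρ r) D ≠ 0) (hη : ∀ r, η r * aeval (ρ r) D = aeval (ρ r) G) :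
    ∃ ν : k₀, algebraMap k₀ Ω ν =
      ∏ r ∈ Finset.univ.filter (fun r => aeval (ρ r) (minpoly k₀ (ρ r₀)) = 0), η r := by
  set S := Finset.univ.filter (fun r => aeval (ρ r) (minpoly k₀ (ρ r₀)) = 0) with hSdef
  have hS : ∀ r, r ∈ S ↔ aeval (ρ r) (minpoly k₀ (ρ r₀)) = 0 := fun r => by simp [hSdef]
  obtain ⟨νG, hνG⟩ := h7_prod_aeval_mem ρ hρ P hP r₀ S hS G
  obtain ⟨νD, hνD⟩ := h7_prod_aeval_mem ρ hρ P hP r₀ S hS D
  have hDne : ∏ r ∈ S, aeval (ρ r) D ≠ 0 := Finset.prod_ne_zero_iff.mpr fun r _ => hD r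
  refine ⟨νG / νD, ?_⟩
  rw [map_div₀, hνG, hνD, div_eq_iff hDne, ← Finset.prod_mul_distrib]
  exact Finset.prod_congr rfl fun r _ => (hη r).symm

end Fermat.Agent.S28
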