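import Mathlib
import Fermat.Agent.S28.Defs
import Fermat.Agent.S28.Cyc

/-!
# S28 (Igusa), row I6 : push-forward of a `ConjFamily`, reduction `ℤ[ζ_N] → k`

* `ConjFamily.map` : push-forward of a conjugate family along a surjective ring hom;
* `exists_reduction` : a residue field `k` of `ℤ[ζ_N]` of characteristic `ℓ ∤ N` in which
  the image of `ζ_N` still has exact order `N`;
* `igusa_core_of_field` : the Igusa core over `ZMod ℓ` from the core over fields.
-/

set_option autoImplicit false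

noncomputable section

namespace Fermat.Agent.S28

open ModularCurve Polynomial

section Functoriality

variable {A B : Type*} [CommRing A] [CommRing B]

theorem h1_coeffMap_expand (φ : A →+* B) (m : ℕ) (f : LaurentSeries A) :
    coeffMap φ (expand A m f) = expand B m (coeffMap φ f) := by
  unfold expand
  by_cases h : m = 0
  · simp [h]
  · rw [dif_neg h, dif_neg h]
    have : NeZero m := ⟨h⟩
    exact coeffMap_qExpand φ m f

theorem h1_coeffMap_twist (φ : A →+* B) (u : Aˣ) (f : LaurentSeries A) :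
    coeffMap φ (twist u f) = twist (Units.map (φ : A →* B) u) (coeffMap φ f) := by
  ext n
  simp only [coeffMap_coeff, twist_coeff, map_mul]
  congr 1
  rw [← map_zpow]
  rfl

theorem h1_coeffMap_subst (φ : A →+* B) (m : ℕ) (u : Aˣ) (f : LaurentSeries A) :
    coeffMap φ (subst m u f) = subst m (Units.map (φ : A →* B) u) (coeffMap φ f) := by
  simp only [subst, RingHom.comp_apply, h1_coeffMap_expand, h1_coeffMap_twist]

theorem h1_map_map_intCast (φ : A →+* B) (p : PowerSeries ℤ) :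
    (p.map (Int.castRingHom A)).map φ = p.map (Int.castRingHom B) := by
  rw [← RingHom.comp_apply (PowerSeries.map φ) (PowerSeries.map (Int.castRingHom A)),
    ← PowerSeries.map_comp, RingHom.ext_int (φ.comp (Int.castRingHom A)) (Int.castRingHom B)]

theorem h1_coeffMap_deltaHat (φ : A →+* B) : coeffMap φ (deltaHat A) = deltaHat B := by
  rw [deltaHat, map_mul, coeffMap_single, map_one, coeffMap_ofPowerSeries, h1_map_map_intCast,
    deltaHat]

theorem h1_coeffMap_deltaHatInv (φ : A →+* B) : coeffMap φ (deltaHatInv A) = deltaHatInv B := by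
  rw [deltaHatInv, map_mul, coeffMap_single, map_one, coeffMap_ofPowerSeries, h1_map_map_intCast,
    deltaHatInv]

theorem h1_algebraMap_eq_single (a : A) :
    algebraMap A (LaurentSeries A) a = HahnSeries.single 0 a := by
  have h1 : algebraMap A (PowerSeries A) a = PowerSeries.C a := by simp
  rw [HahnSeries.algebraMap_apply', h1, HahnSeries.ofPowerSeries_C]
  rfl

theorem h1_coeffMap_algebraMap (φ : A →+* B) (a : A) :
    coeffMap φ (algebraMap A (LaurentSeries A) a) = algebraMap B (LaurentSeries B) (φ a) := by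
  rw [h1_algebraMap_eq_single, h1_algebraMap_eq_single, coeffMap_single]

theorem h1_coeffMap_mvAeval {σ : Type*} (φ : A →+* B) (f : σ → LaurentSeries A)
    (y : MvPolynomial σ A) :
    coeffMap φ (MvPolynomial.aeval f y) =
      MvPolynomial.aeval (fun i => coeffMap φ (f i)) (MvPolynomial.map φ y) := by
  induction y using MvPolynomial.induction_on with
  | C a => simp [h1_coeffMap_algebraMap]
  | add p q hp hq => simp [hp, hq]
  | mul_X p i hp => simp [hp]

theorem h1_coeffMap_comp_aeval (φ : A →+* B) (x : LaurentSeries A) :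
    (coeffMap φ).comp (Polynomial.aeval x).toRingHom =
      ((Polynomial.aeval (coeffMap φ x)).toRingHom).comp (Polynomial.mapRingHom φ) := by
  apply Polynomial.ringHom_ext
  · intro a
    simp [h1_coeffMap_algebraMap]
  · simp

end Functoriality

section JU

variable {A B : Type} [CommRing A] [CommRing B]

theorem h1_coeffMap_Jc (φ : A →+* B) (N g d m : ℕ) (z : Aˣ) :
    coeffMap φ (Jc A N g d m z) = Jc B N g d m (Units.map (φ : A →* B) z) := by
  rw [Jc, h1_coeffMap_subst, coeffMap_jqModC, map_pow, Jc]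

theorem h1_coeffMap_Uc (φ : A →+* B) (N g d m : ℕ) (z : Aˣ) :
    coeffMap φ (Uc A N g d m z) = Uc B N g d m (Units.map (φ : A →* B) z) := by
  rw [Uc, map_mul, map_mul, map_pow, map_natCast, h1_coeffMap_subst, h1_coeffMap_deltaHat,
    h1_coeffMap_expand, h1_coeffMap_deltaHatInv, map_pow, Uc]

end JU

section Map

variable {A B : Type} [CommRing A] [CommRing B] {N : ℕ} {z : Aˣ}

/-- Push-forward of a conjugate family along a surjective ring homomorphism. -/
def ConjFamily.map (F : ConjFamily A N z) (φ : A →+* B) (hφ : Function.Surjective φ) :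
    ConjFamily B N (Units.map (φ : A →* B) z) where
  ι := F.ι
  fin := F.fin
  a := F.a
  b := F.b
  r₀ := F.r₀
  c r i := coeffMap φ (F.c r i)
  a_dvd := F.a_dvd
  b_lt := F.b_lt
  inj := F.inj
  a_r₀ := F.a_r₀
  cXN r := by rw [F.cXN r, h1_coeffMap_Jc]
  cX r d := by
    obtain ⟨m, hm⟩ := F.cX r d
    exact ⟨m, by rw [hm, h1_coeffMap_Jc]⟩
  cU r d := by
    obtain ⟨m, hm⟩ := F.cU r d
    exact ⟨m, by rw [hm, h1_coeffMap_Uc]⟩
  cX_r₀ d := by rw [F.cX_r₀ d, h1_coeffMap_expand, coeffMap_jqModC]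
  cU_r₀ d := by
    rw [F.cU_r₀ d, map_mul, map_mul, map_pow, map_natCast, h1_coeffMap_expand,
      h1_coeffMap_expand, h1_coeffMap_deltaHat, h1_coeffMap_deltaHatInv]
  F1 y := by
    let _ := F.fin
    obtain ⟨y₀, rfl⟩ := MvPolynomial.map_surjective φ hφ y
    obtain ⟨Q₀, hQ₀⟩ := F.F1 y₀
    refine ⟨Q₀.map (Polynomial.mapRingHom φ), ?_⟩
    have h := congrArg (Polynomial.map (coeffMap φ)) hQ₀
    rw [Polynomial.map_map, h1_coeffMap_comp_aeval, h1_coeffMap_expand, coeffMap_jqModC,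
      ← Polynomial.map_map, Polynomial.map_prod] at h
    rw [← h]
    refine Finset.prod_congr rfl fun r _ => ?_
    rw [Polynomial.map_sub, Polynomial.map_X, Polynomial.map_C, h1_coeffMap_mvAeval]
  F2 d := by
    let _ := F.fin
    obtain ⟨C, hC⟩ := F.F2 d
    refine ⟨φ C, ?_⟩
    rw [← map_prod, hC, HahnSeries.C_apply, coeffMap_single, HahnSeries.C_apply]

theorem ConjFamily.map_ι (F : ConjFamily A N z) (φ : A →+* B) (hφ : Function.Surjective φ) :
    (F.map φ hφ).ι = F.ι := rfl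

theorem ConjFamily.map_fin (F : ConjFamily A N z) (φ : A →+* B) (hφ : Function.Surjective φ) :
    (F.map φ hφ).fin = F.fin := rfl

end Map

section Reduction

theorem h1_cycO_isIntegral (N : ℕ) [NeZero N] (x : ℂ) (hx : x ∈ cycO N) : IsIntegral ℤ x := by
  have hz : IsIntegral ℤ (zetaC N) :=
    ⟨X ^ N - 1, monic_X_pow_sub_C 1 (NeZero.ne N), by simp [zetaC_pow]⟩
  have hle : cycO N ≤ (integralClosure ℤ ℂ).toSubring := by
    apply (Subring.closure_le).mpr
    rintro y rfl
    exact hz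
  exact hle hx

theorem h1_natCast_not_isUnit (N ℓ : ℕ) [NeZero N] (hℓ : ℓ.Prime) :
    ¬ IsUnit ((ℓ : ℕ) : cycO N) := by
  rintro ⟨u, hu⟩
  have hx : IsIntegral ℤ (((u⁻¹ : (cycO N)ˣ) : cycO N) : ℂ) :=
    h1_cycO_isIntegral N _ (Subtype.property _)
  have h1 : (ℓ : ℂ) * (((u⁻¹ : (cycO N)ˣ) : cycO N) : ℂ) = 1 := by
    have h2 := congrArg (Subtype.val) (u.mul_inv)
    rw [hu] at h2
    simpa using h2
  have hℓ0 : (ℓ : ℂ) ≠ 0 := Nat.cast_ne_zero.mpr hℓ.ne_zero
  have hxq : (((u⁻¹ : (cycO N)ˣ) : cycO N) : ℂ) = algebraMap ℚ ℂ ((ℓ : ℚ)⁻¹) := by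
    rw [map_inv₀, map_natCast]
    exact eq_inv_of_mul_eq_one_right h1
  rw [hxq] at hx
  have hq : IsIntegral ℤ ((ℓ : ℚ)⁻¹) :=
    (isIntegral_algebraMap_iff (algebraMap ℚ ℂ).injective).mp hx
  obtain ⟨n, hn⟩ := IsIntegrallyClosed.isIntegral_iff.mp hq
  have h3 : ((ℓ : ℤ) * n : ℚ) = 1 := by
    have : (algebraMap ℤ ℚ n) = (n : ℚ) := rfl
    rw [this] at hn
    rw [hn]
    exact mul_inv_cancel₀ (Nat.cast_ne_zero.mpr hℓ.ne_zero)
  have h4 : (ℓ : ℤ) * n = 1 := by exact_mod_cast h3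
  have h5 : (ℓ : ℤ) ∣ 1 := ⟨n, h4.symm⟩
  have h6 : ℓ ∣ 1 := by exact_mod_cast h5
  exact hℓ.one_lt.ne' (Nat.dvd_one.mp h6)

theorem h1_prod_one_sub_zeta (N : ℕ) [NeZero N] :
    ∏ k ∈ Finset.range (N - 1), (1 - (zetaC N) ^ (k + 1)) = (N : ℂ) := by
  have h := zetaC_isPrimitiveRoot N
  obtain ⟨n, hn⟩ : ∃ n, N = n + 1 := Nat.exists_eq_succ_of_ne_zero (NeZero.ne N)
  rw [hn] at h ⊢
  simpa using h.prod_one_sub_pow_eq_order

/-- A residue field of `ℤ[ζ_N]` of characteristic `ℓ ∤ N` in which `ζ_N` has exact order `N`. -/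
theorem exists_reduction (N ℓ : ℕ) [NeZero N] [Fact ℓ.Prime] (hℓN : ¬ ℓ ∣ N) :
    ∃ (k : Type) (_ : Field k) (_ : CharP k ℓ) (φ : cycO N →+* k), Function.Surjective φ ∧
      orderOf (Units.map (φ : cycO N →* k) (zetaO N)) = N := by
  have hℓ := (Fact.out : ℓ.Prime)
  have hne : Ideal.span {((ℓ : ℕ) : cycO N)} ≠ ⊤ := by
    rw [Ne, Ideal.span_singleton_eq_top]
    exact h1_natCast_not_isUnit N ℓ hℓ
  obtain ⟨𝔪, h𝔪, hle⟩ := Ideal.exists_le_maximal _ hne
  letI : Field (cycO N ⧸ 𝔪) := Ideal.Quotient.field 𝔪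
  have hℓ0 : ((ℓ : ℕ) : cycO N ⧸ 𝔪) = 0 := by
    have h : Ideal.Quotient.mk 𝔪 ((ℓ : ℕ) : cycO N) = 0 :=
      Ideal.Quotient.eq_zero_iff_mem.mpr (hle (Ideal.subset_span rfl))
    simpa using h
  have hchar : CharP (cycO N ⧸ 𝔪) ℓ := (CharP.charP_iff_prime_eq_zero hℓ).mpr hℓ0
  refine ⟨cycO N ⧸ 𝔪, inferInstance, hchar, Ideal.Quotient.mk 𝔪, Ideal.Quotient.mk_surjective, ?_⟩
  have hN0 : ((N : ℕ) : cycO N ⧸ 𝔪) ≠ 0 := by
    intro h
    exact hℓN ((CharP.cast_eq_zero_iff _ ℓ N).mp h)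
  have hzN : (zetaO N) ^ N = 1 := by
    apply Units.ext
    apply Subtype.ext
    simp [zetaC_pow]
  have hpow : (Units.map ((Ideal.Quotient.mk 𝔪 : cycO N →+* cycO N ⧸ 𝔪) : cycO N →* cycO N ⧸ 𝔪) (zetaO N)) ^ N = 1 := by
    rw [← map_pow, hzN, map_one]
  have hdvd := orderOf_dvd_of_pow_eq_one hpow
  by_contra hne'
  have hNpos : 0 < N := Nat.pos_of_ne_zero (NeZero.ne N)
  have hlt := lt_of_le_of_ne (Nat.le_of_dvd hNpos hdvd) hne'
  have hpos := Nat.pos_of_dvd_of_pos hdvd hNpos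
  have hprod : ∏ k ∈ Finset.range (N - 1), (1 - ((zetaO N : (cycO N)ˣ) : cycO N) ^ (k + 1)) =
      ((N : ℕ) : cycO N) := by
    apply Subtype.ext
    have := h1_prod_one_sub_zeta N
    push_cast
    simpa using this
  have h2 := congrArg (Ideal.Quotient.mk 𝔪) hprod
  rw [map_prod, map_natCast] at h2
  apply hN0
  rw [← h2]
  apply Finset.prod_eq_zero (i := orderOf (Units.map ((Ideal.Quotient.mk 𝔪 : cycO N →+* cycO N ⧸ 𝔪) : cycO N →* cycO N ⧸ 𝔪) (zetaO N)) - 1)
  · rw [Finset.mem_range]; omega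
  · rw [Nat.sub_add_cancel hpos, map_sub, map_one, map_pow]
    have h3 := pow_orderOf_eq_one (Units.map ((Ideal.Quotient.mk 𝔪 : cycO N →+* cycO N ⧸ 𝔪) : cycO N →* cycO N ⧸ 𝔪) (zetaO N))
    have h4 := congrArg Units.val h3
    rw [Units.val_pow_eq_pow_val, Units.coe_map, Units.val_one] at h4
    rw [sub_eq_zero]
    exact h4.symm

end Reduction

section Core

theorem h1_coeffMap_eval_map {A B : Type*} [CommRing A] [CommRing B] (ψ : A →+* B)
    (H : Polynomial (Polynomial A)) (x y : LaurentSeries A) :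
    coeffMap ψ ((H.map (Polynomial.aeval x).toRingHom).eval y) =
      ((H.map (Polynomial.mapRingHom ψ)).map
        (Polynomial.aeval (coeffMap ψ x)).toRingHom).eval (coeffMap ψ y) := by
  rw [Polynomial.eval_map, Polynomial.hom_eval₂, h1_coeffMap_comp_aeval, Polynomial.map_map,
    Polynomial.eval_map]

/-- The Igusa core over `ZMod ℓ` follows from the Igusa core over fields containing a
primitive `N`-th root of unity (row I7), by reduction of a conjugate family over `ℤ[ζ_N]`. -/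
theorem igusa_core_of_field
    (hcore : ∀ {k : Type} [Field k] (N : ℕ) [NeZero N] (z : kˣ) (_ : orderOf z = N)
      (F : ConjFamily k N z) (H : Polynomial (Polynomial k)) (_ : H ≠ 0)
      (_ : H.natDegree < @Fintype.card F.ι F.fin),
      (H.map (Polynomial.aeval (jqModC k)).toRingHom).eval (qExpand k N (jqModC k)) ≠ 0)
    (N ℓ : ℕ) [NeZero N] [Fact ℓ.Prime] (hℓN : ¬ ℓ ∣ N)
    (F : ConjFamily (cycO N) N (zetaO N)) (H : Polynomial (Polynomial (ZMod ℓ))) (hH : H ≠ 0)
    (hdeg : H.natDegree < @Fintype.card F.ι F.fin) :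
    (H.map (Polynomial.aeval (jqModC (ZMod ℓ))).toRingHom).eval
      (qExpand (ZMod ℓ) N (jqModC (ZMod ℓ))) ≠ 0 := by
  obtain ⟨k, hk, hchar, φ, hφ, hord⟩ := exists_reduction N ℓ hℓN
  let ψ : ZMod ℓ →+* k := ZMod.castHom (dvd_refl ℓ) k
  have hψ : Function.Injective ψ := ψ.injective
  have hH' : H.map (Polynomial.mapRingHom ψ) ≠ 0 := by
    intro h
    exact hH ((Polynomial.map_eq_zero_iff (Polynomial.map_injective ψ hψ)).mp h)
  have hdeg' : (H.map (Polynomial.mapRingHom ψ)).natDegree <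
      @Fintype.card (F.map φ hφ).ι (F.map φ hφ).fin :=
    lt_of_le_of_lt Polynomial.natDegree_map_le hdeg
  have hmain := hcore N (Units.map (φ : cycO N →* k) (zetaO N)) hord (F.map φ hφ)
    (H.map (Polynomial.mapRingHom ψ)) hH' hdeg'
  intro h0
  apply hmain
  have h1 := congrArg (coeffMap ψ) h0
  rw [map_zero, h1_coeffMap_eval_map, coeffMap_jqModC, coeffMap_qExpand, coeffMap_jqModC] at h1
  exact h1

end Core

end Fermat.Agent.S28
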