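import Mathlib
import Fermat.Agent.S28.Defs
import Fermat.Agent.S28.Formal
import Fermat.Agent.S28.Orders
import Fermat.Agent.S28.Lagrange
import Fermat.Agent.S28.NormLemma
import Fermat.Agent.S28.GcdSq
import Fermat.Agent.S28.Reduce

/-!
# S28 : the Igusa core over a field containing a primitive `N`-th root of unity
-/

set_option autoImplicit false
open ModularCurve Polynomial
noncomputable section
namespace Fermat.Agent.S28

open scoped Classical in
/-- Abstract unit lemma: the product of the `η r` over the conjugates of `ρ r₀` is a unit of the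
integrally closed base ring. -/
theorem h98_unit_prod {B K₀ Ω : Type*} [CommRing B] [IsDomain B] [IsIntegrallyClosed B] [Field K₀]
    [Algebra B K₀] [IsFractionRing B K₀] [Field Ω] [Algebra B Ω] [Algebra K₀ Ω]
    [IsScalarTower B K₀ Ω] {ι : Type*} [Fintype ι] (ρ η : ι → Ω)
    (hρ : Function.Injective ρ) (Q : B[X]) (hQ : ∏ r, (X - C (ρ r)) = Q.map (algebraMap B Ω))
    (htr : ∀ m : ℕ, ∃ t : B, ∑ r, η r * ρ r ^ m = algebraMap B Ω t)
    (hint : ∀ r, IsIntegral B (η r)) (u : B) (hu : IsUnit u)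
    (hprod : ∏ r, η r = algebraMap B Ω u) (r₀ : ι) :
    ∃ n : B, IsUnit n ∧ algebraMap B Ω n =
      ∏ r ∈ Finset.univ.filter (fun r => aeval (ρ r) (minpoly K₀ (ρ r₀)) = 0), η r := by
  classical
  obtain ⟨G, hG⟩ := lagrange_interp (algebraMap B Ω) ρ η Q hQ htr
  have hP : ∏ r, (X - C (ρ r)) = (Q.map (algebraMap B K₀)).map (algebraMap K₀ Ω) := by
    rw [Polynomial.map_map, ← IsScalarTower.algebraMap_eq]; exact hQ
  have hsep : (∏ r, (X - C (ρ r))).Separable := separable_prod_X_sub_C_iff.mpr hρ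
  have hroot : ∀ r, (∏ r', (X - C (ρ r'))).eval (ρ r) = 0 := by
    intro r
    rw [eval_prod]
    exact Finset.prod_eq_zero (Finset.mem_univ r) (by simp)
  have hD : ∀ r, aeval (ρ r) (derivative (Q.map (algebraMap B K₀))) ≠ 0 := by
    intro r
    have h1 := hsep.aeval_derivative_ne_zero (x := ρ r)
      (by rw [Polynomial.coe_aeval_eq_eval]; exact hroot r)
    rw [Polynomial.coe_aeval_eq_eval] at h1
    rw [aeval_def, eval₂_eq_eval_map, ← derivative_map, ← hP]
    exact h1
  have hη : ∀ r, η r * aeval (ρ r) (derivative (Q.map (algebraMap B K₀))) =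
      aeval (ρ r) (G.map (algebraMap B K₀)) := by
    intro r
    have h := hG r
    rw [aeval_def, eval₂_eq_eval_map, ← derivative_map, Polynomial.map_map,
      ← IsScalarTower.algebraMap_eq, aeval_def, eval₂_eq_eval_map, Polynomial.map_map,
      ← IsScalarTower.algebraMap_eq]
    exact h
  obtain ⟨ν, hν⟩ := prod_conj_mem ρ η hρ _ hP r₀ _ _ hD hη
  set S := Finset.univ.filter (fun r => aeval (ρ r) (minpoly K₀ (ρ r₀)) = 0) with hS
  have hinjK : Function.Injective (algebraMap K₀ Ω) := (algebraMap K₀ Ω).injective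
  have hνint : IsIntegral B ν := by
    have : IsIntegral B (algebraMap K₀ Ω ν) := by
      rw [hν]; exact IsIntegral.prod _ (fun r _ => hint r)
    exact (isIntegral_algebraMap_iff hinjK).mp this
  obtain ⟨n, hn⟩ := IsIntegrallyClosed.isIntegral_iff.mp hνint
  have hsplit : (∏ r ∈ S, η r) * (∏ r ∈ Sᶜ, η r) = algebraMap B Ω u := by
    rw [Finset.prod_mul_prod_compl, hprod]
  have hu0 : algebraMap B Ω u ≠ 0 := by
    rw [IsScalarTower.algebraMap_apply B K₀ Ω]
    intro h0
    have h1 : algebraMap B K₀ u = 0 := hinjK (by rw [h0, map_zero])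
    have h2 : u = 0 := IsFractionRing.injective B K₀ (by rw [h1, map_zero])
    exact hu.ne_zero h2
  have hν0 : ν ≠ 0 := by
    intro h0
    rw [h0, map_zero] at hν
    rw [← hν, zero_mul] at hsplit
    exact hu0 hsplit.symm
  have hcof : algebraMap K₀ Ω (algebraMap B K₀ u / ν) = ∏ r ∈ Sᶜ, η r := by
    have hν0' : algebraMap K₀ Ω ν ≠ 0 := fun h => hν0 (hinjK (by rw [h, map_zero]))
    rw [map_div₀, ← IsScalarTower.algebraMap_apply B K₀ Ω, ← hsplit, hν]
    rw [hν] at hν0'
    field_simp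
  have hcofint : IsIntegral B (algebraMap B K₀ u / ν) := by
    have : IsIntegral B (algebraMap K₀ Ω (algebraMap B K₀ u / ν)) := by
      rw [hcof]; exact IsIntegral.prod _ (fun r _ => hint r)
    exact (isIntegral_algebraMap_iff hinjK).mp this
  obtain ⟨n', hn'⟩ := IsIntegrallyClosed.isIntegral_iff.mp hcofint
  have hnn' : n * n' = u := by
    apply IsFractionRing.injective B K₀
    rw [map_mul, hn, hn']
    field_simp
  refine ⟨n, isUnit_of_mul_isUnit_left (hnn' ▸ hu), ?_⟩
  rw [← hν, ← hn, ← IsScalarTower.algebraMap_apply]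


/-- Instance-free packaging of the field theory: the set `S` of conjugates of `ρ r₀` over the
fraction field of `B` (embedded in `Ω` through `ψ`). -/
theorem h98_degree {B Ω : Type*} [CommRing B] [IsDomain B] [IsIntegrallyClosed B] [Field Ω]
    (ψ : B →+* Ω) (hψ : Function.Injective ψ) {ι : Type*} [Fintype ι] (ρ : ι → Ω)
    (hρ : Function.Injective ρ) (Q : B[X]) (hQ : ∏ r, (X - C (ρ r)) = Q.map ψ) (r₀ : ι) :
    ∃ S : Finset ι, r₀ ∈ S ∧
      (∀ H : B[X], H ≠ 0 → H.natDegree < S.card → (H.map ψ).eval (ρ r₀) ≠ 0) ∧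
      (∀ η : ι → Ω, (∀ m : ℕ, ∃ t : B, ∑ r, η r * ρ r ^ m = ψ t) →
        (∀ r, ∃ Qη : B[X], Qη.Monic ∧ (Qη.map ψ).eval (η r) = 0) →
        ∀ u : B, IsUnit u → ∏ r, η r = ψ u → ∃ n : B, IsUnit n ∧ ψ n = ∏ r ∈ S, η r) := by
  classical
  letI algB : Algebra B Ω := ψ.toAlgebra
  have hinjB : Function.Injective (algebraMap B Ω) := hψ
  let K₀ := FractionRing B
  let lift : K₀ →+* Ω := IsFractionRing.lift (K := K₀) hinjB
  letI algK : Algebra K₀ Ω := lift.toAlgebra
  haveI : IsScalarTower B K₀ Ω := IsScalarTower.of_algebraMap_eq (fun x => by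
    show ψ x = lift (algebraMap B K₀ x)
    exact (IsFractionRing.lift_algebraMap hinjB x).symm)
  have hP : ∏ r, (X - C (ρ r)) = (Q.map (algebraMap B K₀)).map (algebraMap K₀ Ω) := by
    rw [Polynomial.map_map, ← IsScalarTower.algebraMap_eq]; exact hQ
  refine ⟨Finset.univ.filter (fun r => aeval (ρ r) (minpoly K₀ (ρ r₀)) = 0), ?_, ?_, ?_⟩
  · simp [minpoly.aeval]
  · intro H hH0 hHdeg hev
    rw [card_filter_eq_natDegree ρ hρ _ hP r₀] at hHdeg
    have hH0' : H.map (algebraMap B K₀) ≠ 0 := by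
      intro h
      apply hH0
      exact Polynomial.map_injective _ (IsFractionRing.injective B K₀) (by rw [h, Polynomial.map_zero])
    have hroot : aeval (ρ r₀) (H.map (algebraMap B K₀)) = 0 := by
      rw [aeval_def, eval₂_eq_eval_map, Polynomial.map_map, ← IsScalarTower.algebraMap_eq]
      exact hev
    have hle := Polynomial.natDegree_le_natDegree (minpoly.degree_le_of_ne_zero K₀ (ρ r₀) hH0' hroot)
    rw [Polynomial.natDegree_map_eq_of_injective (IsFractionRing.injective B K₀)] at hle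
    omega
  · intro η htr hint u hu hprod
    refine h98_unit_prod (K₀ := K₀) ρ η hρ Q hQ htr ?_ u hu hprod r₀
    intro r
    obtain ⟨Qη, hmon, hev⟩ := hint r
    exact ⟨Qη, hmon, by rw [← eval_map]; exact hev⟩


section Main

variable {k : Type} [Field k]

theorem h98_order_prod {ι : Type*} (s : Finset ι) (f : ι → LaurentSeries k)
    (hf : ∀ r ∈ s, f r ≠ 0) : (∏ r ∈ s, f r).order = ∑ r ∈ s, (f r).order := by
  classical
  induction s using Finset.induction_on with
  | empty => simp [HahnSeries.order_one]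
  | insert a s ha ih =>
    rw [Finset.prod_insert ha, Finset.sum_insert ha,
      HahnSeries.order_mul (hf a (Finset.mem_insert_self a s))
        (Finset.prod_ne_zero_iff.mpr fun r hr => hf r (Finset.mem_insert_of_mem hr)),
      ih fun r hr => hf r (Finset.mem_insert_of_mem hr)]

theorem h98_algebraMap_eq_C (c : k) : algebraMap k (LaurentSeries k) c = HahnSeries.C c := by
  rw [ModularCurve.algebraMap_laurentSeries_eq_single, HahnSeries.C_apply]

theorem h98_coeff_algebraMap_mul (c : k) (f : LaurentSeries k) (n : ℤ) :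
    (algebraMap k (LaurentSeries k) c * f).coeff n = c * f.coeff n := by
  rw [ModularCurve.algebraMap_laurentSeries_eq_single, HahnSeries.coeff_single_zero_mul]

/-- A Laurent series of negative order is transcendental over the coefficient field. -/
theorem h98_aeval_ne_zero (f : LaurentSeries k) (hf : f.order < 0) {p : k[X]} (hp : p ≠ 0) :
    aeval f p ≠ 0 := by
  have hf0 : f ≠ 0 := by
    rintro rfl
    simp [HahnSeries.order_zero] at hf
  intro h
  have hfn : f ^ p.natDegree ≠ 0 := pow_ne_zero _ hf0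
  have key : (aeval f p).coeff (p.natDegree • f.order) =
      p.leadingCoeff * (f ^ p.natDegree).coeff ((f ^ p.natDegree).order) := by
    rw [aeval_def, eval₂_eq_sum_range, HahnSeries.coeff_sum, Finset.sum_eq_single p.natDegree]
    · rw [h98_coeff_algebraMap_mul, HahnSeries.order_pow]; rfl
    · intro i hi hne
      have hi' : i < p.natDegree := lt_of_le_of_ne (Nat.lt_succ_iff.mp (Finset.mem_range.mp hi)) hne
      rw [h98_coeff_algebraMap_mul, HahnSeries.coeff_eq_zero_of_lt_order, mul_zero]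
      rw [HahnSeries.order_pow]
      simp only [nsmul_eq_mul]
      have : (i : ℤ) < p.natDegree := by exact_mod_cast hi'
      nlinarith
    · intro h'
      exact absurd (Finset.mem_range.mpr (Nat.lt_succ_self _)) h'
  rw [h, HahnSeries.coeff_zero] at key
  have h1 : (f ^ p.natDegree).coeff ((f ^ p.natDegree).order) ≠ 0 :=
    fun h0 => hfn (HahnSeries.coeff_order_eq_zero.mp h0)
  exact mul_ne_zero (leadingCoeff_ne_zero.mpr hp) h1 key.symm

theorem h98_twist_one (f : LaurentSeries k) : twist (1 : kˣ) f = f := by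
  ext n
  simp [twist_coeff]

/-- **Igusa core** over a field containing a primitive `N`-th root of unity: `j(q^N)` has degree
at least `card ι` over `k(j)`. -/
theorem igusa_core_field (N : ℕ) [NeZero N] (z : kˣ) (hz : orderOf z = N) (F : ConjFamily k N z)
    (H : Polynomial (Polynomial k)) (hH : H ≠ 0)
    (hdeg : H.natDegree < @Fintype.card F.ι F.fin) :
    (H.map (Polynomial.aeval (jqModC k)).toRingHom).eval (qExpand k N (jqModC k)) ≠ 0 := by
  classical
  letI := F.fin
  have hN0 : N ≠ 0 := NeZero.ne N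
  have hNpos : 0 < N := Nat.pos_of_ne_zero hN0
  have hprim : IsPrimitiveRoot (z : k) N := by
    have h := IsPrimitiveRoot.orderOf (z : k)
    rwa [orderOf_units, hz] at h
  have hNk : (N : k) ≠ 0 := (hprim.neZero').ne
  let iN : Coord N := (false, ⟨N, dvd_rfl⟩)
  -- the base `j(t^N)`
  set jh : LaurentSeries k := expand k N (jqModC k) with hjh
  have hjh_Jc : jh = Jc k N 1 1 0 z := by
    simp [hjh, Jc, subst, h98_twist_one]
  have hjh_order : jh.order < 0 := by
    rw [hjh_Jc, (Jc_order N 1 1 0 z (one_dvd N) (dvd_refl 1) hN0).1]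
    simp only [one_pow, mul_one, Nat.div_one, Left.neg_neg_iff]
    exact_mod_cast hNpos
  let ψ : k[X] →+* LaurentSeries k := (aeval jh).toRingHom
  have hψinj : Function.Injective ψ := by
    rw [injective_iff_map_eq_zero]
    intro p hp
    by_contra hne
    exact h98_aeval_ne_zero jh hjh_order hne hp
  have hψC : ∀ c : k, ψ (C c) = HahnSeries.C c := by
    intro c
    show aeval jh (C c) = _
    rw [aeval_C, h98_algebraMap_eq_C]
  -- the conjugates of `j(q^N)`
  let ρ : F.ι → LaurentSeries k := fun r => F.c r iN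
  have hρinj : Function.Injective ρ := by
    intro r r' h
    have h' : Jc k N (F.a r) N (F.a r * F.b r) z = Jc k N (F.a r') N (F.a r' * F.b r') z := by
      rw [← F.cXN r, ← F.cXN r']; exact h
    obtain ⟨h1, h2⟩ := Jc_injective N hN0 z hz (F.a_dvd r) (F.a_dvd r') (F.b_lt r) (F.b_lt r') h'
    exact F.inj r r' h1 h2
  obtain ⟨Q, hQ⟩ := F.F1 (MvPolynomial.X iN)
  have hQ' : ∏ r, (X - C (ρ r)) = Q.map ψ := by
    have h := hQ
    simp only [MvPolynomial.aeval_X] at h
    exact h
  obtain ⟨S, hr₀S, hSdeg, hSunit⟩ := h98_degree ψ hψinj ρ hρinj Q hQ' F.r₀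
  -- the modular units
  have hunit : ∀ d ∈ N.divisors,
      (∑ r ∈ S, (Nat.gcd d (F.a r)) ^ 2 = d * S.card) ∧
      (∑ r, (Nat.gcd d (F.a r)) ^ 2 = d * Fintype.card F.ι) := by
    intro d hd
    have hdN : d ∣ N := Nat.dvd_of_mem_divisors hd
    have hd0 : d ≠ 0 := fun h => hN0 (by rw [h] at hdN; exact Nat.eq_zero_of_zero_dvd hdN)
    let dd : {d : ℕ // d ∣ N} := ⟨d, hdN⟩
    let η : F.ι → LaurentSeries k := fun r => F.c r (true, dd)
    have hηord : ∀ r, η r ≠ 0 ∧
        (η r).order = ((N / d * (Nat.gcd d (F.a r)) ^ 2 : ℕ) : ℤ) - N := by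
      intro r
      obtain ⟨m, hm⟩ := F.cU r dd
      have h := Uc_order N (Nat.gcd d (F.a r)) d m z hdN (Nat.gcd_dvd_left d (F.a r)) hNk
      have hm' : η r = Uc k N (Nat.gcd d (F.a r)) d m z := hm
      rw [hm']
      refine ⟨h.2, ?_⟩
      rw [h.1, Nat.div_mul_right_comm hdN]
    -- total product
    obtain ⟨Cd, hCd⟩ := F.F2 dd
    have hCd' : ∏ r, η r = HahnSeries.C Cd := hCd
    have hprod_ne : ∏ r, η r ≠ 0 := Finset.prod_ne_zero_iff.mpr fun r _ => (hηord r).1
    have hCd0 : Cd ≠ 0 := by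
      rintro rfl
      rw [map_zero] at hCd'
      exact hprod_ne hCd'
    have hordC : ∀ c : k, c ≠ 0 → (HahnSeries.C c : LaurentSeries k).order = 0 := by
      intro c hc
      rw [HahnSeries.C_apply, HahnSeries.order_single hc]
    have hsum_all : ∑ r : F.ι, (η r).order = 0 := by
      rw [← h98_order_prod Finset.univ η (fun r _ => (hηord r).1), hCd', hordC Cd hCd0]
    -- product over `S`
    have htr : ∀ m : ℕ, ∃ t : k[X], ∑ r, η r * ρ r ^ m = ψ t := by
      intro m
      obtain ⟨Qm, hQm⟩ := F.F1 (MvPolynomial.X (true, dd) * MvPolynomial.X iN ^ m)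
      have hQm' : ∏ r, (X - C (η r * ρ r ^ m)) = Qm.map ψ := by
        have hae : ∀ r, MvPolynomial.aeval (R := k) (F.c r)
            ((MvPolynomial.X (true, dd) * MvPolynomial.X iN ^ m : MvPolynomial (Coord N) k)) =
              η r * ρ r ^ m := by
          intro r
          rw [map_mul, map_pow, MvPolynomial.aeval_X, MvPolynomial.aeval_X]
        have h := hQm
        simp only [hae] at h
        exact h
      obtain ⟨t, ht⟩ := trace_mem_of_prod ψ (fun r => η r * ρ r ^ m) Qm hQm'
      exact ⟨t, ht⟩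
    have hint : ∀ r, ∃ Qη : k[X][X], Qη.Monic ∧ (Qη.map ψ).eval (η r) = 0 := by
      intro r
      obtain ⟨Qη, hQη⟩ := F.F1 (MvPolynomial.X (true, dd))
      have hQη' : ∏ r, (X - C (η r)) = Qη.map ψ := by
        have h := hQη
        simp only [MvPolynomial.aeval_X] at h
        exact h
      refine ⟨Qη, Polynomial.monic_of_injective hψinj ?_, ?_⟩
      · rw [← hQη']
        exact monic_prod_of_monic _ _ fun r _ => monic_X_sub_C (η r)
      · rw [← hQη', eval_prod]
        exact Finset.prod_eq_zero (Finset.mem_univ r) (by simp)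
    obtain ⟨n, hn, hnS⟩ := hSunit η htr hint (C Cd) (isUnit_C.mpr (IsUnit.mk0 Cd hCd0))
      (by rw [hψC]; exact hCd')
    obtain ⟨c, hc, rfl⟩ := Polynomial.isUnit_iff.mp hn
    have hsum_S : ∑ r ∈ S, (η r).order = 0 := by
      rw [← h98_order_prod S η (fun r _ => (hηord r).1), ← hnS, hψC, hordC c hc.ne_zero]
    -- arithmetic
    have hNd : N / d * d = N := Nat.div_mul_cancel hdN
    have hNd0 : 0 < N / d := Nat.div_pos (Nat.le_of_dvd hNpos hdN) (Nat.pos_of_ne_zero hd0)
    constructor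
    · have h1 : ∑ r ∈ S, (((N / d * (Nat.gcd d (F.a r)) ^ 2 : ℕ) : ℤ) - N) = 0 := by
        rw [← hsum_S]; exact Finset.sum_congr rfl fun r _ => ((hηord r).2).symm
      rw [Finset.sum_sub_distrib, Finset.sum_const, nsmul_eq_mul] at h1
      have h2 : (N / d) * ∑ r ∈ S, (Nat.gcd d (F.a r)) ^ 2 = (N / d) * (d * S.card) := by
        have h3 : ((∑ r ∈ S, (N / d * (Nat.gcd d (F.a r)) ^ 2 : ℕ) : ℕ) : ℤ) = ((S.card * N : ℕ) : ℤ) := by
          rw [Nat.cast_sum, Nat.cast_mul]; linarith
        have h4 := Nat.cast_injective h3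
        rw [Finset.mul_sum, h4, ← mul_assoc, hNd, mul_comm]
      exact Nat.eq_of_mul_eq_mul_left hNd0 h2
    · have h1 : ∑ r : F.ι, (((N / d * (Nat.gcd d (F.a r)) ^ 2 : ℕ) : ℤ) - N) = 0 := by
        rw [← hsum_all]; exact Finset.sum_congr rfl fun r _ => ((hηord r).2).symm
      rw [Finset.sum_sub_distrib, Finset.sum_const, nsmul_eq_mul, Finset.card_univ] at h1
      have h2 : (N / d) * ∑ r : F.ι, (Nat.gcd d (F.a r)) ^ 2 =
          (N / d) * (d * Fintype.card F.ι) := by
        have h3 : ((∑ r : F.ι, (N / d * (Nat.gcd d (F.a r)) ^ 2 : ℕ) : ℕ) : ℤ) =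
            ((Fintype.card F.ι * N : ℕ) : ℤ) := by
          rw [Nat.cast_sum, Nat.cast_mul]; linarith
        have h4 := Nat.cast_injective h3
        rw [Finset.mul_sum, h4, ← mul_assoc, hNd, mul_comm]
      exact Nat.eq_of_mul_eq_mul_left hNd0 h2
  -- counting
  have hcard : S.card = Fintype.card F.ι := by
    refine card_eq_of_gcd_sums N hN0 F.a F.a_dvd S F.r₀ hr₀S F.a_r₀ ?_
      (fun d hd => (hunit d hd).1) (fun d hd => (hunit d hd).2)
    intro r hr
    apply F.inj
    · rw [hr, F.a_r₀]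
    · have h1 := F.b_lt r
      have h2 := F.b_lt F.r₀
      rw [hr, Nat.div_self hNpos] at h1
      rw [F.a_r₀, Nat.div_self hNpos] at h2
      omega
  -- conclusion
  intro hev
  have hev2 := hSdeg H hH (by rw [hcard]; exact hdeg)
  apply hev2
  have hρ₀ : ρ F.r₀ = expand k N (qExpand k N (jqModC k)) := by
    show F.c F.r₀ iN = _
    rw [F.cX_r₀ ⟨N, dvd_rfl⟩]
    haveI : NeZero (N * N) := ⟨Nat.mul_ne_zero hN0 hN0⟩
    rw [expand_eq_qExpand, expand_eq_qExpand, qExpand_qExpand]
  have hcomp : (expand k N).comp (Polynomial.aeval (jqModC k)).toRingHom = ψ := by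
    apply Polynomial.ringHom_ext
    · intro c
      rw [hψC]
      show expand k N (aeval (jqModC k) (C c)) = _
      rw [aeval_C, h98_algebraMap_eq_C, expand_eq_qExpand, qExpand_C]
    · show expand k N (aeval (jqModC k) X) = aeval jh X
      rw [aeval_X, aeval_X]
  rw [hρ₀, ← hcomp, eval_map, ← Polynomial.hom_eval₂, ← eval_map, hev, map_zero]

end Main

/-- **Igusa core** over `ZMod ℓ` (`ℓ ∤ N`), from a conjugate family over `ℤ[ζ_N]`. -/
theorem igusa_core (N ℓ : ℕ) [NeZero N] [Fact ℓ.Prime] (hℓN : ¬ ℓ ∣ N)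
    (F : ConjFamily (cycO N) N (zetaO N)) (H : Polynomial (Polynomial (ZMod ℓ))) (hH : H ≠ 0)
    (hdeg : H.natDegree < @Fintype.card F.ι F.fin) :
    (H.map (Polynomial.aeval (jqModC (ZMod ℓ))).toRingHom).eval
      (qExpand (ZMod ℓ) N (jqModC (ZMod ℓ))) ≠ 0 :=
  igusa_core_of_field @igusa_core_field N ℓ hℓN F H hH hdeg

end Fermat.Agent.S28
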