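import Mathlib
import Fermat.Statements.S28

set_option autoImplicit false

namespace Fermat.Agent.S28

open ModularCurve ModularCurve.IgusaScheme

noncomputable section

/-! ### The subring of Laurent series with `ℓ`-integral coefficients -/

/-- Laurent series over `ℚ` all of whose coefficients are `ℓ`-integral. -/
def h57_B0 (ℓ : ℕ) : Subring (LaurentSeries ℚ) where
  carrier := {f | ∀ n, f.coeff n ∈ GaloisRep.ratLocalizedAt ℓ}
  mul_mem' {a b} ha hb := by
    intro n
    rw [HahnSeries.coeff_mul]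
    exact Subring.sum_mem _ fun ij _ => Subring.mul_mem _ (ha _) (hb _)
  one_mem' := by
    intro n
    rw [HahnSeries.coeff_one]
    split_ifs
    · exact Subring.one_mem _
    · exact Subring.zero_mem _
  add_mem' {a b} ha hb := by
    intro n
    rw [HahnSeries.coeff_add]
    exact Subring.add_mem _ (ha _) (hb _)
  zero_mem' := by
    intro n
    rw [HahnSeries.coeff_zero]
    exact Subring.zero_mem _
  neg_mem' {a} ha := by
    intro n
    rw [HahnSeries.coeff_neg]
    exact Subring.neg_mem _ (ha _)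

theorem h57_mem_B0_iff (ℓ : ℕ) (f : LaurentSeries ℚ) :
    f ∈ h57_B0 ℓ ↔ ∀ n, f.coeff n ∈ GaloisRep.ratLocalizedAt ℓ := Iff.rfl

theorem h57_single_mem (ℓ : ℕ) (k : ℤ) {c : ℚ} (hc : c ∈ GaloisRep.ratLocalizedAt ℓ) :
    HahnSeries.single k c ∈ h57_B0 ℓ := by
  intro n
  rw [HahnSeries.coeff_single]
  split_ifs
  · exact hc
  · exact Subring.zero_mem _

theorem h57_ofPowerSeries_map_mem (ℓ : ℕ) (f : PowerSeries ℤ) :
    HahnSeries.ofPowerSeries ℤ ℚ (f.map (Int.castRingHom ℚ)) ∈ h57_B0 ℓ := by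
  intro n
  by_cases hn : n < 0
  · rw [ofPowerSeries_coeff_of_neg _ hn]
    exact Subring.zero_mem _
  · obtain ⟨m, rfl⟩ := Int.eq_ofNat_of_zero_le (not_lt.mp hn)
    rw [HahnSeries.ofPowerSeries_apply_coeff, PowerSeries.coeff_map, eq_intCast]
    exact intCast_mem _ _

theorem h57_jq_mem (ℓ : ℕ) : jq ∈ h57_B0 ℓ := by
  rw [jq, jNumQ]
  exact Subring.mul_mem _ (h57_single_mem ℓ _ (Subring.one_mem _))
    (h57_ofPowerSeries_map_mem ℓ _)

theorem h57_jq_inv_eq :
    jq⁻¹ = HahnSeries.single (1 : ℤ) (1 : ℚ) *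
      HahnSeries.ofPowerSeries ℤ ℚ ((jNum.invOfUnit 1).map (Int.castRingHom ℚ)) := by
  apply inv_eq_of_mul_eq_one_right
  have h1 : jNum * jNum.invOfUnit 1 = 1 :=
    PowerSeries.mul_invOfUnit _ _ (by rw [constantCoeff_jNum]; rfl)
  have h2 : jNumQ * (jNum.invOfUnit 1).map (Int.castRingHom ℚ) = 1 := by
    rw [jNumQ, ← map_mul, h1, map_one]
  rw [jq]
  calc HahnSeries.single (-1 : ℤ) (1 : ℚ) * HahnSeries.ofPowerSeries ℤ ℚ jNumQ *
        (HahnSeries.single (1 : ℤ) (1 : ℚ) *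
          HahnSeries.ofPowerSeries ℤ ℚ ((jNum.invOfUnit 1).map (Int.castRingHom ℚ)))
      = (HahnSeries.single (-1 : ℤ) (1 : ℚ) * HahnSeries.single (1 : ℤ) (1 : ℚ)) *
          HahnSeries.ofPowerSeries ℤ ℚ
            (jNumQ * (jNum.invOfUnit 1).map (Int.castRingHom ℚ)) := by
        rw [map_mul]; ring
    _ = 1 := by
        rw [h2, (HahnSeries.ofPowerSeries ℤ ℚ).map_one, HahnSeries.single_mul_single, mul_one,
          mul_one, neg_add_cancel]
        rfl

theorem h57_jq_inv_mem (ℓ : ℕ) : jq⁻¹ ∈ h57_B0 ℓ := by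
  rw [h57_jq_inv_eq]
  exact Subring.mul_mem _ (h57_single_mem ℓ _ (Subring.one_mem _))
    (h57_ofPowerSeries_map_mem ℓ _)

theorem h57_qExpand_mem (ℓ : ℕ) (d : ℕ) [NeZero d] {f : LaurentSeries ℚ} (hf : f ∈ h57_B0 ℓ) :
    qExpand ℚ d f ∈ h57_B0 ℓ := by
  intro n
  by_cases hn : (d : ℤ) ∣ n
  · obtain ⟨k, rfl⟩ := hn
    rw [qExpand_coeff_mul]
    exact hf k
  · rw [qExpand_coeff_of_not_dvd d f hn]
    exact Subring.zero_mem _

theorem h57_algebraMap_mem (ℓ : ℕ) {c : ℚ} (hc : c ∈ GaloisRep.ratLocalizedAt ℓ) :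
    algebraMap ℚ (LaurentSeries ℚ) c ∈ h57_B0 ℓ := by
  rw [algebraMap_apply_eq_single]
  exact h57_single_mem ℓ 0 hc

/-! ### Fractions of `B₀` -/

/-- `f` is a quotient of two elements of `B₀`. -/
def h57_Frac (ℓ : ℕ) (f : LaurentSeries ℚ) : Prop :=
  ∃ b ∈ h57_B0 ℓ, b ≠ 0 ∧ b * f ∈ h57_B0 ℓ

theorem h57_frac_of_mem (ℓ : ℕ) {f : LaurentSeries ℚ} (hf : f ∈ h57_B0 ℓ) : h57_Frac ℓ f :=
  ⟨1, Subring.one_mem _, one_ne_zero, by rwa [one_mul]⟩

theorem h57_frac_add (ℓ : ℕ) {f g : LaurentSeries ℚ} (hf : h57_Frac ℓ f) (hg : h57_Frac ℓ g) :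
    h57_Frac ℓ (f + g) := by
  obtain ⟨b, hb, hb0, hbf⟩ := hf
  obtain ⟨c, hc, hc0, hcg⟩ := hg
  refine ⟨b * c, Subring.mul_mem _ hb hc, mul_ne_zero hb0 hc0, ?_⟩
  have : b * c * (f + g) = c * (b * f) + b * (c * g) := by ring
  rw [this]
  exact Subring.add_mem _ (Subring.mul_mem _ hc hbf) (Subring.mul_mem _ hb hcg)

theorem h57_frac_mul (ℓ : ℕ) {f g : LaurentSeries ℚ} (hf : h57_Frac ℓ f) (hg : h57_Frac ℓ g) :
    h57_Frac ℓ (f * g) := by
  obtain ⟨b, hb, hb0, hbf⟩ := hf
  obtain ⟨c, hc, hc0, hcg⟩ := hg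
  refine ⟨b * c, Subring.mul_mem _ hb hc, mul_ne_zero hb0 hc0, ?_⟩
  have : b * c * (f * g) = (b * f) * (c * g) := by ring
  rw [this]
  exact Subring.mul_mem _ hbf hcg

theorem h57_frac_inv (ℓ : ℕ) {f : LaurentSeries ℚ} (hf : h57_Frac ℓ f) : h57_Frac ℓ f⁻¹ := by
  by_cases hf0 : f = 0
  · rw [hf0, inv_zero]
    exact h57_frac_of_mem ℓ (Subring.zero_mem _)
  obtain ⟨b, hb, hb0, hbf⟩ := hf
  refine ⟨b * f, hbf, mul_ne_zero hb0 hf0, ?_⟩
  rw [mul_assoc, mul_inv_cancel₀ hf0, mul_one]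
  exact hb

theorem h57_frac_algebraMap (ℓ : ℕ) (c : ℚ) : h57_Frac ℓ (algebraMap ℚ (LaurentSeries ℚ) c) := by
  refine ⟨algebraMap ℚ (LaurentSeries ℚ) (c.den : ℚ), h57_algebraMap_mem ℓ (natCast_mem _ _), ?_, ?_⟩
  · rw [Ne, map_eq_zero]
    exact_mod_cast c.den_ne_zero
  · rw [← map_mul, Rat.den_mul_eq_num]
    exact h57_algebraMap_mem ℓ (intCast_mem _ _)

theorem h57_frac_of_mem_full (ℓ : ℕ) (N : ℕ) [NeZero N] {x : LaurentSeries ℚ}
    (hx : x ∈ modularFunctionFieldFull N) : h57_Frac ℓ x := by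
  rw [modularFunctionFieldFull] at hx
  induction hx using IntermediateField.adjoin_induction with
  | mem y hy =>
    obtain ⟨d, hd, -, rfl⟩ := hy
    exact h57_frac_of_mem ℓ (h57_qExpand_mem ℓ d (h57_jq_mem ℓ))
  | algebraMap c => exact h57_frac_algebraMap ℓ c
  | add y z _ _ hy hz => exact h57_frac_add ℓ hy hz
  | inv y _ hy => exact h57_frac_inv ℓ hy
  | mul y z _ _ hy hz => exact h57_frac_mul ℓ hy hz

/-! ### `ℤ_(ℓ)` is completely integrally closed -/

theorem h57_padicValRat_nonneg_of_mem (ℓ : ℕ) [Fact ℓ.Prime] {q : ℚ}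
    (hq : q ∈ GaloisRep.ratLocalizedAt ℓ) : 0 ≤ padicValRat ℓ q := by
  have hcop : q.den.Coprime ℓ := hq
  have hnd : ¬ ℓ ∣ q.den := by
    intro hd
    have := Nat.eq_one_of_dvd_coprimes hcop hd dvd_rfl
    exact (Fact.out : ℓ.Prime).one_lt.ne' this
  rw [padicValRat, padicValNat.eq_zero_of_not_dvd hnd]
  simp

theorem h57_padicValRat_neg_of_not_mem (ℓ : ℕ) [Fact ℓ.Prime] {q : ℚ}
    (hq : q ∉ GaloisRep.ratLocalizedAt ℓ) : padicValRat ℓ q < 0 := by
  have hp : ℓ.Prime := Fact.out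
  have hcop : ¬ q.den.Coprime ℓ := hq
  have hd : ℓ ∣ q.den := by
    by_contra hnd
    exact hcop ((Nat.Prime.coprime_iff_not_dvd hp).mpr hnd).symm
  have hnum : ¬ (ℓ : ℤ) ∣ q.num := by
    intro hn
    have h1 : ℓ ∣ q.num.natAbs := Int.natCast_dvd.mp hn
    have := Nat.eq_one_of_dvd_coprimes q.reduced h1 hd
    exact hp.one_lt.ne' this
  have h1 : 1 ≤ padicValNat ℓ q.den := one_le_padicValNat_of_dvd q.den_ne_zero hd
  rw [padicValRat, padicValInt.eq_zero_of_not_dvd hnum]
  omega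

theorem h57_rat_mem_of_pow (ℓ : ℕ) [Fact ℓ.Prime] (b c : ℚ) (hb : b ≠ 0)
    (h : ∀ n : ℕ, b * c ^ n ∈ GaloisRep.ratLocalizedAt ℓ) : c ∈ GaloisRep.ratLocalizedAt ℓ := by
  by_contra hc
  have hvc : padicValRat ℓ c < 0 := h57_padicValRat_neg_of_not_mem ℓ hc
  have hc0 : c ≠ 0 := by
    rintro rfl
    exact hc (Subring.zero_mem _)
  have hn := h57_padicValRat_nonneg_of_mem ℓ (h ((padicValRat ℓ b).natAbs + 1))
  rw [padicValRat.mul hb (pow_ne_zero _ hc0), padicValRat.pow] at hn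
  have hk : (0 : ℤ) ≤ (((padicValRat ℓ b).natAbs + 1 : ℕ) : ℤ) := Int.natCast_nonneg _
  have h1 : (((padicValRat ℓ b).natAbs + 1 : ℕ) : ℤ) * padicValRat ℓ c ≤
      -(((padicValRat ℓ b).natAbs + 1 : ℕ) : ℤ) := by
    nlinarith
  have h2 : padicValRat ℓ b ≤ ((padicValRat ℓ b).natAbs : ℤ) := Int.le_natAbs
  have h3 : (((padicValRat ℓ b).natAbs + 1 : ℕ) : ℤ) = ((padicValRat ℓ b).natAbs : ℤ) + 1 := by
    rw [Nat.cast_add, Nat.cast_one]
  linarith

/-! ### Lowest coefficients -/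

theorem h57_coeff_mul_low (a y : LaurentSeries ℚ) (m i : ℤ) (ha : ∀ j < m, a.coeff j = 0)
    (hy : ∀ j < i, y.coeff j = 0) :
    (∀ j < m + i, (a * y).coeff j = 0) ∧ (a * y).coeff (m + i) = a.coeff m * y.coeff i := by
  constructor
  · intro j hj
    rw [HahnSeries.coeff_mul]
    apply Finset.sum_eq_zero
    rintro ⟨p, q⟩ hpq
    rw [Finset.mem_antidiagonal] at hpq
    obtain ⟨-, -, hsum⟩ := hpq
    simp only at hsum ⊢
    by_cases hp : p < m
    · rw [ha p hp, zero_mul]
    · rw [hy q (by omega), mul_zero]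
  · rw [HahnSeries.coeff_mul]
    rw [Finset.sum_eq_single (m, i)]
    · rintro ⟨p, q⟩ hpq hne
      rw [Finset.mem_antidiagonal] at hpq
      obtain ⟨-, -, hsum⟩ := hpq
      simp only at hsum ⊢
      by_cases hp : p < m
      · rw [ha p hp, zero_mul]
      · by_cases hq : q < i
        · rw [hy q hq, mul_zero]
        · exfalso
          apply hne
          have h1 : p = m := by omega
          have h2 : q = i := by omega
          rw [h1, h2]
    · intro hnot
      rw [Finset.mem_antidiagonal] at hnot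
      simp only [HahnSeries.mem_support, ne_eq, and_true, not_and_or, not_not] at hnot
      rcases hnot with h0 | h0
      · rw [h0, zero_mul]
      · rw [h0, mul_zero]

theorem h57_coeff_pow_low (y : LaurentSeries ℚ) (i : ℤ) (hy : ∀ j < i, y.coeff j = 0) (n : ℕ) :
    (∀ j < (n : ℤ) * i, (y ^ n).coeff j = 0) ∧ (y ^ n).coeff ((n : ℤ) * i) = (y.coeff i) ^ n := by
  induction n with
  | zero =>
    constructor
    · intro j hj
      rw [pow_zero, HahnSeries.coeff_one, if_neg]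
      push_cast at hj
      omega
    · simp [HahnSeries.coeff_one]
  | succ n ih =>
    have h := h57_coeff_mul_low (y ^ n) y ((n : ℤ) * i) i ih.1 hy
    have e : ((n + 1 : ℕ) : ℤ) * i = (n : ℤ) * i + i := by push_cast; ring
    rw [pow_succ, e]
    refine ⟨h.1, ?_⟩
    rw [h.2, ih.2, pow_succ]

/-- Truncation of a Laurent series below index `i`. -/
def h57_trunc (x : LaurentSeries ℚ) (i : ℤ) : LaurentSeries ℚ where
  coeff j := if j < i then x.coeff j else 0
  isPWO_support' := x.isPWO_support.mono (by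
    intro j hj
    simp only [Function.mem_support, ne_eq, ite_eq_right_iff, not_forall] at hj
    obtain ⟨_, h⟩ := hj
    exact h)

theorem h57_trunc_coeff (x : LaurentSeries ℚ) (i j : ℤ) :
    (h57_trunc x i).coeff j = if j < i then x.coeff j else 0 := rfl

/-- Complete integral closedness of `B₀`: if all powers of `x` have a common denominator in `B₀`
then `x ∈ B₀`. -/
theorem h57_mem_of_pow_bdd (ℓ : ℕ) [Fact ℓ.Prime] (x b : LaurentSeries ℚ) (hb0 : b ≠ 0)
    (h : ∀ n : ℕ, b * x ^ n ∈ h57_B0 ℓ) : x ∈ h57_B0 ℓ := by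
  have key : ∀ i : ℤ, (∀ j < i, x.coeff j ∈ GaloisRep.ratLocalizedAt ℓ) →
      x.coeff i ∈ GaloisRep.ratLocalizedAt ℓ := by
    intro i hi
    have hx' : h57_trunc x i ∈ h57_B0 ℓ := by
      intro j
      rw [h57_trunc_coeff]
      split_ifs with hj
      · exact hi j hj
      · exact Subring.zero_mem _
    have hy_low : ∀ j < i, (x - h57_trunc x i).coeff j = 0 := by
      intro j hj
      rw [HahnSeries.coeff_sub, h57_trunc_coeff, if_pos hj, sub_self]
    have hy_i : (x - h57_trunc x i).coeff i = x.coeff i := by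
      rw [HahnSeries.coeff_sub, h57_trunc_coeff, if_neg (lt_irrefl i), sub_zero]
    have hby : ∀ n : ℕ, b * (x - h57_trunc x i) ^ n ∈ h57_B0 ℓ := by
      intro n
      rw [sub_eq_add_neg, add_pow, Finset.mul_sum]
      apply Subring.sum_mem
      intro k _
      have e : b * (x ^ k * (-h57_trunc x i) ^ (n - k) * (n.choose k : LaurentSeries ℚ)) =
          (b * x ^ k) * (-h57_trunc x i) ^ (n - k) * (n.choose k : LaurentSeries ℚ) := by ring
      rw [e]
      exact Subring.mul_mem _ (Subring.mul_mem _ (h k)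
        (Subring.pow_mem _ (Subring.neg_mem _ hx') _)) (natCast_mem _ _)
    have hbm : b.coeff b.order ≠ 0 := fun h0 => hb0 (HahnSeries.coeff_order_eq_zero.mp h0)
    have hb_low : ∀ j < b.order, b.coeff j = 0 :=
      fun j hj => HahnSeries.coeff_eq_zero_of_lt_order hj
    apply h57_rat_mem_of_pow ℓ (b.coeff b.order) (x.coeff i) hbm
    intro n
    have hp := h57_coeff_pow_low (x - h57_trunc x i) i hy_low n
    have := (h57_coeff_mul_low b ((x - h57_trunc x i) ^ n) b.order ((n : ℤ) * i) hb_low hp.1).2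
    rw [hp.2, hy_i] at this
    rw [← this]
    exact hby n _
  have hall : ∀ i : ℤ, x.order ≤ i → ∀ j < i, x.coeff j ∈ GaloisRep.ratLocalizedAt ℓ := by
    intro i hi
    induction i, hi using Int.leInduction with
    | base =>
      intro j hj
      rw [HahnSeries.coeff_eq_zero_of_lt_order hj]
      exact Subring.zero_mem _
    | succ i _ ih =>
      intro j hj
      rcases (Int.lt_add_one_iff.mp hj).lt_or_eq with hlt | rfl
      · exact ih j hlt
      · exact key j ih
  intro i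
  exact hall (max x.order (i + 1)) (le_max_left _ _) i (lt_of_lt_of_le (lt_add_one i) (le_max_right _ _))

/-! ### Common denominators from integrality -/

theorem h57_exists_pow_denominator (ℓ : ℕ) (x : LaurentSeries ℚ) (hx : h57_Frac ℓ x)
    (hint : IsIntegral (h57_B0 ℓ) x) :
    ∃ b : LaurentSeries ℚ, b ≠ 0 ∧ ∀ n : ℕ, b * x ^ n ∈ h57_B0 ℓ := by
  classical
  obtain ⟨s, hs⟩ := hint.fg_adjoin_singleton
  have hfrac : ∀ y ∈ Algebra.adjoin (h57_B0 ℓ) {x}, h57_Frac ℓ y := by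
    intro y hy
    induction hy using Algebra.adjoin_induction with
    | mem y hy =>
      rw [Set.mem_singleton_iff] at hy
      rw [hy]
      exact hx
    | algebraMap r => exact h57_frac_of_mem ℓ r.2
    | add y z _ _ hy hz => exact h57_frac_add ℓ hy hz
    | mul y z _ _ hy hz => exact h57_frac_mul ℓ hy hz
  have hs' : ∀ y ∈ s, h57_Frac ℓ y := fun y hy => hfrac y (by
    have : y ∈ Submodule.span (h57_B0 ℓ) (s : Set (LaurentSeries ℚ)) := Submodule.subset_span hy
    rw [hs] at this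
    exact this)
  have hden : ∃ b ∈ h57_B0 ℓ, b ≠ 0 ∧ ∀ y ∈ s, b * y ∈ h57_B0 ℓ := by
    clear hs
    induction s using Finset.induction_on with
    | empty => exact ⟨1, Subring.one_mem _, one_ne_zero, by simp⟩
    | insert a s ha ih =>
      obtain ⟨b, hb, hb0, hbs⟩ := ih (fun y hy => hs' y (Finset.mem_insert_of_mem hy))
      obtain ⟨c, hc, hc0, hca⟩ := hs' a (Finset.mem_insert_self a s)
      refine ⟨b * c, Subring.mul_mem _ hb hc, mul_ne_zero hb0 hc0, ?_⟩
      intro y hy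
      rcases Finset.mem_insert.mp hy with rfl | hy
      · rw [mul_assoc]
        exact Subring.mul_mem _ hb hca
      · rw [mul_comm b c, mul_assoc]
        exact Subring.mul_mem _ hc (hbs y hy)
  obtain ⟨b, hb, hb0, hbs⟩ := hden
  have hspan : ∀ y ∈ Submodule.span (h57_B0 ℓ) (s : Set (LaurentSeries ℚ)), b * y ∈ h57_B0 ℓ := by
    intro y hy
    induction hy using Submodule.span_induction with
    | mem y hy => exact hbs y hy
    | zero =>
      rw [mul_zero]
      exact Subring.zero_mem _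
    | add y z _ _ hy hz =>
      rw [mul_add]
      exact Subring.add_mem _ hy hz
    | smul r y _ hy =>
      have e : b * (r • y) = (r : LaurentSeries ℚ) * (b * y) := by
        rw [Subring.smul_def, smul_eq_mul]
        ring
      rw [e]
      exact Subring.mul_mem _ r.2 hy
  refine ⟨b, hb0, fun n => hspan _ ?_⟩
  rw [hs]
  exact pow_mem (Algebra.subset_adjoin (Set.mem_singleton x)) n

/-! ### The statement of the row -/

theorem chartAlg_coeff_mem (N ℓ : ℕ) [NeZero N] [Fact ℓ.Prime]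
    (S : Set ↥(modularFunctionFieldFull N)) (hS : S ⊆ {jFull N, (jFull N)⁻¹})
    (x : ↥(modularFunctionFieldFull N)) (hx : x ∈ chartAlg N ℓ S) (n : ℤ) :
    (x : LaurentSeries ℚ).coeff n ∈ GaloisRep.ratLocalizedAt ℓ := by
  have hfrac : h57_Frac ℓ (x : LaurentSeries ℚ) := h57_frac_of_mem_full ℓ N x.2
  have hint : IsIntegral (h57_B0 ℓ) (x : LaurentSeries ℚ) := by
    rw [mem_chartAlg_iff] at hx
    have hmem : ∀ y : Algebra.adjoin ↥(GaloisRep.ratLocalizedAt ℓ) S,
        ((algebraMap ↥(modularFunctionFieldFull N) (LaurentSeries ℚ)).comp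
          (Algebra.adjoin ↥(GaloisRep.ratLocalizedAt ℓ) S).val.toRingHom) y ∈ h57_B0 ℓ := by
      rintro ⟨y, hy⟩
      show ((y : ↥(modularFunctionFieldFull N)) : LaurentSeries ℚ) ∈ h57_B0 ℓ
      induction hy using Algebra.adjoin_induction with
      | mem y hy =>
        rcases hS hy with rfl | rfl
        · exact h57_jq_mem ℓ
        · rw [IntermediateField.coe_inv]
          exact h57_jq_inv_mem ℓ
      | algebraMap r =>
        have e : ((algebraMap ↥(GaloisRep.ratLocalizedAt ℓ) ↥(modularFunctionFieldFull N) r :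
            ↥(modularFunctionFieldFull N)) : LaurentSeries ℚ) =
              algebraMap ℚ (LaurentSeries ℚ) (r : ℚ) := by
          have h1 : algebraMap ↥(GaloisRep.ratLocalizedAt ℓ) ↥(modularFunctionFieldFull N) r =
              algebraMap ℚ ↥(modularFunctionFieldFull N) (r : ℚ) := rfl
          rw [h1, eq_ratCast, eq_ratCast]
          rfl
        rw [e]
        exact h57_algebraMap_mem ℓ r.2
      | add y z _ _ hy hz => exact Subring.add_mem _ hy hz
      | mul y z _ _ hy hz => exact Subring.mul_mem _ hy hz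
    exact hx.map_of_comp_eq
      (((algebraMap ↥(modularFunctionFieldFull N) (LaurentSeries ℚ)).comp
          (Algebra.adjoin ↥(GaloisRep.ratLocalizedAt ℓ) S).val.toRingHom).codRestrict
        (h57_B0 ℓ) hmem)
      (algebraMap ↥(modularFunctionFieldFull N) (LaurentSeries ℚ)) (by ext; rfl)
  obtain ⟨b, hb0, hbn⟩ := h57_exists_pow_denominator ℓ _ hfrac hint
  exact h57_mem_of_pow_bdd ℓ _ b hb0 hbn n

end

end Fermat.Agent.S28
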