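import Mathlib
import Fermat.Prelude.Def_GaloisRep_Flat

/-!
# S28, task Q0: basics of `ℤ_(ℓ) = GaloisRep.ratLocalizedAt ℓ` (helper34)

* `isIntegral_of_smul_of_smul` : abstract integrality lemma (`p • z`, `s • z` integral, `p` prime,
  `p ∤ s`, base integrally closed ⟹ `z` integral).
* `ratLocalizedAt_isDiscreteValuationRing`, `ratLocalizedAt_isPrincipalIdealRing`,
  `ratLocalizedAt_prime`, `ratLocalizedAt_dvd_iff`.
* `ratLocalizedAtResidue ℓ : ℤ_(ℓ) →+* ZMod ℓ` with surjectivity, kernel, uniqueness;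
  `ratLocalizedAt_residue`, `algebraMap_eq_comp_residue`.
* `ratLocalizedAt_prime_C`, `ratLocalizedAt_polynomial_isIntegrallyClosed`.
-/

set_option autoImplicit false

namespace Fermat.Agent.S28

open Polynomial

/-- Abstract integrality lemma: over an integrally closed domain `R₀`, if `p • z` and `s • z`
are integral with `p` prime and `p ∤ s`, then `z` is integral. -/
theorem isIntegral_of_smul_of_smul {R₀ F : Type*} [CommRing R₀] [IsDomain R₀]
    [IsIntegrallyClosed R₀] [Field F] [Algebra R₀ F] [FaithfulSMul R₀ F] (p s : R₀)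
    (hp : Prime p) (hs : ¬ p ∣ s) (z : F) (h1 : IsIntegral R₀ (p • z))
    (h2 : IsIntegral R₀ (s • z)) : IsIntegral R₀ z := by
  let _ : Algebra (FractionRing R₀) F := FractionRing.liftAlgebra R₀ F
  have : IsScalarTower R₀ (FractionRing R₀) F := FractionRing.isScalarTower_liftAlgebra R₀ F
  set K := FractionRing R₀ with hK
  have hinj : Function.Injective (algebraMap R₀ K) := FaithfulSMul.algebraMap_injective R₀ K
  have hp0 : p ≠ 0 := hp.ne_zero
  have hs0 : s ≠ 0 := fun h => hs (h ▸ dvd_zero p)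
  have hpK : algebraMap R₀ K p ≠ 0 := fun h => hp0 (hinj (by rw [h, map_zero]))
  have hsK : algebraMap R₀ K s ≠ 0 := fun h => hs0 (hinj (by rw [h, map_zero]))
  have hpz : algebraMap R₀ K p • z = p • z := algebraMap_smul K p z
  have hsz : algebraMap R₀ K s • z = s • z := algebraMap_smul K s z
  -- `z` is integral over `K`
  have hzK : IsIntegral K z := by
    have h3 : IsIntegral K (p • z) := h1.tower_top
    have h4 : z = (algebraMap R₀ K p)⁻¹ • (p • z) := by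
      rw [← hpz, smul_smul, inv_mul_cancel₀ hpK, one_smul]
    rw [h4]
    exact h3.smul _
  -- the two scaled minimal polynomials
  have e1 : (minpoly R₀ (p • z)).map (algebraMap R₀ K)
      = (minpoly K z).scaleRoots (algebraMap R₀ K p) := by
    rw [← minpoly.isIntegrallyClosed_eq_field_fractions' K h1, ← hpz]
    exact IsIntegrallyClosed.minpoly_smul hpK hzK
  have e2 : (minpoly R₀ (s • z)).map (algebraMap R₀ K)
      = (minpoly K z).scaleRoots (algebraMap R₀ K s) := by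
    rw [← minpoly.isIntegrallyClosed_eq_field_fractions' K h2, ← hsz]
    exact IsIntegrallyClosed.minpoly_smul hsK hzK
  -- all coefficients of `minpoly K z` come from `R₀`
  have hcoeff : ∀ i : ℕ, (minpoly K z).coeff i ∈ Set.range (algebraMap R₀ K) := by
    intro i
    set k := (minpoly K z).natDegree - i with hk
    have c1 := congrArg (fun q => q.coeff i) e1
    have c2 := congrArg (fun q => q.coeff i) e2
    simp only [coeff_map, coeff_scaleRoots] at c1 c2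
    rw [← hk] at c1 c2
    -- a * s^k = b * p^k in R₀
    have h5 : (minpoly R₀ (p • z)).coeff i * s ^ k = (minpoly R₀ (s • z)).coeff i * p ^ k := by
      apply hinj
      rw [map_mul, map_mul, map_pow, map_pow, c1, c2]
      ring
    have h6 : p ^ k ∣ (minpoly R₀ (p • z)).coeff i := by
      have hsk : ¬ p ∣ s ^ k := fun h => hs (hp.dvd_of_dvd_pow h)
      have h' : p ^ k ∣ (minpoly R₀ (p • z)).coeff i * s ^ k := by
        rw [h5]
        exact Dvd.intro_left _ rfl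
      exact hp.pow_dvd_of_dvd_mul_right k hsk h'
    obtain ⟨d, hd⟩ := h6
    refine ⟨d, ?_⟩
    have h7 : (minpoly K z).coeff i * algebraMap R₀ K p ^ k
        = algebraMap R₀ K d * algebraMap R₀ K p ^ k := by
      rw [← c1, hd, map_mul, map_pow, mul_comm]
    exact (mul_right_cancel₀ (pow_ne_zero k hpK) h7).symm
  obtain ⟨q, hq, -, hqm⟩ := lifts_and_natDegree_eq_and_monic
    ((lifts_iff_coeff_lifts _).2 hcoeff) (minpoly.monic hzK)
  refine ⟨q, hqm, ?_⟩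
  have h8 : aeval z (q.map (algebraMap R₀ K)) = 0 := by rw [hq]; exact minpoly.aeval K z
  rw [aeval_map_algebraMap] at h8
  exact h8

/-! ### The ring `ℤ_(ℓ)` -/

section Zl

variable (ℓ : ℕ) [Fact ℓ.Prime]

/-- A fraction `n / d` with `ℓ ∤ d` lies in `ℤ_(ℓ)`. -/
theorem h34_div_mem_ratLocalizedAt (n d : ℤ) (hd : ¬ (ℓ : ℤ) ∣ d) :
    ((n : ℚ) / (d : ℚ)) ∈ GaloisRep.ratLocalizedAt ℓ := by
  show ((n : ℚ) / (d : ℚ)).den.Coprime ℓ
  have h1 : (((n : ℚ) / (d : ℚ)).den : ℤ) ∣ d := by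
    rw [← Rat.divInt_eq_div]
    exact Rat.den_dvd n d
  have hℓ : ℓ.Prime := Fact.out
  rw [Nat.coprime_comm, Nat.Prime.coprime_iff_not_dvd hℓ]
  intro h2
  exact hd (dvd_trans (Int.natCast_dvd_natCast.2 h2) h1)

/-- The denominator of an element of `ℤ_(ℓ)` is prime to `ℓ`. -/
theorem h34_not_dvd_den (x : ↥(GaloisRep.ratLocalizedAt ℓ)) : ¬ ℓ ∣ (x : ℚ).den := by
  have hℓ : ℓ.Prime := Fact.out
  have h1 : (x : ℚ).den.Coprime ℓ := x.2
  rw [Nat.coprime_comm, Nat.Prime.coprime_iff_not_dvd hℓ] at h1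
  exact h1

omit [Fact ℓ.Prime] in
/-- `den * x = num` inside `ℤ_(ℓ)`. -/
theorem h34_den_mul (x : ↥(GaloisRep.ratLocalizedAt ℓ)) :
    (((x : ℚ).den : ℕ) : ↥(GaloisRep.ratLocalizedAt ℓ)) * x
      = (((x : ℚ).num : ℤ) : ↥(GaloisRep.ratLocalizedAt ℓ)) := by
  apply Subtype.ext
  push_cast
  exact Rat.den_mul_eq_num (x : ℚ)

omit [Fact ℓ.Prime] in
/-- Any ring hom `f` out of `ℤ_(ℓ)` satisfies `den * f x = num`. -/
theorem h34_ringHom_den_mul {K : Type*} [CommRing K] (f : ↥(GaloisRep.ratLocalizedAt ℓ) →+* K)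
    (x : ↥(GaloisRep.ratLocalizedAt ℓ)) :
    (((x : ℚ).den : ℕ) : K) * f x = (((x : ℚ).num : ℤ) : K) := by
  have h := congrArg f (h34_den_mul ℓ x)
  rwa [map_mul, map_natCast, map_intCast] at h

/-- Two ring homs from `ℤ_(ℓ)` to a domain of characteristic `ℓ` agree. -/
theorem ratLocalizedAt_ringHom_ext {K : Type*} [CommRing K] [IsDomain K] [CharP K ℓ]
    (f g : ↥(GaloisRep.ratLocalizedAt ℓ) →+* K) : f = g := by
  ext x
  have h1 := h34_ringHom_den_mul ℓ f x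
  have h2 := h34_ringHom_den_mul ℓ g x
  have h3 : (((x : ℚ).den : ℕ) : K) ≠ 0 := by
    rw [Ne, CharP.cast_eq_zero_iff K ℓ]
    exact h34_not_dvd_den ℓ x
  exact mul_left_cancel₀ h3 (h1.trans h2.symm)

/-- The embedding `ℤ_(ℓ) → ℤ_[ℓ]`. -/
noncomputable def h34_toPadicInt : ↥(GaloisRep.ratLocalizedAt ℓ) →+* ℤ_[ℓ] :=
  ((Rat.castHom ℚ_[ℓ]).comp (GaloisRep.ratLocalizedAt ℓ).subtype).codRestrict
    (PadicInt.subring ℓ) (fun x => Padic.norm_rat_le_one (h34_not_dvd_den ℓ x))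

/-- The residue map `ℤ_(ℓ) → 𝔽_ℓ`. -/
noncomputable def ratLocalizedAtResidue : ↥(GaloisRep.ratLocalizedAt ℓ) →+* ZMod ℓ :=
  PadicInt.toZMod.comp (h34_toPadicInt ℓ)

theorem ratLocalizedAtResidue_surjective : Function.Surjective (ratLocalizedAtResidue ℓ) := by
  intro a
  obtain ⟨n, rfl⟩ := ZMod.natCast_zmod_surjective a
  exact ⟨(n : ↥(GaloisRep.ratLocalizedAt ℓ)), map_natCast _ n⟩

/-- Divisibility by `ℓ` in `ℤ_(ℓ)` is divisibility of the numerator. -/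
theorem ratLocalizedAt_dvd_iff (x : ↥(GaloisRep.ratLocalizedAt ℓ)) :
    ((ℓ : ℕ) : ↥(GaloisRep.ratLocalizedAt ℓ)) ∣ x ↔ (ℓ : ℤ) ∣ (x : ℚ).num := by
  have hℓ : ℓ.Prime := Fact.out
  constructor
  · rintro ⟨y, rfl⟩
    -- numerator of ℓ * y
    set X := ((ℓ : ℕ) : ↥(GaloisRep.ratLocalizedAt ℓ)) * y with hX
    -- work in ℚ
    have h1' : (((X : ℚ).den : ℕ) : ℚ) * ((ℓ : ℚ) * (y : ℚ)) = (((X : ℚ).num : ℤ) : ℚ) := by
      simp [hX]
    have h2' : (((y : ℚ).den : ℕ) : ℚ) * (y : ℚ) = (((y : ℚ).num : ℤ) : ℚ) := by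
      simp
    have h3 : ((X : ℚ).num : ℤ) * ((y : ℚ).den : ℤ) = (ℓ : ℤ) * (((X : ℚ).den : ℤ) * (y : ℚ).num) := by
      have : ((((X : ℚ).num : ℤ) * ((y : ℚ).den : ℤ) : ℤ) : ℚ)
          = (((ℓ : ℤ) * (((X : ℚ).den : ℤ) * (y : ℚ).num) : ℤ) : ℚ) := by
        push_cast
        rw [← h1', ← h2']
        ring
      exact_mod_cast this
    have h4 : (ℓ : ℤ) ∣ ((X : ℚ).num : ℤ) * ((y : ℚ).den : ℤ) := ⟨_, h3⟩
    rcases (Nat.prime_iff_prime_int.1 hℓ).dvd_or_dvd h4 with h5 | h5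
    · exact h5
    · exact absurd (Int.natCast_dvd_natCast.1 h5) (h34_not_dvd_den ℓ y)
  · rintro ⟨m, hm⟩
    refine ⟨⟨(m : ℚ) / (((x : ℚ).den : ℤ) : ℚ), h34_div_mem_ratLocalizedAt ℓ m _ ?_⟩, ?_⟩
    · intro h
      exact h34_not_dvd_den ℓ x (Int.natCast_dvd_natCast.1 h)
    · apply Subtype.ext
      have h1 : (x : ℚ) = ((x : ℚ).num : ℚ) / ((x : ℚ).den : ℚ) := (Rat.num_div_den (x : ℚ)).symm
      have h2 : (((x : ℚ).num : ℤ) : ℚ) = (ℓ : ℚ) * (m : ℚ) := by exact_mod_cast congrArg (Int.cast : ℤ → ℚ) hm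
      push_cast
      rw [← mul_div_assoc, ← h2]
      exact h1

theorem ratLocalizedAtResidue_eq_zero_iff (x : ↥(GaloisRep.ratLocalizedAt ℓ)) :
    ratLocalizedAtResidue ℓ x = 0 ↔ ((ℓ : ℕ) : ↥(GaloisRep.ratLocalizedAt ℓ)) ∣ x := by
  rw [ratLocalizedAt_dvd_iff]
  have h1 := h34_ringHom_den_mul ℓ (ratLocalizedAtResidue ℓ) x
  have h3 : (((x : ℚ).den : ℕ) : ZMod ℓ) ≠ 0 := by
    rw [Ne, ZMod.natCast_eq_zero_iff]
    exact h34_not_dvd_den ℓ x
  rw [← ZMod.intCast_zmod_eq_zero_iff_dvd, ← h1]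
  constructor
  · intro h
    rw [h, mul_zero]
  · intro h
    exact (mul_eq_zero.1 h).resolve_left h3

theorem ratLocalizedAtResidue_ker :
    RingHom.ker (ratLocalizedAtResidue ℓ)
      = Ideal.span {((ℓ : ℕ) : ↥(GaloisRep.ratLocalizedAt ℓ))} := by
  ext x
  rw [RingHom.mem_ker, ratLocalizedAtResidue_eq_zero_iff, Ideal.mem_span_singleton]

/-- Exported existential form. -/
theorem ratLocalizedAt_residue :
    ∃ φ : ↥(GaloisRep.ratLocalizedAt ℓ) →+* ZMod ℓ, Function.Surjective φ ∧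
      ∀ x, φ x = 0 ↔ ((ℓ : ℕ) : ↥(GaloisRep.ratLocalizedAt ℓ)) ∣ x :=
  ⟨ratLocalizedAtResidue ℓ, ratLocalizedAtResidue_surjective ℓ,
    ratLocalizedAtResidue_eq_zero_iff ℓ⟩

theorem ratLocalizedAt_prime : Prime ((ℓ : ℕ) : ↥(GaloisRep.ratLocalizedAt ℓ)) := by
  have hℓ : ℓ.Prime := Fact.out
  refine ⟨?_, ?_, ?_⟩
  · exact Nat.cast_ne_zero.2 hℓ.ne_zero
  · intro hu
    have h1 : ratLocalizedAtResidue ℓ ((ℓ : ℕ) : ↥(GaloisRep.ratLocalizedAt ℓ)) = 0 :=
      (ratLocalizedAtResidue_eq_zero_iff ℓ _).2 dvd_rfl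
    have h2 := hu.map (ratLocalizedAtResidue ℓ)
    rw [h1] at h2
    exact not_isUnit_zero h2
  · intro a b hab
    rw [← ratLocalizedAtResidue_eq_zero_iff] at hab ⊢
    rw [← ratLocalizedAtResidue_eq_zero_iff]
    rw [map_mul] at hab
    exact mul_eq_zero.1 hab

/-- Every nonzero element of `ℤ_(ℓ)` is `ℓ ^ n` times a unit. -/
theorem ratLocalizedAt_associated_pow (x : ↥(GaloisRep.ratLocalizedAt ℓ)) (hx : x ≠ 0) :
    ∃ n : ℕ, Associated (((ℓ : ℕ) : ↥(GaloisRep.ratLocalizedAt ℓ)) ^ n) x := by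
  have hℓ : ℓ.Prime := Fact.out
  have hnum : (x : ℚ).num ≠ 0 := by
    intro h
    apply hx
    apply Subtype.ext
    exact Rat.num_eq_zero.1 h
  have hfin : FiniteMultiplicity (ℓ : ℤ) (x : ℚ).num :=
    Int.finiteMultiplicity_iff.2 ⟨by simpa using hℓ.ne_one, hnum⟩
  obtain ⟨m, hm, hm'⟩ := hfin.exists_eq_pow_mul_and_not_dvd
  set n := multiplicity (ℓ : ℤ) (x : ℚ).num with hn
  have hm0 : m ≠ 0 := fun h => hm' (h ▸ dvd_zero _)
  have hden : ¬ (ℓ : ℤ) ∣ (((x : ℚ).den : ℕ) : ℤ) := fun h =>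
    h34_not_dvd_den ℓ x (Int.natCast_dvd_natCast.1 h)
  have hden0 : (((x : ℚ).den : ℕ) : ℚ) ≠ 0 := Nat.cast_ne_zero.2 (x : ℚ).den_nz
  have hm0' : (m : ℚ) ≠ 0 := Int.cast_ne_zero.2 hm0
  refine ⟨n, ⟨⟨⟨(m : ℚ) / ((((x : ℚ).den : ℕ) : ℤ) : ℚ), h34_div_mem_ratLocalizedAt ℓ m _ hden⟩,
    ⟨((((x : ℚ).den : ℕ) : ℤ) : ℚ) / (m : ℚ), h34_div_mem_ratLocalizedAt ℓ _ m hm'⟩, ?_, ?_⟩, ?_⟩⟩
  · apply Subtype.ext
    push_cast
    field_simp
  · apply Subtype.ext
    push_cast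
    field_simp
  · apply Subtype.ext
    have h1 : (x : ℚ) = ((x : ℚ).num : ℚ) / ((x : ℚ).den : ℚ) := (Rat.num_div_den (x : ℚ)).symm
    have h2 : (((x : ℚ).num : ℤ) : ℚ) = (ℓ : ℚ) ^ n * (m : ℚ) := by
      exact_mod_cast congrArg (Int.cast : ℤ → ℚ) hm
    push_cast
    rw [← mul_div_assoc, ← h2]
    exact h1.symm

theorem ratLocalizedAt_isDiscreteValuationRing :
    IsDiscreteValuationRing ↥(GaloisRep.ratLocalizedAt ℓ) :=
  IsDiscreteValuationRing.ofHasUnitMulPowIrreducibleFactorization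
    ⟨((ℓ : ℕ) : ↥(GaloisRep.ratLocalizedAt ℓ)), (ratLocalizedAt_prime ℓ).irreducible,
      fun {x} hx => ratLocalizedAt_associated_pow ℓ x hx⟩

theorem ratLocalizedAt_isPrincipalIdealRing :
    IsPrincipalIdealRing ↥(GaloisRep.ratLocalizedAt ℓ) :=
  haveI := ratLocalizedAt_isDiscreteValuationRing ℓ
  inferInstance

omit [Fact ℓ.Prime] in
/-- The algebra map to a field of characteristic `ℓ` kills `ℓ`. -/
theorem algebraMap_natCast_eq_zero (K : Type*) [Field K] [CharP K ℓ]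
    [Algebra ↥(GaloisRep.ratLocalizedAt ℓ) K] :
    algebraMap ↥(GaloisRep.ratLocalizedAt ℓ) K ((ℓ : ℕ) : ↥(GaloisRep.ratLocalizedAt ℓ)) = 0 := by
  rw [map_natCast]
  exact CharP.cast_eq_zero K ℓ

/-- The algebra map to a field of characteristic `ℓ` factors through the residue map. -/
theorem algebraMap_eq_comp_residue (K : Type*) [Field K] [CharP K ℓ]
    [Algebra ↥(GaloisRep.ratLocalizedAt ℓ) K] :
    ∃ ψ : ZMod ℓ →+* K,
      algebraMap ↥(GaloisRep.ratLocalizedAt ℓ) K = ψ.comp (ratLocalizedAtResidue ℓ) :=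
  ⟨ZMod.castHom (dvd_refl ℓ) K, ratLocalizedAt_ringHom_ext ℓ _ _⟩

theorem ratLocalizedAt_prime_C :
    Prime (C ((ℓ : ℕ) : ↥(GaloisRep.ratLocalizedAt ℓ))) :=
  prime_C_iff.2 (ratLocalizedAt_prime ℓ)

theorem ratLocalizedAt_polynomial_isIntegrallyClosed :
    IsIntegrallyClosed (Polynomial ↥(GaloisRep.ratLocalizedAt ℓ)) :=
  haveI := ratLocalizedAt_isPrincipalIdealRing ℓ
  inferInstance

theorem ratLocalizedAt_isIntegrallyClosed :
    IsIntegrallyClosed ↥(GaloisRep.ratLocalizedAt ℓ) :=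
  haveI := ratLocalizedAt_isPrincipalIdealRing ℓ
  inferInstance

end Zl

end Fermat.Agent.S28
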