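import Mathlib

/-!
# S28 (Igusa), block Q2 : the abstract kernel lemma

Generic commutative algebra behind "the kernel of reduction mod `ℓ` on a chart is `ℓ • chart`".

* `h73_minpoly_smul` : `minpoly K (c • z) = (minpoly K z).scaleRoots c` for `c ≠ 0`.
* `h73_isIntegral_of_smul_of_smul` : over an integrally closed domain `R₀` with a prime `p`
  and `s` prime to `p`, if `p • z` and `s • z` are integral then so is `z`.
* `h73_ker_abs` : the kernel lemma.
-/

set_option autoImplicit false

namespace Fermat.Agent.S28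

open Polynomial

section Minpoly

variable {K F : Type*} [Field K] [Field F] [Algebra K F]

/-- Scaling an algebraic element scales the roots of its minimal polynomial. -/
theorem h73_minpoly_smul (c : K) (hc : c ≠ 0) (z : F) (hz : IsIntegral K z) :
    minpoly K (c • z) = (minpoly K z).scaleRoots c := by
  symm
  refine minpoly.unique K (c • z) ((monic_scaleRoots_iff c).mpr (minpoly.monic hz)) ?_ ?_
  · have h := scaleRoots_aeval_eq_zero (p := minpoly K z) (a := z) (r := c) (minpoly.aeval K z)
    rwa [← Algebra.smul_def] at h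
  · intro q hq hq0
    have h1 : aeval z (q.scaleRoots c⁻¹) = 0 := by
      have h := scaleRoots_aeval_eq_zero (p := q) (a := c • z) (r := c⁻¹) hq0
      rwa [← Algebra.smul_def, smul_smul, inv_mul_cancel₀ hc, one_smul] at h
    have h2 := minpoly.min K z ((monic_scaleRoots_iff c⁻¹).mpr hq) h1
    rw [degree_scaleRoots] at h2 ⊢
    exact h2

end Minpoly

section Integral

variable {R₀ F : Type*} [CommRing R₀] [IsDomain R₀] [IsIntegrallyClosed R₀] [Field F]
  [Algebra R₀ F] [FaithfulSMul R₀ F]

attribute [local instance] FractionRing.liftAlgebra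

/-- If `p` is prime, `s` is prime to `p`, and both `p • z` and `s • z` are integral over the
integrally closed domain `R₀`, then `z` is integral over `R₀`. -/
theorem h73_isIntegral_of_smul_of_smul (p s : R₀) (hp : Prime p) (hs : ¬ p ∣ s) (z : F)
    (h1 : IsIntegral R₀ (p • z)) (h2 : IsIntegral R₀ (s • z)) : IsIntegral R₀ z := by
  have hp0 : p ≠ 0 := hp.ne_zero
  have hs0 : s ≠ 0 := by
    rintro rfl
    exact hs (dvd_zero p)
  have hinj : Function.Injective (algebraMap R₀ (FractionRing R₀)) :=
    IsFractionRing.injective R₀ (FractionRing R₀)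
  have hpK : algebraMap R₀ (FractionRing R₀) p ≠ 0 := by
    rw [Ne, map_eq_zero_iff _ hinj]
    exact hp0
  have hzK : IsIntegral (FractionRing R₀) z := by
    have h3 : IsIntegral (FractionRing R₀) (p • z) := h1.tower_top
    have h4 : z = (algebraMap R₀ (FractionRing R₀) p)⁻¹ • (p • z) := by
      rw [← algebraMap_smul (FractionRing R₀) p z, smul_smul, inv_mul_cancel₀ hpK, one_smul]
    rw [h4]
    exact h3.smul _
  have key : ∀ r : R₀, r ≠ 0 → IsIntegral R₀ (r • z) → ∀ i, ∃ a : R₀,
      algebraMap R₀ (FractionRing R₀) a = (minpoly (FractionRing R₀) z).coeff i *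
        (algebraMap R₀ (FractionRing R₀) r) ^ ((minpoly (FractionRing R₀) z).natDegree - i) := by
    intro r hr hint i
    have hrK : algebraMap R₀ (FractionRing R₀) r ≠ 0 := by
      rw [Ne, map_eq_zero_iff _ hinj]
      exact hr
    have e1 : minpoly (FractionRing R₀) (r • z) =
        (minpoly R₀ (r • z)).map (algebraMap R₀ (FractionRing R₀)) :=
      minpoly.isIntegrallyClosed_eq_field_fractions' (FractionRing R₀) hint
    have e2 : minpoly (FractionRing R₀) (r • z) =
        (minpoly (FractionRing R₀) z).scaleRoots (algebraMap R₀ (FractionRing R₀) r) := by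
      rw [← h73_minpoly_smul _ hrK z hzK, algebraMap_smul]
    refine ⟨(minpoly R₀ (r • z)).coeff i, ?_⟩
    rw [← coeff_map, ← e1, e2, coeff_scaleRoots]
  have hc : ∀ i, ∃ a : R₀,
      algebraMap R₀ (FractionRing R₀) a = (minpoly (FractionRing R₀) z).coeff i := by
    intro i
    obtain ⟨u, hu⟩ := key p hp0 h1 i
    obtain ⟨w, hw⟩ := key s hs0 h2 i
    generalize (minpoly (FractionRing R₀) z).natDegree - i = e at hu hw
    have h5 : u * s ^ e = w * p ^ e := by
      apply hinj
      simp only [map_mul, map_pow, hu, hw]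
      ring
    have hdvd : p ^ e ∣ u := by
      have h6 : p ^ e ∣ u * s ^ e := ⟨w, by rw [h5]; ring⟩
      exact hp.pow_dvd_of_dvd_mul_right e (fun h => hs (hp.dvd_of_dvd_pow h)) h6
    obtain ⟨a, rfl⟩ := hdvd
    refine ⟨a, ?_⟩
    have hpe : (algebraMap R₀ (FractionRing R₀) p) ^ e ≠ 0 := pow_ne_zero _ hpK
    apply mul_right_cancel₀ hpe
    rw [← hu, map_mul, map_pow]
    ring
  have hl : minpoly (FractionRing R₀) z ∈ lifts (algebraMap R₀ (FractionRing R₀)) :=
    (lifts_iff_coeff_lifts _).mpr fun i => by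
      obtain ⟨a, ha⟩ := hc i
      exact ⟨a, ha⟩
  obtain ⟨q, hq, -, hqm⟩ := lifts_and_natDegree_eq_and_monic hl (minpoly.monic hzK)
  refine ⟨q, hqm, ?_⟩
  have h7 : aeval z (minpoly (FractionRing R₀) z) = 0 := minpoly.aeval _ z
  rw [← hq, aeval_map_algebraMap] at h7
  exact h7

end Integral

section Kernel

variable {R₀ F Ω : Type*} [CommRing R₀] [IsDomain R₀] [IsIntegrallyClosed R₀] [WfDvdMonoid R₀]
  [Field F] [Algebra R₀ F] [FaithfulSMul R₀ F] [CommRing Ω]

omit [IsIntegrallyClosed R₀] [WfDvdMonoid R₀] in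
/-- Normalisation of a relation: divide out the common power of `p`. -/
theorem h73_normalize_rel (p : R₀) (hp : Prime p) (B : Subalgebra R₀ F) {n : ℕ} (b : Fin n → ↥B)
    (x : ↥B) (m : ℕ) :
    ∀ (s : R₀) (a : Fin n → R₀), s • x + ∑ i, a i • b i = 0 →
      ((s ≠ 0 ∧ ¬ p ^ (m + 1) ∣ s) ∨ ∃ i, a i ≠ 0 ∧ ¬ p ^ (m + 1) ∣ a i) →
      ∃ (s' : R₀) (a' : Fin n → R₀), s' • x + ∑ i, a' i • b i = 0 ∧
        ¬ (p ∣ s' ∧ ∀ i, p ∣ a' i) := by
  induction m with
  | zero =>
    intro s a hrel hne
    refine ⟨s, a, hrel, ?_⟩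
    rintro ⟨h1, h2⟩
    rcases hne with ⟨-, h⟩ | ⟨i, -, h⟩
    · exact h (by simpa using h1)
    · exact h (by simpa using h2 i)
  | succ m ih =>
    intro s a hrel hne
    by_cases hall : p ∣ s ∧ ∀ i, p ∣ a i
    · obtain ⟨⟨s₁, rfl⟩, ha⟩ := hall
      choose a₁ ha₁ using ha
      have hp0 : p ≠ 0 := hp.ne_zero
      have hrel' : s₁ • x + ∑ i, a₁ i • b i = 0 := by
        have h1 : p • (s₁ • x + ∑ i, a₁ i • b i) = 0 := by
          rw [smul_add, Finset.smul_sum, smul_smul]
          rw [← hrel]
          congr 1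
          refine Finset.sum_congr rfl fun i _ => ?_
          rw [smul_smul, ← ha₁ i]
        have hB : NoZeroSMulDivisors R₀ ↥B := by
          refine ⟨fun {c y} h => ?_⟩
          have h' : algebraMap R₀ F c * (y : F) = 0 := by
            have := congrArg (Subtype.val) h
            simpa [Algebra.smul_def] using this
          rcases mul_eq_zero.mp h' with h'' | h''
          · left
            exact (map_eq_zero_iff _ (FaithfulSMul.algebraMap_injective R₀ F)).mp h''
          · right
            exact Subtype.ext h''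
        exact (smul_eq_zero.mp h1).resolve_left hp0
      apply ih s₁ a₁ hrel'
      rcases hne with ⟨h0, h⟩ | ⟨i, h0, h⟩
      · left
        refine ⟨fun h' => h0 (by rw [h', mul_zero]), fun h' => h ?_⟩
        rw [pow_succ']
        exact mul_dvd_mul_left p h'
      · right
        refine ⟨i, fun h' => h0 (by rw [ha₁ i, h', mul_zero]), fun h' => h ?_⟩
        rw [ha₁ i, pow_succ']
        exact mul_dvd_mul_left p h'
    · exact ⟨s, a, hrel, hall⟩

/-- **Abstract kernel lemma.**  `R₀` an integrally closed domain with well-founded divisibility,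
`p` a prime of `R₀`, `F` a field containing `R₀`, `B` an `R₀`-subalgebra of `F` with a ring
homomorphism `red`.  Suppose `b₁, …, bₙ ∈ B` are integral over `R₀` and independent
modulo `p` (`hind`), and `x ∈ B` is integral over `R₀`, killed by `red`, and satisfies a nontrivial
`R₀`-linear relation with the `bᵢ`.  Then `x = p • y` with `y` integral over `R₀`. -/
theorem h73_ker_abs (p : R₀) (hp : Prime p) (B : Subalgebra R₀ F) (red : ↥B →+* Ω)
    {n : ℕ} (b : Fin n → ↥B) (hb : ∀ i, IsIntegral R₀ (b i : F))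
    (hind : ∀ a : Fin n → R₀, red (∑ i, a i • b i) = 0 → ∀ i, p ∣ a i)
    (x : ↥B) (hx : IsIntegral R₀ (x : F)) (hx0 : red x = 0)
    (hrel : ∃ (s : R₀) (a : Fin n → R₀), (s ≠ 0 ∨ a ≠ 0) ∧ s • x + ∑ i, a i • b i = 0) :
    ∃ y : F, IsIntegral R₀ y ∧ (x : F) = p • y := by
  have hp0 : p ≠ 0 := hp.ne_zero
  have hpF : algebraMap R₀ F p ≠ 0 := by
    rw [Ne, map_eq_zero_iff _ (FaithfulSMul.algebraMap_injective R₀ F)]
    exact hp0
  -- Step A: normalise the relation.
  obtain ⟨s, a, hrel', hnall⟩ : ∃ (s : R₀) (a : Fin n → R₀), s • x + ∑ i, a i • b i = 0 ∧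
      ¬ (p ∣ s ∧ ∀ i, p ∣ a i) := by
    obtain ⟨s, a, hne, hrel⟩ := hrel
    rcases hne with hs | ha
    · obtain ⟨m, c, hc, rfl⟩ := WfDvdMonoid.max_power_factor hs hp.irreducible
      refine h73_normalize_rel p hp B b x m _ a hrel (Or.inl ⟨hs, ?_⟩)
      rw [pow_succ, mul_dvd_mul_iff_left (pow_ne_zero m hp0)]
      exact hc
    · obtain ⟨i, hi⟩ : ∃ i, a i ≠ 0 := by
        by_contra h
        exact ha (funext fun i => by
          by_contra hi
          exact h ⟨i, hi⟩)
      obtain ⟨m, c, hc, hai⟩ := WfDvdMonoid.max_power_factor hi hp.irreducible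
      refine h73_normalize_rel p hp B b x m s a hrel (Or.inr ⟨i, hi, ?_⟩)
      rw [hai, pow_succ, mul_dvd_mul_iff_left (pow_ne_zero m hp0)]
      exact hc
  -- Step B: reduce.
  have hred : red (∑ i, a i • b i) = 0 := by
    have h1 : red (s • x + ∑ i, a i • b i) = 0 := by rw [hrel', map_zero]
    rw [map_add, Algebra.smul_def, map_mul, hx0, mul_zero, zero_add] at h1
    exact h1
  have hdiv := hind a hred
  have hs : ¬ p ∣ s := fun h => hnall ⟨h, hdiv⟩
  choose a' ha' using hdiv
  -- Step C: the quotient.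
  set z : F := (algebraMap R₀ F p)⁻¹ * (x : F) with hz
  have hpz : p • z = (x : F) := by
    rw [hz, Algebra.smul_def, ← mul_assoc, mul_inv_cancel₀ hpF, one_mul]
  have hsz : s • z = -∑ i, a' i • (b i : F) := by
    have h1 : ((s • x + ∑ i, a i • b i : ↥B) : F) = 0 := by rw [hrel']; rfl
    have h2 : s • (x : F) + ∑ i, a i • (b i : F) = 0 := by
      simpa using h1
    have h3 : ∑ i, a i • (b i : F) = p • ∑ i, a' i • (b i : F) := by
      rw [Finset.smul_sum]
      refine Finset.sum_congr rfl fun i _ => ?_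
      rw [smul_smul, ← ha' i]
    have h4 : p • (s • z) = p • (-∑ i, a' i • (b i : F)) := by
      rw [smul_comm, hpz, smul_neg, ← h3]
      exact eq_neg_of_add_eq_zero_left h2
    have h5 : algebraMap R₀ F p * (s • z) = algebraMap R₀ F p * (-∑ i, a' i • (b i : F)) := by
      simpa [Algebra.smul_def] using h4
    exact mul_left_cancel₀ hpF h5
  have hint1 : IsIntegral R₀ (p • z) := by rw [hpz]; exact hx
  have hint2 : IsIntegral R₀ (s • z) := by
    rw [hsz]
    refine IsIntegral.neg (IsIntegral.sum _ fun i _ => ?_)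
    exact (hb i).smul (a' i)
  exact ⟨z, h73_isIntegral_of_smul_of_smul p s hp hs z hint1 hint2, hpz.symm⟩

end Kernel

end Fermat.Agent.S28
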