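import Mathlib
import Fermat.Statements.S28
import Fermat.Agent.S28.ZlBasics
import Fermat.Agent.S28.CoeffMem
import Fermat.Agent.S28.h73_KerAbs

/-!
# S28 (Igusa), block Q2 : instantiation glue for the kernel lemma

* `h73_lift ℓ : ↥(h57_B0 ℓ) →+* LaurentSeries ℤ_(ℓ)` : a Laurent series over `ℚ` with
  `ℓ`-integral coefficients, as a Laurent series over `ℤ_(ℓ)`.
* `h73_red ℓ : ↥(h57_B0 ℓ) →+* LaurentSeries (ZMod ℓ)` : reduction of the coefficients mod `ℓ`,
  and `h73_redTo ℓ φ` for an arbitrary ring hom `φ` out of `ℤ_(ℓ)`.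
* `h73_chartAlg_ker` : the kernel statement for a chart `{J}` from a good family and a relation.
-/

set_option autoImplicit false
set_option linter.unusedSectionVars false

namespace Fermat.Agent.S28

open ModularCurve ModularCurve.IgusaScheme Polynomial

noncomputable section

/-! ### Lifting to `ℤ_(ℓ)`-coefficients and reducing -/

section Lift

variable (ℓ : ℕ)

/-- The Laurent series over `ℤ_(ℓ)` underlying an element of `h57_B0 ℓ`. -/
def h73_liftFun (f : ↥(h57_B0 ℓ)) : LaurentSeries ↥(GaloisRep.ratLocalizedAt ℓ) where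
  coeff k := ⟨(f : LaurentSeries ℚ).coeff k, f.2 k⟩
  isPWO_support' := (f : LaurentSeries ℚ).isPWO_support.mono (fun k hk => by
    simp only [Function.mem_support, ne_eq] at hk ⊢
    intro h
    exact hk (Subtype.ext h))

@[simp] theorem h73_liftFun_coeff (f : ↥(h57_B0 ℓ)) (k : ℤ) :
    ((h73_liftFun ℓ f).coeff k : ℚ) = (f : LaurentSeries ℚ).coeff k := rfl

theorem h73_coeffMap_liftFun (f : ↥(h57_B0 ℓ)) :
    coeffMap (GaloisRep.ratLocalizedAt ℓ).subtype (h73_liftFun ℓ f) = (f : LaurentSeries ℚ) := by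
  ext k
  rfl

theorem h73_coeffMap_subtype_injective :
    Function.Injective (coeffMap (GaloisRep.ratLocalizedAt ℓ).subtype) := by
  intro x y h
  ext k
  have h1 := congrArg (fun z => z.coeff k) h
  exact h1

/-- `h57_B0 ℓ → LaurentSeries ℤ_(ℓ)` as a ring homomorphism. -/
def h73_lift : ↥(h57_B0 ℓ) →+* LaurentSeries ↥(GaloisRep.ratLocalizedAt ℓ) where
  toFun := h73_liftFun ℓ
  map_one' := by
    apply h73_coeffMap_subtype_injective
    rw [h73_coeffMap_liftFun, map_one]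
    rfl
  map_mul' f g := by
    apply h73_coeffMap_subtype_injective
    rw [h73_coeffMap_liftFun, map_mul, h73_coeffMap_liftFun, h73_coeffMap_liftFun]
    rfl
  map_zero' := by
    apply h73_coeffMap_subtype_injective
    rw [h73_coeffMap_liftFun, map_zero]
    rfl
  map_add' f g := by
    apply h73_coeffMap_subtype_injective
    rw [h73_coeffMap_liftFun, map_add, h73_coeffMap_liftFun, h73_coeffMap_liftFun]
    rfl

@[simp] theorem h73_lift_coeff (f : ↥(h57_B0 ℓ)) (k : ℤ) :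
    ((h73_lift ℓ f).coeff k : ℚ) = (f : LaurentSeries ℚ).coeff k := rfl

theorem h73_coeffMap_lift (f : ↥(h57_B0 ℓ)) :
    coeffMap (GaloisRep.ratLocalizedAt ℓ).subtype (h73_lift ℓ f) = (f : LaurentSeries ℚ) :=
  h73_coeffMap_liftFun ℓ f

theorem h73_lift_injective : Function.Injective (h73_lift ℓ) := by
  intro f g h
  apply Subtype.ext
  rw [← h73_coeffMap_lift, ← h73_coeffMap_lift, h]

/-- Coefficientwise application of a ring hom out of `ℤ_(ℓ)`. -/
def h73_redTo {K : Type*} [CommRing K] (φ : ↥(GaloisRep.ratLocalizedAt ℓ) →+* K) :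
    ↥(h57_B0 ℓ) →+* LaurentSeries K :=
  (coeffMap φ).comp (h73_lift ℓ)

theorem h73_redTo_coeff {K : Type*} [CommRing K] (φ : ↥(GaloisRep.ratLocalizedAt ℓ) →+* K)
    (f : ↥(h57_B0 ℓ)) (k : ℤ) :
    (h73_redTo ℓ φ f).coeff k = φ ⟨(f : LaurentSeries ℚ).coeff k, f.2 k⟩ := rfl

variable [Fact ℓ.Prime]

/-- Reduction of the coefficients modulo `ℓ`. -/
def h73_red : ↥(h57_B0 ℓ) →+* LaurentSeries (ZMod ℓ) :=
  h73_redTo ℓ (ratLocalizedAtResidue ℓ)

theorem h73_red_coeff (f : ↥(h57_B0 ℓ)) (k : ℤ) :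
    (h73_red ℓ f).coeff k = ratLocalizedAtResidue ℓ ⟨(f : LaurentSeries ℚ).coeff k, f.2 k⟩ := rfl

/-- The kernel of the reduction: all coefficients are `ℓ` times an `ℓ`-integral number. -/
theorem h73_red_eq_zero_iff (f : ↥(h57_B0 ℓ)) :
    h73_red ℓ f = 0 ↔
      ∀ k : ℤ, ∃ c ∈ GaloisRep.ratLocalizedAt ℓ, (f : LaurentSeries ℚ).coeff k = ℓ * c := by
  constructor
  · intro h k
    have h1 : ratLocalizedAtResidue ℓ ⟨(f : LaurentSeries ℚ).coeff k, f.2 k⟩ = 0 := by
      rw [← h73_red_coeff, h, HahnSeries.coeff_zero]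
    rw [ratLocalizedAtResidue_eq_zero_iff] at h1
    obtain ⟨c, hc⟩ := h1
    refine ⟨c, c.2, ?_⟩
    have h2 := congrArg Subtype.val hc
    simpa using h2
  · intro h
    ext k
    rw [h73_red_coeff, HahnSeries.coeff_zero, ratLocalizedAtResidue_eq_zero_iff]
    obtain ⟨c, hc, hk⟩ := h k
    refine ⟨⟨c, hc⟩, Subtype.ext ?_⟩
    simpa using hk

end Lift

/-! ### Transcendence of `j` -/

section Transc

theorem h73_algebraMap_eq_single {K : Type*} [CommRing K] (c : K) :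
    algebraMap K (LaurentSeries K) c = HahnSeries.single 0 c := by
  have h1 : algebraMap K (PowerSeries K) c = PowerSeries.C c := by
    simp
  rw [HahnSeries.algebraMap_apply', h1, HahnSeries.ofPowerSeries_C]
  rfl

/-- The coefficient of `q^(-deg P)` in `P(j)` is the leading coefficient of `P`. -/
theorem h73_coeff_aeval_jqModC (K : Type*) [CommRing K] (P : Polynomial K) :
    (aeval (jqModC K) P).coeff (-(P.natDegree : ℤ)) = P.leadingCoeff := by
  rw [aeval_eq_sum_range, HahnSeries.coeff_sum, Finset.sum_eq_single P.natDegree]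
  · rw [Algebra.smul_def, h73_algebraMap_eq_single, HahnSeries.coeff_single_zero_mul,
      coeff_jqModC_pow_self, mul_one]
    rfl
  · intro i hi hne
    have hi' : i < P.natDegree :=
      lt_of_le_of_ne (Nat.lt_succ_iff.mp (Finset.mem_range.mp hi)) hne
    rw [Algebra.smul_def, h73_algebraMap_eq_single, HahnSeries.coeff_single_zero_mul,
      coeff_jqModC_pow_of_lt K (by exact_mod_cast neg_lt_neg (Nat.cast_lt.mpr hi')), mul_zero]
  · intro h
    exact absurd (Finset.mem_range.mpr (Nat.lt_succ_self _)) h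

theorem h73_aeval_jqModC_ne_zero (K : Type*) [CommRing K] {P : Polynomial K} (hP : P ≠ 0) :
    aeval (jqModC K) P ≠ 0 := by
  intro h
  have h1 := h73_coeff_aeval_jqModC K P
  rw [h, HahnSeries.coeff_zero] at h1
  exact hP (leadingCoeff_eq_zero.mp h1.symm)

theorem h73_jqModC_transcendental (K : Type*) [Field K] : Transcendental K (jqModC K) := by
  rintro ⟨P, hP, hP0⟩
  exact h73_aeval_jqModC_ne_zero K hP hP0

theorem h73_jq_transcendental : Transcendental ℚ jq :=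
  h73_jqModC_transcendental ℚ

variable (N : ℕ) [NeZero N]

theorem h73_jFull_transcendental : Transcendental ℚ (jFull N) := by
  rintro ⟨P, hP, hP0⟩
  apply h73_aeval_jqModC_ne_zero ℚ hP
  have h1 := congrArg (algebraMap ↥(modularFunctionFieldFull N) (LaurentSeries ℚ)) hP0
  rw [aeval_def, hom_eval₂, map_zero] at h1
  rw [aeval_def, ← h1]
  congr 1
  exact Subsingleton.elim _ _

theorem h73_jFull_inv_transcendental : Transcendental ℚ (jFull N)⁻¹ := by
  intro h
  exact h73_jFull_transcendental N (IsAlgebraic.inv_iff.mp h)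

end Transc

/-! ### The base ring `ℤ_(ℓ)[J]` of a chart -/

section Base

variable (N : ℕ) [NeZero N] (ℓ : ℕ) [Fact ℓ.Prime]

omit [NeZero N] [Fact ℓ.Prime] in
/-- `P ↦ P(J)` is injective on `ℤ_(ℓ)[X]` for `J` transcendental over `ℚ`. -/
theorem h73_aeval_injective (J : ↥(modularFunctionFieldFull N)) (hJ : Transcendental ℚ J) :
    Function.Injective
      (aeval (R := ↥(GaloisRep.ratLocalizedAt ℓ)) J) := by
  rw [injective_iff_map_eq_zero]
  intro P hP
  have h1 : aeval J (P.map (algebraMap ↥(GaloisRep.ratLocalizedAt ℓ) ℚ)) = 0 := by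
    rw [aeval_map_algebraMap]
    exact hP
  have h2 : P.map (algebraMap ↥(GaloisRep.ratLocalizedAt ℓ) ℚ) = 0 := by
    by_contra hne
    exact hJ ⟨_, hne, h1⟩
  exact (Polynomial.map_eq_zero_iff (FaithfulSMul.algebraMap_injective _ _)).mp h2

/-- The ring isomorphism `ℤ_(ℓ)[X] ≃ ℤ_(ℓ)[J]`. -/
def h73_adjEquiv (J : ↥(modularFunctionFieldFull N)) (hJ : Transcendental ℚ J) :
    Polynomial ↥(GaloisRep.ratLocalizedAt ℓ) ≃+*
      ↥(Algebra.adjoin ↥(GaloisRep.ratLocalizedAt ℓ) ({J} : Set ↥(modularFunctionFieldFull N))) :=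
  RingEquiv.ofBijective
    ((aeval (R := ↥(GaloisRep.ratLocalizedAt ℓ)) J).codRestrict
      (Algebra.adjoin ↥(GaloisRep.ratLocalizedAt ℓ) {J})
      (fun P => aeval_mem_adjoin_singleton _ _)).toRingHom
    ⟨fun P Q h => h73_aeval_injective N ℓ J hJ (congrArg Subtype.val h), by
      rintro ⟨y, hy⟩
      rw [Algebra.adjoin_singleton_eq_range_aeval] at hy
      obtain ⟨P, rfl⟩ := hy
      exact ⟨P, rfl⟩⟩

theorem h73_adjEquiv_apply (J : ↥(modularFunctionFieldFull N)) (hJ : Transcendental ℚ J)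
    (P : Polynomial ↥(GaloisRep.ratLocalizedAt ℓ)) :
    ((h73_adjEquiv N ℓ J hJ P : ↥(Algebra.adjoin ↥(GaloisRep.ratLocalizedAt ℓ)
      ({J} : Set ↥(modularFunctionFieldFull N)))) : ↥(modularFunctionFieldFull N)) = aeval J P :=
  rfl

theorem h73_adj_isIntegrallyClosed (J : ↥(modularFunctionFieldFull N))
    (hJ : Transcendental ℚ J) :
    IsIntegrallyClosed ↥(Algebra.adjoin ↥(GaloisRep.ratLocalizedAt ℓ)
      ({J} : Set ↥(modularFunctionFieldFull N))) := by
  have := ratLocalizedAt_polynomial_isIntegrallyClosed ℓ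
  exact IsIntegrallyClosed.of_equiv (h73_adjEquiv N ℓ J hJ)

theorem h73_adj_wfDvdMonoid (J : ↥(modularFunctionFieldFull N)) (hJ : Transcendental ℚ J) :
    WfDvdMonoid ↥(Algebra.adjoin ↥(GaloisRep.ratLocalizedAt ℓ)
      ({J} : Set ↥(modularFunctionFieldFull N))) := by
  have := ratLocalizedAt_isPrincipalIdealRing ℓ
  have : IsNoetherianRing ↥(Algebra.adjoin ↥(GaloisRep.ratLocalizedAt ℓ)
      ({J} : Set ↥(modularFunctionFieldFull N))) :=
    isNoetherianRing_of_ringEquiv _ (h73_adjEquiv N ℓ J hJ)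
  infer_instance

theorem h73_adj_prime (J : ↥(modularFunctionFieldFull N)) (hJ : Transcendental ℚ J) :
    Prime (h73_adjEquiv N ℓ J hJ (C ((ℓ : ℕ) : ↥(GaloisRep.ratLocalizedAt ℓ)))) :=
  (MulEquiv.prime_iff (h73_adjEquiv N ℓ J hJ)).mpr (ratLocalizedAt_prime_C ℓ)

end Base

/-! ### The kernel statement for a chart -/

section Chart

variable (N : ℕ) [NeZero N] (ℓ : ℕ) [Fact ℓ.Prime]

/-- Elements of `F` with `ℓ`-integral coefficients, as a subalgebra over `ℤ_(ℓ)[J]`. -/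
def h73_Bsub (J : ↥(modularFunctionFieldFull N))
    (hJ : ({J} : Set ↥(modularFunctionFieldFull N)) ⊆ {jFull N, (jFull N)⁻¹}) :
    Subalgebra ↥(Algebra.adjoin ↥(GaloisRep.ratLocalizedAt ℓ)
      ({J} : Set ↥(modularFunctionFieldFull N))) ↥(modularFunctionFieldFull N) where
  carrier := {x | (x : LaurentSeries ℚ) ∈ h57_B0 ℓ}
  mul_mem' {a b} ha hb := by
    show ((a : LaurentSeries ℚ) * (b : LaurentSeries ℚ)) ∈ h57_B0 ℓ
    exact Subring.mul_mem _ ha hb
  one_mem' := by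
    show (1 : LaurentSeries ℚ) ∈ h57_B0 ℓ
    exact Subring.one_mem _
  add_mem' {a b} ha hb := by
    show ((a : LaurentSeries ℚ) + (b : LaurentSeries ℚ)) ∈ h57_B0 ℓ
    exact Subring.add_mem _ ha hb
  zero_mem' := by
    show (0 : LaurentSeries ℚ) ∈ h57_B0 ℓ
    exact Subring.zero_mem _
  algebraMap_mem' r := fun k =>
    chartAlg_coeff_mem N ℓ {J} hJ r (adjoin_le_chartAlg N ℓ {J} r.2) k

theorem h73_mem_Bsub (J : ↥(modularFunctionFieldFull N))
    (hJ : ({J} : Set ↥(modularFunctionFieldFull N)) ⊆ {jFull N, (jFull N)⁻¹})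
    (x : ↥(modularFunctionFieldFull N)) :
    x ∈ h73_Bsub N ℓ J hJ ↔ (x : LaurentSeries ℚ) ∈ h57_B0 ℓ := ⟨fun h => h, fun h => h⟩

/-- The inclusion of `h73_Bsub` into `h57_B0`. -/
def h73_toB0 (J : ↥(modularFunctionFieldFull N))
    (hJ : ({J} : Set ↥(modularFunctionFieldFull N)) ⊆ {jFull N, (jFull N)⁻¹}) :
    ↥(h73_Bsub N ℓ J hJ) →+* ↥(h57_B0 ℓ) where
  toFun x := ⟨((x : ↥(modularFunctionFieldFull N)) : LaurentSeries ℚ), x.2⟩
  map_one' := rfl
  map_mul' _ _ := rfl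
  map_zero' := rfl
  map_add' _ _ := rfl

/-- Reduction mod `ℓ` on `h73_Bsub`. -/
def h73_redB (J : ↥(modularFunctionFieldFull N))
    (hJ : ({J} : Set ↥(modularFunctionFieldFull N)) ⊆ {jFull N, (jFull N)⁻¹}) :
    ↥(h73_Bsub N ℓ J hJ) →+* LaurentSeries (ZMod ℓ) :=
  (h73_red ℓ).comp (h73_toB0 N ℓ J hJ)

theorem h73_redB_eq_zero_iff (J : ↥(modularFunctionFieldFull N))
    (hJ : ({J} : Set ↥(modularFunctionFieldFull N)) ⊆ {jFull N, (jFull N)⁻¹})
    (x : ↥(h73_Bsub N ℓ J hJ)) :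
    h73_redB N ℓ J hJ x = 0 ↔ ∀ k : ℤ, ∃ c ∈ GaloisRep.ratLocalizedAt ℓ,
      ((x : ↥(modularFunctionFieldFull N)) : LaurentSeries ℚ).coeff k = ℓ * c :=
  h73_red_eq_zero_iff ℓ (h73_toB0 N ℓ J hJ x)

set_option synthInstance.maxHeartbeats 400000 in
/-- **Kernel of the reduction on the chart `{J}`**, from a family `b` of chart elements which is
independent modulo `ℓ` over `ℤ_(ℓ)[J]` and a nontrivial `ℤ_(ℓ)[J]`-relation between `x` and
the family. -/
theorem h73_chartAlg_ker (J : ↥(modularFunctionFieldFull N))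
    (hJ : ({J} : Set ↥(modularFunctionFieldFull N)) ⊆ {jFull N, (jFull N)⁻¹})
    (hJt : Transcendental ℚ J)
    {n : ℕ} (b : Fin n → ↥(modularFunctionFieldFull N)) (hb : ∀ i, b i ∈ chartAlg N ℓ {J})
    (hind : ∀ a : Fin n → Polynomial ↥(GaloisRep.ratLocalizedAt ℓ),
      (∀ k : ℤ, ∃ c ∈ GaloisRep.ratLocalizedAt ℓ,
        ((∑ i, aeval J (a i) * b i : ↥(modularFunctionFieldFull N)) : LaurentSeries ℚ).coeff k
          = ℓ * c) →
      ∀ i, C ((ℓ : ℕ) : ↥(GaloisRep.ratLocalizedAt ℓ)) ∣ a i)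
    (x : ↥(modularFunctionFieldFull N)) (hx : x ∈ chartAlg N ℓ {J})
    (h0 : ∀ k : ℤ, ∃ c ∈ GaloisRep.ratLocalizedAt ℓ, (x : LaurentSeries ℚ).coeff k = ℓ * c)
    (hrel : ∃ (s : Polynomial ↥(GaloisRep.ratLocalizedAt ℓ))
      (a : Fin n → Polynomial ↥(GaloisRep.ratLocalizedAt ℓ)),
      (s ≠ 0 ∨ a ≠ 0) ∧ aeval J s * x + ∑ i, aeval J (a i) * b i = 0) :
    ∃ y ∈ chartAlg N ℓ {J}, x = (ℓ : ℚ) • y := by
  have hIC := h73_adj_isIntegrallyClosed N ℓ J hJt
  have hWf := h73_adj_wfDvdMonoid N ℓ J hJt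
  have hFa : FaithfulSMul ↥(Algebra.adjoin ↥(GaloisRep.ratLocalizedAt ℓ)
      ({J} : Set ↥(modularFunctionFieldFull N))) ↥(modularFunctionFieldFull N) :=
    (faithfulSMul_iff_algebraMap_injective _ _).mpr Subtype.val_injective
  have hmemB : ∀ y : ↥(modularFunctionFieldFull N), y ∈ chartAlg N ℓ {J} →
      y ∈ h73_Bsub N ℓ J hJ := fun y hy =>
    (h73_mem_Bsub N ℓ J hJ y).mpr fun k => chartAlg_coeff_mem N ℓ {J} hJ y hy k
  have hcoe : ∀ a : ↥(Algebra.adjoin ↥(GaloisRep.ratLocalizedAt ℓ)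
      ({J} : Set ↥(modularFunctionFieldFull N))),
      aeval J ((h73_adjEquiv N ℓ J hJt).symm a) = (a : ↥(modularFunctionFieldFull N)) := by
    intro a
    rw [← h73_adjEquiv_apply N ℓ J hJt, RingEquiv.apply_symm_apply]
  have hsum : ∀ a : Fin n → ↥(Algebra.adjoin ↥(GaloisRep.ratLocalizedAt ℓ)
      ({J} : Set ↥(modularFunctionFieldFull N))),
      ((∑ i, a i • (⟨b i, hmemB _ (hb i)⟩ : ↥(h73_Bsub N ℓ J hJ)) : ↥(h73_Bsub N ℓ J hJ)) :
        ↥(modularFunctionFieldFull N)) =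
      ∑ i, aeval J ((h73_adjEquiv N ℓ J hJt).symm (a i)) * b i := by
    intro a
    rw [AddSubmonoidClass.coe_finsetSum]
    refine Finset.sum_congr rfl fun i _ => ?_
    rw [hcoe]
    rfl
  obtain ⟨y, hy, hxy⟩ := h73_ker_abs
    (h73_adjEquiv N ℓ J hJt (C ((ℓ : ℕ) : ↥(GaloisRep.ratLocalizedAt ℓ))))
    (h73_adj_prime N ℓ J hJt) (h73_Bsub N ℓ J hJ) (h73_redB N ℓ J hJ)
    (fun i => ⟨b i, hmemB _ (hb i)⟩) (fun i => hb i)
    (by
      intro a hred i
      rw [h73_redB_eq_zero_iff, hsum] at hred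
      have h1 := hind (fun i => (h73_adjEquiv N ℓ J hJt).symm (a i)) hred i
      obtain ⟨c, hc⟩ := h1
      refine ⟨h73_adjEquiv N ℓ J hJt c, ?_⟩
      rw [← map_mul, ← hc, RingEquiv.apply_symm_apply])
    ⟨x, hmemB x hx⟩ hx
    ((h73_redB_eq_zero_iff N ℓ J hJ _).mpr h0)
    (by
      obtain ⟨s, a, hne, hrel⟩ := hrel
      refine ⟨h73_adjEquiv N ℓ J hJt s, fun i => h73_adjEquiv N ℓ J hJt (a i), ?_, ?_⟩
      · rcases hne with hs | ha
        · left
          exact (map_ne_zero_iff _ (h73_adjEquiv N ℓ J hJt).injective).mpr hs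
        · right
          intro h
          apply ha
          funext i
          have h1 := congrFun h i
          exact (map_eq_zero_iff _ (h73_adjEquiv N ℓ J hJt).injective).mp h1
      · apply Subtype.ext
        rw [AddMemClass.coe_add, hsum]
        simp only [RingEquiv.symm_apply_apply]
        exact hrel)
  refine ⟨y, hy, ?_⟩
  have h1 : (x : ↥(modularFunctionFieldFull N)) =
      (h73_adjEquiv N ℓ J hJt (C ((ℓ : ℕ) : ↥(GaloisRep.ratLocalizedAt ℓ)))) • y := hxy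
  rw [h1]
  show ((h73_adjEquiv N ℓ J hJt (C ((ℓ : ℕ) : ↥(GaloisRep.ratLocalizedAt ℓ))) :
      ↥(Algebra.adjoin ↥(GaloisRep.ratLocalizedAt ℓ) ({J} : Set ↥(modularFunctionFieldFull N)))) :
      ↥(modularFunctionFieldFull N)) * y = (ℓ : ℚ) • y
  rw [h73_adjEquiv_apply, aeval_C, Algebra.smul_def]
  congr 1

end Chart

end

end Fermat.Agent.S28
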