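import Mathlib
import Fermat.Agent.S28.Defs
import Fermat.Agent.S28.Cyc

/-!
# S28 row Z : `[F : ℚ(j)] ≤ card ι` in characteristic `0`

Every `card ι + 1` elements of `modularFunctionFieldFull N` are linearly dependent over `ℚ[j]`.
-/

set_option autoImplicit false

noncomputable section

namespace Fermat.Agent.S28

open ModularCurve Polynomial

section Prelim

variable {A B : Type} [CommRing A] [CommRing B]

theorem h55_expand_injective (m : ℕ) : Function.Injective (expand A m) := by
  unfold expand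
  split_ifs with h
  · exact fun _ _ h => h
  · exact @qExpand_injective A _ m ⟨h⟩

theorem h55_expand_expand (m n : ℕ) (hm : m ≠ 0) (hn : n ≠ 0) (f : LaurentSeries A) :
    expand A m (expand A n f) = expand A (m * n) f := by
  have : NeZero m := ⟨hm⟩
  have : NeZero n := ⟨hn⟩
  have : NeZero (m * n) := ⟨Nat.mul_ne_zero hm hn⟩
  rw [expand_eq_qExpand, expand_eq_qExpand, expand_eq_qExpand, qExpand_qExpand]

theorem h55_coeffMap_expand (φ : A →+* B) (m : ℕ) (f : LaurentSeries A) :
    coeffMap φ (expand A m f) = expand B m (coeffMap φ f) := by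
  by_cases h : m = 0
  · subst h; simp [expand]
  · have : NeZero m := ⟨h⟩
    rw [expand_eq_qExpand, expand_eq_qExpand, coeffMap_qExpand]

theorem h55_algebraMap_eq_C (a : A) :
    algebraMap A (LaurentSeries A) a = HahnSeries.C a := by
  rw [HahnSeries.algebraMap_apply']
  simp

theorem h55_expand_algebraMap (m : ℕ) (a : A) :
    expand A m (algebraMap A (LaurentSeries A) a) = algebraMap A (LaurentSeries A) a := by
  by_cases h : m = 0
  · subst h; simp [expand]
  · have : NeZero m := ⟨h⟩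
    rw [expand_eq_qExpand, h55_algebraMap_eq_C, qExpand_C]

/-- Evaluation of an integer multivariate polynomial in any commutative ring. -/
def h55_evZ {σ : Type} (g : σ → B) (y : MvPolynomial σ ℤ) : B :=
  MvPolynomial.eval₂ (Int.castRingHom B) g y

theorem h55_map_evZ {σ : Type} (φ : A →+* B) (g : σ → A) (y : MvPolynomial σ ℤ) :
    φ (h55_evZ g y) = h55_evZ (fun i => φ (g i)) y := by
  unfold h55_evZ
  rw [MvPolynomial.hom_eval₂]
  congr 1
  exact RingHom.ext_int _ _

end Prelim

section Descent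

variable (N : ℕ) [NeZero N]

/-- The generators `j(q^d)`, `d ∣ N`, over any ring. -/
def h55_g (B : Type) [CommRing B] (d : {d : ℕ // d ∣ N}) : LaurentSeries B :=
  expand B d (jqModC B)

omit [NeZero N] in
theorem h55_coeffMap_g {A B : Type} [CommRing A] [CommRing B] (φ : A →+* B)
    (d : {d : ℕ // d ∣ N}) : coeffMap φ (h55_g N A d) = h55_g N B d := by
  unfold h55_g
  rw [h55_coeffMap_expand, coeffMap_jqModC]

/-- The relation coming from `F1`, over `ℤ[ζ_N]`. -/
theorem h55_rel_cyc (F : ConjFamily (cycO N) N (zetaO N))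
    (y : MvPolynomial {d : ℕ // d ∣ N} ℤ) :
    ∃ Q : Polynomial (Polynomial (cycO N)),
      Polynomial.eval₂ (Polynomial.aeval (jqModC (cycO N))).toRingHom
        (h55_evZ (h55_g N (cycO N)) y) Q = 0 ∧
      Polynomial.aeval (jqModC (cycO N)) (Q.coeff (@Fintype.card F.ι F.fin)) = 1 ∧
      ∀ i, @Fintype.card F.ι F.fin < i →
        Polynomial.aeval (jqModC (cycO N)) (Q.coeff i) = 0 := by
  classical
  let _ := F.fin
  have hN : N ≠ 0 := NeZero.ne N
  have einj : Function.Injective (expand (cycO N) N) := h55_expand_injective N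
  obtain ⟨Q, hQ⟩ := F.F1 (MvPolynomial.rename (fun d => ((false, d) : Coord N))
    (MvPolynomial.map (Int.castRingHom (cycO N)) y))
  have hr₀ : MvPolynomial.aeval (F.c F.r₀) (MvPolynomial.rename (fun d => ((false, d) : Coord N))
      (MvPolynomial.map (Int.castRingHom (cycO N)) y)) =
      expand (cycO N) N (h55_evZ (h55_g N (cycO N)) y) := by
    rw [MvPolynomial.aeval_rename, MvPolynomial.aeval_def, MvPolynomial.eval₂_map, h55_map_evZ]
    unfold h55_evZ
    congr 1
    · exact RingHom.ext_int _ _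
    · funext d
      simp only [Function.comp]
      rw [F.cX_r₀ d, h55_g, h55_expand_expand N d hN (ne_zero_of_dvd_ne_zero hN d.2)]
  have hφ : (Polynomial.aeval (R := cycO N) (expand (cycO N) N (jqModC (cycO N)))).toRingHom =
      (expand (cycO N) N).comp (Polynomial.aeval (R := cycO N) (jqModC (cycO N))).toRingHom := by
    apply Polynomial.ringHom_ext
    · intro a
      simp [h55_expand_algebraMap]
    · simp
  rw [hφ] at hQ
  have h0 : Polynomial.eval (expand (cycO N) N (h55_evZ (h55_g N (cycO N)) y))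
      (∏ r : F.ι, (X - C (MvPolynomial.aeval (F.c r) (MvPolynomial.rename
        (fun d => ((false, d) : Coord N)) (MvPolynomial.map (Int.castRingHom (cycO N)) y))))) = 0 := by
    rw [Polynomial.eval_prod]
    apply Finset.prod_eq_zero (Finset.mem_univ F.r₀)
    rw [Polynomial.eval_sub, Polynomial.eval_X, Polynomial.eval_C, hr₀, sub_self]
  have hmon : (∏ r : F.ι, (X - C (MvPolynomial.aeval (F.c r) (MvPolynomial.rename
        (fun d => ((false, d) : Coord N)) (MvPolynomial.map (Int.castRingHom (cycO N)) y))))).Monic :=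
    Polynomial.monic_prod_X_sub_C _ _
  have hdeg : (∏ r : F.ι, (X - C (MvPolynomial.aeval (F.c r) (MvPolynomial.rename
        (fun d => ((false, d) : Coord N)) (MvPolynomial.map (Int.castRingHom (cycO N)) y))))).natDegree
        = Fintype.card F.ι := by
    rw [Polynomial.natDegree_finsetProd_X_sub_C_eq_card]
    rfl
  refine ⟨Q, ?_, ?_, ?_⟩
  · apply einj
    rw [hQ, Polynomial.eval_map, ← Polynomial.hom_eval₂] at h0
    rw [map_zero]
    exact h0
  · apply einj
    have h1 := hmon.coeff_natDegree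
    rw [hdeg, hQ, Polynomial.coeff_map] at h1
    rw [map_one]
    exact h1
  · intro i hi
    apply einj
    have h1 := Polynomial.coeff_eq_zero_of_natDegree_lt (hdeg ▸ hi)
    rw [hQ, Polynomial.coeff_map] at h1
    rw [map_zero]
    exact h1

/-- Coefficient of a monomial term, over any ring. -/
theorem h55_coeff_term {B : Type} [CommRing B] (a : B) (k : ℕ) (M : LaurentSeries ℤ) (n : ℤ) :
    (algebraMap B (LaurentSeries B) a * jqModC B ^ k * coeffMap (Int.castRingHom B) M).coeff n
      = a * ((((jqModC ℤ) ^ k * M).coeff n : ℤ) : B) := by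
  rw [← coeffMap_jqModC (Int.castRingHom B), ← map_pow, mul_assoc, ← map_mul, h55_algebraMap_eq_C,
    HahnSeries.C_mul_eq_smul, HahnSeries.coeff_smul, coeffMap_coeff, smul_eq_mul]
  rfl

/-- Coefficientwise projection of a polynomial over `ℤ[ζ_N]` to a rational polynomial. -/
def h55_projPoly (π : ℂ →ₗ[ℚ] ℚ) (P : Polynomial (cycO N)) : Polynomial ℚ :=
  P.sum (fun k a => Polynomial.monomial k (π (a : ℂ)))

omit [NeZero N] in
theorem h55_descent (π : ℂ →ₗ[ℚ] ℚ) (P : Polynomial (cycO N)) (M : LaurentSeries ℤ) (n : ℤ) :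
    π ((((Polynomial.aeval (jqModC (cycO N)) P) *
        coeffMap (Int.castRingHom (cycO N)) M).coeff n : cycO N) : ℂ)
    = ((Polynomial.aeval jq (h55_projPoly N π P)) * coeffMap (Int.castRingHom ℚ) M).coeff n := by
  have h1 : Polynomial.aeval (jqModC (cycO N)) P * coeffMap (Int.castRingHom (cycO N)) M =
      ∑ k ∈ P.support, algebraMap (cycO N) (LaurentSeries (cycO N)) (P.coeff k) *
        jqModC (cycO N) ^ k * coeffMap (Int.castRingHom (cycO N)) M := by
    rw [Polynomial.aeval_def, Polynomial.eval₂_eq_sum, Polynomial.sum_def, Finset.sum_mul]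
  have h2 : Polynomial.aeval jq (h55_projPoly N π P) * coeffMap (Int.castRingHom ℚ) M =
      ∑ k ∈ P.support, algebraMap ℚ (LaurentSeries ℚ) (π ((P.coeff k : cycO N) : ℂ)) *
        jqModC ℚ ^ k * coeffMap (Int.castRingHom ℚ) M := by
    rw [h55_projPoly, Polynomial.sum_def, map_sum, Finset.sum_mul]
    refine Finset.sum_congr rfl fun k _ => ?_
    rw [Polynomial.aeval_monomial]
    rfl
  rw [h1, h2, HahnSeries.coeff_sum, HahnSeries.coeff_sum]
  simp only [h55_coeff_term]
  push_cast
  rw [map_sum]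
  refine Finset.sum_congr rfl fun k _ => ?_
  rw [mul_comm, ← zsmul_eq_mul, map_zsmul, zsmul_eq_mul, mul_comm]

omit [NeZero N] in
theorem h55_descent0 (π : ℂ →ₗ[ℚ] ℚ) (hπ : π 1 = 1) (M : LaurentSeries ℤ) (n : ℤ) :
    π ((((coeffMap (Int.castRingHom (cycO N)) M).coeff n : cycO N)) : ℂ)
    = (coeffMap (Int.castRingHom ℚ) M).coeff n := by
  rw [coeffMap_coeff, coeffMap_coeff]
  simp only [eq_intCast]
  push_cast
  rw [← mul_one ((M.coeff n : ℤ) : ℂ), ← zsmul_eq_mul, map_zsmul, hπ]
  simp

/-- Step 1: every integer polynomial in the `j(q^d)` is a root of a monic polynomial of degree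
`card ι` over `ℚ[j]`. -/
theorem h55_rel_rat (F : ConjFamily (cycO N) N (zetaO N))
    (y : MvPolynomial {d : ℕ // d ∣ N} ℤ) :
    ∃ W : Polynomial (Polynomial ℚ), W.Monic ∧ W.natDegree = @Fintype.card F.ι F.fin ∧
      Polynomial.eval₂ (Polynomial.aeval (R := ℚ) jq).toRingHom (h55_evZ (h55_g N ℚ) y) W = 0 := by
  classical
  obtain ⟨Q, h1, hR, hgt⟩ := h55_rel_cyc N F y
  obtain ⟨π, hπ⟩ : ∃ π : ℂ →ₗ[ℚ] ℚ, π 1 = 1 := by
    obtain ⟨π₁, hπ₁⟩ := LinearMap.exists_leftInverse_of_injective (Algebra.linearMap ℚ ℂ)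
      (LinearMap.ker_eq_bot.mpr (algebraMap ℚ ℂ).injective)
    refine ⟨π₁, ?_⟩
    have := LinearMap.congr_fun hπ₁ 1
    simpa using this
  set R := @Fintype.card F.ι F.fin with hRdef
  set YZ : LaurentSeries ℤ := h55_evZ (h55_g N ℤ) y with hYZ
  have hYO : h55_evZ (h55_g N (cycO N)) y = coeffMap (Int.castRingHom (cycO N)) YZ := by
    rw [hYZ, h55_map_evZ]
    congr 1
    funext d
    rw [h55_coeffMap_g]
  have hYQ : h55_evZ (h55_g N ℚ) y = coeffMap (Int.castRingHom ℚ) YZ := by
    rw [hYZ, h55_map_evZ]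
    congr 1
    funext d
    rw [h55_coeffMap_g]
  -- the truncated relation
  have hrel : coeffMap (Int.castRingHom (cycO N)) (YZ ^ R) +
      ∑ i ∈ Finset.range R, Polynomial.aeval (jqModC (cycO N)) (Q.coeff i) *
        coeffMap (Int.castRingHom (cycO N)) (YZ ^ i) = 0 := by
    rw [hYO, Polynomial.eval₂_eq_sum_range' _ (n := max (Q.natDegree + 1) (R + 1))
      (lt_of_lt_of_le (Nat.lt_succ_self _) (le_max_left _ _))] at h1
    rw [← Finset.sum_subset (Finset.range_mono (le_max_right (Q.natDegree + 1) (R + 1)))] at h1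
    · rw [Finset.sum_range_succ] at h1
      simp only [AlgHom.toRingHom_eq_coe, RingHom.coe_coe] at h1
      rw [hR, one_mul, add_comm] at h1
      simpa only [map_pow] using h1
    · intro i _ hi
      have : R < i := by
        rw [Finset.mem_range] at hi; omega
      simp only [AlgHom.toRingHom_eq_coe, RingHom.coe_coe]
      rw [hgt i this, zero_mul]
  have hdegsum : (∑ i ∈ Finset.range R, C (h55_projPoly N π (Q.coeff i)) * X ^ i :
      Polynomial (Polynomial ℚ)).degree < R := by
    refine lt_of_le_of_lt (Polynomial.degree_sum_le _ _) ?_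
    refine (Finset.sup_lt_iff (WithBot.bot_lt_coe R)).mpr fun i hi => ?_
    exact lt_of_le_of_lt (Polynomial.degree_C_mul_X_pow_le i _)
      (WithBot.coe_lt_coe.mpr (Finset.mem_range.mp hi))
  have hnat : (X ^ R + ∑ i ∈ Finset.range R, C (h55_projPoly N π (Q.coeff i)) * X ^ i :
      Polynomial (Polynomial ℚ)).natDegree = R := by
    rw [Polynomial.natDegree_add_eq_left_of_degree_lt
      (by rw [Polynomial.degree_X_pow]; exact hdegsum), Polynomial.natDegree_X_pow]
  refine ⟨X ^ R + ∑ i ∈ Finset.range R, C (h55_projPoly N π (Q.coeff i)) * X ^ i,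
    Polynomial.monic_X_pow_add hdegsum, hnat, ?_⟩
  rw [Polynomial.eval₂_add, Polynomial.eval₂_X_pow, Polynomial.eval₂_finsetSum, hYQ]
  simp only [Polynomial.eval₂_mul, Polynomial.eval₂_C, Polynomial.eval₂_X_pow,
    AlgHom.toRingHom_eq_coe, RingHom.coe_coe, ← map_pow]
  ext n
  have h2 := congrArg (fun f => π (((f.coeff n : cycO N)) : ℂ)) hrel
  simp only [HahnSeries.coeff_add, HahnSeries.coeff_sum, HahnSeries.coeff_zero] at h2 ⊢
  push_cast at h2
  rw [map_add, map_sum, map_zero] at h2
  rw [h55_descent0 N π hπ] at h2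
  simp only [h55_descent] at h2
  exact h2

end Descent

section Field

variable (N : ℕ) [NeZero N]

/-- `ℚ[j(q^d) : d ∣ N]`. -/
def h55_TQ : Subalgebra ℚ (LaurentSeries ℚ) := Algebra.adjoin ℚ (Set.range (h55_g N ℚ))

omit [NeZero N] in
theorem h55_g_mem (d : {d : ℕ // d ∣ N}) : h55_g N ℚ d ∈ h55_TQ N :=
  Algebra.subset_adjoin ⟨d, rfl⟩

omit [NeZero N] in
theorem h55_jq_mem : jq ∈ h55_TQ N := by
  have h := h55_g_mem N ⟨1, one_dvd N⟩
  have h1 : h55_g N ℚ ⟨1, one_dvd N⟩ = jq := by
    show expand ℚ 1 (jqModC ℚ) = jq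
    rw [expand_eq_qExpand, qExpand_one_apply]
    rfl
  rwa [h1] at h

omit [NeZero N] in
theorem h55_aeval_mem (D : Polynomial ℚ) : Polynomial.aeval jq D ∈ h55_TQ N := by
  have h := (Polynomial.aeval (⟨jq, h55_jq_mem N⟩ : h55_TQ N) D).2
  rwa [← Subalgebra.aeval_coe] at h

omit [NeZero N] in
theorem h55_eval₂_mem {t : LaurentSeries ℚ} (ht : t ∈ h55_TQ N) (V : Polynomial (Polynomial ℚ)) :
    Polynomial.eval₂ (Polynomial.aeval (R := ℚ) jq).toRingHom t V ∈ h55_TQ N := by
  rw [Polynomial.eval₂_eq_sum_range]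
  exact Subalgebra.sum_mem _ fun i _ =>
    Subalgebra.mul_mem _ (h55_aeval_mem N _) (Subalgebra.pow_mem _ ht i)

omit [NeZero N] in
theorem h55_TQ_int {t : LaurentSeries ℚ} (ht : t ∈ h55_TQ N) :
    ∃ m : ℤ, m ≠ 0 ∧ ∃ y : MvPolynomial {d : ℕ // d ∣ N} ℤ,
      (m : LaurentSeries ℚ) * t = h55_evZ (h55_g N ℚ) y := by
  unfold h55_TQ at ht
  induction ht using Algebra.adjoin_induction with
  | mem x hx =>
    obtain ⟨d, rfl⟩ := hx
    exact ⟨1, one_ne_zero, MvPolynomial.X d, by simp [h55_evZ]⟩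
  | algebraMap r =>
    refine ⟨r.den, by exact_mod_cast r.den_nz, MvPolynomial.C r.num, ?_⟩
    unfold h55_evZ
    rw [MvPolynomial.eval₂_C]
    have h := congrArg (algebraMap ℚ (LaurentSeries ℚ)) (Rat.den_mul_eq_num r)
    rw [map_mul, map_natCast, map_intCast] at h
    rw [eq_intCast]
    exact_mod_cast h
  | add x y _ _ hx hy =>
    obtain ⟨m1, hm1, y1, h1⟩ := hx
    obtain ⟨m2, hm2, y2, h2⟩ := hy
    refine ⟨m1 * m2, mul_ne_zero hm1 hm2, MvPolynomial.C m2 * y1 + MvPolynomial.C m1 * y2, ?_⟩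
    unfold h55_evZ at h1 h2 ⊢
    rw [MvPolynomial.eval₂_add, MvPolynomial.eval₂_mul, MvPolynomial.eval₂_mul,
      MvPolynomial.eval₂_C, MvPolynomial.eval₂_C, ← h1, ← h2, eq_intCast, eq_intCast]
    push_cast
    ring
  | mul x y _ _ hx hy =>
    obtain ⟨m1, hm1, y1, h1⟩ := hx
    obtain ⟨m2, hm2, y2, h2⟩ := hy
    refine ⟨m1 * m2, mul_ne_zero hm1 hm2, y1 * y2, ?_⟩
    simp only [h55_evZ, MvPolynomial.eval₂_mul] at h1 h2 ⊢
    rw [← h1, ← h2]
    push_cast
    ring

/-- Step 1 for `ℚ[j(q^d)]`. -/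
theorem h55_rel_TQ (F : ConjFamily (cycO N) N (zetaO N)) {t : LaurentSeries ℚ}
    (ht : t ∈ h55_TQ N) :
    ∃ W : Polynomial (Polynomial ℚ), W.Monic ∧ W.natDegree = @Fintype.card F.ι F.fin ∧
      Polynomial.eval₂ (Polynomial.aeval (R := ℚ) jq).toRingHom t W = 0 := by
  obtain ⟨m, hm, y, hy⟩ := h55_TQ_int N ht
  obtain ⟨W₀, hmon, hdeg, h0⟩ := h55_rel_rat N F y
  refine ⟨Polynomial.scaleRoots W₀ (C ((m : ℚ)⁻¹)), (Polynomial.monic_scaleRoots_iff _).mpr hmon,
    by rw [Polynomial.natDegree_scaleRoots, hdeg], ?_⟩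
  have h1 := Polynomial.scaleRoots_eval₂_eq_zero (Polynomial.aeval (R := ℚ) jq).toRingHom
    (s := C ((m : ℚ)⁻¹)) h0
  have h2 : (Polynomial.aeval (R := ℚ) jq).toRingHom (C ((m : ℚ)⁻¹)) *
      h55_evZ (h55_g N ℚ) y = t := by
    rw [← hy]
    simp only [AlgHom.toRingHom_eq_coe, RingHom.coe_coe, Polynomial.aeval_C]
    rw [← mul_assoc]
    have h4 : algebraMap ℚ (LaurentSeries ℚ) ((m : ℚ)⁻¹) * (m : LaurentSeries ℚ) = 1 := by
      have h3 : ((m : ℚ)⁻¹) * (m : ℚ) = 1 := inv_mul_cancel₀ (by exact_mod_cast hm)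
      have h5 := congrArg (algebraMap ℚ (LaurentSeries ℚ)) h3
      rw [map_mul, map_one, map_intCast] at h5
      exact h5
    rw [h4, one_mul]
  rwa [h2] at h1

omit [NeZero N] in
theorem h55_inv_aux {t : LaurentSeries ℚ} (ht : t ∈ h55_TQ N) (ht0 : t ≠ 0) :
    ∀ (n : ℕ) (W : Polynomial (Polynomial ℚ)), W.natDegree ≤ n →
      W.map (Polynomial.aeval (R := ℚ) jq).toRingHom ≠ 0 →
      Polynomial.eval₂ (Polynomial.aeval (R := ℚ) jq).toRingHom t W = 0 →
      ∃ a : Polynomial ℚ, Polynomial.aeval jq a ≠ 0 ∧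
        ∃ s ∈ h55_TQ N, Polynomial.aeval jq a = t * s := by
  intro n
  induction n with
  | zero =>
    intro W hdeg hmap h0
    exfalso
    rw [Polynomial.eq_C_of_natDegree_le_zero hdeg] at hmap h0
    rw [Polynomial.eval₂_C] at h0
    rw [Polynomial.map_C, h0, map_zero] at hmap
    exact hmap rfl
  | succ n ih =>
    intro W hdeg hmap h0
    have hev : Polynomial.eval₂ (Polynomial.aeval (R := ℚ) jq).toRingHom t W =
        Polynomial.eval₂ (Polynomial.aeval (R := ℚ) jq).toRingHom t W.divX * t +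
          (Polynomial.aeval (R := ℚ) jq).toRingHom (W.coeff 0) := by
      conv_lhs => rw [← Polynomial.divX_mul_X_add W]
      rw [Polynomial.eval₂_add, Polynomial.eval₂_mul, Polynomial.eval₂_X, Polynomial.eval₂_C]
    by_cases hc : (Polynomial.aeval (R := ℚ) jq).toRingHom (W.coeff 0) = 0
    · have h1 : Polynomial.eval₂ (Polynomial.aeval (R := ℚ) jq).toRingHom t W.divX = 0 := by
        rw [hev, hc, add_zero] at h0
        exact (mul_eq_zero.mp h0).resolve_right ht0
      have hmap' : W.divX.map (Polynomial.aeval (R := ℚ) jq).toRingHom ≠ 0 := by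
        intro h
        apply hmap
        conv_lhs => rw [← Polynomial.divX_mul_X_add W]
        rw [Polynomial.map_add, Polynomial.map_mul, h, zero_mul, zero_add, Polynomial.map_C, hc,
          map_zero]
      have hdeg' : W.divX.natDegree ≤ n := by
        rw [Polynomial.natDegree_divX_eq_natDegree_tsub_one]
        omega
      exact ih W.divX hdeg' hmap' h1
    · refine ⟨W.coeff 0, hc, -(Polynomial.eval₂ (Polynomial.aeval (R := ℚ) jq).toRingHom t W.divX),
        Subalgebra.neg_mem _ (h55_eval₂_mem N ht _), ?_⟩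
      rw [hev] at h0
      have h2 : Polynomial.aeval jq (W.coeff 0) =
          (Polynomial.aeval (R := ℚ) jq).toRingHom (W.coeff 0) := rfl
      rw [h2]
      linear_combination h0

/-- Every element of the function field is a fraction with numerator in `ℚ[j(q^d)]` and
denominator in `ℚ[j]`. -/
theorem h55_mem_frac (F : ConjFamily (cycO N) N (zetaO N)) {x : LaurentSeries ℚ}
    (hx : x ∈ modularFunctionFieldFull N) :
    ∃ D : Polynomial ℚ, Polynomial.aeval jq D ≠ 0 ∧ Polynomial.aeval jq D * x ∈ h55_TQ N := by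
  have hx' : x ∈ Subfield.closure
      (Set.range (algebraMap ℚ (LaurentSeries ℚ)) ∪ divisorExpansions N) := hx
  clear hx
  induction hx' using Subfield.closure_induction with
  | mem y hy =>
    refine ⟨1, by simp, ?_⟩
    rw [map_one, one_mul]
    rcases hy with ⟨r, rfl⟩ | ⟨d, hd, hdN, rfl⟩
    · exact Subalgebra.algebraMap_mem _ r
    · have h := h55_g_mem N ⟨d, hdN⟩
      have h1 : h55_g N ℚ ⟨d, hdN⟩ = qExpand ℚ d jq := by
        show expand ℚ d (jqModC ℚ) = qExpand ℚ d jq
        rw [expand_eq_qExpand]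
        rfl
      rwa [h1] at h
  | one => exact ⟨1, by simp, by simp⟩
  | add x y _ _ hx hy =>
    obtain ⟨D1, h1, h1'⟩ := hx
    obtain ⟨D2, h2, h2'⟩ := hy
    refine ⟨D1 * D2, by rw [map_mul]; exact mul_ne_zero h1 h2, ?_⟩
    have h3 : Polynomial.aeval jq (D1 * D2) * (x + y) =
        Polynomial.aeval jq D2 * (Polynomial.aeval jq D1 * x) +
          Polynomial.aeval jq D1 * (Polynomial.aeval jq D2 * y) := by
      rw [map_mul]; ring
    rw [h3]
    exact Subalgebra.add_mem _ (Subalgebra.mul_mem _ (h55_aeval_mem N _) h1')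
      (Subalgebra.mul_mem _ (h55_aeval_mem N _) h2')
  | neg x _ hx =>
    obtain ⟨D, h1, h1'⟩ := hx
    exact ⟨D, h1, by rw [mul_neg]; exact Subalgebra.neg_mem _ h1'⟩
  | inv x _ hx =>
    obtain ⟨D, h1, h1'⟩ := hx
    by_cases hx0 : x = 0
    · subst hx0
      exact ⟨1, by simp, by simp⟩
    · have ht0 : Polynomial.aeval jq D * x ≠ 0 := mul_ne_zero h1 hx0
      obtain ⟨W, hmon, -, h0⟩ := h55_rel_TQ N F h1'
      obtain ⟨a, ha, s, hs, has⟩ := h55_inv_aux N h1' ht0 W.natDegree W le_rfl
        (hmon.map _).ne_zero h0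
      refine ⟨a, ha, ?_⟩
      have h3 : Polynomial.aeval jq a * x⁻¹ = Polynomial.aeval jq D * s := by
        rw [has]
        field_simp
      rw [h3]
      exact Subalgebra.mul_mem _ (h55_aeval_mem N _) hs
  | mul x y _ _ hx hy =>
    obtain ⟨D1, h1, h1'⟩ := hx
    obtain ⟨D2, h2, h2'⟩ := hy
    refine ⟨D1 * D2, by rw [map_mul]; exact mul_ne_zero h1 h2, ?_⟩
    have h3 : Polynomial.aeval jq (D1 * D2) * (x * y) =
        (Polynomial.aeval jq D1 * x) * (Polynomial.aeval jq D2 * y) := by
      rw [map_mul]; ring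
    rw [h3]
    exact Subalgebra.mul_mem _ h1' h2'

end Field

/-- **Row Z.** Any `card ι + 1` elements of the function field `F = ℚ(j(q^d) : d ∣ N)` are
linearly dependent over `ℚ[j]`; i.e. `[F : ℚ(j)] ≤ card ι`. -/
theorem exists_relation (N : ℕ) [NeZero N] (F : ConjFamily (cycO N) N (zetaO N))
    (v : Fin (@Fintype.card F.ι F.fin + 1) → LaurentSeries ℚ)
    (hv : ∀ i, v i ∈ modularFunctionFieldFull N) :
    ∃ c : Fin (@Fintype.card F.ι F.fin + 1) → Polynomial ℚ, c ≠ 0 ∧
      ∑ i, Polynomial.aeval jq (c i) * v i = 0 := by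
  classical
  -- the base field `E = ℚ(j)` and the function field `L` as an extension of `E`
  let E : IntermediateField ℚ (LaurentSeries ℚ) := IntermediateField.adjoin ℚ {jq}
  have hE : E ≤ IntermediateField.adjoin ℚ (divisorExpansions N) :=
    (adjoin_jq_le N).trans (modularFunctionField_le_full N)
  let L : IntermediateField E (LaurentSeries ℚ) :=
    IntermediateField.adjoin E (divisorExpansions N)
  have hL : IntermediateField.extendScalars hE = L := IntermediateField.extendScalars_adjoin hE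
  have hmemL : ∀ x : LaurentSeries ℚ, x ∈ L ↔ x ∈ modularFunctionFieldFull N := by
    intro x
    rw [← hL, IntermediateField.mem_extendScalars]
    rfl
  -- `j` as an element of `E`
  let jE : E := ⟨jq, IntermediateField.mem_adjoin_simple_self ℚ jq⟩
  let ψ : Polynomial ℚ →+* E := Polynomial.eval₂RingHom (algebraMap ℚ E) jE
  have hcomp : (algebraMap E (LaurentSeries ℚ)).comp ψ =
      (Polynomial.aeval (R := ℚ) jq).toRingHom := by
    refine Polynomial.ringHom_ext' (Subsingleton.elim _ _) ?_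
    show algebraMap E (LaurentSeries ℚ) (Polynomial.eval₂ (algebraMap ℚ E) jE Polynomial.X) =
      Polynomial.aeval jq Polynomial.X
    rw [Polynomial.eval₂_X, Polynomial.aeval_X]
    rfl
  have hψ : ∀ a : Polynomial ℚ, algebraMap E (LaurentSeries ℚ) (ψ a) = Polynomial.aeval jq a :=
    fun a => RingHom.congr_fun hcomp a
  -- every element of the function field is a root of a monic polynomial of degree `card ι`
  have hroot : ∀ x : LaurentSeries ℚ, x ∈ modularFunctionFieldFull N →
      ∃ q : Polynomial E, q.Monic ∧ q.natDegree = @Fintype.card F.ι F.fin ∧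
        Polynomial.eval₂ (algebraMap E (LaurentSeries ℚ)) x q = 0 := by
    intro x hx
    obtain ⟨D, hD, ht⟩ := h55_mem_frac N F hx
    obtain ⟨W, hmon, hdeg, h0⟩ := h55_rel_TQ N F ht
    have h1 : Polynomial.eval₂ (algebraMap E (LaurentSeries ℚ)) (Polynomial.aeval jq D * x)
        (W.map ψ) = 0 := by
      rw [Polynomial.eval₂_map, hcomp]
      exact h0
    have h2 := Polynomial.scaleRoots_eval₂_eq_zero (algebraMap E (LaurentSeries ℚ))
      (s := (ψ D)⁻¹) h1
    have h3 : algebraMap E (LaurentSeries ℚ) (ψ D)⁻¹ * (Polynomial.aeval jq D * x) = x := by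
      rw [map_inv₀, hψ D, ← mul_assoc, inv_mul_cancel₀ hD, one_mul]
    rw [h3] at h2
    exact ⟨_, (Polynomial.monic_scaleRoots_iff _).mpr (hmon.map _),
      by rw [Polynomial.natDegree_scaleRoots, hmon.natDegree_map, hdeg], h2⟩
  -- finiteness
  have hfin : (divisorExpansions N).Finite := by
    refine Set.Finite.subset ((N.divisors : Set ℕ).toFinite.image (fun d => expand ℚ d jq)) ?_
    rintro x ⟨d, hd, hdN, rfl⟩
    refine ⟨d, ?_, ?_⟩
    · exact Finset.mem_coe.mpr (Nat.mem_divisors.mpr ⟨hdN, NeZero.ne N⟩)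
    · show expand ℚ d jq = qExpand ℚ d jq
      rw [expand_eq_qExpand]
  have : Finite (divisorExpansions N) := hfin.to_subtype
  have hint : ∀ x ∈ divisorExpansions N, IsIntegral E x := by
    intro x hx
    obtain ⟨q, hq, -, h⟩ := hroot x (IntermediateField.subset_adjoin ℚ _ hx)
    exact ⟨q, hq, h⟩
  have : FiniteDimensional E L := IntermediateField.finiteDimensional_adjoin hint
  have : CharZero E := inferInstance
  have : Algebra.IsIntegral E L := Algebra.IsIntegral.of_finite E L
  have : Algebra.IsSeparable E L := Algebra.IsSeparable.of_integral E L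
  -- primitive element and the degree bound
  obtain ⟨α, hα⟩ := Field.exists_primitive_element E L
  have hrank : Module.finrank E L ≤ @Fintype.card F.ι F.fin := by
    rw [← (Field.primitive_element_iff_minpoly_natDegree_eq E α).mp hα,
      IntermediateField.minpoly_eq]
    obtain ⟨q, hq, hqdeg, h⟩ := hroot (α : LaurentSeries ℚ) ((hmemL _).mp α.2)
    rw [← hqdeg]
    exact Polynomial.natDegree_le_natDegree (minpoly.min E _ hq h)
  -- linear dependence
  let v' : Fin (@Fintype.card F.ι F.fin + 1) → L := fun i => ⟨v i, (hmemL _).mpr (hv i)⟩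
  have hdep : ¬ LinearIndependent E v' := by
    intro hli
    have h := hli.fintype_card_le_finrank
    rw [Fintype.card_fin] at h
    omega
  obtain ⟨g, hg, i₀, hi₀⟩ := Fintype.not_linearIndependent_iff.mp hdep
  have hgK : ∑ i, (g i : LaurentSeries ℚ) * v i = 0 := by
    have h := congrArg (fun z : L => (z : LaurentSeries ℚ)) hg
    simp only [AddSubmonoidClass.coe_finsetSum, ZeroMemClass.coe_zero] at h
    rw [← h]
    rfl
  -- clear denominators
  have hrs : ∀ i, ∃ r s : Polynomial ℚ, Polynomial.aeval jq s ≠ 0 ∧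
      (g i : LaurentSeries ℚ) * Polynomial.aeval jq s = Polynomial.aeval jq r := by
    intro i
    obtain ⟨r, s, h⟩ := (IntermediateField.mem_adjoin_simple_iff ℚ _).mp (g i).2
    by_cases hs : Polynomial.aeval jq s = 0
    · refine ⟨0, 1, by simp, ?_⟩
      rw [h, hs, div_zero]
      simp
    · refine ⟨r, s, hs, ?_⟩
      rw [h]
      field_simp
  choose r s hs hrs using hrs
  refine ⟨fun i => r i * ∏ k ∈ Finset.univ.erase i, s k, ?_, ?_⟩
  · intro hc
    have h1 := congrArg (fun c => Polynomial.aeval jq (c i₀)) hc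
    simp only [Pi.zero_apply, map_zero, map_mul, map_prod] at h1
    rw [← hrs i₀, mul_assoc, Finset.mul_prod_erase Finset.univ (fun k => Polynomial.aeval jq (s k))
      (Finset.mem_univ i₀)] at h1
    rcases mul_eq_zero.mp h1 with h2 | h2
    · exact hi₀ (Subtype.ext h2)
    · exact (Finset.prod_ne_zero_iff.mpr fun k _ => hs k) h2
  · have h1 : ∀ i, Polynomial.aeval jq (r i * ∏ k ∈ Finset.univ.erase i, s k) * v i =
        (∏ k, Polynomial.aeval jq (s k)) * ((g i : LaurentSeries ℚ) * v i) := by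
      intro i
      rw [map_mul, map_prod, ← hrs i, mul_assoc (g i : LaurentSeries ℚ),
        Finset.mul_prod_erase Finset.univ (fun k => Polynomial.aeval jq (s k)) (Finset.mem_univ i)]
      ring
    simp only [h1]
    rw [← Finset.mul_sum, hgK, mul_zero]

end Fermat.Agent.S28
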