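import Mathlib
import Fermat.Statements.S28
import Fermat.Agent.S28.Defs
import Fermat.Agent.S28.Cyc
import Fermat.Agent.S28.Formal
import Fermat.Agent.S28.Reduce
import Fermat.Agent.S28.DegreeLe

/-!
# S28 : `j(q^N)` is integral over `ℤ_(ℓ)[j]` (piece (INT) of row 90)
-/

set_option autoImplicit false
open ModularCurve ModularCurve.IgusaScheme Polynomial
noncomputable section
namespace Fermat.Agent.S28

/-- Transitivity of integrality: if `O` is integral over `ℤ` and `y` is a root of a monic
polynomial with coefficients in `O[J]`, then `y` is a root of a monic polynomial with coefficients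
in `ℤ[J]`. -/
theorem h98_integral_descent {O : Type*} [CommRing O] (hO : ∀ c : O, IsIntegral ℤ c)
    {Lr : Type*} [CommRing Lr] [Algebra O Lr] (J y : Lr) (Q : Polynomial (Polynomial O))
    (hmon : (Q.map (aeval (R := O) J).toRingHom).Monic)
    (hroot : (Q.map (aeval (R := O) J).toRingHom).eval y = 0) :
    ∃ P : Polynomial (Polynomial ℤ), P.Monic ∧
      eval₂ (eval₂RingHom (Int.castRingHom Lr) J) y P = 0 := by
  classical
  let A : Subalgebra ℤ Lr := (aeval (R := ℤ) J).range
  let IC : Subalgebra ↥A Lr := integralClosure ↥A Lr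
  have hJ : J ∈ IC := by
    have h : IsIntegral ↥A (algebraMap ↥A Lr ⟨J, ⟨X, aeval_X J⟩⟩) := isIntegral_algebraMap
    exact h
  have hC : ∀ c : O, algebraMap O Lr c ∈ IC := by
    intro c
    have h1 : IsIntegral ℤ (algebraMap O Lr c) := (hO c).map (algebraMap O Lr).toIntAlgHom
    exact h1.tower_top
  have hP : ∀ p : Polynomial O, (aeval (R := O) J).toRingHom p ∈ IC := by
    intro p
    show aeval J p ∈ IC
    rw [aeval_eq_sum_range]
    refine Subalgebra.sum_mem _ fun i _ => ?_
    rw [Algebra.smul_def]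
    exact Subalgebra.mul_mem _ (hC _) (Subalgebra.pow_mem _ hJ i)
  let g : Polynomial O →+* ↥IC := (aeval (R := O) J).toRingHom.codRestrict IC hP
  have hgcomp : (algebraMap ↥IC Lr).comp g = (aeval (R := O) J).toRingHom := RingHom.ext fun p => rfl
  have hmonQ : (Q.map g).Monic := by
    apply Polynomial.monic_of_injective (f := algebraMap ↥IC Lr) Subtype.val_injective
    rw [Polynomial.map_map, hgcomp]
    exact hmon
  have hy : IsIntegral ↥IC y := ⟨Q.map g, hmonQ, by rw [eval₂_map, hgcomp, ← eval_map]; exact hroot⟩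
  have hyA : IsIntegral ↥A y := isIntegral_trans y hy
  obtain ⟨P', hP'mon, hP'root⟩ := hyA
  let f₀ : Polynomial ℤ →+* ↥A := (aeval (R := ℤ) J).rangeRestrict.toRingHom
  have hf₀ : Function.Surjective f₀ := AlgHom.rangeRestrict_surjective _
  have hlift : P' ∈ Polynomial.lifts f₀ := by
    rw [Polynomial.lifts_iff_coeff_lifts]
    intro n
    exact hf₀ _
  obtain ⟨P, hPmap, -, hPmon⟩ := Polynomial.lifts_and_natDegree_eq_and_monic hlift hP'mon
  refine ⟨P, hPmon, ?_⟩
  have hc : (algebraMap ↥A Lr).comp f₀ = eval₂RingHom (Int.castRingHom Lr) J := by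
    apply Polynomial.ringHom_ext
    · intro a
      simp
    · show aeval J (X : Polynomial ℤ) = eval₂RingHom (Int.castRingHom Lr) J X
      simp
  rw [← hc, ← eval₂_map, hPmap]
  exact hP'root

theorem h98_cycO_isIntegral (N : ℕ) [NeZero N] (c : cycO N) : IsIntegral ℤ c := by
  have h := h1_cycO_isIntegral N (c : ℂ) c.2
  exact (isIntegral_algebraMap_iff (A := cycO N) (B := ℂ) Subtype.val_injective).mp h

/-- the monic relation for `j(q^N)` over `ℤ[j]`, in `ℤ((q))` -/
theorem h98_xN_rel_int (N : ℕ) [NeZero N] (F₀ : ConjFamily (cycO N) N (zetaO N)) :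
    ∃ P : Polynomial (Polynomial ℤ), P.Monic ∧
      eval₂ (eval₂RingHom (Int.castRingHom (LaurentSeries ℤ)) (jqModC ℤ))
        (qExpand ℤ N (jqModC ℤ)) P = 0 := by
  classical
  obtain ⟨Q, hQroot, hQlead, hQhigh⟩ := h55_rel_cyc N F₀ (MvPolynomial.X ⟨N, dvd_rfl⟩)
  have hev : h55_evZ (h55_g N (cycO N)) (MvPolynomial.X ⟨N, dvd_rfl⟩) =
      expand (cycO N) N (jqModC (cycO N)) := by
    unfold h55_evZ h55_g
    rw [MvPolynomial.eval₂_X]
  rw [hev] at hQroot
  have hmon : (Q.map (aeval (R := cycO N) (jqModC (cycO N))).toRingHom).Monic := by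
    apply Polynomial.monic_of_natDegree_le_of_coeff_eq_one (@Fintype.card F₀.ι F₀.fin)
    · rw [Polynomial.natDegree_le_iff_coeff_eq_zero]
      intro i hi
      rw [coeff_map]
      exact hQhigh i hi
    · rw [coeff_map]
      exact hQlead
  obtain ⟨P, hPmon, hProot⟩ := h98_integral_descent (h98_cycO_isIntegral N) (jqModC (cycO N))
    (expand (cycO N) N (jqModC (cycO N))) Q hmon (by rw [eval_map]; exact hQroot)
  refine ⟨P, hPmon, ?_⟩
  let ι : ℤ →+* cycO N := Int.castRingHom _
  have hι : Function.Injective ι := by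
    intro a b hab
    have h := congrArg (fun x : cycO N => (x : ℂ)) hab
    simp only [ι, eq_intCast, Subring.coe_intCast] at h
    exact_mod_cast h
  apply coeffMap_injective ι hι
  rw [map_zero, Polynomial.hom_eval₂, coeffMap_qExpand, coeffMap_jqModC]
  have hc : (coeffMap ι).comp (eval₂RingHom (Int.castRingHom (LaurentSeries ℤ)) (jqModC ℤ)) =
      eval₂RingHom (Int.castRingHom (LaurentSeries (cycO N))) (jqModC (cycO N)) := by
    apply Polynomial.ringHom_ext
    · intro a
      simp
    · simp [coeffMap_jqModC]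
  rw [hc, ← expand_eq_qExpand]
  exact hProot

/-- (INT) : `j(q^N)` lies in the finite chart. -/
theorem xN_mem_chartAlgFin (N ℓ : ℕ) [NeZero N] [Fact ℓ.Prime]
    (F₀ : ConjFamily (cycO N) N (zetaO N)) :
    (⟨qExpand ℚ N jq, jqd_mem_full N dvd_rfl⟩ : ↥(modularFunctionFieldFull N)) ∈
      chartAlg N ℓ {jFull N} := by
  classical
  obtain ⟨P, hPmon, hZ⟩ := h98_xN_rel_int N F₀
  have hQQ : eval₂ (eval₂RingHom (Int.castRingHom (LaurentSeries ℚ)) jq) (qExpand ℚ N jq) P = 0 := by
    have h := congrArg (coeffMap (Int.castRingHom ℚ)) hZ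
    rw [map_zero, Polynomial.hom_eval₂, coeffMap_qExpand, coeffMap_jqModC] at h
    have hc : (coeffMap (Int.castRingHom ℚ)).comp
        (eval₂RingHom (Int.castRingHom (LaurentSeries ℤ)) (jqModC ℤ)) =
        eval₂RingHom (Int.castRingHom (LaurentSeries ℚ)) jq := by
      apply Polynomial.ringHom_ext
      · intro a
        simp
      · simp [coeffMap_jqModC, jqModC_rat]
    rw [hc, jqModC_rat] at h
    exact h
  rw [mem_chartAlg_iff]
  let Jadj : ↥(Algebra.adjoin ↥(GaloisRep.ratLocalizedAt ℓ)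
      ({jFull N} : Set ↥(modularFunctionFieldFull N))) := ⟨jFull N, Algebra.subset_adjoin rfl⟩
  let h : Polynomial ℤ →+* ↥(Algebra.adjoin ↥(GaloisRep.ratLocalizedAt ℓ)
      ({jFull N} : Set ↥(modularFunctionFieldFull N))) := (aeval (R := ℤ) Jadj).toRingHom
  refine ⟨P.map h, hPmon.map h, ?_⟩
  rw [eval₂_map]
  apply Subtype.val_injective
  have hval := Polynomial.hom_eval₂ P ((algebraMap ↥(Algebra.adjoin ↥(GaloisRep.ratLocalizedAt ℓ)
      ({jFull N} : Set ↥(modularFunctionFieldFull N))) ↥(modularFunctionFieldFull N)).comp h)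
    ((modularFunctionFieldFull N).val : ↥(modularFunctionFieldFull N) →+* LaurentSeries ℚ)
    (⟨qExpand ℚ N jq, jqd_mem_full N dvd_rfl⟩ : ↥(modularFunctionFieldFull N))
  have hc : ((modularFunctionFieldFull N).val : ↥(modularFunctionFieldFull N) →+*
      LaurentSeries ℚ).comp ((algebraMap ↥(Algebra.adjoin ↥(GaloisRep.ratLocalizedAt ℓ)
      ({jFull N} : Set ↥(modularFunctionFieldFull N))) ↥(modularFunctionFieldFull N)).comp h) =
      eval₂RingHom (Int.castRingHom (LaurentSeries ℚ)) jq := by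
    apply Polynomial.ringHom_ext
    · intro a
      simp
    · simp [h, Jadj]
  rw [hc] at hval
  exact hval.trans hQQ

end Fermat.Agent.S28
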