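import Mathlib
import Fermat.Agent.S28.Defs
import Fermat.Agent.S28.Cyc
import Fermat.Agent.S28.ZlBasics
import Fermat.Agent.S28.DegreeLe
import Fermat.Agent.S28.Core
import Fermat.Agent.S28.h64_ConjExists
import Fermat.Statements.S28

/-!
# S28 (Igusa), task Q2 : the kernel of reduction mod `ℓ` on a chart is `ℓ * chart`
-/

set_option autoImplicit false

noncomputable section

open AlgebraicGeometry CategoryTheory CategoryTheory.Limits ModularCurve ModularCurve.IgusaScheme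

namespace Fermat.Agent.S28

open Polynomial

/-! ### P1 : elementary facts on `ℤ_(ℓ) = GaloisRep.ratLocalizedAt ℓ` -/

section Zl

variable (ℓ : ℕ) [Fact ℓ.Prime]

theorem h9_mem_ratLoc_of_padicValRat_nonneg {q : ℚ} (h : 0 ≤ padicValRat ℓ q) :
    q ∈ GaloisRep.ratLocalizedAt ℓ := by
  have hℓ : ℓ.Prime := Fact.out
  show q.den.Coprime ℓ
  by_contra hcop
  have hdvd : ℓ ∣ q.den := by
    rw [Nat.coprime_comm, hℓ.coprime_iff_not_dvd] at hcop
    exact not_not.mp hcop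
  have h1 : 1 ≤ padicValNat ℓ q.den := one_le_padicValNat_of_dvd q.den_ne_zero hdvd
  have hnum : ¬ (ℓ : ℤ) ∣ q.num := by
    intro hn
    have h2 : ℓ ∣ q.num.natAbs := Int.natCast_dvd.mp hn
    have h3 : ℓ ∣ Nat.gcd q.num.natAbs q.den := Nat.dvd_gcd h2 hdvd
    rw [q.reduced] at h3
    exact hℓ.one_lt.ne' (Nat.dvd_one.mp h3)
  have h0 : padicValInt ℓ q.num = 0 := padicValInt.eq_zero_of_not_dvd hnum
  have hdef : padicValRat ℓ q = padicValInt ℓ q.num - padicValNat ℓ q.den := rfl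
  rw [hdef, h0] at h
  omega

theorem h9_inv_prime_notMem : ((ℓ : ℚ))⁻¹ ∉ GaloisRep.ratLocalizedAt ℓ := by
  have hℓ : ℓ.Prime := Fact.out
  intro h
  have h' : ((ℓ : ℚ))⁻¹.den.Coprime ℓ := h
  rw [Rat.inv_natCast_den_of_pos hℓ.pos] at h'
  rw [Nat.coprime_self] at h'
  exact hℓ.one_lt.ne' h'

end Zl

/-! ### P2 : coefficientwise maps of Laurent series -/

section Lift

variable {A B : Type*} [CommRing A] [CommRing B]

theorem h9_coeffMap_injective {f : A →+* B} (hf : Function.Injective f) :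
    Function.Injective (coeffMap f) := by
  intro x y h
  ext n
  have h1 := congrArg (fun z => z.coeff n) h
  simp only [coeffMap_coeff] at h1
  exact hf h1

theorem h9_exists_lift (T : Subring A) (f : LaurentSeries A) (hf : ∀ n, f.coeff n ∈ T) :
    ∃ g : LaurentSeries T, coeffMap T.subtype g = f := by
  refine ⟨⟨fun n => ⟨f.coeff n, hf n⟩, f.isPWO_support.mono ?_⟩, ?_⟩
  · intro n hn
    simp only [Function.mem_support, ne_eq] at hn ⊢
    intro h
    exact hn (Subtype.ext h)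
  · ext n
    rfl

theorem h9_algebraMap_eq_single (c : A) :
    algebraMap A (LaurentSeries A) c = HahnSeries.single 0 c := by
  have h1 : algebraMap A (PowerSeries A) c = PowerSeries.C c := by simp
  rw [HahnSeries.algebraMap_apply', h1, HahnSeries.ofPowerSeries_C]
  rfl

theorem h9_coeffMap_comp_algebraMap (f : A →+* B) :
    (coeffMap f).comp (algebraMap A (LaurentSeries A)) =
      (algebraMap B (LaurentSeries B)).comp f := by
  ext a : 1
  simp only [RingHom.comp_apply]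
  rw [h9_algebraMap_eq_single, h9_algebraMap_eq_single, coeffMap_single]

theorem h9_coeffMap_aeval (f : A →+* B) (p : A[X]) (y : LaurentSeries A) :
    coeffMap f (aeval y p) = aeval (coeffMap f y) (p.map f) := by
  rw [aeval_def, aeval_def, hom_eval₂, eval₂_map, h9_coeffMap_comp_algebraMap]

end Lift

/-! ### P3 : `x_N = j(q^N)` is integral over `ℤ[j]` -/

section XN

theorem h9_expand_comp_aeval {A : Type} [CommRing A] (N : ℕ) [NeZero N] (y : LaurentSeries A) :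
    (expand A N).comp (aeval y : A[X] →ₐ[A] LaurentSeries A).toRingHom =
      (aeval (expand A N y) : A[X] →ₐ[A] LaurentSeries A).toRingHom := by
  refine Polynomial.ringHom_ext (fun a => ?_) ?_
  · simp only [RingHom.comp_apply, AlgHom.toRingHom_eq_coe, RingHom.coe_coe, aeval_C]
    rw [expand_eq_qExpand, h9_algebraMap_eq_single, qExpand_single, mul_zero]
  · simp

theorem h9_F1_monic {A : Type} [CommRing A] (N : ℕ) [NeZero N] {z : Aˣ} (F : ConjFamily A N z) :
    ∃ Q : Polynomial (Polynomial A), Q.Monic ∧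
      (Q.map (aeval (jqModC A) : A[X] →ₐ[A] LaurentSeries A).toRingHom).eval
        (qExpand A N (jqModC A)) = 0 := by
  classical
  let _ := F.fin
  obtain ⟨Q₀, hQ₀⟩ := F.F1 (MvPolynomial.X (false, ⟨N, dvd_rfl⟩))
  have hinj : Function.Injective (expand A N) := by
    rw [expand_eq_qExpand]
    exact qExpand_injective N
  have hmap : (Q₀.map (aeval (jqModC A) : A[X] →ₐ[A] LaurentSeries A).toRingHom).map
      (expand A N) = ∏ r : F.ι, (X - C (F.c r (false, ⟨N, dvd_rfl⟩))) := by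
    rw [Polynomial.map_map, h9_expand_comp_aeval]
    have h1 := hQ₀
    simp only [MvPolynomial.aeval_X] at h1
    exact h1.symm
  have hmonic : (Q₀.map (aeval (jqModC A) : A[X] →ₐ[A] LaurentSeries A).toRingHom).Monic := by
    apply monic_of_injective hinj
    rw [hmap]
    exact monic_prod_of_monic _ _ (fun r _ => monic_X_sub_C _)
  have hroot : (Q₀.map (aeval (jqModC A) : A[X] →ₐ[A] LaurentSeries A).toRingHom).eval
      (qExpand A N (jqModC A)) = 0 := by
    apply hinj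
    rw [map_zero, ← eval₂_at_apply, ← Polynomial.eval_map, hmap, eval_prod]
    apply Finset.prod_eq_zero (Finset.mem_univ F.r₀)
    rw [eval_sub, eval_X, eval_C, F.cX_r₀, sub_eq_zero]
    have : NeZero (N * N) := ⟨Nat.mul_ne_zero (NeZero.ne N) (NeZero.ne N)⟩
    rw [expand_eq_qExpand, expand_eq_qExpand, qExpand_qExpand]
  obtain ⟨Q, hQ, -, hQm⟩ := lifts_and_natDegree_eq_and_monic
    ((Polynomial.mem_lifts _).mpr ⟨Q₀, rfl⟩) hmonic
  exact ⟨Q, hQm, by rw [hQ]; exact hroot⟩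

theorem h9_cycO_isIntegral (N : ℕ) [NeZero N] (a : cycO N) : IsIntegral ℤ (a : ℂ) := by
  have hz : IsIntegral ℤ (zetaC N) :=
    (zetaC_isPrimitiveRoot N).isIntegral (Nat.pos_of_ne_zero (NeZero.ne N))
  have hle : cycO N ≤ (integralClosure ℤ ℂ).toSubring :=
    Subring.closure_le.mpr (Set.singleton_subset_iff.mpr hz)
  exact hle a.2

theorem h9_xN_integral_C (N : ℕ) [NeZero N] (F : ConjFamily (cycO N) N (zetaO N)) :
    ∃ Φ : Polynomial (Polynomial ℤ), Φ.Monic ∧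
      Φ.eval₂ (aeval (jqModC ℂ) : ℤ[X] →ₐ[ℤ] LaurentSeries ℂ).toRingHom
        (qExpand ℂ N (jqModC ℂ)) = 0 := by
  obtain ⟨Q, hQm, hQ⟩ := h9_F1_monic N F
  let _ : Algebra ℤ[X] (LaurentSeries ℂ) :=
    (aeval (jqModC ℂ) : ℤ[X] →ₐ[ℤ] LaurentSeries ℂ).toRingHom.toAlgebra
  let g : (cycO N)[X] →+* LaurentSeries ℂ := (coeffMap (cycO N).subtype).comp
    (aeval (jqModC (cycO N)) : (cycO N)[X] →ₐ[cycO N] LaurentSeries (cycO N)).toRingHom
  have hg : ∀ p, IsIntegral ℤ[X] (g p) := by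
    intro p
    induction p using Polynomial.induction_on with
    | C a =>
      have h1 : g (C a) = algebraMap ℂ (LaurentSeries ℂ) (a : ℂ) := by
        simp only [g, RingHom.comp_apply, AlgHom.toRingHom_eq_coe, RingHom.coe_coe, aeval_C]
        exact RingHom.congr_fun (h9_coeffMap_comp_algebraMap (cycO N).subtype) a
      rw [h1]
      exact (h9_cycO_isIntegral N a).map_of_comp_eq (algebraMap ℤ ℤ[X])
        (algebraMap ℂ (LaurentSeries ℂ)) (RingHom.ext_int _ _)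
    | add p q hp hq =>
      rw [map_add]
      exact hp.add hq
    | monomial n a h =>
      rw [pow_succ, ← mul_assoc, map_mul]
      refine h.mul ?_
      have h1 : g X = algebraMap ℤ[X] (LaurentSeries ℂ) X := by
        simp [g, RingHom.algebraMap_toAlgebra, coeffMap_jqModC]
      rw [h1]
      exact isIntegral_algebraMap
  have hroot : (Q.map g).eval (qExpand ℂ N (jqModC ℂ)) = 0 := by
    have h1 := congrArg (coeffMap (cycO N).subtype) hQ
    rw [map_zero, ← eval₂_at_apply, ← Polynomial.eval_map, Polynomial.map_map, coeffMap_qExpand,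
      coeffMap_jqModC] at h1
    exact h1
  have hlift : Q.map g ∈
      lifts (algebraMap (integralClosure ℤ[X] (LaurentSeries ℂ)) (LaurentSeries ℂ)) := by
    rw [lifts_iff_coeff_lifts]
    intro n
    rw [coeff_map]
    exact ⟨⟨g (Q.coeff n), hg _⟩, rfl⟩
  obtain ⟨q, hq, -, hqm⟩ := lifts_and_natDegree_eq_and_monic hlift (hQm.map g)
  have hint : IsIntegral (integralClosure ℤ[X] (LaurentSeries ℂ)) (qExpand ℂ N (jqModC ℂ)) :=
    ⟨q, hqm, by rw [eval₂_eq_eval_map, hq]; exact hroot⟩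
  have hfin : IsIntegral ℤ[X] (qExpand ℂ N (jqModC ℂ)) := isIntegral_trans _ hint
  obtain ⟨Φ, hΦm, hΦ⟩ := hfin
  exact ⟨Φ, hΦm, by rw [RingHom.algebraMap_toAlgebra] at hΦ; exact hΦ⟩

theorem h9_xN_modular (N : ℕ) [NeZero N] (F : ConjFamily (cycO N) N (zetaO N)) :
    ∃ Φ : Polynomial (Polynomial ℤ), Φ.Monic ∧ Φ.eval₂ evalAtJ (qExpand ℚ N jq) = 0 := by
  obtain ⟨Φ, hΦm, hΦ⟩ := h9_xN_integral_C N F
  refine ⟨Φ, hΦm, ?_⟩
  have hinj : Function.Injective (coeffMap (algebraMap ℚ ℂ)) :=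
    h9_coeffMap_injective (algebraMap ℚ ℂ).injective
  apply hinj
  rw [map_zero, hom_eval₂, coeffMap_qExpand]
  have hcomp : (coeffMap (algebraMap ℚ ℂ)).comp evalAtJ =
      (aeval (jqModC ℂ) : ℤ[X] →ₐ[ℤ] LaurentSeries ℂ).toRingHom := by
    refine Polynomial.ringHom_ext' (RingHom.ext_int _ _) ?_
    simp [evalAtJ, ← jqModC_rat, coeffMap_jqModC]
  rw [hcomp, ← jqModC_rat, coeffMap_jqModC]
  exact hΦ

end XN

/-! ### P4 : rescaling a rational relation to a primitive `ℤ_(ℓ)`-relation -/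

section Scale

theorem h9_scale (ℓ : ℕ) [Fact ℓ.Prime] {n : ℕ} (c : Fin n → Polynomial ℚ) (hc : c ≠ 0) :
    ∃ (a : ℚ) (c' : Fin n → Polynomial ↥(GaloisRep.ratLocalizedAt ℓ)), a ≠ 0 ∧
      (∀ i, (c' i).map (GaloisRep.ratLocalizedAt ℓ).subtype = C a * c i) ∧
      ∃ i, ¬ C ((ℓ : ℕ) : ↥(GaloisRep.ratLocalizedAt ℓ)) ∣ c' i := by
  classical
  have hℓ : ℓ.Prime := Fact.out
  let S : Finset (Σ _ : Fin n, ℕ) := Finset.univ.sigma (fun i => (c i).support)
  have hS : S.Nonempty := by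
    have hex : ∃ i, c i ≠ 0 := by
      by_contra h
      simp only [not_exists, not_not] at h
      exact hc (funext h)
    obtain ⟨i, hi⟩ := hex
    obtain ⟨k, hk⟩ := Polynomial.nonempty_support_iff.mpr hi
    exact ⟨⟨i, k⟩, Finset.mem_sigma.mpr ⟨Finset.mem_univ _, hk⟩⟩
  obtain ⟨⟨i₀, k₀⟩, hmem, hmin⟩ :=
    Finset.exists_min_image S (fun p => padicValRat ℓ ((c p.1).coeff p.2)) hS
  have ha0 : (c i₀).coeff k₀ ≠ 0 :=
    Polynomial.mem_support_iff.mp (Finset.mem_sigma.mp hmem).2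
  have hmemT : ∀ i k, ((c i₀).coeff k₀)⁻¹ * (c i).coeff k ∈ GaloisRep.ratLocalizedAt ℓ := by
    intro i k
    by_cases h0 : (c i).coeff k = 0
    · rw [h0, mul_zero]
      exact zero_mem _
    · apply h9_mem_ratLoc_of_padicValRat_nonneg
      have h1 := hmin ⟨i, k⟩
        (Finset.mem_sigma.mpr ⟨Finset.mem_univ _, Polynomial.mem_support_iff.mpr h0⟩)
      rw [padicValRat.mul (inv_ne_zero ha0) h0, padicValRat.inv]
      simp only at h1
      omega
  have hcoeffs : ∀ i, (↑(C ((c i₀).coeff k₀)⁻¹ * c i).coeffs : Set ℚ) ⊆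
      GaloisRep.ratLocalizedAt ℓ := by
    intro i q hq
    obtain ⟨k, -, rfl⟩ := Polynomial.mem_coeffs_iff.mp hq
    rw [coeff_C_mul]
    exact hmemT i k
  refine ⟨((c i₀).coeff k₀)⁻¹, fun i => (C ((c i₀).coeff k₀)⁻¹ * c i).toSubring _ (hcoeffs i),
    inv_ne_zero ha0, fun i => map_toSubring _ _ _, i₀, ?_⟩
  intro hdvd
  rw [C_dvd_iff_dvd_coeff] at hdvd
  obtain ⟨d, hd⟩ := hdvd k₀
  have h1 := congrArg Subtype.val hd
  rw [coeff_toSubring, coeff_C_mul, inv_mul_cancel₀ ha0] at h1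
  apply h9_inv_prime_notMem ℓ
  have hℓ0 : (ℓ : ℚ) ≠ 0 := Nat.cast_ne_zero.mpr hℓ.ne_zero
  have hd' : ((ℓ : ℚ))⁻¹ = (d : ℚ) := by
    have h2 : (1 : ℚ) = (ℓ : ℚ) * (d : ℚ) := h1
    field_simp
    linarith
  rw [hd']
  exact d.2

end Scale

/-! ### P5 : the reduction step -/

section Red

variable (N ℓ : ℕ) [NeZero N] [Fact ℓ.Prime]

theorem h9_red_step (R : ℕ)
    (hcore : ∀ H : Polynomial (Polynomial (ZMod ℓ)), H ≠ 0 → H.natDegree < R →
      (H.map (Polynomial.aeval (jqModC (ZMod ℓ))).toRingHom).eval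
        (qExpand (ZMod ℓ) N (jqModC (ZMod ℓ))) ≠ 0)
    (φ : ↥(GaloisRep.ratLocalizedAt ℓ) →+* ZMod ℓ)
    (hφ : ∀ x, φ x = 0 ↔ ((ℓ : ℕ) : ↥(GaloisRep.ratLocalizedAt ℓ)) ∣ x)
    (M : ℕ) (c : Fin R → Polynomial ↥(GaloisRep.ratLocalizedAt ℓ))
    (s : Polynomial ↥(GaloisRep.ratLocalizedAt ℓ))
    (x : LaurentSeries ℚ)
    (hx : ∀ n : ℤ, ∃ a ∈ GaloisRep.ratLocalizedAt ℓ, x.coeff n = ℓ * a)
    (hrel : ∑ i : Fin R, aeval jq ((c i).map (GaloisRep.ratLocalizedAt ℓ).subtype) *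
          ((jq⁻¹) ^ M * qExpand ℚ N jq) ^ (i : ℕ)
        + aeval jq (s.map (GaloisRep.ratLocalizedAt ℓ).subtype) * x = 0) :
    ∀ i, C ((ℓ : ℕ) : ↥(GaloisRep.ratLocalizedAt ℓ)) ∣ c i := by
  intro i₀
  have hι₀ : Function.Injective (coeffMap (GaloisRep.ratLocalizedAt ℓ).subtype) :=
    h9_coeffMap_injective Subtype.val_injective
  -- lift `x`
  have hxT : ∀ n, x.coeff n ∈ GaloisRep.ratLocalizedAt ℓ := fun n => by
    obtain ⟨a, ha, h⟩ := hx n
    rw [h]
    exact mul_mem (natCast_mem _ ℓ) ha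
  obtain ⟨xt, hxt⟩ := h9_exists_lift (GaloisRep.ratLocalizedAt ℓ) x hxT
  have hredx : coeffMap φ xt = 0 := by
    ext n
    rw [coeffMap_coeff, HahnSeries.coeff_zero, hφ]
    obtain ⟨a, ha, h⟩ := hx n
    refine ⟨⟨a, ha⟩, Subtype.ext ?_⟩
    have h2 : ((xt.coeff n : ↥(GaloisRep.ratLocalizedAt ℓ)) : ℚ) = x.coeff n := by
      rw [← hxt]
      rfl
    rw [h2, h]
    rfl
  have hjt : coeffMap (GaloisRep.ratLocalizedAt ℓ).subtype
      (jqModC ↥(GaloisRep.ratLocalizedAt ℓ)) = jq := by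
    rw [← jqModC_rat]
    exact coeffMap_jqModC _
  have hxNt : coeffMap (GaloisRep.ratLocalizedAt ℓ).subtype
      (qExpand ↥(GaloisRep.ratLocalizedAt ℓ) N (jqModC ↥(GaloisRep.ratLocalizedAt ℓ))) =
      qExpand ℚ N jq := by
    rw [coeffMap_qExpand, hjt]
  have haev : ∀ p : Polynomial ↥(GaloisRep.ratLocalizedAt ℓ),
      coeffMap (GaloisRep.ratLocalizedAt ℓ).subtype
        (aeval (jqModC ↥(GaloisRep.ratLocalizedAt ℓ)) p) =
      aeval jq (p.map (GaloisRep.ratLocalizedAt ℓ).subtype) := by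
    intro p
    rw [h9_coeffMap_aeval, hjt]
  -- pulled back relation
  have hrel2 : ∑ i : Fin R, aeval (jqModC ↥(GaloisRep.ratLocalizedAt ℓ)) (c i) *
        jqModC ↥(GaloisRep.ratLocalizedAt ℓ) ^ (M * (R - 1 - (i : ℕ))) *
        qExpand ↥(GaloisRep.ratLocalizedAt ℓ) N (jqModC ↥(GaloisRep.ratLocalizedAt ℓ)) ^ (i : ℕ)
      + aeval (jqModC ↥(GaloisRep.ratLocalizedAt ℓ)) s *
        jqModC ↥(GaloisRep.ratLocalizedAt ℓ) ^ (M * (R - 1)) * xt = 0 := by
    apply hι₀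
    rw [map_zero, map_add, map_sum]
    have hjq : jq ≠ 0 := jq_ne_zero
    have key : ∀ i : Fin R, coeffMap (GaloisRep.ratLocalizedAt ℓ).subtype
        (aeval (jqModC ↥(GaloisRep.ratLocalizedAt ℓ)) (c i) *
        jqModC ↥(GaloisRep.ratLocalizedAt ℓ) ^ (M * (R - 1 - (i : ℕ))) *
        qExpand ↥(GaloisRep.ratLocalizedAt ℓ) N (jqModC ↥(GaloisRep.ratLocalizedAt ℓ)) ^ (i : ℕ))
        = jq ^ (M * (R - 1)) * (aeval jq ((c i).map (GaloisRep.ratLocalizedAt ℓ).subtype) *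
          ((jq⁻¹) ^ M * qExpand ℚ N jq) ^ (i : ℕ)) := by
      intro i
      rw [map_mul, map_mul, map_pow, map_pow, hjt, hxNt, haev]
      have hi : M * (R - 1) = M * (R - 1 - (i : ℕ)) + M * (i : ℕ) := by
        have := i.2
        rw [← Nat.mul_add]
        congr 1
        omega
      rw [hi, pow_add, mul_pow, ← pow_mul, inv_pow]
      field_simp
    rw [Finset.sum_congr rfl (fun i _ => key i), ← Finset.mul_sum]
    rw [map_mul, map_mul, map_pow, hjt, hxt, haev]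
    have hfin : jq ^ (M * (R - 1)) * ∑ i : Fin R,
          aeval jq ((c i).map (GaloisRep.ratLocalizedAt ℓ).subtype) *
            ((jq⁻¹) ^ M * qExpand ℚ N jq) ^ (i : ℕ) +
          aeval jq (s.map (GaloisRep.ratLocalizedAt ℓ).subtype) * jq ^ (M * (R - 1)) * x
        = jq ^ (M * (R - 1)) * (∑ i : Fin R,
          aeval jq ((c i).map (GaloisRep.ratLocalizedAt ℓ).subtype) *
            ((jq⁻¹) ^ M * qExpand ℚ N jq) ^ (i : ℕ) +
          aeval jq (s.map (GaloisRep.ratLocalizedAt ℓ).subtype) * x) := by ring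
    rw [hfin, hrel, mul_zero]
  -- reduce mod `ℓ`
  have hjb : coeffMap φ (jqModC ↥(GaloisRep.ratLocalizedAt ℓ)) = jqModC (ZMod ℓ) :=
    coeffMap_jqModC φ
  have hxNb : coeffMap φ (qExpand ↥(GaloisRep.ratLocalizedAt ℓ) N
      (jqModC ↥(GaloisRep.ratLocalizedAt ℓ))) = qExpand (ZMod ℓ) N (jqModC (ZMod ℓ)) := by
    rw [coeffMap_qExpand, hjb]
  have hred := congrArg (coeffMap φ) hrel2
  rw [map_zero, map_add, map_sum, map_mul (coeffMap φ) _ xt, hredx, mul_zero, add_zero] at hred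
  let H : Polynomial (Polynomial (ZMod ℓ)) :=
    ∑ i : Fin R, C ((c i).map φ * X ^ (M * (R - 1 - (i : ℕ)))) * X ^ (i : ℕ)
  have hHeval : (H.map (aeval (jqModC (ZMod ℓ))).toRingHom).eval
      (qExpand (ZMod ℓ) N (jqModC (ZMod ℓ))) = 0 := by
    rw [← hred]
    simp only [H, Polynomial.map_sum, eval_finsetSum, Polynomial.map_mul, Polynomial.map_pow,
      map_C, map_X, eval_mul, eval_C, eval_pow, eval_X]
    refine Finset.sum_congr rfl fun i _ => ?_
    simp only [map_mul, map_pow, hjb, hxNb, h9_coeffMap_aeval, AlgHom.toRingHom_eq_coe,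
      RingHom.coe_coe, aeval_X]
  have hH0 : H = 0 := by
    by_contra hne
    refine hcore H hne ?_ hHeval
    have hdeg := degree_sum_fin_lt (fun i : Fin R => (c i).map φ * X ^ (M * (R - 1 - (i : ℕ))))
    exact (natDegree_lt_iff_degree_lt hne).mpr hdeg
  have hci : (c i₀).map φ = 0 := by
    have h1 : H.coeff (i₀ : ℕ) = (c i₀).map φ * X ^ (M * (R - 1 - (i₀ : ℕ))) := by
      simp only [H, finsetSum_coeff, coeff_C_mul_X_pow]
      rw [Finset.sum_eq_single i₀]
      · simp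
      · intro b _ hb
        rw [if_neg]
        intro h
        exact hb (Fin.ext h.symm)
      · simp
    rw [hH0, coeff_zero] at h1
    rcases mul_eq_zero.mp h1.symm with h | h
    · exact h
    · exact absurd h (pow_ne_zero _ X_ne_zero)
  rw [C_dvd_iff_dvd_coeff]
  intro k
  rw [← hφ, ← coeff_map, hci, coeff_zero]

end Red

/-! ### P6 : transcendence of `j`, reflection, and the abstract kernel lemma -/

section Kernel

theorem h9_coeff_aeval_jq (P : Polynomial ℚ) :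
    (Polynomial.aeval jq P).coeff (-(P.natDegree : ℤ)) = P.leadingCoeff := by
  rw [Polynomial.aeval_eq_sum_range, HahnSeries.coeff_sum, Finset.sum_eq_single P.natDegree]
  · rw [Algebra.smul_def, algebraMap_laurentSeries_eq_single, HahnSeries.coeff_single_zero_mul,
      coeff_jq_pow_self, mul_one]
    rfl
  · intro i hi hne
    rw [Finset.mem_range] at hi
    rw [Algebra.smul_def, algebraMap_laurentSeries_eq_single, HahnSeries.coeff_single_zero_mul,
      coeff_jq_pow_of_lt, mul_zero]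
    have : i < P.natDegree := lt_of_le_of_ne (Nat.lt_succ_iff.mp hi) hne
    omega
  · intro h
    exact absurd (Finset.mem_range.mpr (Nat.lt_succ_self _)) h

theorem h9_aeval_jq_ne_zero {P : Polynomial ℚ} (hP : P ≠ 0) : Polynomial.aeval jq P ≠ 0 := by
  intro h
  have h1 := h9_coeff_aeval_jq P
  rw [h, HahnSeries.coeff_zero] at h1
  exact hP (Polynomial.leadingCoeff_eq_zero.mp h1.symm)

theorem h9_aeval_reflect {R K : Type*} [CommRing R] [Field K] [Algebra R K] (J : K) (hJ : J ≠ 0)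
    (D : ℕ) (p : Polynomial R) (hp : p.natDegree ≤ D) :
    aeval J⁻¹ (reflect D p) = aeval J p * (J⁻¹) ^ D := by
  let _ := invertibleOfNonzero hJ
  have h1 := eval₂_reflect_mul_pow (algebraMap R K) J D p hp
  rw [invOf_eq_inv] at h1
  rw [aeval_def, aeval_def, ← h1, mul_assoc, ← mul_pow, mul_inv_cancel₀ hJ, one_pow, mul_one]

theorem h9_C_dvd_of_reflect {R : Type*} [CommRing R] (r : R) (D : ℕ) (p : Polynomial R)
    (h : C r ∣ reflect D p) : C r ∣ p := by
  rw [C_dvd_iff_dvd_coeff] at h ⊢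
  intro k
  have h1 := h (revAt D k)
  rwa [coeff_reflect, revAt_invol] at h1

variable (N ℓ : ℕ) [NeZero N] [Fact ℓ.Prime]

omit [NeZero N] [Fact ℓ.Prime] in
theorem h9_coe_aeval (J : ↥(modularFunctionFieldFull N))
    (p : Polynomial ↥(GaloisRep.ratLocalizedAt ℓ)) :
    ((aeval J p : ↥(modularFunctionFieldFull N)) : LaurentSeries ℚ) =
      aeval (J : LaurentSeries ℚ) (p.map (GaloisRep.ratLocalizedAt ℓ).subtype) := by
  have h1 := hom_eval₂ p (algebraMap ↥(GaloisRep.ratLocalizedAt ℓ) ↥(modularFunctionFieldFull N))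
    (algebraMap ↥(modularFunctionFieldFull N) (LaurentSeries ℚ)) J
  have hcomp : (algebraMap ↥(modularFunctionFieldFull N) (LaurentSeries ℚ)).comp
      (algebraMap ↥(GaloisRep.ratLocalizedAt ℓ) ↥(modularFunctionFieldFull N)) =
      (algebraMap ℚ (LaurentSeries ℚ)).comp (GaloisRep.ratLocalizedAt ℓ).subtype :=
    RingHom.ext fun a => by
      have h2 : ∀ q : ℚ, (algebraMap ↥(modularFunctionFieldFull N) (LaurentSeries ℚ))
          (algebraMap ℚ ↥(modularFunctionFieldFull N) q) = algebraMap ℚ (LaurentSeries ℚ) q :=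
        fun q => by
          rw [eq_ratCast (algebraMap ℚ ↥(modularFunctionFieldFull N)) q,
            eq_ratCast (algebraMap ℚ (LaurentSeries ℚ)) q, map_ratCast]
      exact h2 _
  rw [aeval_def, aeval_def, eval₂_map, ← hcomp]
  exact h1

omit [Fact ℓ.Prime] in
theorem h9_transcendental_jFull :
    Transcendental ↥(GaloisRep.ratLocalizedAt ℓ) (jFull N) := by
  rw [Transcendental]
  rintro ⟨p, hp, h0⟩
  have hp' : p.map (GaloisRep.ratLocalizedAt ℓ).subtype ≠ 0 := by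
    rw [Ne, Polynomial.map_eq_zero_iff Subtype.val_injective]
    exact hp
  apply h9_aeval_jq_ne_zero hp'
  have h1 := h9_coe_aeval N ℓ (jFull N) p
  rw [h0] at h1
  exact h1.symm

omit [Fact ℓ.Prime] in
theorem h9_transcendental_jFull_inv :
    Transcendental ↥(GaloisRep.ratLocalizedAt ℓ) (jFull N)⁻¹ := by
  rw [Transcendental]
  rintro ⟨p, hp, h0⟩
  have h1 := h9_aeval_reflect (R := ↥(GaloisRep.ratLocalizedAt ℓ)) (jFull N)⁻¹
    (inv_ne_zero (jFull_ne_zero N)) p.natDegree p le_rfl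
  rw [h0, zero_mul, inv_inv] at h1
  exact h9_transcendental_jFull N ℓ ⟨reflect p.natDegree p,
    fun h => hp ((reflect_eq_zero_iff).mp h), h1⟩

omit [NeZero N] in
theorem h9_kernel_lemma
    (hL : ∀ (R₀ : Type) [CommRing R₀] [IsDomain R₀] [IsIntegrallyClosed R₀] (K : Type) [Field K]
      [Algebra R₀ K] [FaithfulSMul R₀ K] (p s : R₀), Prime p → ¬ p ∣ s → ∀ z : K,
      IsIntegral R₀ (p • z) → IsIntegral R₀ (s • z) → IsIntegral R₀ z)
    (hPID : IsPrincipalIdealRing ↥(GaloisRep.ratLocalizedAt ℓ))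
    (hprime : Prime ((ℓ : ℕ) : ↥(GaloisRep.ratLocalizedAt ℓ)))
    (J : ↥(modularFunctionFieldFull N)) (hJ : Transcendental ↥(GaloisRep.ratLocalizedAt ℓ) J)
    (x y : ↥(modularFunctionFieldFull N)) (hx : x ∈ chartAlg N ℓ {J}) (hy : y ∈ chartAlg N ℓ {J})
    (s : Polynomial ↥(GaloisRep.ratLocalizedAt ℓ))
    (hs : ¬ C ((ℓ : ℕ) : ↥(GaloisRep.ratLocalizedAt ℓ)) ∣ s)
    (h : aeval J s * x = (ℓ : ↥(modularFunctionFieldFull N)) * y) :
    ∃ z ∈ chartAlg N ℓ {J}, x = (ℓ : ℚ) • z := by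
  have hℓ : ℓ.Prime := Fact.out
  have hℓ0 : (ℓ : ↥(modularFunctionFieldFull N)) ≠ 0 := Nat.cast_ne_zero.mpr hℓ.ne_zero
  have hinj : Function.Injective (aeval J :
      Polynomial ↥(GaloisRep.ratLocalizedAt ℓ) →ₐ[↥(GaloisRep.ratLocalizedAt ℓ)]
        ↥(modularFunctionFieldFull N)) := transcendental_iff_injective.mp hJ
  let e : Polynomial ↥(GaloisRep.ratLocalizedAt ℓ) ≃ₐ[↥(GaloisRep.ratLocalizedAt ℓ)]
      ↥(Algebra.adjoin ↥(GaloisRep.ratLocalizedAt ℓ) ({J} : Set ↥(modularFunctionFieldFull N))) :=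
    (AlgEquiv.ofInjective _ hinj).trans
      (Subalgebra.equivOfEq _ _ (Algebra.adjoin_singleton_eq_range_aeval _ J).symm)
  have he : ∀ p, ((e p : ↥(Algebra.adjoin ↥(GaloisRep.ratLocalizedAt ℓ)
      ({J} : Set ↥(modularFunctionFieldFull N)))) : ↥(modularFunctionFieldFull N)) = aeval J p :=
    fun p => rfl
  have := hPID
  have : IsIntegrallyClosed ↥(Algebra.adjoin ↥(GaloisRep.ratLocalizedAt ℓ)
      ({J} : Set ↥(modularFunctionFieldFull N))) := IsIntegrallyClosed.of_equiv e.toRingEquiv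
  have hp : Prime (e (C ((ℓ : ℕ) : ↥(GaloisRep.ratLocalizedAt ℓ)))) :=
    (MulEquiv.prime_iff e).mpr (Polynomial.prime_C_iff.mpr hprime)
  have hsdvd : ¬ e (C ((ℓ : ℕ) : ↥(GaloisRep.ratLocalizedAt ℓ))) ∣ e s := by
    rw [map_dvd_iff]
    exact hs
  have heℓ : ((e (C ((ℓ : ℕ) : ↥(GaloisRep.ratLocalizedAt ℓ))) :
      ↥(Algebra.adjoin ↥(GaloisRep.ratLocalizedAt ℓ)
      ({J} : Set ↥(modularFunctionFieldFull N)))) : ↥(modularFunctionFieldFull N)) =
      (ℓ : ↥(modularFunctionFieldFull N)) := by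
    rw [he, aeval_C, map_natCast]
  have h1 : IsIntegral ↥(Algebra.adjoin ↥(GaloisRep.ratLocalizedAt ℓ)
      ({J} : Set ↥(modularFunctionFieldFull N)))
      (e (C ((ℓ : ℕ) : ↥(GaloisRep.ratLocalizedAt ℓ))) •
        ((ℓ : ↥(modularFunctionFieldFull N))⁻¹ * x)) := by
    have h2 : e (C ((ℓ : ℕ) : ↥(GaloisRep.ratLocalizedAt ℓ))) •
        ((ℓ : ↥(modularFunctionFieldFull N))⁻¹ * x) = x := by
      rw [Subalgebra.smul_def, heℓ, smul_eq_mul, mul_inv_cancel_left₀ hℓ0]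
    rw [h2]
    exact hx
  have h3 : IsIntegral ↥(Algebra.adjoin ↥(GaloisRep.ratLocalizedAt ℓ)
      ({J} : Set ↥(modularFunctionFieldFull N)))
      (e s • ((ℓ : ↥(modularFunctionFieldFull N))⁻¹ * x)) := by
    have h2 : e s • ((ℓ : ↥(modularFunctionFieldFull N))⁻¹ * x) = y := by
      rw [Subalgebra.smul_def, he, smul_eq_mul, mul_left_comm, h, inv_mul_cancel_left₀ hℓ0]
    rw [h2]
    exact hy
  have hz := hL _ ↥(modularFunctionFieldFull N) _ _ hp hsdvd _ h1 h3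
  refine ⟨(ℓ : ↥(modularFunctionFieldFull N))⁻¹ * x, hz, ?_⟩
  rw [Algebra.smul_def, map_natCast, mul_inv_cancel_left₀ hℓ0]

end Kernel

/-! ### P7 : the good family and the assembly -/

section Assembly

variable (N ℓ : ℕ) [NeZero N] [Fact ℓ.Prime]

/-- `x_N = j(q^N)` as an element of the function field. -/
def h9_xNF : ↥(modularFunctionFieldFull N) := ⟨qExpand ℚ N jq, jqd_mem_full N dvd_rfl⟩

theorem h9_xNF_mem_chartFin (F : ConjFamily (cycO N) N (zetaO N)) :
    h9_xNF N ∈ chartAlg N ℓ {jFull N} := by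
  obtain ⟨Φ, hΦm, hΦ⟩ := h9_xN_modular N F
  rw [mem_chartAlg_iff]
  let ψ : ℤ[X] →+* ↥(Algebra.adjoin ↥(GaloisRep.ratLocalizedAt ℓ)
      ({jFull N} : Set ↥(modularFunctionFieldFull N))) :=
    (aeval (⟨jFull N, Algebra.subset_adjoin rfl⟩ :
      ↥(Algebra.adjoin ↥(GaloisRep.ratLocalizedAt ℓ)
        ({jFull N} : Set ↥(modularFunctionFieldFull N)))) : ℤ[X] →ₐ[ℤ] _).toRingHom
  refine ⟨Φ.map ψ, hΦm.map ψ, ?_⟩
  rw [eval₂_map]
  apply Subtype.val_injective
  have hcomp : (algebraMap ↥(modularFunctionFieldFull N) (LaurentSeries ℚ)).comp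
      ((algebraMap ↥(Algebra.adjoin ↥(GaloisRep.ratLocalizedAt ℓ)
        ({jFull N} : Set ↥(modularFunctionFieldFull N))) ↥(modularFunctionFieldFull N)).comp ψ) =
      evalAtJ := by
    refine Polynomial.ringHom_ext' (RingHom.ext_int _ _) ?_
    simp [ψ, evalAtJ]
  have h1 := hom_eval₂ Φ ((algebraMap ↥(Algebra.adjoin ↥(GaloisRep.ratLocalizedAt ℓ)
        ({jFull N} : Set ↥(modularFunctionFieldFull N))) ↥(modularFunctionFieldFull N)).comp ψ)
    (algebraMap ↥(modularFunctionFieldFull N) (LaurentSeries ℚ)) (h9_xNF N)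
  rw [hcomp] at h1
  exact h1.trans hΦ

theorem h9_good (F : ConjFamily (cycO N) N (zetaO N)) (S : Set ↥(modularFunctionFieldFull N))
    (hS : S = {jFull N} ∨ S = {(jFull N)⁻¹}) :
    ∃ M : ℕ, (jFull N)⁻¹ ^ M * h9_xNF N ∈ chartAlg N ℓ S := by
  rcases hS with rfl | rfl
  · exact ⟨0, by simpa using h9_xNF_mem_chartFin N ℓ F⟩
  · have h1 : h9_xNF N ∈ chartAlg N ℓ (insert ((jFull N)⁻¹)⁻¹ {(jFull N)⁻¹}) :=
      chartAlg_mono N ℓ (by
        rw [inv_inv]
        exact Set.singleton_subset_iff.mpr (Set.mem_insert _ _)) (h9_xNF_mem_chartFin N ℓ F)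
    exact exists_pow_mul_mem_chartAlg (Set.mem_singleton _) (inv_ne_zero (jFull_ne_zero N)) h1

/-- The kernel of reduction mod `ℓ` on a chart, with all the inputs as hypotheses. -/
theorem chartAlg_ker_red_of
    (F : ConjFamily (cycO N) N (zetaO N))
    (hcore : ∀ H : Polynomial (Polynomial (ZMod ℓ)), H ≠ 0 →
      H.natDegree < @Fintype.card F.ι F.fin →
      (H.map (Polynomial.aeval (jqModC (ZMod ℓ))).toRingHom).eval
        (qExpand (ZMod ℓ) N (jqModC (ZMod ℓ))) ≠ 0)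
    (hrel : ∀ v : Fin (@Fintype.card F.ι F.fin + 1) → LaurentSeries ℚ,
      (∀ i, v i ∈ modularFunctionFieldFull N) →
      ∃ c : Fin (@Fintype.card F.ι F.fin + 1) → Polynomial ℚ, c ≠ 0 ∧
        ∑ i, Polynomial.aeval jq (c i) * v i = 0)
    (hL : ∀ (R₀ : Type) [CommRing R₀] [IsDomain R₀] [IsIntegrallyClosed R₀] (K : Type) [Field K]
      [Algebra R₀ K] [FaithfulSMul R₀ K] (p s : R₀), Prime p → ¬ p ∣ s → ∀ z : K,
      IsIntegral R₀ (p • z) → IsIntegral R₀ (s • z) → IsIntegral R₀ z)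
    (hPID : IsPrincipalIdealRing ↥(GaloisRep.ratLocalizedAt ℓ))
    (hprime : Prime ((ℓ : ℕ) : ↥(GaloisRep.ratLocalizedAt ℓ)))
    (φ : ↥(GaloisRep.ratLocalizedAt ℓ) →+* ZMod ℓ)
    (hφ : ∀ x, φ x = 0 ↔ ((ℓ : ℕ) : ↥(GaloisRep.ratLocalizedAt ℓ)) ∣ x)
    (S : Set ↥(modularFunctionFieldFull N)) (hS : S = {jFull N} ∨ S = {(jFull N)⁻¹})
    (x : ↥(modularFunctionFieldFull N)) (hx : x ∈ chartAlg N ℓ S)
    (h0 : ∀ n : ℤ, ∃ c ∈ GaloisRep.ratLocalizedAt ℓ, (x : LaurentSeries ℚ).coeff n = ℓ * c) :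
    ∃ y ∈ chartAlg N ℓ S, x = (ℓ : ℚ) • y := by
  classical
  obtain ⟨M, hM⟩ := h9_good N ℓ F S hS
  have hb : ∀ i : ℕ, ((((jFull N)⁻¹ ^ M * h9_xNF N) ^ i : ↥(modularFunctionFieldFull N)) :
      LaurentSeries ℚ) = ((jq⁻¹) ^ M * qExpand ℚ N jq) ^ i := fun i => by
    simp only [IntermediateField.coe_pow, IntermediateField.coe_mul, IntermediateField.coe_inv,
      coe_jFull]
    rfl
  -- the relation
  obtain ⟨c, hc, hsum⟩ := hrel
    (Fin.snoc (fun i : Fin (@Fintype.card F.ι F.fin) =>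
      ((((jFull N)⁻¹ ^ M * h9_xNF N) ^ (i : ℕ) : ↥(modularFunctionFieldFull N)) :
        LaurentSeries ℚ)) (x : LaurentSeries ℚ))
    (fun i => by
      refine Fin.lastCases ?_ (fun i => ?_) i
      · rw [Fin.snoc_last]
        exact x.2
      · rw [Fin.snoc_castSucc]
        exact Subtype.property _)
  obtain ⟨a, c', ha, hc', i₁, hi₁⟩ := h9_scale ℓ c hc
  rw [Fin.sum_univ_castSucc] at hsum
  simp only [Fin.snoc_castSucc, Fin.snoc_last, hb] at hsum
  have hsum' : ∑ i : Fin (@Fintype.card F.ι F.fin),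
        aeval jq ((c' i.castSucc).map (GaloisRep.ratLocalizedAt ℓ).subtype) *
          ((jq⁻¹) ^ M * qExpand ℚ N jq) ^ (i : ℕ)
      + aeval jq ((c' (Fin.last _)).map (GaloisRep.ratLocalizedAt ℓ).subtype) *
          (x : LaurentSeries ℚ) = 0 := by
    rw [← mul_zero (algebraMap ℚ (LaurentSeries ℚ) a), ← hsum, mul_add, Finset.mul_sum]
    congr 1
    · refine Finset.sum_congr rfl fun i _ => ?_
      rw [hc', map_mul, aeval_C, mul_assoc]
    · rw [hc', map_mul, aeval_C, mul_assoc]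
  have hdiv := h9_red_step N ℓ _ hcore φ hφ M (fun i => c' i.castSucc) (c' (Fin.last _)) x h0 hsum'
  have hlast : ¬ C ((ℓ : ℕ) : ↥(GaloisRep.ratLocalizedAt ℓ)) ∣ c' (Fin.last _) := by
    intro hl
    apply hi₁
    exact Fin.lastCases hl (fun i => hdiv i) i₁
  choose d hd using hdiv
  -- the relation in the function field
  have hF : aeval (jFull N) (c' (Fin.last _)) * x = (ℓ : ↥(modularFunctionFieldFull N)) *
      (-∑ i : Fin (@Fintype.card F.ι F.fin),
        aeval (jFull N) (d i) * ((jFull N)⁻¹ ^ M * h9_xNF N) ^ (i : ℕ)) := by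
    apply Subtype.val_injective
    have h1 : (∑ i : Fin (@Fintype.card F.ι F.fin),
          aeval jq ((c' i.castSucc).map (GaloisRep.ratLocalizedAt ℓ).subtype) *
            ((jq⁻¹) ^ M * qExpand ℚ N jq) ^ (i : ℕ)) =
        (((ℓ : ↥(modularFunctionFieldFull N)) *
        (∑ i : Fin (@Fintype.card F.ι F.fin),
          aeval (jFull N) (d i) * ((jFull N)⁻¹ ^ M * h9_xNF N) ^ (i : ℕ)) :
          ↥(modularFunctionFieldFull N)) : LaurentSeries ℚ) := by
      rw [Finset.mul_sum, IntermediateField.coe_sum]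
      refine Finset.sum_congr rfl fun i _ => ?_
      rw [IntermediateField.coe_mul, IntermediateField.coe_mul, hb, h9_coe_aeval, coe_jFull,
        ← mul_assoc]
      congr 1
      rw [hd i, Polynomial.map_mul, map_mul, map_C, aeval_C]
      congr 1
      simp
    rw [h1] at hsum'
    rw [IntermediateField.coe_mul, h9_coe_aeval, coe_jFull, mul_neg, IntermediateField.coe_neg]
    exact eq_neg_of_add_eq_zero_right hsum'
  rcases hS with rfl | rfl
  · refine h9_kernel_lemma N ℓ hL hPID hprime (jFull N) (h9_transcendental_jFull N ℓ) x _ hx ?_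
      (c' (Fin.last _)) hlast hF
    refine neg_mem (sum_mem fun i _ => mul_mem ?_ (pow_mem hM _))
    exact adjoin_le_chartAlg N ℓ _ (aeval_mem_adjoin_singleton _ _)
  · have hJ : jFull N ≠ 0 := jFull_ne_zero N
    let D : ℕ := (Finset.univ.sup fun i => (d i).natDegree) ⊔ (c' (Fin.last _)).natDegree
    have hdD : ∀ i, (d i).natDegree ≤ D := fun i =>
      le_trans (Finset.le_sup (f := fun i => (d i).natDegree) (Finset.mem_univ i)) le_sup_left
    have hsD : (c' (Fin.last _)).natDegree ≤ D := le_sup_right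
    refine h9_kernel_lemma N ℓ hL hPID hprime (jFull N)⁻¹ (h9_transcendental_jFull_inv N ℓ) x
      (-∑ i : Fin (@Fintype.card F.ι F.fin),
        aeval (jFull N)⁻¹ (reflect D (d i)) * ((jFull N)⁻¹ ^ M * h9_xNF N) ^ (i : ℕ)) hx ?_
      (reflect D (c' (Fin.last _))) (fun h => hlast (h9_C_dvd_of_reflect _ D _ h)) ?_
    · refine neg_mem (sum_mem fun i _ => mul_mem ?_ (pow_mem hM _))
      exact adjoin_le_chartAlg N ℓ _ (aeval_mem_adjoin_singleton _ _)
    · rw [h9_aeval_reflect (jFull N) hJ D _ hsD, mul_right_comm, hF, mul_neg, mul_neg, neg_mul,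
        Finset.mul_sum, Finset.mul_sum, Finset.sum_mul]
      congr 1
      refine Finset.sum_congr rfl fun i _ => ?_
      rw [h9_aeval_reflect (jFull N) hJ D _ (hdD i)]
      ring

/-- Row 90 (Q2) for a given conjugate family. -/
theorem chartAlg_ker_red_of_family (hℓN : ¬ ℓ ∣ N) (F : ConjFamily (cycO N) N (zetaO N))
    (S : Set ↥(modularFunctionFieldFull N)) (hS : S = {jFull N} ∨ S = {(jFull N)⁻¹})
    (x : ↥(modularFunctionFieldFull N)) (hx : x ∈ chartAlg N ℓ S)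
    (h0 : ∀ n : ℤ, ∃ c ∈ GaloisRep.ratLocalizedAt ℓ, (x : LaurentSeries ℚ).coeff n = ℓ * c) :
    ∃ y ∈ chartAlg N ℓ S, x = (ℓ : ℚ) • y :=
  chartAlg_ker_red_of N ℓ F (fun H hH hdeg => igusa_core N ℓ hℓN F H hH hdeg)
    (fun v hv => exists_relation N F v hv)
    (fun _ _ _ _ _ _ _ _ p s hp hs z h1 h2 => isIntegral_of_smul_of_smul p s hp hs z h1 h2)
    (ratLocalizedAt_isPrincipalIdealRing ℓ) (ratLocalizedAt_prime ℓ) (ratLocalizedAtResidue ℓ)
    (ratLocalizedAtResidue_eq_zero_iff ℓ) S hS x hx h0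

/-- Row 90 (Q2), with the existence of a conjugate family (row 93) as the only hypothesis. -/
theorem chartAlg_ker_red_of_nonempty (hℓN : ¬ ℓ ∣ N)
    (hF : Nonempty (ConjFamily (cycO N) N (zetaO N)))
    (S : Set ↥(modularFunctionFieldFull N)) (hS : S = {jFull N} ∨ S = {(jFull N)⁻¹})
    (x : ↥(modularFunctionFieldFull N)) (hx : x ∈ chartAlg N ℓ S)
    (h0 : ∀ n : ℤ, ∃ c ∈ GaloisRep.ratLocalizedAt ℓ, (x : LaurentSeries ℚ).coeff n = ℓ * c) :
    ∃ y ∈ chartAlg N ℓ S, x = (ℓ : ℚ) • y :=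
  hF.elim fun F => chartAlg_ker_red_of_family N ℓ hℓN F S hS x hx h0

/-- **Row 90 (Q2)** : the kernel of reduction mod `ℓ` on a chart is `ℓ * chart`. -/
theorem chartAlg_ker_red (hℓN : ¬ ℓ ∣ N)
    (S : Set ↥(modularFunctionFieldFull N)) (hS : S = {jFull N} ∨ S = {(jFull N)⁻¹})
    (x : ↥(modularFunctionFieldFull N)) (hx : x ∈ chartAlg N ℓ S)
    (h0 : ∀ n : ℤ, ∃ c ∈ GaloisRep.ratLocalizedAt ℓ, (x : LaurentSeries ℚ).coeff n = ℓ * c) :
    ∃ y ∈ chartAlg N ℓ S, x = (ℓ : ℚ) • y :=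
  chartAlg_ker_red_of_nonempty N ℓ hℓN (exists_conjFamily N) S hS x hx h0

end Assembly

end Fermat.Agent.S28
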