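import Mathlib
import Fermat.Statements.S28

set_option autoImplicit false
open AlgebraicGeometry CategoryTheory CategoryTheory.Limits ModularCurve ModularCurve.IgusaScheme
open scoped TensorProduct
noncomputable section

namespace Fermat.Agent.S28

universe u

/-- A scheme covered by two integral open subschemes having a common point is integral. -/
theorem h44_isIntegral_of_two {X U V : Scheme.{u}} (i : U ⟶ X) (j : V ⟶ X)
    [IsOpenImmersion i] [IsOpenImmersion j] [IsIntegral U] [IsIntegral V]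
    (hcov : ∀ x : X, x ∈ Set.range i.base ∨ x ∈ Set.range j.base)
    (hmeet : ∃ x : X, x ∈ Set.range i.base ∧ x ∈ Set.range j.base) : IsIntegral X := by
  rw [isIntegral_iff_irreducibleSpace_and_isReduced]
  constructor
  · have hU : IsIrreducible (Set.range i.base) := by
      have := (IrreducibleSpace.isIrreducible_univ U).image i.base i.continuous.continuousOn
      rwa [Set.image_univ] at this
    have hV : IsIrreducible (Set.range j.base) := by
      have := (IrreducibleSpace.isIrreducible_univ V).image j.base j.continuous.continuousOn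
      rwa [Set.image_univ] at this
    have hUo : IsOpen (Set.range i.base) := i.isOpenEmbedding.isOpen_range
    obtain ⟨x, hxU, hxV⟩ := hmeet
    have h1 : Set.range j.base ⊆ closure (Set.range i.base) :=
      (subset_closure_inter_of_isPreirreducible_of_isOpen hV.isPreirreducible hUo
        ⟨x, hxV, hxU⟩).trans (closure_mono Set.inter_subset_right)
    have h2 : closure (Set.range i.base) = Set.univ := by
      refine Set.eq_univ_of_forall fun x => ?_
      rcases hcov x with h | h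
      · exact subset_closure h
      · exact h1 h
    have h3 : IsIrreducible (Set.univ : Set X) := h2 ▸ hU.closure
    exact (irreducibleSpace_def X).mpr h3
  · have : ∀ x : X, _root_.IsReduced (X.presheaf.stalk x) := by
      intro x
      rcases hcov x with ⟨y, rfl⟩ | ⟨y, rfl⟩
      · exact isReduced_of_injective (i.stalkMap y).hom
          (asIso (i.stalkMap y)).commRingCatIsoToRingEquiv.injective
      · exact isReduced_of_injective (j.stalkMap y).hom
          (asIso (j.stalkMap y)).commRingCatIsoToRingEquiv.injective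
    exact isReduced_of_isReduced_stalk X

theorem igusa_isIntegral_of_isDomain (N ℓ : ℕ) [NeZero N] [Fact ℓ.Prime] (K : Type) [Field K]
    [Algebra ↥(GaloisRep.ratLocalizedAt ℓ) K]
    (hFin : IsDomain (↥(chartAlgFin N ℓ) ⊗[↥(GaloisRep.ratLocalizedAt ℓ)] K))
    (hInf : IsDomain (↥(chartAlgInf N ℓ) ⊗[↥(GaloisRep.ratLocalizedAt ℓ)] K))
    (hMid : Nontrivial (↥(chartAlgMid N ℓ) ⊗[↥(GaloisRep.ratLocalizedAt ℓ)] K)) :
    IsIntegral ↑(pullback (igusaTo N ℓ)
      (Spec.map (CommRingCat.ofHom (algebraMap ↥(GaloisRep.ratLocalizedAt ℓ) K)))) := by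
  set g := Spec.map (CommRingCat.ofHom (algebraMap ↥(GaloisRep.ratLocalizedAt ℓ) K)) with hg
  set p₁ := pullback.fst (igusaTo N ℓ) g with hp₁
  -- the two charts
  haveI hWfin : IsIntegral (pullback (ιFin N ℓ) p₁) := by
    have e1 : pullback (ιFin N ℓ) p₁ ≅ pullback (ιFin N ℓ ≫ igusaTo N ℓ) g :=
      pullbackRightPullbackFstIso (igusaTo N ℓ) g (ιFin N ℓ)
    have e2 : pullback (ιFin N ℓ ≫ igusaTo N ℓ) g ≅
        pullback (Spec.map (CommRingCat.ofHom
          (algebraMap ↥(GaloisRep.ratLocalizedAt ℓ) (chartAlgFin N ℓ)))) g :=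
      pullback.congrHom (ιFin_igusaTo N ℓ) rfl
    have e3 := pullbackSpecIso ↥(GaloisRep.ratLocalizedAt ℓ) (chartAlgFin N ℓ) K
    haveI : IsDomain (CommRingCat.of (↥(chartAlgFin N ℓ) ⊗[↥(GaloisRep.ratLocalizedAt ℓ)] K)) :=
      hFin
    exact IsIntegral.of_isIso (e1 ≪≫ e2 ≪≫ e3).inv
  haveI hWinf : IsIntegral (pullback (ιInf N ℓ) p₁) := by
    have e1 : pullback (ιInf N ℓ) p₁ ≅ pullback (ιInf N ℓ ≫ igusaTo N ℓ) g :=
      pullbackRightPullbackFstIso (igusaTo N ℓ) g (ιInf N ℓ)
    have e2 : pullback (ιInf N ℓ ≫ igusaTo N ℓ) g ≅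
        pullback (Spec.map (CommRingCat.ofHom
          (algebraMap ↥(GaloisRep.ratLocalizedAt ℓ) (chartAlgInf N ℓ)))) g :=
      pullback.congrHom (ιInf_igusaTo N ℓ) rfl
    have e3 := pullbackSpecIso ↥(GaloisRep.ratLocalizedAt ℓ) (chartAlgInf N ℓ) K
    haveI : IsDomain (CommRingCat.of (↥(chartAlgInf N ℓ) ⊗[↥(GaloisRep.ratLocalizedAt ℓ)] K)) :=
      hInf
    exact IsIntegral.of_isIso (e1 ≪≫ e2 ≪≫ e3).inv
  have hrFin : Set.range (pullback.snd (ιFin N ℓ) p₁).base =
      p₁.base ⁻¹' Set.range (ιFin N ℓ).base := Scheme.Pullback.range_snd _ _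
  have hrInf : Set.range (pullback.snd (ιInf N ℓ) p₁).base =
      p₁.base ⁻¹' Set.range (ιInf N ℓ).base := Scheme.Pullback.range_snd _ _
  refine h44_isIntegral_of_two (pullback.snd (ιFin N ℓ) p₁) (pullback.snd (ιInf N ℓ) p₁) ?_ ?_
  · intro x
    rw [hrFin, hrInf]
    exact mem_range_ιFin_or_mem_range_ιInf N ℓ (p₁.base x)
  · -- a point of the middle chart
    have hcomm : (Spec.map (CommRingCat.ofHom (R := ↥(chartAlgMid N ℓ))
          (S := ↥(chartAlgMid N ℓ) ⊗[↥(GaloisRep.ratLocalizedAt ℓ)] K)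
          Algebra.TensorProduct.includeLeftRingHom) ≫
        fFin N ℓ ≫ ιFin N ℓ) ≫ igusaTo N ℓ =
        Spec.map (CommRingCat.ofHom (R := K)
          (S := ↥(chartAlgMid N ℓ) ⊗[↥(GaloisRep.ratLocalizedAt ℓ)] K)
          (RingHomClass.toRingHom Algebra.TensorProduct.includeRight)) ≫ g := by
      rw [Category.assoc, Category.assoc, ιFin_igusaTo, hg, ← Spec.map_comp, ← Spec.map_comp,
        ← Spec.map_comp, ← CommRingCat.ofHom_comp, ← CommRingCat.ofHom_comp,
        ← CommRingCat.ofHom_comp]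
      congr 2
      ext a
      simp
    let m := pullback.lift _ _ hcomm
    haveI : Nonempty (Spec (CommRingCat.of
        (↥(chartAlgMid N ℓ) ⊗[↥(GaloisRep.ratLocalizedAt ℓ)] K))) :=
      inferInstanceAs (Nonempty (PrimeSpectrum
        (↥(chartAlgMid N ℓ) ⊗[↥(GaloisRep.ratLocalizedAt ℓ)] K)))
    obtain ⟨y⟩ := this
    have hm : m ≫ p₁ = Spec.map (CommRingCat.ofHom (R := ↥(chartAlgMid N ℓ))
          (S := ↥(chartAlgMid N ℓ) ⊗[↥(GaloisRep.ratLocalizedAt ℓ)] K)
          Algebra.TensorProduct.includeLeftRingHom) ≫ fFin N ℓ ≫ ιFin N ℓ :=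
      pullback.lift_fst _ _ hcomm
    have hm' : m ≫ p₁ = Spec.map (CommRingCat.ofHom (R := ↥(chartAlgMid N ℓ))
          (S := ↥(chartAlgMid N ℓ) ⊗[↥(GaloisRep.ratLocalizedAt ℓ)] K)
          Algebra.TensorProduct.includeLeftRingHom) ≫ fInf N ℓ ≫ ιInf N ℓ := by
      rw [hm, glue_condition]
    refine ⟨m.base y, ?_, ?_⟩
    · rw [hrFin]
      refine ⟨(Spec.map (CommRingCat.ofHom (R := ↥(chartAlgMid N ℓ))
          (S := ↥(chartAlgMid N ℓ) ⊗[↥(GaloisRep.ratLocalizedAt ℓ)] K)
          Algebra.TensorProduct.includeLeftRingHom) ≫ fFin N ℓ).base y, ?_⟩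
      have := congrArg (fun f => f.base y) hm
      simpa using this.symm
    · rw [hrInf]
      refine ⟨(Spec.map (CommRingCat.ofHom (R := ↥(chartAlgMid N ℓ))
          (S := ↥(chartAlgMid N ℓ) ⊗[↥(GaloisRep.ratLocalizedAt ℓ)] K)
          Algebra.TensorProduct.includeLeftRingHom) ≫ fInf N ℓ).base y, ?_⟩
      have := congrArg (fun f => f.base y) hm'
      simpa using this.symm

end Fermat.Agent.S28
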