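import Mathlib
import Fermat.Statements.S28

/-!
# S28, task Q3 (core): `chart ⊗ K` embeds in `K((q))`

Conditional versions (the inputs Q1 `chartAlg_coeff_mem` and Q2 `chartAlg_ker_red` are taken as
hypotheses) of
* `chartAlg_tensor_isDomain`: for `S = {j}` or `{j⁻¹}` the ring `chartAlg N ℓ S ⊗[ℤ_(ℓ)] K` is a
  domain;
* `chartAlgMid_tensor_nontrivial`.
-/

set_option autoImplicit false

open ModularCurve ModularCurve.IgusaScheme
open scoped TensorProduct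

namespace Fermat.Agent.S28

section general

variable {R Q : Type*} [CommRing R] [CommRing Q]

theorem h47_coeffMap_injective (f : R →+* Q) (hf : Function.Injective f) :
    Function.Injective (coeffMap f) := by
  intro x y h
  ext n
  apply hf
  have := congrArg (fun z => z.coeff n) h
  simpa using this

theorem h47_exists_coeffMap_eq (f : R →+* Q) (x : LaurentSeries Q)
    (h : ∀ n, x.coeff n ∈ f.range) : ∃ y : LaurentSeries R, coeffMap f y = x := by
  classical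
  choose c hc using h
  refine ⟨⟨fun n => if x.coeff n = 0 then 0 else c n, ?_⟩, ?_⟩
  · apply x.isPWO_support.mono
    intro n hn
    simp only [Function.mem_support, ne_eq, ite_eq_left_iff, not_forall] at hn
    obtain ⟨h1, _⟩ := hn
    exact h1
  · ext n
    simp only [coeffMap_coeff]
    by_cases h0 : x.coeff n = 0
    · simp [h0]
    · simp [h0, hc]

theorem h47_exists_lift {C : Type*} [CommRing C] (f : R →+* Q) (hf : Function.Injective f)
    (e : C →+* LaurentSeries Q) (h : ∀ x n, (e x).coeff n ∈ f.range) :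
    ∃ L : C →+* LaurentSeries R, ∀ x, coeffMap f (L x) = e x := by
  choose L hL using fun x => h47_exists_coeffMap_eq f (e x) (h x)
  have hinj := h47_coeffMap_injective f hf
  refine ⟨{ toFun := L, map_one' := ?_, map_mul' := ?_, map_zero' := ?_, map_add' := ?_ }, hL⟩
  · apply hinj; rw [hL, map_one, map_one]
  · intro x y; apply hinj; rw [hL, map_mul, map_mul, hL, hL]
  · apply hinj; rw [hL, map_zero, map_zero]
  · intro x y; apply hinj; rw [hL, map_add, map_add, hL, hL]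

theorem h47_exists_tensor_lift {R A B D : Type*} [CommRing R] [CommRing A] [CommRing B]
    [CommRing D] [Algebra R A] [Algebra R B] (f : A →+* D) (g : B →+* D)
    (h : ∀ r : R, f (algebraMap R A r) = g (algebraMap R B r)) :
    ∃ Ψ : A ⊗[R] B →+* D, ∀ a b, Ψ (a ⊗ₜ b) = f a * g b := by
  let _ : Algebra R D := (g.comp (algebraMap R B)).toAlgebra
  let f' : A →ₐ[R] D := { f with commutes' := fun r => h r }
  let g' : B →ₐ[R] D := { g with commutes' := fun r => rfl }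
  have hfg : ∀ x y, Commute (f' x) (g' y) := fun _ _ => Commute.all _ _
  exact ⟨(Algebra.TensorProduct.lift f' g' hfg : _ →+* _),
    fun a b => Algebra.TensorProduct.lift_tmul f' g' hfg a b⟩

end general

section residue

variable (ℓ : ℕ) [Fact ℓ.Prime] (K : Type) [Field K] [CharP K ℓ]

theorem h47_den_ne_zero (c : ↥(GaloisRep.ratLocalizedAt ℓ)) : (((c : ℚ).den : ℕ) : K) ≠ 0 := by
  have hc : (c : ℚ).den.Coprime ℓ := c.2
  rw [Ne, CharP.cast_eq_zero_iff K ℓ]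
  intro hdvd
  have h1 : ℓ ∣ Nat.gcd (c : ℚ).den ℓ := Nat.dvd_gcd hdvd dvd_rfl
  rw [hc] at h1
  exact (Fact.out : ℓ.Prime).one_lt.ne' (Nat.dvd_one.mp h1)

variable [Algebra ↥(GaloisRep.ratLocalizedAt ℓ) K]

omit [Fact ℓ.Prime] [CharP K ℓ] in
theorem h47_algebraMap_mul_den (c : ↥(GaloisRep.ratLocalizedAt ℓ)) :
    algebraMap ↥(GaloisRep.ratLocalizedAt ℓ) K c * (((c : ℚ).den : ℕ) : K) =
      (((c : ℚ).num : ℤ) : K) := by
  have h1 : c * (((c : ℚ).den : ℕ) : ↥(GaloisRep.ratLocalizedAt ℓ)) =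
      (((c : ℚ).num : ℤ) : ↥(GaloisRep.ratLocalizedAt ℓ)) := by
    apply Subtype.ext
    push_cast
    exact Rat.mul_den_eq_num _
  have h2 := congrArg (algebraMap ↥(GaloisRep.ratLocalizedAt ℓ) K) h1
  simpa using h2

theorem h47_algebraMap_mem_prime (c : ↥(GaloisRep.ratLocalizedAt ℓ)) :
    ∃ z : ZMod ℓ, (ZMod.castHom (dvd_refl ℓ) K) z = algebraMap ↥(GaloisRep.ratLocalizedAt ℓ) K c := by
  refine ⟨(((c : ℚ).num : ℤ) : ZMod ℓ) * ((((c : ℚ).den : ℕ) : ZMod ℓ))⁻¹, ?_⟩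
  have hd := h47_den_ne_zero ℓ K c
  have h := h47_algebraMap_mul_den ℓ K c
  rw [map_mul, map_inv₀, map_intCast, map_natCast, ← h]
  field_simp

omit [Fact ℓ.Prime] in
theorem h47_dvd_of_algebraMap_eq_zero (c : ↥(GaloisRep.ratLocalizedAt ℓ))
    (h : algebraMap ↥(GaloisRep.ratLocalizedAt ℓ) K c = 0) :
    ∃ c' ∈ GaloisRep.ratLocalizedAt ℓ, (c : ℚ) = ℓ * c' := by
  have h1 := h47_algebraMap_mul_den ℓ K c
  rw [h, zero_mul] at h1
  have h2 : (ℓ : ℤ) ∣ (c : ℚ).num := (CharP.intCast_eq_zero_iff K ℓ _).mp h1.symm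
  obtain ⟨m, hm⟩ := h2
  have hden : (((c : ℚ).den : ℕ) : ℚ)⁻¹ ∈ GaloisRep.ratLocalizedAt ℓ := by
    show ((((c : ℚ).den : ℕ) : ℚ)⁻¹).den.Coprime ℓ
    rw [Rat.inv_natCast_den_of_pos (Rat.den_pos _)]
    exact c.2
  refine ⟨(m : ℚ) * (((c : ℚ).den : ℕ) : ℚ)⁻¹, Subring.mul_mem _ (intCast_mem _ m) hden, ?_⟩
  have h3 : (c : ℚ) = ((c : ℚ).num : ℚ) * (((c : ℚ).den : ℕ) : ℚ)⁻¹ := by
    rw [← div_eq_mul_inv]
    exact (Rat.num_div_den _).symm
  calc (c : ℚ) = ((c : ℚ).num : ℚ) * (((c : ℚ).den : ℕ) : ℚ)⁻¹ := h3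
    _ = (((ℓ : ℤ) * m : ℤ) : ℚ) * (((c : ℚ).den : ℕ) : ℚ)⁻¹ := by rw [← hm]
    _ = (ℓ : ℚ) * ((m : ℚ) * (((c : ℚ).den : ℕ) : ℚ)⁻¹) := by push_cast; ring

omit [Fact ℓ.Prime] [CharP K ℓ] in
theorem h47_exists_repr {A : Type*} [AddCommGroup A] [Module ↥(GaloisRep.ratLocalizedAt ℓ) A]
    {I : Type*} (β : I → K)
    (hβ : ∀ c : K, ∃ m : I →₀ ℕ, c = m.sum (fun s k => (k : K) * β s))
    (t : A ⊗[↥(GaloisRep.ratLocalizedAt ℓ)] K) :
    ∃ a : I →₀ A, t = a.sum (fun s x => x ⊗ₜ[↥(GaloisRep.ratLocalizedAt ℓ)] β s) := by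
  classical
  induction t using TensorProduct.induction_on with
  | zero => exact ⟨0, by simp⟩
  | tmul x c =>
    obtain ⟨m, rfl⟩ := hβ c
    refine ⟨m.mapRange (fun k => ((k : ℕ) : ↥(GaloisRep.ratLocalizedAt ℓ)) • x) (by simp), ?_⟩
    rw [Finsupp.sum_mapRange_index (by intro s; simp)]
    rw [Finsupp.sum, Finsupp.sum, TensorProduct.tmul_sum]
    refine Finset.sum_congr rfl (fun s _ => ?_)
    rw [TensorProduct.smul_tmul]
    congr 1
    rw [Algebra.smul_def, map_natCast]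
  | add t₁ t₂ h₁ h₂ =>
    obtain ⟨a₁, rfl⟩ := h₁
    obtain ⟨a₂, rfl⟩ := h₂
    refine ⟨a₁ + a₂, ?_⟩
    rw [Finsupp.sum_add_index' (by intro s; simp)
      (by intro s x y; exact TensorProduct.add_tmul _ _ _)]

end residue

section abstract

variable (ℓ : ℕ) [Fact ℓ.Prime] (K : Type) [Field K]
  [Algebra ↥(GaloisRep.ratLocalizedAt ℓ) K]
  {C : Type*} [CommRing C] [Algebra ↥(GaloisRep.ratLocalizedAt ℓ) C]
  (e : C →+* LaurentSeries ℚ)

omit [Fact ℓ.Prime] in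
theorem h47_exists_psi
    (he : ∀ r : ↥(GaloisRep.ratLocalizedAt ℓ),
      e (algebraMap ↥(GaloisRep.ratLocalizedAt ℓ) C r) = HahnSeries.single 0 (r : ℚ))
    (hQ1 : ∀ (x : C) (n : ℤ), (e x).coeff n ∈ GaloisRep.ratLocalizedAt ℓ) :
    ∃ (L : C →+* LaurentSeries ↥(GaloisRep.ratLocalizedAt ℓ))
      (Ψ : (C ⊗[↥(GaloisRep.ratLocalizedAt ℓ)] K) →+* LaurentSeries K),
      (∀ (x : C) (n : ℤ),
        (((L x).coeff n : ↥(GaloisRep.ratLocalizedAt ℓ)) : ℚ) = (e x).coeff n) ∧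
      ∀ (x : C) (c : K) (n : ℤ),
        (Ψ (x ⊗ₜ c)).coeff n =
          algebraMap ↥(GaloisRep.ratLocalizedAt ℓ) K ((L x).coeff n) * c := by
  obtain ⟨L, hL⟩ := h47_exists_lift (GaloisRep.ratLocalizedAt ℓ).subtype Subtype.val_injective
    e (fun x n => ⟨⟨_, hQ1 x n⟩, rfl⟩)
  have hinj := h47_coeffMap_injective (GaloisRep.ratLocalizedAt ℓ).subtype Subtype.val_injective
  have hLalg : ∀ r : ↥(GaloisRep.ratLocalizedAt ℓ),
      L (algebraMap ↥(GaloisRep.ratLocalizedAt ℓ) C r) = HahnSeries.single 0 r := by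
    intro r
    apply hinj
    rw [hL, coeffMap_single, he]
    rfl
  obtain ⟨Ψ, hΨ⟩ := h47_exists_tensor_lift (R := ↥(GaloisRep.ratLocalizedAt ℓ))
    ((coeffMap (algebraMap ↥(GaloisRep.ratLocalizedAt ℓ) K)).comp L)
    (HahnSeries.C : K →+* LaurentSeries K) (fun r => by
      show coeffMap (algebraMap ↥(GaloisRep.ratLocalizedAt ℓ) K) (L _) = _
      rw [hLalg, coeffMap_single]
      rfl)
  refine ⟨L, Ψ, ?_, ?_⟩
  · intro x n
    have := congrArg (fun z => z.coeff n) (hL x)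
    simpa using this
  · intro x c n
    rw [hΨ]
    show (coeffMap (algebraMap ↥(GaloisRep.ratLocalizedAt ℓ) K) (L x) * HahnSeries.C c).coeff n = _
    rw [HahnSeries.C_apply, HahnSeries.coeff_mul_single_zero, coeffMap_coeff]

omit [Fact ℓ.Prime] in
theorem h47_tensor_nontrivial_of
    (he : ∀ r : ↥(GaloisRep.ratLocalizedAt ℓ),
      e (algebraMap ↥(GaloisRep.ratLocalizedAt ℓ) C r) = HahnSeries.single 0 (r : ℚ))
    (hQ1 : ∀ (x : C) (n : ℤ), (e x).coeff n ∈ GaloisRep.ratLocalizedAt ℓ) :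
    Nontrivial (C ⊗[↥(GaloisRep.ratLocalizedAt ℓ)] K) := by
  obtain ⟨L, Ψ, -, -⟩ := h47_exists_psi ℓ K e he hQ1
  exact Ψ.domain_nontrivial

theorem h47_tensor_isDomain_of [CharP K ℓ]
    (he : ∀ r : ↥(GaloisRep.ratLocalizedAt ℓ),
      e (algebraMap ↥(GaloisRep.ratLocalizedAt ℓ) C r) = HahnSeries.single 0 (r : ℚ))
    (hQ1 : ∀ (x : C) (n : ℤ), (e x).coeff n ∈ GaloisRep.ratLocalizedAt ℓ)
    (hQ2 : ∀ x : C,
      (∀ n : ℤ, ∃ c ∈ GaloisRep.ratLocalizedAt ℓ, (e x).coeff n = ℓ * c) →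
      ∃ y : C, x = ((ℓ : ℕ) : ↥(GaloisRep.ratLocalizedAt ℓ)) • y) :
    IsDomain (C ⊗[↥(GaloisRep.ratLocalizedAt ℓ)] K) := by
  classical
  obtain ⟨L, Ψ, hL, hΨ⟩ := h47_exists_psi ℓ K e he hQ1
  let _ := ZMod.algebra K ℓ
  let β := Module.Basis.ofVectorSpace (ZMod ℓ) K
  have hβ : ∀ c : K, ∃ m : _ →₀ ℕ, c = m.sum (fun s k => (k : K) * β s) := by
    intro c
    refine ⟨(β.repr c).mapRange ZMod.val ZMod.val_zero, ?_⟩
    rw [Finsupp.sum_mapRange_index (by intro s; simp)]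
    conv_lhs => rw [← β.linearCombination_repr c, Finsupp.linearCombination_apply]
    rw [Finsupp.sum, Finsupp.sum]
    refine Finset.sum_congr rfl (fun s _ => ?_)
    rw [Algebra.smul_def]
    congr 1
    show (ZMod.castHom (dvd_refl ℓ) K) (β.repr c s) = _
    conv_lhs => rw [← ZMod.natCast_zmod_val (β.repr c s)]
    rw [map_natCast]
  have hinj : Function.Injective Ψ := by
    rw [injective_iff_map_eq_zero]
    intro t ht
    obtain ⟨a, rfl⟩ := h47_exists_repr ℓ K β hβ t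
    have hterm : ∀ s, a s ⊗ₜ[↥(GaloisRep.ratLocalizedAt ℓ)] β s = 0 := by
      intro s
      have hcoef : ∀ n, algebraMap ↥(GaloisRep.ratLocalizedAt ℓ) K ((L (a s)).coeff n) = 0 := by
        intro n
        have h1 : (Ψ (a.sum fun s x => x ⊗ₜ[↥(GaloisRep.ratLocalizedAt ℓ)] β s)).coeff n = 0 := by
          rw [ht]; simp
        rw [Finsupp.sum, map_sum, HahnSeries.coeff_sum] at h1
        simp only [hΨ] at h1
        choose z hz using fun s => h47_algebraMap_mem_prime ℓ K ((L (a s)).coeff n)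
        have h2 : ∑ s ∈ a.support, z s • β s = 0 := by
          rw [← h1]
          refine Finset.sum_congr rfl (fun s _ => ?_)
          rw [Algebra.smul_def, ← hz]
          rfl
        have h3 := linearIndependent_iff'.mp β.linearIndependent a.support z h2
        by_cases hs : s ∈ a.support
        · rw [← hz, h3 s hs, map_zero]
        · rw [Finsupp.notMem_support_iff.mp hs, map_zero]
          simp
      obtain ⟨y, hys⟩ := hQ2 (a s) (fun n => by
        obtain ⟨c', hc', h⟩ := h47_dvd_of_algebraMap_eq_zero ℓ K _ (hcoef n)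
        exact ⟨c', hc', by rw [← hL]; exact h⟩)
      rw [hys, TensorProduct.smul_tmul, Algebra.smul_def, map_natCast, CharP.cast_eq_zero,
        zero_mul, TensorProduct.tmul_zero]
    rw [Finsupp.sum]
    exact Finset.sum_eq_zero (fun s _ => hterm s)
  exact hinj.isDomain Ψ

end abstract

section chart

variable (N : ℕ) [NeZero N] (ℓ : ℕ) [Fact ℓ.Prime] (K : Type) [Field K]
  [Algebra ↥(GaloisRep.ratLocalizedAt ℓ) K] (S : Set ↥(modularFunctionFieldFull N))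

/-- the embedding of a chart into `ℚ((q))` -/
noncomputable def h47_chartEmb : ↥(chartAlg N ℓ S) →+* LaurentSeries ℚ :=
  ((modularFunctionFieldFull N).val : ↥(modularFunctionFieldFull N) →+* LaurentSeries ℚ).comp
    ((chartAlg N ℓ S).val : ↥(chartAlg N ℓ S) →+* ↥(modularFunctionFieldFull N))

omit [NeZero N] [Fact ℓ.Prime] in
theorem h47_chartEmb_apply (x : ↥(chartAlg N ℓ S)) :
    h47_chartEmb N ℓ S x = ((x : ↥(modularFunctionFieldFull N)) : LaurentSeries ℚ) := rfl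

omit [NeZero N] [Fact ℓ.Prime] in
theorem h47_chartEmb_algebraMap (r : ↥(GaloisRep.ratLocalizedAt ℓ)) :
    h47_chartEmb N ℓ S (algebraMap ↥(GaloisRep.ratLocalizedAt ℓ) ↥(chartAlg N ℓ S) r) =
      HahnSeries.single 0 (r : ℚ) := by
  rw [← ModularCurve.algebraMap_laurentSeries_eq_single ℚ (r : ℚ)]
  exact DFunLike.congr_fun (RingHom.ext_rat
    (((modularFunctionFieldFull N).val : ↥(modularFunctionFieldFull N) →+* LaurentSeries ℚ).comp
      (algebraMap ℚ ↥(modularFunctionFieldFull N))) (algebraMap ℚ (LaurentSeries ℚ))) (r : ℚ)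

theorem h47_chartAlg_tensor_nontrivial_of
    (hQ1 : ∀ x : ↥(modularFunctionFieldFull N), x ∈ chartAlg N ℓ S → ∀ n : ℤ,
      (x : LaurentSeries ℚ).coeff n ∈ GaloisRep.ratLocalizedAt ℓ) :
    Nontrivial (↥(chartAlg N ℓ S) ⊗[↥(GaloisRep.ratLocalizedAt ℓ)] K) :=
  h47_tensor_nontrivial_of ℓ K (h47_chartEmb N ℓ S) (h47_chartEmb_algebraMap N ℓ S)
    (fun x n => hQ1 x x.2 n)

theorem h47_chartAlg_tensor_isDomain_of [CharP K ℓ]
    (hQ1 : ∀ x : ↥(modularFunctionFieldFull N), x ∈ chartAlg N ℓ S → ∀ n : ℤ,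
      (x : LaurentSeries ℚ).coeff n ∈ GaloisRep.ratLocalizedAt ℓ)
    (hQ2 : ∀ x : ↥(modularFunctionFieldFull N), x ∈ chartAlg N ℓ S →
      (∀ n : ℤ, ∃ c ∈ GaloisRep.ratLocalizedAt ℓ, (x : LaurentSeries ℚ).coeff n = ℓ * c) →
      ∃ y ∈ chartAlg N ℓ S, x = (ℓ : ℚ) • y) :
    IsDomain (↥(chartAlg N ℓ S) ⊗[↥(GaloisRep.ratLocalizedAt ℓ)] K) := by
  refine h47_tensor_isDomain_of ℓ K (h47_chartEmb N ℓ S) (h47_chartEmb_algebraMap N ℓ S)
    (fun x n => hQ1 x x.2 n) (fun x hx => ?_)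
  obtain ⟨y, hy, hxy⟩ := hQ2 x x.2 hx
  refine ⟨⟨y, hy⟩, Subtype.ext ?_⟩
  rw [hxy]
  show (ℓ : ℚ) • y = ((ℓ : ℕ) : ↥(GaloisRep.ratLocalizedAt ℓ)) • y
  rw [← IsScalarTower.algebraMap_smul ℚ ((ℓ : ℕ) : ↥(GaloisRep.ratLocalizedAt ℓ)) y, map_natCast]

end chart

end Fermat.Agent.S28
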