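import Mathlib
import Fermat.Statements.S28
import Fermat.Agent.S28.ZlBasics
import Fermat.Agent.S28.CoeffMem
import Fermat.Agent.S28.h73_KerInst

/-!
# S28 (Igusa), block Q2, piece (INF): the kernel statement on the chart at infinity

`chartAlg_ker_inf_of_fin` : the kernel of reduction mod `ℓ` on the chart `{j⁻¹}` is `ℓ` times the
chart, *given* the same statement on the chart `{j}`.
-/

set_option autoImplicit false

namespace Fermat.Agent.S28

open ModularCurve ModularCurve.IgusaScheme Polynomial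

noncomputable section

/-- Multiplying a series all of whose coefficients are `ℓ` times an `ℓ`-integral number by a
series with `ℓ`-integral coefficients gives a series of the same kind. -/
theorem h14_coeff_mul_dvd (ℓ : ℕ) [Fact ℓ.Prime] (a x : LaurentSeries ℚ) (ha : a ∈ h57_B0 ℓ)
    (hx : ∀ n : ℤ, ∃ c ∈ GaloisRep.ratLocalizedAt ℓ, x.coeff n = ℓ * c) :
    ∀ n : ℤ, ∃ c ∈ GaloisRep.ratLocalizedAt ℓ, (a * x).coeff n = ℓ * c := by
  have hxB : x ∈ h57_B0 ℓ := fun n => by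
    obtain ⟨c, hc, h⟩ := hx n
    rw [h]
    exact Subring.mul_mem _ (natCast_mem _ ℓ) hc
  have h1 : h73_red ℓ ⟨x, hxB⟩ = 0 := (h73_red_eq_zero_iff ℓ ⟨x, hxB⟩).mpr hx
  have h2 : h73_red ℓ (⟨a, ha⟩ * ⟨x, hxB⟩) = 0 := by rw [map_mul, h1, mul_zero]
  exact (h73_red_eq_zero_iff ℓ _).mp h2

set_option synthInstance.maxHeartbeats 400000 in
/-- **(INF)**: the kernel statement for the chart `{j⁻¹}` follows from the one for `{j}`. -/
theorem chartAlg_ker_inf_of_fin (N ℓ : ℕ) [NeZero N] [Fact ℓ.Prime]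
    (hfin : ∀ x : ↥(modularFunctionFieldFull N), x ∈ chartAlg N ℓ {jFull N} →
      (∀ n : ℤ, ∃ c ∈ GaloisRep.ratLocalizedAt ℓ, (x : LaurentSeries ℚ).coeff n = ℓ * c) →
      ∃ y ∈ chartAlg N ℓ {jFull N}, x = (ℓ : ℚ) • y)
    (x : ↥(modularFunctionFieldFull N)) (hx : x ∈ chartAlg N ℓ {(jFull N)⁻¹})
    (h0 : ∀ n : ℤ, ∃ c ∈ GaloisRep.ratLocalizedAt ℓ, (x : LaurentSeries ℚ).coeff n = ℓ * c) :
    ∃ y ∈ chartAlg N ℓ {(jFull N)⁻¹}, x = (ℓ : ℚ) • y := by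
  have hj0 : jFull N ≠ 0 := jFull_ne_zero N
  have hℓ0 : (ℓ : ℚ) ≠ 0 := by exact_mod_cast (Fact.out : ℓ.Prime).ne_zero
  -- step 1: `j^n x` lies in the finite chart
  have hxmid : x ∈ chartAlg N ℓ (insert (jFull N)⁻¹ {jFull N}) := by
    refine chartAlg_mono N ℓ ?_ hx
    intro a ha
    rw [Set.mem_singleton_iff] at ha
    subst ha
    exact Set.mem_insert _ _
  obtain ⟨n, hn⟩ := exists_pow_mul_mem_chartAlg (Set.mem_singleton (jFull N)) hj0 hxmid
  -- step 2: its coefficients are divisible by `ℓ`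
  have h0' : ∀ k : ℤ, ∃ c ∈ GaloisRep.ratLocalizedAt ℓ,
      ((jFull N ^ n * x : ↥(modularFunctionFieldFull N)) : LaurentSeries ℚ).coeff k = ℓ * c := by
    have hcoe : ((jFull N ^ n * x : ↥(modularFunctionFieldFull N)) : LaurentSeries ℚ)
        = jq ^ n * (x : LaurentSeries ℚ) := by
      push_cast
      rfl
    rw [hcoe]
    exact h14_coeff_mul_dvd ℓ _ _ (Subring.pow_mem _ (h57_jq_mem ℓ) n) h0
  obtain ⟨y, hy, hxy⟩ := hfin _ hn h0'
  -- step 3: `z = x / ℓ` lies in the middle chart, hence `J^m z` in the chart at infinity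
  set z : ↥(modularFunctionFieldFull N) := (ℓ : ℚ)⁻¹ • x with hz
  have hzx : x = (ℓ : ℚ) • z := by rw [hz, smul_smul, mul_inv_cancel₀ hℓ0, one_smul]
  have hjz : jFull N ^ n * z = y := by
    rw [hz, mul_smul_comm, hxy, smul_smul, inv_mul_cancel₀ hℓ0, one_smul]
  have hzmid : z ∈ chartAlg N ℓ (insert (jFull N)⁻¹⁻¹ {(jFull N)⁻¹}) := by
    have hz' : z = (jFull N)⁻¹ ^ n * y := by
      rw [← hjz, ← mul_assoc, ← mul_pow, inv_mul_cancel₀ hj0, one_pow, one_mul]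
    rw [hz']
    have hJmem : (jFull N)⁻¹ ∈ chartAlg N ℓ (insert (jFull N)⁻¹⁻¹ {(jFull N)⁻¹}) :=
      subset_chartAlg N ℓ (insert (jFull N)⁻¹⁻¹ {(jFull N)⁻¹})
        (Set.mem_insert_of_mem _ (Set.mem_singleton _))
    have hymem : y ∈ chartAlg N ℓ (insert (jFull N)⁻¹⁻¹ {(jFull N)⁻¹}) := by
      refine chartAlg_mono N ℓ ?_ hy
      intro a ha
      rw [Set.mem_singleton_iff] at ha
      subst ha
      rw [inv_inv]
      exact Set.mem_insert _ _
    exact Subalgebra.mul_mem _ (Subalgebra.pow_mem _ hJmem n) hymem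
  obtain ⟨m, hm⟩ := exists_pow_mul_mem_chartAlg (Set.mem_singleton (jFull N)⁻¹)
    (inv_ne_zero hj0) hzmid
  -- step 4: integrality of `z` over `ℤ_(ℓ)[J]`, `J = j⁻¹`
  have hJt : Transcendental ℚ (jFull N)⁻¹ := h73_jFull_inv_transcendental N
  have hIC := h73_adj_isIntegrallyClosed N ℓ (jFull N)⁻¹ hJt
  have hFa : FaithfulSMul ↥(Algebra.adjoin ↥(GaloisRep.ratLocalizedAt ℓ)
      ({(jFull N)⁻¹} : Set ↥(modularFunctionFieldFull N))) ↥(modularFunctionFieldFull N) :=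
    (faithfulSMul_iff_algebraMap_injective _ _).mpr Subtype.val_injective
  have hpprime : Prime (h73_adjEquiv N ℓ (jFull N)⁻¹ hJt
      (C ((ℓ : ℕ) : ↥(GaloisRep.ratLocalizedAt ℓ)))) := h73_adj_prime N ℓ (jFull N)⁻¹ hJt
  have hps : ¬ (h73_adjEquiv N ℓ (jFull N)⁻¹ hJt (C ((ℓ : ℕ) : ↥(GaloisRep.ratLocalizedAt ℓ))))
      ∣ (h73_adjEquiv N ℓ (jFull N)⁻¹ hJt (X ^ m)) := by
    rw [map_dvd_iff]
    rintro ⟨q, hq⟩
    have h1 := congrArg (fun r => r.coeff m) hq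
    simp only [coeff_X_pow, if_true, coeff_C_mul] at h1
    exact (ratLocalizedAt_prime ℓ).not_isUnit (IsUnit.of_mul_eq_one _ h1.symm)
  have h1 : IsIntegral ↥(Algebra.adjoin ↥(GaloisRep.ratLocalizedAt ℓ)
      ({(jFull N)⁻¹} : Set ↥(modularFunctionFieldFull N)))
      ((h73_adjEquiv N ℓ (jFull N)⁻¹ hJt (C ((ℓ : ℕ) : ↥(GaloisRep.ratLocalizedAt ℓ)))) • z) := by
    have e : (h73_adjEquiv N ℓ (jFull N)⁻¹ hJt (C ((ℓ : ℕ) : ↥(GaloisRep.ratLocalizedAt ℓ)))) • z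
        = x := by
      rw [Subalgebra.smul_def, h73_adjEquiv_apply, aeval_C, map_natCast, hzx]
      rw [Nat.cast_smul_eq_nsmul, Nat.cast_smul_eq_nsmul ℚ]
    rw [e]
    exact hx
  have h2 : IsIntegral ↥(Algebra.adjoin ↥(GaloisRep.ratLocalizedAt ℓ)
      ({(jFull N)⁻¹} : Set ↥(modularFunctionFieldFull N)))
      ((h73_adjEquiv N ℓ (jFull N)⁻¹ hJt (X ^ m)) • z) := by
    have e : (h73_adjEquiv N ℓ (jFull N)⁻¹ hJt (X ^ m)) • z = (jFull N)⁻¹ ^ m * z := by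
      rw [Subalgebra.smul_def, h73_adjEquiv_apply, map_pow, aeval_X, smul_eq_mul]
    rw [e]
    exact hm
  exact ⟨z, isIntegral_of_smul_of_smul _ _ hpprime hps z h1 h2, hzx⟩

end

end Fermat.Agent.S28
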