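import Mathlib
import Fermat.Agent.S28.Defs
import Fermat.Agent.S28.h64_InvRing
import Fermat.Agent.S24.h77_QBridge
import Fermat.Agent.S24.h39_JFun

/-!
# S28 analytic package, generic halves of (AN4)/(AN5) (helper14)

`X = SL(2, ℤ) ⧸ Γ₀(N)`, `O` a commutative ring embedded in `ℂ` by `ι`.

* `h14_F1` : for `Γ₀(N)`-invariant coordinate functions `f i` whose conjugates have `O`-rational
  width-`N` expansions `c x i`, and every polynomial `y` over `O` in the coordinates, the
  polynomial `∏ x, (X - C (aeval (c x) y))` has coefficients which are polynomials over `O` in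
  the formal `j(t^N)`  (field `F1` of `ConjFamily`).
* `h14_F2` : if moreover a `Γ₀(N)`-invariant function `f` vanishes nowhere and the inverses of
  its conjugates have (complex) width-`N` expansions, the product of the expansions of its
  conjugates is a constant of `O`  (field `F2` of `ConjFamily`).
-/

set_option autoImplicit false

open UpperHalfPlane ModularForm CongruenceSubgroup ModularCurve Fermat.Agent.S24
open scoped MatrixGroups

namespace Fermat.Agent.S28

/-! ## Conjugates with values in an arbitrary type -/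

section ConjM

variable {N : ℕ} {M : Type*}

/-- A `Γ₀(N)`-invariant function has conjugates depending only on the left coset. -/
theorem h14_conjM_eq_of_coset {φ : ℍ → M}
    (hφ : ∀ γ ∈ Gamma0 N, ∀ τ : ℍ, φ (γ • τ) = φ τ)
    {g g' : SL(2, ℤ)} (h : (g : SL(2, ℤ) ⧸ Gamma0 N) = (g' : SL(2, ℤ) ⧸ Gamma0 N)) (τ : ℍ) :
    φ (g⁻¹ • τ) = φ (g'⁻¹ • τ) := by
  have hmem : g⁻¹ * g' ∈ Gamma0 N := QuotientGroup.eq.mp h
  have hinv : (g⁻¹ * g')⁻¹ ∈ Gamma0 N := inv_mem hmem
  have e : g'⁻¹ • τ = (g⁻¹ * g')⁻¹ • (g⁻¹ • τ) := by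
    rw [← mul_smul]
    congr 1
    group
  rw [e, hφ _ hinv]

theorem h14_conjM_out {φ : ℍ → M}
    (hφ : ∀ γ ∈ Gamma0 N, ∀ τ : ℍ, φ (γ • τ) = φ τ) (g : SL(2, ℤ)) (τ : ℍ) :
    φ ((Quotient.out (g : SL(2, ℤ) ⧸ Gamma0 N))⁻¹ • τ) = φ (g⁻¹ • τ) :=
  h14_conjM_eq_of_coset hφ (QuotientGroup.out_eq' _) τ

/-- The product of the conjugates of a `Γ₀(N)`-invariant function with values in a commutative
monoid is `SL₂(ℤ)`-invariant. -/
theorem h14_conjProdM_smul [CommMonoid M] [Fintype (SL(2, ℤ) ⧸ Gamma0 N)] {φ : ℍ → M}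
    (hφ : ∀ γ ∈ Gamma0 N, ∀ τ : ℍ, φ (γ • τ) = φ τ) (γ : SL(2, ℤ)) (τ : ℍ) :
    ∏ x : SL(2, ℤ) ⧸ Gamma0 N, φ ((Quotient.out x)⁻¹ • (γ • τ))
      = ∏ x : SL(2, ℤ) ⧸ Gamma0 N, φ ((Quotient.out x)⁻¹ • τ) := by
  have key : ∀ x : SL(2, ℤ) ⧸ Gamma0 N,
      φ ((Quotient.out x)⁻¹ • (γ • τ)) = φ ((Quotient.out (γ⁻¹ • x))⁻¹ • τ) := by
    intro x
    have e1 : (Quotient.out x)⁻¹ • (γ • τ) = (γ⁻¹ * Quotient.out x)⁻¹ • τ := by
      rw [← mul_smul]
      congr 1
      group
    have e2 : ((γ⁻¹ * Quotient.out x : SL(2, ℤ)) : SL(2, ℤ) ⧸ Gamma0 N) = γ⁻¹ • x := by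
      conv_rhs => rw [← QuotientGroup.out_eq' x]
      rfl
    rw [e1, ← h14_conjM_out hφ (γ⁻¹ * Quotient.out x) τ, e2]
  rw [Finset.prod_congr rfl fun x _ => key x]
  exact Fintype.prod_equiv (MulAction.toPerm γ⁻¹) _ _ fun x => rfl

end ConjM

/-! ## Expansions of sums, products and polynomial expressions -/

theorem h14_isQExp_sum {ι' : Type*} (s : Finset ι') {h : ℝ} {c : ι' → LaurentSeries ℂ}
    {g : ι' → ℍ → ℂ} (hc : ∀ i ∈ s, h77_IsQExp h (c i) (g i)) :
    h77_IsQExp h (∑ i ∈ s, c i) (fun τ => ∑ i ∈ s, g i τ) := by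
  classical
  induction s using Finset.induction_on with
  | empty =>
    simp only [Finset.sum_empty]
    exact h77_isQExp_zero h
  | insert i s hi ih =>
    have h1 := hc i (Finset.mem_insert_self i s)
    have h2 := ih fun j hj => hc j (Finset.mem_insert_of_mem hj)
    have := h1.add h2
    rw [Finset.sum_insert hi]
    refine this.congr fun τ => ?_
    rw [Finset.sum_insert hi]

theorem h14_isQExp_prod' {ι' : Type*} (s : Finset ι') {h : ℝ} {c : ι' → LaurentSeries ℂ}
    {g : ι' → ℍ → ℂ} (hc : ∀ i ∈ s, h77_IsQExp h (c i) (g i)) :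
    h77_IsQExp h (∏ i ∈ s, c i) (fun τ => ∏ i ∈ s, g i τ) := by
  classical
  induction s using Finset.induction_on with
  | empty =>
    simp only [Finset.prod_empty]
    exact h77_isQExp_one h
  | insert i s hi ih =>
    have h1 := hc i (Finset.mem_insert_self i s)
    have h2 := ih fun j hj => hc j (Finset.mem_insert_of_mem hj)
    have := h1.mul h2
    rw [Finset.prod_insert hi]
    refine this.congr fun τ => ?_
    rw [Finset.prod_insert hi]

section Aeval

variable {O : Type*} [CommRing O] (ι : O →+* ℂ)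

theorem h14_coeffMap_C (a : O) :
    coeffMap ι (HahnSeries.C a) = HahnSeries.C (ι a) := by
  rw [← h64_algebraMap_eq_C, h64_coeffMap_algebraMap, h64_algebraMap_eq_C]

/-- Polynomial expressions in expandable functions are expandable. -/
theorem h14_isQExp_aeval {I : Type*} {h : ℝ} (c : I → LaurentSeries O) (g : I → ℍ → ℂ)
    (hc : ∀ i, h77_IsQExp h (coeffMap ι (c i)) (g i)) (y : MvPolynomial I O) :
    h77_IsQExp h (coeffMap ι (MvPolynomial.aeval c y))
      (fun τ => MvPolynomial.eval₂ ι (fun i => g i τ) y) := by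
  induction y using MvPolynomial.induction_on with
  | C a =>
    rw [MvPolynomial.aeval_C, h64_algebraMap_eq_C, h14_coeffMap_C]
    refine (h77_isQExp_C h (ι a)).congr fun τ => ?_
    rw [MvPolynomial.eval₂_C]
  | add p q hp hq =>
    rw [map_add, map_add]
    refine (hp.add hq).congr fun τ => ?_
    rw [MvPolynomial.eval₂_add]
  | mul_X p i hp =>
    rw [map_mul, map_mul, MvPolynomial.aeval_X]
    refine (hp.mul (hc i)).congr fun τ => ?_
    rw [MvPolynomial.eval₂_mul, MvPolynomial.eval₂_X]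

end Aeval

/-! ## Expansions of polynomials, coefficientwise -/

section PolyExp

variable {O : Type*} [CommRing O] (ι : O →+* ℂ) (h : ℝ)

/-- `p : O((t))[X]` expands, coefficientwise, the family of complex polynomials `P τ`. -/
def h14_PolyExp (p : Polynomial (LaurentSeries O)) (P : ℍ → Polynomial ℂ) : Prop :=
  ∀ k : ℕ, h77_IsQExp h (coeffMap ι (p.coeff k)) (fun τ => (P τ).coeff k)

theorem h14_polyExp_one : h14_PolyExp ι h 1 (fun _ => 1) := by
  intro k
  simp only [Polynomial.coeff_one]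
  split_ifs with hk
  · rw [map_one]
    exact h77_isQExp_one h
  · rw [map_zero]
    exact h77_isQExp_zero h

theorem h14_polyExp_X_sub_C {c : LaurentSeries O} {g : ℍ → ℂ}
    (hc : h77_IsQExp h (coeffMap ι c) g) :
    h14_PolyExp ι h (Polynomial.X - Polynomial.C c)
      (fun τ => Polynomial.X - Polynomial.C (g τ)) := by
  intro k
  simp only [Polynomial.coeff_sub, Polynomial.coeff_X, Polynomial.coeff_C]
  rw [map_sub]
  refine h77_IsQExp.sub ?_ ?_
  · split_ifs with hk
    · rw [map_one]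
      exact h77_isQExp_one h
    · rw [map_zero]
      exact h77_isQExp_zero h
  · split_ifs with hk
    · exact hc
    · rw [map_zero]
      exact h77_isQExp_zero h

theorem h14_PolyExp.mul {p p' : Polynomial (LaurentSeries O)} {P P' : ℍ → Polynomial ℂ}
    (hp : h14_PolyExp ι h p P) (hp' : h14_PolyExp ι h p' P') :
    h14_PolyExp ι h (p * p') (fun τ => P τ * P' τ) := by
  intro k
  simp only [Polynomial.coeff_mul]
  rw [map_sum]
  refine h14_isQExp_sum _ fun x _ => ?_
  rw [map_mul]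
  exact (hp x.1).mul (hp' x.2)

theorem h14_polyExp_prod {ι' : Type*} (s : Finset ι') {p : ι' → Polynomial (LaurentSeries O)}
    {P : ι' → ℍ → Polynomial ℂ} (hp : ∀ i ∈ s, h14_PolyExp ι h (p i) (P i)) :
    h14_PolyExp ι h (∏ i ∈ s, p i) (fun τ => ∏ i ∈ s, P i τ) := by
  classical
  induction s using Finset.induction_on with
  | empty =>
    simp only [Finset.prod_empty]
    exact h14_polyExp_one ι h
  | insert i s hi ih =>
    have h1 := hp i (Finset.mem_insert_self i s)
    have h2 := ih fun j hj => hp j (Finset.mem_insert_of_mem hj)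
    have := h14_PolyExp.mul ι h h1 h2
    simp only [Finset.prod_insert hi]
    exact this

end PolyExp

/-! ## Dilation commutes with polynomial evaluation -/

theorem h14_aeval_qExpand {O : Type*} [CommRing O] (N : ℕ) [NeZero N] (x : LaurentSeries O)
    (P : Polynomial O) :
    Polynomial.aeval (qExpand O N x) P = qExpand O N (Polynomial.aeval x P) := by
  induction P using Polynomial.induction_on with
  | C a =>
    rw [Polynomial.aeval_C, Polynomial.aeval_C, h64_algebraMap_eq_C, qExpand_C]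
  | add p q hp hq => rw [map_add, map_add, hp, hq, map_add]
  | monomial n a _ =>
    rw [Polynomial.aeval_mul, Polynomial.aeval_mul, Polynomial.aeval_C, Polynomial.aeval_C,
      map_pow, map_pow, Polynomial.aeval_X, Polynomial.aeval_X, map_mul, map_pow,
      h64_algebraMap_eq_C, qExpand_C]

/-! ## F1 -/

section F1

variable {O : Type} [CommRing O] (ι : O →+* ℂ) (hι : Function.Injective ι)
  (N : ℕ) [NeZero N]

include hι in
/-- A polynomial over `O((t))` expanding (coefficientwise, in width `N`) an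
`SL₂(ℤ)`-invariant family of complex polynomials has coefficients in `O[j(t^N)]`. -/
theorem h14_poly_descent (p : Polynomial (LaurentSeries O)) (P : ℍ → Polynomial ℂ)
    (hp : h14_PolyExp ι (N : ℝ) p P)
    (hinv : ∀ (γ : SL(2, ℤ)) (τ : ℍ), P (γ • τ) = P τ) :
    ∃ Q : Polynomial (Polynomial O),
      p = Q.map ((Polynomial.aeval (expand O N (jqModC O))).toRingHom) := by
  have hex : ∀ k : ℕ, ∃ Pk : Polynomial O,
      p.coeff k = qExpand O N (Polynomial.aeval (jqModC O) Pk) := by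
    intro k
    obtain ⟨Pk, hPk, -⟩ := h64_inv_ring ι hι (p.coeff k) (fun τ => (P τ).coeff k) (hp k)
      (fun γ τ => by rw [hinv γ τ])
    exact ⟨Pk, hPk⟩
  choose Pk hPk using hex
  refine ⟨∑ k ∈ Finset.range (p.natDegree + 1), Polynomial.monomial k (Pk k), ?_⟩
  ext1 k
  rw [Polynomial.coeff_map, Polynomial.finsetSum_coeff]
  simp only [Polynomial.coeff_monomial]
  rw [Finset.sum_ite_eq' (Finset.range (p.natDegree + 1)) k]
  split_ifs with hk
  · rw [hPk k, expand_eq_qExpand]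
    exact (h14_aeval_qExpand N (jqModC O) (Pk k)).symm
  · rw [Finset.mem_range, not_lt] at hk
    rw [Polynomial.coeff_eq_zero_of_natDegree_lt (by omega), map_zero]

include hι in
/-- **F1, generic form.** -/
theorem h14_F1 [Fintype (SL(2, ℤ) ⧸ Gamma0 N)] {I : Type*} (f : I → ℍ → ℂ)
    (hf : ∀ i, ∀ γ ∈ Gamma0 N, ∀ τ : ℍ, f i (γ • τ) = f i τ)
    (c : SL(2, ℤ) ⧸ Gamma0 N → I → LaurentSeries O)
    (hc : ∀ x i, h77_IsQExp (N : ℝ) (coeffMap ι (c x i))
      (fun τ => f i ((Quotient.out x)⁻¹ • τ)))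
    (y : MvPolynomial I O) :
    ∃ Q : Polynomial (Polynomial O),
      ∏ x : SL(2, ℤ) ⧸ Gamma0 N,
          (Polynomial.X - Polynomial.C (MvPolynomial.aeval (c x) y)) =
        Q.map ((Polynomial.aeval (expand O N (jqModC O))).toRingHom) := by
  set φ : ℍ → Polynomial ℂ := fun τ =>
    Polynomial.X - Polynomial.C (MvPolynomial.eval₂ ι (fun i => f i τ) y) with hφdef
  have hφ : ∀ γ ∈ Gamma0 N, ∀ τ : ℍ, φ (γ • τ) = φ τ := by
    intro γ hγ τ
    simp only [hφdef]
    congr 3
    funext i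
    exact hf i γ hγ τ
  refine h14_poly_descent ι hι N _
    (fun τ => ∏ x : SL(2, ℤ) ⧸ Gamma0 N, φ ((Quotient.out x)⁻¹ • τ)) ?_ ?_
  · refine h14_polyExp_prod ι (N : ℝ) Finset.univ fun x _ => ?_
    exact h14_polyExp_X_sub_C ι (N : ℝ)
      (h14_isQExp_aeval ι (c x) (fun i τ => f i ((Quotient.out x)⁻¹ • τ)) (hc x) y)
  · intro γ τ
    exact h14_conjProdM_smul hφ γ τ

end F1

/-! ## F2 -/

section F2

variable {O : Type} [CommRing O] (ι : O →+* ℂ) (hι : Function.Injective ι)
  (N : ℕ) [NeZero N]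

include hι in
/-- An `SL₂(ℤ)`-invariant nowhere vanishing function with an `O`-rational width-`N` expansion,
whose inverse also has a width-`N` expansion, has a constant expansion. -/
theorem h14_const_of_unit (C : LaurentSeries O) (C' : LaurentSeries ℂ) (G : ℍ → ℂ)
    (hC : h77_IsQExp (N : ℝ) (coeffMap ι C) G)
    (hC' : h77_IsQExp (N : ℝ) C' (fun τ => (G τ)⁻¹))
    (hG0 : ∀ τ, G τ ≠ 0)
    (hinv : ∀ (γ : SL(2, ℤ)) (τ : ℍ), G (γ • τ) = G τ) :
    ∃ a : O, C = HahnSeries.C a := by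
  obtain ⟨P, hP, hPG⟩ := h64_inv_ring ι hι C G hC hinv
  obtain ⟨P', -, hPG'⟩ := h64_inv_ring (RingHom.id ℂ) Function.injective_id C'
    (fun τ => (G τ)⁻¹) (by rw [coeffMap_id]; exact hC') (fun γ τ => by rw [hinv γ τ])
  rw [Polynomial.map_id] at hPG'
  have hmul : P.map ι * P' = 1 := by
    apply Polynomial.funext
    intro z
    obtain ⟨τ, rfl⟩ := h39_jfun_surjective z
    have h1 := hPG τ
    have h2 := hPG' τ
    have h3 : h77_j τ = h39_jfun τ := rfl
    rw [Polynomial.eval_mul, Polynomial.eval_one, ← h3, ← h1, ← h2]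
    exact mul_inv_cancel₀ (hG0 τ)
  have hunit : IsUnit (P.map ι) := IsUnit.of_mul_eq_one _ hmul
  have hdeg : (P.map ι).natDegree = 0 := Polynomial.natDegree_eq_zero_of_isUnit hunit
  rw [Polynomial.natDegree_map_eq_of_injective hι] at hdeg
  have hPc : P = Polynomial.C (P.coeff 0) := Polynomial.eq_C_of_natDegree_eq_zero hdeg
  refine ⟨P.coeff 0, ?_⟩
  rw [hP, hPc, Polynomial.aeval_C, h64_algebraMap_eq_C, qExpand_C]
  simp

include hι in
/-- **F2, generic form.** -/
theorem h14_F2 [Fintype (SL(2, ℤ) ⧸ Gamma0 N)] (f : ℍ → ℂ)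
    (hf : ∀ γ ∈ Gamma0 N, ∀ τ : ℍ, f (γ • τ) = f τ) (hf0 : ∀ τ, f τ ≠ 0)
    (c : SL(2, ℤ) ⧸ Gamma0 N → LaurentSeries O)
    (hc : ∀ x, h77_IsQExp (N : ℝ) (coeffMap ι (c x)) (fun τ => f ((Quotient.out x)⁻¹ • τ)))
    (c' : SL(2, ℤ) ⧸ Gamma0 N → LaurentSeries ℂ)
    (hc' : ∀ x, h77_IsQExp (N : ℝ) (c' x) (fun τ => (f ((Quotient.out x)⁻¹ • τ))⁻¹)) :
    ∃ C : O, ∏ x : SL(2, ℤ) ⧸ Gamma0 N, c x = HahnSeries.C C := by
  refine h14_const_of_unit ι hι N (∏ x, c x) (∏ x, c' x)
    (fun τ => ∏ x : SL(2, ℤ) ⧸ Gamma0 N, f ((Quotient.out x)⁻¹ • τ)) ?_ ?_ ?_ ?_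
  · rw [map_prod]
    exact h14_isQExp_prod' Finset.univ fun x _ => hc x
  · refine (h14_isQExp_prod' Finset.univ fun x _ => hc' x).congr fun τ => ?_
    rw [Finset.prod_inv_distrib]
  · intro τ
    exact Finset.prod_ne_zero_iff.mpr fun x _ => hf0 _
  · intro γ τ
    exact h14_conjProdM_smul hf γ τ

end F2

end Fermat.Agent.S28
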