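import Mathlib
import Fermat.Prelude.Def_ModularCurve_IgusaScheme

set_option autoImplicit false

open AlgebraicGeometry CategoryTheory CategoryTheory.Limits TensorProduct

namespace Fermat.Agent.S28

universe u

/-- A topological space covered by two preirreducible open subsets with nonempty
intersection is preirreducible. -/
theorem h28_isPreirreducible_univ_of_two {X : Type*} [TopologicalSpace X]
    (U₁ U₂ : TopologicalSpace.Opens X)
    (h₁ : IsPreirreducible (U₁ : Set X)) (h₂ : IsPreirreducible (U₂ : Set X))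
    (hcov : ∀ x : X, x ∈ U₁ ∨ x ∈ U₂) (hne : ((U₁ : Set X) ∩ U₂).Nonempty) :
    IsPreirreducible (Set.univ : Set X) := by
  refine IsPreirreducible.of_subset_iUnion (U := fun b : Bool => if b then U₁ else U₂)
    ?_ ?_ isOpen_univ ?_
  · intro a b hab
    obtain ⟨x, hx₁, hx₂⟩ := hne
    have key : ¬ Disjoint U₁ U₂ := by
      intro hd
      have := (TopologicalSpace.Opens.coe_disjoint.mpr hd)
      exact Set.disjoint_left.mp this hx₁ hx₂
    cases a <;> cases b
    · exact absurd rfl hab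
    · simpa [Function.onFun, disjoint_comm] using key
    · simpa [Function.onFun] using key
    · exact absurd rfl hab
  · intro b
    cases b
    · simpa using h₂
    · simpa using h₁
  · intro x _
    rcases hcov x with h | h
    · exact Set.mem_iUnion.mpr ⟨true, by simpa using h⟩
    · exact Set.mem_iUnion.mpr ⟨false, by simpa using h⟩

/-- A scheme covered by two integral open subschemes with nonempty intersection is integral. -/
theorem h28_isIntegral_of_two_openImmersions {P W₁ W₂ : Scheme.{u}} (j₁ : W₁ ⟶ P) (j₂ : W₂ ⟶ P)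
    [IsOpenImmersion j₁] [IsOpenImmersion j₂] [IsIntegral W₁] [IsIntegral W₂]
    (hcov : ∀ x : P, x ∈ Set.range j₁ ∨ x ∈ Set.range j₂)
    (hne : (Set.range j₁ ∩ Set.range j₂).Nonempty) : IsIntegral P := by
  -- reducedness: stalkwise
  have hred : IsReduced P := by
    have (x : P) : _root_.IsReduced (P.presheaf.stalk x) := by
      rcases hcov x with ⟨y, rfl⟩ | ⟨y, rfl⟩
      · exact isReduced_of_injective _
          (asIso <| j₁.stalkMap y).commRingCatIsoToRingEquiv.injective
      · exact isReduced_of_injective _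
          (asIso <| j₂.stalkMap y).commRingCatIsoToRingEquiv.injective
    exact isReduced_of_isReduced_stalk _
  -- irreducibility
  have hirr : IrreducibleSpace P := by
    have hp : IsPreirreducible (Set.univ : Set P) := by
      refine h28_isPreirreducible_univ_of_two j₁.opensRange j₂.opensRange ?_ ?_ hcov hne
      · have : IsPreirreducible (Set.range j₁) := by
          rw [← Set.image_univ]
          exact (PreirreducibleSpace.isPreirreducible_univ).image _ j₁.continuous.continuousOn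
        simpa using this
      · have : IsPreirreducible (Set.range j₂) := by
          rw [← Set.image_univ]
          exact (PreirreducibleSpace.isPreirreducible_univ).image _ j₂.continuous.continuousOn
        simpa using this
    obtain ⟨x, -, -⟩ := hne
    exact { isPreirreducible_univ := hp, toNonempty := ⟨x⟩ }
  exact isIntegral_of_irreducibleSpace_of_isReduced P



/-- Base change of a localisation away from `j` stays nontrivial if `j ⊗ 1` is nonzero in
the (domain) base change. -/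
theorem h28_nontrivial_tensor_away {R A B C : Type*} [CommRing R] [CommRing A] [CommRing B]
    [CommRing C] [Algebra R A] [Algebra R B] [Algebra R C] (i : A →ₐ[R] B) (j : A)
    (hloc : letI := i.toRingHom.toAlgebra; IsLocalization.Away j B)
    [IsDomain (TensorProduct R A C)] (hj : j ⊗ₜ[R] (1 : C) ≠ 0) :
    Nontrivial (TensorProduct R B C) := by
  classical
  let g₀ : A →ₐ[R] FractionRing (TensorProduct R A C) :=
    (IsScalarTower.toAlgHom R (TensorProduct R A C) (FractionRing (TensorProduct R A C))).comp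
      Algebra.TensorProduct.includeLeft
  have hunit : IsUnit (g₀.toRingHom j) := by
    refine IsUnit.mk0 _ ?_
    change algebraMap (TensorProduct R A C) (FractionRing (TensorProduct R A C))
      (j ⊗ₜ[R] (1 : C)) ≠ 0
    exact (map_ne_zero_iff _ (IsFractionRing.injective (TensorProduct R A C)
      (FractionRing (TensorProduct R A C)))).mpr hj
  let _ := i.toRingHom.toAlgebra
  have : IsLocalization.Away j B := hloc
  let f₁ : B →+* FractionRing (TensorProduct R A C) := IsLocalization.Away.lift j hunit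
  have hf₁ : ∀ x : A, f₁ (i x) = g₀ x := fun x =>
    IsLocalization.Away.lift_eq j hunit x
  let f₂ : B →ₐ[R] FractionRing (TensorProduct R A C) :=
    { f₁ with
      commutes' := fun a => by
        have h1 : algebraMap R B a = i (algebraMap R A a) := (i.commutes a).symm
        change f₁ (algebraMap R B a) = _
        rw [h1, hf₁, AlgHom.commutes] }
  let g₂ : C →ₐ[R] FractionRing (TensorProduct R A C) :=
    (IsScalarTower.toAlgHom R (TensorProduct R A C) (FractionRing (TensorProduct R A C))).comp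
      Algebra.TensorProduct.includeRight
  let F := Algebra.TensorProduct.lift f₂ g₂ (fun _ _ => Commute.all _ _)
  exact F.toRingHom.domain_nontrivial

section wrapper

open ModularCurve ModularCurve.IgusaScheme

variable (N : ℕ) [NeZero N] (ℓ : ℕ) [Fact ℓ.Prime]
  (K : Type) [Field K] [Algebra ↥(GaloisRep.ratLocalizedAt ℓ) K]

/-- The base-change map `Spec K ⟶ Spec ℤ_(ℓ)`. -/
noncomputable abbrev h28_base : Spec (CommRingCat.of K) ⟶ Spec (CommRingCat.of ↥(GaloisRep.ratLocalizedAt ℓ)) :=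
  Spec.map (CommRingCat.ofHom (algebraMap ↥(GaloisRep.ratLocalizedAt ℓ) K))

/-- structure map of a chart -/
noncomputable abbrev h28_str (S : Set ↥(modularFunctionFieldFull N)) :
    Spec (CommRingCat.of (chartAlg N ℓ S)) ⟶ Spec (CommRingCat.of ↥(GaloisRep.ratLocalizedAt ℓ)) :=
  Spec.map (CommRingCat.ofHom (algebraMap ↥(GaloisRep.ratLocalizedAt ℓ) (chartAlg N ℓ S)))

theorem h28_fFin_str : fFin N ℓ ≫ h28_str N ℓ {jFull N} = h28_str N ℓ {jFull N, (jFull N)⁻¹} := by
  have h : (inclFin N ℓ).toRingHom.comp (algebraMap ↥(GaloisRep.ratLocalizedAt ℓ) (chartAlgFin N ℓ)) =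
      algebraMap ↥(GaloisRep.ratLocalizedAt ℓ) (chartAlgMid N ℓ) :=
    RingHom.ext fun a => (inclFin N ℓ).commutes a
  simp only [h28_str, ← Spec.map_comp, ← CommRingCat.ofHom_comp, h]

theorem h28_fInf_str :
    fInf N ℓ ≫ h28_str N ℓ {(jFull N)⁻¹} = h28_str N ℓ {jFull N, (jFull N)⁻¹} := by
  have h : (inclInf N ℓ).toRingHom.comp (algebraMap ↥(GaloisRep.ratLocalizedAt ℓ) (chartAlgInf N ℓ)) =
      algebraMap ↥(GaloisRep.ratLocalizedAt ℓ) (chartAlgMid N ℓ) :=
    RingHom.ext fun a => (inclInf N ℓ).commutes a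
  simp only [h28_str, ← Spec.map_comp, ← CommRingCat.ofHom_comp, h]

/-- The open immersion of the finite chart of the base change. -/
noncomputable def h28_jFin :
    pullback (h28_str N ℓ {jFull N}) (h28_base ℓ K) ⟶ pullback (igusaTo N ℓ) (h28_base ℓ K) :=
  pullback.map _ _ _ _ (ιFin N ℓ) (𝟙 _) (𝟙 _) (by simp) (by simp)

/-- The open immersion of the infinite chart of the base change. -/
noncomputable def h28_jInf :
    pullback (h28_str N ℓ {(jFull N)⁻¹}) (h28_base ℓ K) ⟶
      pullback (igusaTo N ℓ) (h28_base ℓ K) :=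
  pullback.map _ _ _ _ (ιInf N ℓ) (𝟙 _) (𝟙 _) (by simp) (by simp)

instance h28_jFin_isOpenImmersion : IsOpenImmersion (h28_jFin N ℓ K) := by
  unfold h28_jFin; infer_instance

instance h28_jInf_isOpenImmersion : IsOpenImmersion (h28_jInf N ℓ K) := by
  unfold h28_jInf; infer_instance

/-- The overlap chart of the base change, mapping to the finite chart. -/
noncomputable def h28_kFin :
    pullback (h28_str N ℓ {jFull N, (jFull N)⁻¹}) (h28_base ℓ K) ⟶
      pullback (h28_str N ℓ {jFull N}) (h28_base ℓ K) :=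
  pullback.map _ _ _ _ (fFin N ℓ) (𝟙 _) (𝟙 _) (by rw [h28_fFin_str]; simp) (by simp)

/-- The overlap chart of the base change, mapping to the infinite chart. -/
noncomputable def h28_kInf :
    pullback (h28_str N ℓ {jFull N, (jFull N)⁻¹}) (h28_base ℓ K) ⟶
      pullback (h28_str N ℓ {(jFull N)⁻¹}) (h28_base ℓ K) :=
  pullback.map _ _ _ _ (fInf N ℓ) (𝟙 _) (𝟙 _) (by rw [h28_fInf_str]; simp) (by simp)

theorem h28_kFin_jFin : h28_kFin N ℓ K ≫ h28_jFin N ℓ K = h28_kInf N ℓ K ≫ h28_jInf N ℓ K := by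
  apply pullback.hom_ext
  · simp only [h28_kFin, h28_jFin, h28_kInf, h28_jInf, pullback.map, Category.assoc,
      pullback.lift_fst, pullback.lift_fst_assoc, glue_condition]
  · simp only [h28_kFin, h28_jFin, h28_kInf, h28_jInf, pullback.map, Category.assoc,
      pullback.lift_snd, pullback.lift_snd_assoc]

/-- **Scheme wrapper for S28.**  If `A_fin ⊗ K` and `A_inf ⊗ K` are domains and
`A_mid ⊗ K` is nontrivial, the base change of the Igusa scheme to `K` is integral. -/
theorem h28_isIntegral_pullback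
    (hFin : IsDomain ((chartAlgFin N ℓ) ⊗[↥(GaloisRep.ratLocalizedAt ℓ)] K))
    (hInf : IsDomain ((chartAlgInf N ℓ) ⊗[↥(GaloisRep.ratLocalizedAt ℓ)] K))
    (hMid : Nontrivial ((chartAlgMid N ℓ) ⊗[↥(GaloisRep.ratLocalizedAt ℓ)] K)) :
    IsIntegral ↑(pullback (igusaTo N ℓ)
      (Spec.map (CommRingCat.ofHom (algebraMap ↥(GaloisRep.ratLocalizedAt ℓ) K)))) := by
  have i1 : IsIntegral (pullback (h28_str N ℓ {jFull N}) (h28_base ℓ K)) := by
    have : IsDomain ↑(CommRingCat.of ((chartAlgFin N ℓ) ⊗[↥(GaloisRep.ratLocalizedAt ℓ)] K)) :=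
      hFin
    exact IsIntegral.of_isIso
      (pullbackSpecIso ↥(GaloisRep.ratLocalizedAt ℓ) (chartAlgFin N ℓ) K).inv
  have i2 : IsIntegral (pullback (h28_str N ℓ {(jFull N)⁻¹}) (h28_base ℓ K)) := by
    have : IsDomain ↑(CommRingCat.of ((chartAlgInf N ℓ) ⊗[↥(GaloisRep.ratLocalizedAt ℓ)] K)) :=
      hInf
    exact IsIntegral.of_isIso
      (pullbackSpecIso ↥(GaloisRep.ratLocalizedAt ℓ) (chartAlgInf N ℓ) K).inv
  have i3 : Nonempty ↑(pullback (h28_str N ℓ {jFull N, (jFull N)⁻¹}) (h28_base ℓ K)) := by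
    have : Nontrivial ↑(CommRingCat.of
        ((chartAlgMid N ℓ) ⊗[↥(GaloisRep.ratLocalizedAt ℓ)] K)) := hMid
    have : Nonempty ↑(Spec (CommRingCat.of
        ((chartAlgMid N ℓ) ⊗[↥(GaloisRep.ratLocalizedAt ℓ)] K))) := inferInstance
    exact Nonempty.map
      (pullbackSpecIso ↥(GaloisRep.ratLocalizedAt ℓ) (chartAlgMid N ℓ) K).inv this
  refine h28_isIntegral_of_two_openImmersions (h28_jFin N ℓ K) (h28_jInf N ℓ K) ?_ ?_
  · intro x
    rcases mem_range_ιFin_or_mem_range_ιInf N ℓ (pullback.fst (igusaTo N ℓ) (h28_base ℓ K) x) with h | h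
    · left
      rw [h28_jFin, Scheme.Pullback.range_map]
      exact ⟨h, by simp⟩
    · right
      rw [h28_jInf, Scheme.Pullback.range_map]
      exact ⟨h, by simp⟩
  · obtain ⟨z⟩ := i3
    refine ⟨(h28_kFin N ℓ K ≫ h28_jFin N ℓ K) z, ⟨h28_kFin N ℓ K z, ?_⟩, ⟨h28_kInf N ℓ K z, ?_⟩⟩
    · simp
    · rw [h28_kFin_jFin]; simp

/-- `A_mid ⊗ K` is nontrivial as soon as `A_fin ⊗ K` is a domain in which `j ⊗ 1 ≠ 0`
(`A_mid` is the localisation of `A_fin` at `j`). -/
theorem h28_nontrivial_mid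
    (hFin : IsDomain ((chartAlgFin N ℓ) ⊗[↥(GaloisRep.ratLocalizedAt ℓ)] K))
    (hj : (jChartFin N ℓ) ⊗ₜ[↥(GaloisRep.ratLocalizedAt ℓ)] (1 : K) ≠ 0) :
    Nontrivial ((chartAlgMid N ℓ) ⊗[↥(GaloisRep.ratLocalizedAt ℓ)] K) :=
  h28_nontrivial_tensor_away (inclFin N ℓ) (jChartFin N ℓ) (isLocalization_away_inclFin N ℓ) hj

/-- Variant of the wrapper with the nontriviality of the overlap replaced by `j ⊗ 1 ≠ 0`. -/
theorem h28_isIntegral_pullback_of_j
    (hFin : IsDomain ((chartAlgFin N ℓ) ⊗[↥(GaloisRep.ratLocalizedAt ℓ)] K))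
    (hInf : IsDomain ((chartAlgInf N ℓ) ⊗[↥(GaloisRep.ratLocalizedAt ℓ)] K))
    (hj : (jChartFin N ℓ) ⊗ₜ[↥(GaloisRep.ratLocalizedAt ℓ)] (1 : K) ≠ 0) :
    IsIntegral ↑(pullback (igusaTo N ℓ)
      (Spec.map (CommRingCat.ofHom (algebraMap ↥(GaloisRep.ratLocalizedAt ℓ) K)))) :=
  h28_isIntegral_pullback N ℓ K hFin hInf (h28_nontrivial_mid N ℓ K hFin hj)

/-- Variant of the wrapper: it suffices to embed `A_fin ⊗ K` and `A_inf ⊗ K` into domains
and to map `A_mid ⊗ K` to a nontrivial ring. -/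
theorem h28_isIntegral_pullback_of_embeddings
    {D₁ D₂ D₃ : Type*} [CommRing D₁] [IsDomain D₁] [CommRing D₂] [IsDomain D₂]
    [Semiring D₃] [Nontrivial D₃]
    (φ₁ : ((chartAlgFin N ℓ) ⊗[↥(GaloisRep.ratLocalizedAt ℓ)] K) →+* D₁)
    (h₁ : Function.Injective φ₁)
    (φ₂ : ((chartAlgInf N ℓ) ⊗[↥(GaloisRep.ratLocalizedAt ℓ)] K) →+* D₂)
    (h₂ : Function.Injective φ₂)
    (φ₃ : ((chartAlgMid N ℓ) ⊗[↥(GaloisRep.ratLocalizedAt ℓ)] K) →+* D₃) :
    IsIntegral ↑(pullback (igusaTo N ℓ)
      (Spec.map (CommRingCat.ofHom (algebraMap ↥(GaloisRep.ratLocalizedAt ℓ) K)))) := by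
  exact h28_isIntegral_pullback N ℓ K (h₁.isDomain φ₁) (h₂.isDomain φ₂) φ₃.domain_nontrivial

/-- The wrapper with the tensor factors in the order `K ⊗ A`. -/
theorem h28_isIntegral_pullback_left
    (hFin : IsDomain (K ⊗[↥(GaloisRep.ratLocalizedAt ℓ)] (chartAlgFin N ℓ)))
    (hInf : IsDomain (K ⊗[↥(GaloisRep.ratLocalizedAt ℓ)] (chartAlgInf N ℓ)))
    (hMid : Nontrivial (K ⊗[↥(GaloisRep.ratLocalizedAt ℓ)] (chartAlgMid N ℓ))) :
    IsIntegral ↑(pullback (igusaTo N ℓ)
      (Spec.map (CommRingCat.ofHom (algebraMap ↥(GaloisRep.ratLocalizedAt ℓ) K)))) := by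
  refine h28_isIntegral_pullback N ℓ K ?_ ?_ ?_
  · exact (Algebra.TensorProduct.comm ↥(GaloisRep.ratLocalizedAt ℓ) (chartAlgFin N ℓ)
      K).toMulEquiv.isDomain _
  · exact (Algebra.TensorProduct.comm ↥(GaloisRep.ratLocalizedAt ℓ) (chartAlgInf N ℓ)
      K).toMulEquiv.isDomain _
  · exact (Algebra.TensorProduct.comm ↥(GaloisRep.ratLocalizedAt ℓ) (chartAlgMid N ℓ)
      K).toRingEquiv.toRingHom.domain_nontrivial

/-- The wrapper with the tensor factors in the order `K ⊗ A` and `1 ⊗ j ≠ 0`. -/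
theorem h28_isIntegral_pullback_left_of_j
    (hFin : IsDomain (K ⊗[↥(GaloisRep.ratLocalizedAt ℓ)] (chartAlgFin N ℓ)))
    (hInf : IsDomain (K ⊗[↥(GaloisRep.ratLocalizedAt ℓ)] (chartAlgInf N ℓ)))
    (hj : (1 : K) ⊗ₜ[↥(GaloisRep.ratLocalizedAt ℓ)] (jChartFin N ℓ) ≠ 0) :
    IsIntegral ↑(pullback (igusaTo N ℓ)
      (Spec.map (CommRingCat.ofHom (algebraMap ↥(GaloisRep.ratLocalizedAt ℓ) K)))) := by
  have hFin' : IsDomain ((chartAlgFin N ℓ) ⊗[↥(GaloisRep.ratLocalizedAt ℓ)] K) :=
    (Algebra.TensorProduct.comm ↥(GaloisRep.ratLocalizedAt ℓ) (chartAlgFin N ℓ)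
      K).toMulEquiv.isDomain _
  have hInf' : IsDomain ((chartAlgInf N ℓ) ⊗[↥(GaloisRep.ratLocalizedAt ℓ)] K) :=
    (Algebra.TensorProduct.comm ↥(GaloisRep.ratLocalizedAt ℓ) (chartAlgInf N ℓ)
      K).toMulEquiv.isDomain _
  refine h28_isIntegral_pullback_of_j N ℓ K hFin' hInf' ?_
  intro h0
  apply hj
  have := congrArg (Algebra.TensorProduct.comm ↥(GaloisRep.ratLocalizedAt ℓ)
    (chartAlgFin N ℓ) K) h0
  simpa using this

end wrapper

end Fermat.Agent.S28
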