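import Mathlib
import Fermat.Statements.S28
import Fermat.Agent.S28.ZlBasics
import Fermat.Agent.S28.CoeffMem
import Fermat.Agent.S28.h73_KerAbs
import Fermat.Agent.S28.h73_KerInst

/-!
# S28 (Igusa), block Q2 : the kernel of reduction on the finite chart

The good family `1, x_N, …, x_N^(R-1)` (`x_N = j(q^N)`), its independence modulo `ℓ`
from the Igusa core, the relation from the degree bound, and the resulting kernel statement.
-/

set_option autoImplicit false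
set_option linter.unusedSectionVars false

namespace Fermat.Agent.S28

open ModularCurve ModularCurve.IgusaScheme Polynomial

noncomputable section

/-! ### Reduction of constants, of `j` and of `j(q^N)` -/

section Red

variable (ℓ : ℕ) [Fact ℓ.Prime]

/-- Constants in `h57_B0 ℓ`. -/
def h73_constB0 : ↥(GaloisRep.ratLocalizedAt ℓ) →+* ↥(h57_B0 ℓ) :=
  ((algebraMap ℚ (LaurentSeries ℚ)).comp (GaloisRep.ratLocalizedAt ℓ).subtype).codRestrict
    (h57_B0 ℓ) (fun c => h57_algebraMap_mem ℓ c.2)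

theorem h73_constB0_coe (c : ↥(GaloisRep.ratLocalizedAt ℓ)) :
    ((h73_constB0 ℓ c : ↥(h57_B0 ℓ)) : LaurentSeries ℚ) = HahnSeries.single 0 (c : ℚ) := by
  show algebraMap ℚ (LaurentSeries ℚ) (c : ℚ) = _
  rw [algebraMap_apply_eq_single]

theorem h73_red_const (c : ↥(GaloisRep.ratLocalizedAt ℓ)) :
    h73_red ℓ (h73_constB0 ℓ c) =
      algebraMap (ZMod ℓ) (LaurentSeries (ZMod ℓ)) (ratLocalizedAtResidue ℓ c) := by
  rw [h73_algebraMap_eq_single]
  ext k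
  rw [h73_red_coeff]
  by_cases hk : k = 0
  · subst hk
    rw [HahnSeries.coeff_single_same]
    congr 1
    apply Subtype.ext
    show ((h73_constB0 ℓ c : ↥(h57_B0 ℓ)) : LaurentSeries ℚ).coeff 0 = (c : ℚ)
    rw [h73_constB0_coe, HahnSeries.coeff_single_same]
  · rw [HahnSeries.coeff_single_of_ne hk]
    have h0 : (⟨((h73_constB0 ℓ c : ↥(h57_B0 ℓ)) : LaurentSeries ℚ).coeff k,
        (h73_constB0 ℓ c).2 k⟩ : ↥(GaloisRep.ratLocalizedAt ℓ)) = 0 := by
      apply Subtype.ext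
      show ((h73_constB0 ℓ c : ↥(h57_B0 ℓ)) : LaurentSeries ℚ).coeff k = 0
      rw [h73_constB0_coe, HahnSeries.coeff_single_of_ne hk]
    rw [h0, map_zero]

/-- The reduction of `j` is `j`. -/
theorem h73_red_jq : h73_red ℓ ⟨jq, h57_jq_mem ℓ⟩ = jqModC (ZMod ℓ) := by
  ext k
  rw [h73_red_coeff, coeff_jqModC_eq_intCast (R := ZMod ℓ)]
  have h0 : (⟨((⟨jq, h57_jq_mem ℓ⟩ : ↥(h57_B0 ℓ)) : LaurentSeries ℚ).coeff k,
      (⟨jq, h57_jq_mem ℓ⟩ : ↥(h57_B0 ℓ)).2 k⟩ : ↥(GaloisRep.ratLocalizedAt ℓ)) =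
      (((jqModC ℤ).coeff k : ℤ) : ↥(GaloisRep.ratLocalizedAt ℓ)) := by
    apply Subtype.ext
    show jq.coeff k = _
    rw [← jqModC_rat, coeff_jqModC_eq_intCast (R := ℚ)]
    simp
  rw [h0, map_intCast]

/-- Reduction commutes with `q ↦ q^d`. -/
theorem h73_red_qExpand (d : ℕ) [NeZero d] (f : LaurentSeries ℚ) (hf : f ∈ h57_B0 ℓ) :
    h73_red ℓ ⟨qExpand ℚ d f, h57_qExpand_mem ℓ d hf⟩ =
      qExpand (ZMod ℓ) d (h73_red ℓ ⟨f, hf⟩) := by
  have h1 : h73_lift ℓ ⟨qExpand ℚ d f, h57_qExpand_mem ℓ d hf⟩ =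
      qExpand ↥(GaloisRep.ratLocalizedAt ℓ) d (h73_lift ℓ ⟨f, hf⟩) := by
    apply h73_coeffMap_subtype_injective
    rw [h73_coeffMap_lift, coeffMap_qExpand, h73_coeffMap_lift]
  show coeffMap (ratLocalizedAtResidue ℓ) (h73_lift ℓ ⟨qExpand ℚ d f, _⟩) = _
  rw [h1, coeffMap_qExpand]
  rfl

end Red

/-! ### The good family on the finite chart -/

section Fin

variable (N : ℕ) [NeZero N] (ℓ : ℕ) [Fact ℓ.Prime]

/-- `x_N = j(q^N)` as an element of the function field. -/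
def h73_xN : ↥(modularFunctionFieldFull N) := ⟨qExpand ℚ N jq, jqd_mem_full N dvd_rfl⟩

@[simp] theorem h73_xN_coe : ((h73_xN N : ↥(modularFunctionFieldFull N)) : LaurentSeries ℚ) =
    qExpand ℚ N jq := rfl

/-- `x_N` in `h57_B0 ℓ`. -/
def h73_xB : ↥(h57_B0 ℓ) := ⟨qExpand ℚ N jq, h57_qExpand_mem ℓ N (h57_jq_mem ℓ)⟩

/-- `P ↦ P(j)` from `ℤ_(ℓ)[X]` to `h57_B0 ℓ`. -/
def h73_polyB0 : Polynomial ↥(GaloisRep.ratLocalizedAt ℓ) →+* ↥(h57_B0 ℓ) :=
  eval₂RingHom (h73_constB0 ℓ) ⟨jq, h57_jq_mem ℓ⟩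

theorem h73_algebraMap_comp :
    (algebraMap ↥(modularFunctionFieldFull N) (LaurentSeries ℚ)).comp
      (algebraMap ↥(GaloisRep.ratLocalizedAt ℓ) ↥(modularFunctionFieldFull N)) =
    (algebraMap ℚ (LaurentSeries ℚ)).comp (GaloisRep.ratLocalizedAt ℓ).subtype := by
  have h1 : (algebraMap ↥(GaloisRep.ratLocalizedAt ℓ) ↥(modularFunctionFieldFull N)) =
      (algebraMap ℚ ↥(modularFunctionFieldFull N)).comp (GaloisRep.ratLocalizedAt ℓ).subtype :=
    rfl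
  rw [h1, ← RingHom.comp_assoc]
  congr 1
  exact Subsingleton.elim _ _

theorem h73_polyB0_coe (P : Polynomial ↥(GaloisRep.ratLocalizedAt ℓ)) :
    ((h73_polyB0 ℓ P : ↥(h57_B0 ℓ)) : LaurentSeries ℚ) =
      ((aeval (jFull N) P : ↥(modularFunctionFieldFull N)) : LaurentSeries ℚ) := by
  have h1 : ((h73_polyB0 ℓ P : ↥(h57_B0 ℓ)) : LaurentSeries ℚ) =
      eval₂ ((algebraMap ℚ (LaurentSeries ℚ)).comp (GaloisRep.ratLocalizedAt ℓ).subtype) jq P := by
    show (h57_B0 ℓ).subtype (eval₂ (h73_constB0 ℓ) ⟨jq, h57_jq_mem ℓ⟩ P) = _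
    rw [hom_eval₂]
    rfl
  have h2 : ((aeval (jFull N) P : ↥(modularFunctionFieldFull N)) : LaurentSeries ℚ) =
      eval₂ ((algebraMap ℚ (LaurentSeries ℚ)).comp (GaloisRep.ratLocalizedAt ℓ).subtype) jq P := by
    show algebraMap ↥(modularFunctionFieldFull N) (LaurentSeries ℚ) (aeval (jFull N) P) = _
    rw [aeval_def, hom_eval₂, h73_algebraMap_comp]
    rfl
  rw [h1, h2]

theorem h73_red_polyB0 (P : Polynomial ↥(GaloisRep.ratLocalizedAt ℓ)) :
    h73_red ℓ (h73_polyB0 ℓ P) =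
      aeval (jqModC (ZMod ℓ)) (P.map (ratLocalizedAtResidue ℓ)) := by
  show h73_red ℓ (eval₂ (h73_constB0 ℓ) ⟨jq, h57_jq_mem ℓ⟩ P) = _
  rw [hom_eval₂, h73_red_jq, aeval_def, eval₂_map]
  congr 1
  exact RingHom.ext fun c => h73_red_const ℓ c

theorem h73_red_xB : h73_red ℓ (h73_xB N ℓ) = qExpand (ZMod ℓ) N (jqModC (ZMod ℓ)) := by
  show h73_red ℓ ⟨qExpand ℚ N jq, h57_qExpand_mem ℓ N (h57_jq_mem ℓ)⟩ = _
  rw [h73_red_qExpand ℓ N jq (h57_jq_mem ℓ), h73_red_jq]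

/-- **Independence modulo `ℓ` of the powers of `x_N`**, from the Igusa core. -/
theorem h73_hind (R : ℕ)
    (hcore : ∀ H : Polynomial (Polynomial (ZMod ℓ)), H ≠ 0 → H.natDegree < R →
      (H.map (aeval (jqModC (ZMod ℓ))).toRingHom).eval
        (qExpand (ZMod ℓ) N (jqModC (ZMod ℓ))) ≠ 0)
    (a : Fin R → Polynomial ↥(GaloisRep.ratLocalizedAt ℓ))
    (h : ∀ k : ℤ, ∃ c ∈ GaloisRep.ratLocalizedAt ℓ,
      ((∑ i, aeval (jFull N) (a i) * h73_xN N ^ (i : ℕ) : ↥(modularFunctionFieldFull N)) :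
        LaurentSeries ℚ).coeff k = ℓ * c) :
    ∀ i, C ((ℓ : ℕ) : ↥(GaloisRep.ratLocalizedAt ℓ)) ∣ a i := by
  -- the element of `h57_B0 ℓ`
  have hw : ((∑ i, h73_polyB0 ℓ (a i) * h73_xB N ℓ ^ (i : ℕ) : ↥(h57_B0 ℓ)) : LaurentSeries ℚ) =
      ((∑ i, aeval (jFull N) (a i) * h73_xN N ^ (i : ℕ) : ↥(modularFunctionFieldFull N)) :
        LaurentSeries ℚ) := by
    rw [AddSubmonoidClass.coe_finsetSum, AddSubmonoidClass.coe_finsetSum]
    refine Finset.sum_congr rfl fun i _ => ?_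
    rw [MulMemClass.coe_mul, MulMemClass.coe_mul, SubmonoidClass.coe_pow, SubmonoidClass.coe_pow,
      h73_polyB0_coe N ℓ]
    rfl
  have hred : h73_red ℓ (∑ i, h73_polyB0 ℓ (a i) * h73_xB N ℓ ^ (i : ℕ)) = 0 := by
    rw [h73_red_eq_zero_iff]
    intro k
    rw [hw]
    exact h k
  -- the polynomial `H`
  set H : Polynomial (Polynomial (ZMod ℓ)) :=
    ∑ i : Fin R, C ((a i).map (ratLocalizedAtResidue ℓ)) * X ^ (i : ℕ) with hH
  have hcomp : (H.map (aeval (jqModC (ZMod ℓ))).toRingHom).eval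
      (qExpand (ZMod ℓ) N (jqModC (ZMod ℓ))) = 0 := by
    rw [← hred, map_sum, hH, Polynomial.map_sum, eval_finsetSum]
    refine Finset.sum_congr rfl fun i _ => ?_
    rw [Polynomial.map_mul, Polynomial.map_pow, map_C, map_X, eval_mul, eval_C, eval_pow, eval_X,
      map_mul, map_pow, h73_red_polyB0, h73_red_xB]
    rfl
  have hH0 : H = 0 := by
    by_contra hne
    refine hcore H hne ?_ hcomp
    rw [natDegree_lt_iff_degree_lt hne]
    exact degree_sum_fin_lt _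
  intro i
  have hi : (a i).map (ratLocalizedAtResidue ℓ) = 0 := by
    have h1 := congrArg (fun p => p.coeff (i : ℕ)) hH0
    simp only [hH, finsetSum_coeff, coeff_C_mul, coeff_X_pow, coeff_zero] at h1
    rw [Finset.sum_eq_single i] at h1
    · simpa using h1
    · intro j _ hji
      rw [if_neg (fun h' => hji (Fin.ext h'.symm)), mul_zero]
    · intro h'
      exact absurd (Finset.mem_univ i) h'
  rw [C_dvd_iff_dvd_coeff]
  intro m
  rw [← ratLocalizedAtResidue_eq_zero_iff, ← coeff_map, hi, coeff_zero]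

end Fin

end

end Fermat.Agent.S28
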