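import Mathlib

/-!
# S28 : the `gcd²` matrix on the divisors of `N` is nonsingular

`gcd(d, δ)² = ∑_{e ∣ d, e ∣ δ} J₂(e)` with `J₂ > 0` (Jordan's totient), hence the linear
system `∑_δ x(δ) gcd(d, δ)² = 0` (`d ∣ N`) has only the trivial solution.  The counting
consequence `h76_block_eq_univ` is the combinatorial end of the Igusa argument.
-/

set_option autoImplicit false

namespace Fermat.Agent.S28

open Finset

/-- Jordan's totient `J₂ = μ * n²`, as an integer valued arithmetic function. -/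
noncomputable def h76_J2 : ArithmeticFunction ℤ :=
  ArithmeticFunction.moebius *
    ((ArithmeticFunction.pow 2 : ArithmeticFunction ℕ) : ArithmeticFunction ℤ)

theorem h76_J2_mul_zeta :
    h76_J2 * (ArithmeticFunction.zeta : ArithmeticFunction ℤ) =
      ((ArithmeticFunction.pow 2 : ArithmeticFunction ℕ) : ArithmeticFunction ℤ) := by
  unfold h76_J2
  rw [mul_comm ArithmeticFunction.moebius, mul_assoc, ArithmeticFunction.moebius_mul_coe_zeta,
    mul_one]

theorem h76_sum_J2 (n : ℕ) (hn : n ≠ 0) : ∑ e ∈ n.divisors, h76_J2 e = (n : ℤ) ^ 2 := by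
  have h := congrArg (fun f : ArithmeticFunction ℤ => f n) h76_J2_mul_zeta
  simp only [ArithmeticFunction.coe_mul_zeta_apply] at h
  rw [h]
  simp [ArithmeticFunction.pow_apply, hn]

theorem h76_J2_isMultiplicative : ArithmeticFunction.IsMultiplicative h76_J2 := by
  unfold h76_J2
  exact ArithmeticFunction.isMultiplicative_moebius.mul
    (ArithmeticFunction.isMultiplicative_pow.natCast)

theorem h76_J2_prime_pow_pos (p k : ℕ) (hp : p.Prime) (hk : 0 < k) : 0 < h76_J2 (p ^ k) := by
  obtain ⟨m, rfl⟩ : ∃ m, k = m + 1 := ⟨k - 1, by omega⟩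
  have h1 := h76_sum_J2 (p ^ (m + 1)) (pow_ne_zero _ hp.ne_zero)
  have h0 := h76_sum_J2 (p ^ m) (pow_ne_zero _ hp.ne_zero)
  rw [Nat.divisors_prime_pow hp, Finset.sum_map] at h1 h0
  rw [Finset.sum_range_succ, h0] at h1
  simp only [Function.Embedding.coeFn_mk] at h1
  have hp1 : (1 : ℤ) < p := by exact_mod_cast hp.one_lt
  have hlt : ((p ^ m : ℕ) : ℤ) ^ 2 < ((p ^ (m + 1) : ℕ) : ℤ) ^ 2 := by
    push_cast
    have hpm : (0 : ℤ) < (p : ℤ) ^ m := by positivity
    have : (p : ℤ) ^ m < (p : ℤ) ^ (m + 1) := by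
      rw [pow_succ]; nlinarith
    nlinarith
  linarith

theorem h76_J2_pos (n : ℕ) (hn : n ≠ 0) : 0 < h76_J2 n := by
  rw [h76_J2_isMultiplicative.multiplicative_factorization h76_J2 hn]
  apply Finset.prod_pos
  intro p hp
  have hpp : p.Prime := Nat.prime_of_mem_primeFactors (by simpa using hp)
  have hk : 0 < n.factorization p := by
    rw [Finsupp.mem_support_iff] at hp
    omega
  exact h76_J2_prime_pow_pos p _ hpp hk

/-- `gcd(d, δ)² = ∑_{e ∣ d, e ∣ δ} J₂(e)`. -/
theorem h76_gcd_sq_eq_sum (N d δ : ℕ) (hd : d ∈ N.divisors) :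
    ((Nat.gcd d δ : ℕ) : ℤ) ^ 2 = ∑ e ∈ N.divisors, if e ∣ d ∧ e ∣ δ then h76_J2 e else 0 := by
  have hd0 : d ≠ 0 := (Nat.pos_of_mem_divisors hd).ne'
  have hg0 : Nat.gcd d δ ≠ 0 := fun h => hd0 (Nat.eq_zero_of_gcd_eq_zero_left h)
  rw [← h76_sum_J2 _ hg0, ← Finset.sum_filter]
  apply Finset.sum_congr _ (fun _ _ => rfl)
  ext e
  simp only [Nat.mem_divisors, Finset.mem_filter, Nat.dvd_gcd_iff]
  constructor
  · rintro ⟨⟨h1, h2⟩, _⟩
    exact ⟨⟨h1.trans (Nat.dvd_of_mem_divisors hd), (Nat.mem_divisors.mp hd).2⟩, h1, h2⟩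
  · rintro ⟨_, h1, h2⟩
    exact ⟨⟨h1, h2⟩, hg0⟩

/-- The `gcd²` matrix on the divisors of `N` is nonsingular (over `ℚ`). -/
theorem h76_gcd_sq_system_injective (N : ℕ) (x : ℕ → ℚ)
    (h : ∀ d ∈ N.divisors, ∑ δ ∈ N.divisors, x δ * ((Nat.gcd d δ : ℕ) : ℚ) ^ 2 = 0) :
    ∀ δ ∈ N.divisors, x δ = 0 := by
  -- `y e = ∑_{δ : e ∣ δ} x δ`
  set y : ℕ → ℚ := fun e => ∑ δ ∈ N.divisors, if e ∣ δ then x δ else 0 with hy
  -- the quadratic form
  have hq : ∑ e ∈ N.divisors, (h76_J2 e : ℚ) * y e ^ 2 = 0 := by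
    have h1 : ∑ d ∈ N.divisors, x d * ∑ δ ∈ N.divisors, x δ * ((Nat.gcd d δ : ℕ) : ℚ) ^ 2 = 0 :=
      Finset.sum_eq_zero fun d hd => by rw [h d hd, mul_zero]
    rw [← h1]
    have h2 : ∀ d ∈ N.divisors, ∀ δ ∈ N.divisors,
        ((Nat.gcd d δ : ℕ) : ℚ) ^ 2 =
          ∑ e ∈ N.divisors, if e ∣ d ∧ e ∣ δ then (h76_J2 e : ℚ) else 0 := by
      intro d hd δ _
      have := congrArg (Int.cast : ℤ → ℚ) (h76_gcd_sq_eq_sum N d δ hd)
      push_cast at this
      rw [this]
    calc ∑ e ∈ N.divisors, (h76_J2 e : ℚ) * y e ^ 2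
        = ∑ e ∈ N.divisors, ∑ d ∈ N.divisors, ∑ δ ∈ N.divisors,
            (if e ∣ d ∧ e ∣ δ then x d * x δ * (h76_J2 e : ℚ) else 0) := by
          apply Finset.sum_congr rfl
          intro e _
          rw [hy, pow_two]
          simp only
          rw [Finset.sum_mul_sum, Finset.mul_sum]
          apply Finset.sum_congr rfl
          intro d _
          rw [Finset.mul_sum]
          apply Finset.sum_congr rfl
          intro δ _
          by_cases h1 : e ∣ d <;> by_cases h2 : e ∣ δ <;> simp [h1, h2]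
          ring
      _ = ∑ d ∈ N.divisors, ∑ δ ∈ N.divisors, ∑ e ∈ N.divisors,
            (if e ∣ d ∧ e ∣ δ then x d * x δ * (h76_J2 e : ℚ) else 0) := by
          rw [Finset.sum_comm]
          apply Finset.sum_congr rfl
          intro d _
          rw [Finset.sum_comm]
      _ = ∑ d ∈ N.divisors, x d * ∑ δ ∈ N.divisors, x δ * ((Nat.gcd d δ : ℕ) : ℚ) ^ 2 := by
          apply Finset.sum_congr rfl
          intro d hd
          rw [Finset.mul_sum]
          apply Finset.sum_congr rfl
          intro δ hδ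
          rw [h2 d hd δ hδ, Finset.mul_sum, Finset.mul_sum]
          apply Finset.sum_congr rfl
          intro e _
          split_ifs <;> ring
  have hy0 : ∀ e ∈ N.divisors, y e = 0 := by
    intro e he
    have hnn : ∀ e ∈ N.divisors, 0 ≤ (h76_J2 e : ℚ) * y e ^ 2 := by
      intro e he
      have : (0 : ℚ) < (h76_J2 e : ℚ) := by
        exact_mod_cast h76_J2_pos e (Nat.pos_of_mem_divisors he).ne'
      positivity
    have := (Finset.sum_eq_zero_iff_of_nonneg hnn).mp hq e he
    have hpos : (0 : ℚ) < (h76_J2 e : ℚ) := by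
      exact_mod_cast h76_J2_pos e (Nat.pos_of_mem_divisors he).ne'
    rcases mul_eq_zero.mp this with h0 | h0
    · exact absurd h0 hpos.ne'
    · exact pow_eq_zero_iff (two_ne_zero) |>.mp h0
  -- downward induction: strong induction on `N / δ`
  by_cases hN : N = 0
  · subst hN; simp
  have key : ∀ k : ℕ, ∀ δ ∈ N.divisors, N / δ ≤ k → x δ = 0 := by
    intro k
    induction k with
    | zero =>
      intro δ hδ hk
      exfalso
      have hδN : δ ∣ N := Nat.dvd_of_mem_divisors hδ
      have : 0 < N / δ := Nat.div_pos (Nat.le_of_dvd (Nat.pos_of_ne_zero hN) hδN)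
        (Nat.pos_of_mem_divisors hδ)
      omega
    | succ k ih =>
      intro δ hδ hk
      have hδN : δ ∣ N := Nat.dvd_of_mem_divisors hδ
      have hδ0 : 0 < δ := Nat.pos_of_mem_divisors hδ
      have h1 := hy0 δ hδ
      rw [hy] at h1
      simp only at h1
      rw [Finset.sum_eq_single δ] at h1
      · simpa using h1
      · intro δ' hδ' hne
        split_ifs with hdvd
        · apply ih δ' hδ'
          have hδ'N : δ' ∣ N := Nat.dvd_of_mem_divisors hδ'
          have hδ'0 : 0 < δ' := Nat.pos_of_mem_divisors hδ'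
          have hlt : δ < δ' := lt_of_le_of_ne (Nat.le_of_dvd hδ'0 hdvd) (Ne.symm hne)
          have : N / δ' < N / δ := by
            obtain ⟨a, ha⟩ := hδN
            obtain ⟨b, hb⟩ := hδ'N
            have ha0 : 0 < a := Nat.pos_of_ne_zero (by rintro rfl; simp at ha; exact hN ha)
            have hb0 : 0 < b := Nat.pos_of_ne_zero (by rintro rfl; simp at hb; exact hN hb)
            rw [show N / δ' = b by rw [hb]; exact Nat.mul_div_cancel_left b hδ'0,
              show N / δ = a by rw [ha]; exact Nat.mul_div_cancel_left a hδ0]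
            by_contra hcon
            rw [not_lt] at hcon
            have : δ * a < δ' * b := by
              calc δ * a ≤ δ * b := Nat.mul_le_mul_left _ hcon
                _ < δ' * b := Nat.mul_lt_mul_of_pos_right hlt hb0
            omega
          omega
        · rfl
      · intro h; exact absurd hδ h
  intro δ hδ
  exact key (N / δ) δ hδ le_rfl

/-- Counting form: if the `gcd²`-weighted counts of a subset `S` and of the whole index set
both satisfy the "sum of orders is zero" relations for all `d ∣ N`, and the fibre of `a` over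
`N` is a single point lying in `S`, then `S` is everything. -/
theorem h76_block_eq_univ {ι : Type*} [Fintype ι] [DecidableEq ι] (N : ℕ) (a : ι → ℕ)
    (ha : ∀ r, a r ∣ N) (hN : N ≠ 0) (S : Finset ι) (r₀ : ι) (hr₀ : r₀ ∈ S)
    (hr₀N : a r₀ = N) (huniq : ∀ r, a r = N → r = r₀)
    (hS : ∀ d ∈ N.divisors, ∑ r ∈ S, (((Nat.gcd d (a r) : ℕ) : ℤ) ^ 2 - (d : ℤ)) = 0)
    (hU : ∀ d ∈ N.divisors, ∑ r : ι, (((Nat.gcd d (a r) : ℕ) : ℤ) ^ 2 - (d : ℤ)) = 0) :
    S = Finset.univ := by
  classical
  -- counts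
  set s : ℕ → ℚ := fun δ => ((S.filter fun r => a r = δ).card : ℚ) with hs
  set u : ℕ → ℚ := fun δ => (((Finset.univ : Finset ι).filter fun r => a r = δ).card : ℚ)
    with hu
  have hmem : ∀ r, a r ∈ N.divisors := fun r => Nat.mem_divisors.mpr ⟨ha r, hN⟩
  -- rewrite sums over a finset `T` as sums over divisors
  have hfib : ∀ (T : Finset ι) (d : ℕ),
      ∑ δ ∈ N.divisors, ((T.filter fun r => a r = δ).card : ℚ) * ((Nat.gcd d δ : ℕ) : ℚ) ^ 2 =
        ∑ r ∈ T, ((Nat.gcd d (a r) : ℕ) : ℚ) ^ 2 := by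
    intro T d
    rw [← Finset.sum_fiberwise_of_maps_to (g := a) (t := N.divisors) (fun r _ => hmem r)]
    apply Finset.sum_congr rfl
    intro δ _
    rw [Finset.card_eq_sum_ones, Nat.cast_sum, Finset.sum_mul]
    apply Finset.sum_congr rfl
    intro r hr
    rw [(Finset.mem_filter.mp hr).2]
    simp
  have hSq : ∀ d ∈ N.divisors,
      ∑ δ ∈ N.divisors, s δ * ((Nat.gcd d δ : ℕ) : ℚ) ^ 2 = (d : ℚ) * S.card := by
    intro d hd
    rw [hs]
    simp only
    rw [hfib S d]
    have := congrArg (Int.cast : ℤ → ℚ) (hS d hd)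
    push_cast at this
    rw [Finset.sum_sub_distrib] at this
    simp only [Finset.sum_const, nsmul_eq_mul] at this
    linarith
  have hUq : ∀ d ∈ N.divisors,
      ∑ δ ∈ N.divisors, u δ * ((Nat.gcd d δ : ℕ) : ℚ) ^ 2 =
        (d : ℚ) * (Finset.univ : Finset ι).card := by
    intro d hd
    rw [hu]
    simp only
    rw [hfib Finset.univ d]
    have := congrArg (Int.cast : ℤ → ℚ) (hU d hd)
    push_cast at this
    rw [Finset.sum_sub_distrib] at this
    simp only [Finset.sum_const, nsmul_eq_mul] at this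
    linarith
  -- the combination `|univ| s - |S| u` is killed by the matrix
  have hzero := h76_gcd_sq_system_injective N
    (fun δ => ((Finset.univ : Finset ι).card : ℚ) * s δ - (S.card : ℚ) * u δ) (by
      intro d hd
      simp only [sub_mul, Finset.sum_sub_distrib, mul_assoc]
      rw [← Finset.mul_sum, ← Finset.mul_sum, hSq d hd, hUq d hd]
      ring)
  have hNN := hzero N (Nat.mem_divisors.mpr ⟨dvd_rfl, hN⟩)
  have hsN : s N = 1 := by
    rw [hs]
    simp only
    have : (S.filter fun r => a r = N) = {r₀} := by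
      ext r
      simp only [Finset.mem_filter, Finset.mem_singleton]
      constructor
      · rintro ⟨_, h⟩; exact huniq r h
      · rintro rfl; exact ⟨hr₀, hr₀N⟩
    rw [this]; simp
  have huN : u N = 1 := by
    rw [hu]
    simp only
    have : ((Finset.univ : Finset ι).filter fun r => a r = N) = {r₀} := by
      ext r
      simp only [Finset.mem_filter, Finset.mem_singleton, Finset.mem_univ, true_and]
      constructor
      · intro h; exact huniq r h
      · rintro rfl; exact hr₀N
    rw [this]; simp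
  rw [hsN, huN, mul_one, mul_one, sub_eq_zero] at hNN
  have hcard : S.card = (Finset.univ : Finset ι).card := by exact_mod_cast hNN.symm
  exact Finset.eq_univ_of_card S (by rw [hcard, Finset.card_univ])

end Fermat.Agent.S28
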